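/-
S20 helper library (namespace `Fermat.Agent.S20x`), core definitions.

Plan (docs `S20_blueprint_helper83`): vector-valued modular forms `F : ℍ → X → ℂ` for the permutation
representation of `SL(2, ℤ)` on a finite transitive set `X` (later `X = SL(2, ℤ) ⧸ Γ₀(N)`), the free
module theorem over `ℂ[E₄, E₆]`, duality by inverse transpose, and the resulting dimension formula.
Everything is phrased with plain functions and predicates.
-/
import Mathlib
import Fermat.Prelude.Def_ModularCurve_GenusNumerics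

set_option autoImplicit false

namespace Fermat.Agent.S20x

open UpperHalfPlane ModularForm EisensteinSeries
open scoped MatrixGroups ModularForm Manifold

variable (X : Type) [MulAction SL(2, ℤ) X]

/-- `F : ℍ → X → ℂ` is a vector-valued modular form of weight `k` for the permutation
representation on `X`: holomorphic components, equivariant, components bounded at `i∞`. -/
structure IsVV (k : ℤ) (F : ℍ → X → ℂ) : Prop where
  holo : ∀ x, MDiff (fun z => F z x)
  equiv : ∀ (γ : SL(2, ℤ)) (z : ℍ) (x : X), F (γ • z) x = denom γ z ^ k * F z (γ⁻¹ • x)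
  bdd : ∀ x, IsBoundedAtImInfty (fun z => F z x)

/-- Cuspidal vector-valued forms: all components tend to `0` at `i∞`. -/
structure IsVVCusp (k : ℤ) (F : ℍ → X → ℂ) : Prop extends IsVV X k F where
  zero : ∀ x, IsZeroAtImInfty (fun z => F z x)

/-- `A : ℍ → ℂ` is (the function of) a level one modular form of weight `k`. -/
def IsL1 (k : ℤ) (A : ℍ → ℂ) : Prop := ∃ f : ModularForm 𝒮ℒ k, ⇑f = A

/-- `A : ℍ → ℂ` is (the function of) a level one cusp form of weight `k`. -/
def IsL1Cusp (k : ℤ) (A : ℍ → ℂ) : Prop := ∃ f : CuspForm 𝒮ℒ k, ⇑f = A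

variable {X} in
/-- The invariant bilinear pairing of two vector-valued functions. -/
def pair [Fintype X] (F H : ℍ → X → ℂ) : ℍ → ℂ := fun z => ∑ x, F z x * H z x

/-- The space of vector-valued modular forms of weight `k`. -/
def Mk (k : ℤ) : Submodule ℂ (ℍ → X → ℂ) where
  carrier := {F | IsVV X k F}
  zero_mem' := by
    refine ⟨fun x => ?_, fun γ z x => by simp, fun x => ?_⟩
    · exact mdifferentiable_const
    · exact (boundedAtImInftySubalgebra ℂ).zero_mem
  add_mem' := by
    rintro F H hF hH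
    refine ⟨fun x => (hF.holo x).add (hH.holo x), fun γ z x => ?_, fun x => ?_⟩
    · simp only [Pi.add_apply, hF.equiv, hH.equiv]; ring
    · exact (boundedAtImInftySubalgebra ℂ).add_mem (hF.bdd x) (hH.bdd x)
  smul_mem' := by
    rintro c F hF
    refine ⟨fun x => (hF.holo x).const_smul c, fun γ z x => ?_, fun x => ?_⟩
    · simp only [Pi.smul_apply, hF.equiv, smul_eq_mul]; ring
    · exact (boundedAtImInftySubalgebra ℂ).smul_mem (hF.bdd x) c

/-- The space of cuspidal vector-valued modular forms of weight `k`. -/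
def Sk (k : ℤ) : Submodule ℂ (ℍ → X → ℂ) where
  carrier := {F | IsVVCusp X k F}
  zero_mem' := by
    refine ⟨(Mk X k).zero_mem, fun x => ?_⟩
    exact (zeroAtImInftySubmodule ℂ).zero_mem
  add_mem' := by
    rintro F H hF hH
    refine ⟨(Mk X k).add_mem hF.toIsVV hH.toIsVV, fun x => ?_⟩
    exact (zeroAtImInftySubmodule ℂ).add_mem (hF.zero x) (hH.zero x)
  smul_mem' := by
    rintro c F hF
    refine ⟨(Mk X k).smul_mem c hF.toIsVV, fun x => ?_⟩
    exact (zeroAtImInftySubmodule ℂ).smul_mem c (hF.zero x)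

variable {X} in
theorem mem_Mk {k : ℤ} {F : ℍ → X → ℂ} : F ∈ Mk X k ↔ IsVV X k F := Iff.rfl

variable {X} in
theorem mem_Sk {k : ℤ} {F : ℍ → X → ℂ} : F ∈ Sk X k ↔ IsVVCusp X k F := Iff.rfl

/-- The matrices `S`, `T`, `U = S * T` of `SL(2, ℤ)`. -/
abbrev Smat : SL(2, ℤ) := ModularGroup.S
abbrev Tmat : SL(2, ℤ) := ModularGroup.T
abbrev Umat : SL(2, ℤ) := ModularGroup.S * ModularGroup.T

/-- Number of fixed points of `S` on `X`. -/
noncomputable def nu2 : ℕ := Nat.card {x : X // Smat • x = x}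

/-- Number of fixed points of `U = S T` on `X`. -/
noncomputable def nu3 : ℕ := Nat.card {x : X // Umat • x = x}

/-- Number of orbits of `T` on `X` (the "cusps"). -/
noncomputable def cuspsX : ℕ :=
  Nat.card (MulAction.orbitRel.Quotient (Subgroup.zpowers Tmat) X)

/-- The genus attached to the numerical invariants of `X`. -/
noncomputable def genusX : ℚ :=
  1 + (Nat.card X : ℚ) / 12 - (nu2 X : ℚ) / 4 - (nu3 X : ℚ) / 3 - (cuspsX X : ℚ) / 2

/-- The standing hypotheses on `X`: finite, transitive, `-1` acts trivially, and there is a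
vector-valued form with pairwise distinct components ("separating form"; for `Γ₀(N)` it comes from
`E₄(N z)`). -/
structure GoodX : Prop where
  nonempty : Nonempty X
  finite : Finite X
  trans : MulAction.IsPretransitive SL(2, ℤ) X
  neg_one : ∀ x : X, (-1 : SL(2, ℤ)) • x = x
  sep : ∃ (k : ℤ) (F : ℍ → X → ℂ), IsVV X k F ∧
    ∀ x y : X, x ≠ y → (fun z => F z x) ≠ (fun z => F z y)

section MoreDefs
open Filter Complex
open scoped Topology

local notation "Δ" => ModularForm.discriminant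

/-- the elliptic point `ρ = e^{2πi/3}`, fixed by `U = S T : z ↦ -1/(z+1)`. -/
noncomputable def rhoPt : ℍ := ⟨⟨-1 / 2, Real.sqrt 3 / 2⟩, by positivity⟩

/-- `P` (level one, weight `w`) generates the homogeneous ideal of `z₀`, has a simple zero there and
does not vanish at `i∞`. -/
structure IsPrimeAt (w : ℤ) (P : ℍ → ℂ) (z₀ : ℍ) : Prop where
  l1 : IsL1 w P
  zero : P z₀ = 0
  simple : deriv (P ∘ ofComplex) (z₀ : ℂ) ≠ 0
  infty : ∃ c : ℂ, c ≠ 0 ∧ Tendsto P atImInfty (𝓝 c)
  gen : ∀ (m : ℤ) (A : ℍ → ℂ), IsL1 m A → A z₀ = 0 → ∃ B, IsL1 (m - w) B ∧ ∀ z, A z = P z * B z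

/-- A free homogeneous basis of `M(X)` over `R` (index type possibly infinite a priori). -/
structure IsFreeBasis (X : Type) [MulAction SL(2, ℤ) X] (J : Type) (wt : J → ℤ)
    (B : J → ℍ → X → ℂ) : Prop where
  mem : ∀ j, IsVV X (wt j) (B j)
  gen : ∀ (k : ℤ) (F : ℍ → X → ℂ), IsVV X k F → ∃ A : J →₀ (ℍ → ℂ),
    (∀ j, IsL1 (k - wt j) (A j)) ∧ ∀ z x, F z x = A.sum (fun j a => a z * B j z x)
  indep : ∀ (k : ℤ) (A : J →₀ (ℍ → ℂ)), (∀ j, IsL1 (k - wt j) (A j)) →
    (∀ z x, A.sum (fun j a => a z * B j z x) = 0) → A = 0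

/-- The same with a finite index type and plain sums. -/
structure IsFinBasis (X : Type) [MulAction SL(2, ℤ) X] (J : Type) [Fintype J] (wt : J → ℤ)
    (B : J → ℍ → X → ℂ) : Prop where
  mem : ∀ j, IsVV X (wt j) (B j)
  gen : ∀ (k : ℤ) (F : ℍ → X → ℂ), IsVV X k F → ∃ A : J → ℍ → ℂ,
    (∀ j, IsL1 (k - wt j) (A j)) ∧ ∀ z x, F z x = ∑ j, A j z * B j z x
  indep : ∀ (k : ℤ) (A : J → ℍ → ℂ), (∀ j, IsL1 (k - wt j) (A j)) →
    (∀ z x, ∑ j, A j z * B j z x = 0) → ∀ j, A j = 0

variable {X} in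
/-- the twisted function `q^{-λ_x} (U F(z))_x`. -/
noncomputable def twist [Fintype X] (U : Matrix X X ℂ) (lam : X → ℝ) (F : ℍ → X → ℂ) :
    ℍ → X → ℂ :=
  fun z x => cexp (-2 * Real.pi * Complex.I * lam x * z) * (U.mulVec (F z)) x


end MoreDefs

end Fermat.Agent.S20x
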