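/-
S20 project, module M13 (part a): the bridge between scalar forms for a finite index subgroup
`Γ ≤ SL(2, ℤ)` and vector-valued forms for the permutation representation on `SL(2, ℤ) ⧸ Γ`.
`f ↦ F_f`, `F_f z (g Γ) = (f ∣[k] g⁻¹) z`.
-/
import Fermat.Agent.S20x.Defs

set_option autoImplicit false

namespace Fermat.Agent.S20x

open UpperHalfPlane ModularForm Matrix.SpecialLinearGroup OnePoint
open scoped MatrixGroups ModularForm Manifold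

variable (Γ : Subgroup SL(2, ℤ)) (k : ℤ)

/-- the vector valued function attached to a scalar function: component at `g Γ` is `f ∣[k] g⁻¹`
(computed on the chosen representative). -/
noncomputable def vvOf (f : ℍ → ℂ) : ℍ → SL(2, ℤ) ⧸ Γ → ℂ :=
  fun z x => (f ∣[k] (x.out)⁻¹) z

variable {Γ k}

theorem vvOf_mk {f : ℍ → ℂ} (hf : ∀ γ ∈ Γ, f ∣[k] γ = f) (g : SL(2, ℤ)) (z : ℍ) :
    vvOf Γ k f z (g : SL(2, ℤ) ⧸ Γ) = (f ∣[k] g⁻¹) z := by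
  obtain ⟨h, hh⟩ := QuotientGroup.mk_out_eq_mul Γ g
  unfold vvOf
  rw [hh, mul_inv_rev, SlashAction.slash_mul, hf _ (Γ.inv_mem h.2)]

theorem vvOf_add (f f' : ℍ → ℂ) : vvOf Γ k (f + f') = vvOf Γ k f + vvOf Γ k f' := by
  funext z x
  simp [vvOf, SlashAction.add_slash]

theorem vvOf_smul (c : ℂ) (f : ℍ → ℂ) : vvOf Γ k (c • f) = c • vvOf Γ k f := by
  funext z x
  simp [vvOf]

theorem smul_mk_quot (γ g : SL(2, ℤ)) :
    γ • (g : SL(2, ℤ) ⧸ Γ) = ((γ * g : SL(2, ℤ)) : SL(2, ℤ) ⧸ Γ) := rfl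

/-- the equivariance of `vvOf`. -/
theorem vvOf_equiv {f : ℍ → ℂ} (hf : ∀ γ ∈ Γ, f ∣[k] γ = f) (γ : SL(2, ℤ)) (z : ℍ)
    (x : SL(2, ℤ) ⧸ Γ) :
    vvOf Γ k f (γ • z) x = denom γ z ^ k * vvOf Γ k f z (γ⁻¹ • x) := by
  induction x using QuotientGroup.induction_on with
  | H g =>
    rw [smul_mk_quot, vvOf_mk hf, vvOf_mk hf, mul_inv_rev, inv_inv, SlashAction.slash_mul,
      SL_slash_apply (f ∣[k] g⁻¹) γ z, mul_comm, mul_assoc, ← zpow_add₀ (denom_ne_zero γ z)]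
    simp

theorem slash_mem_map_iff {f : ℍ → ℂ} :
    (∀ γ ∈ (Γ : Subgroup (GL (Fin 2) ℝ)), f ∣[k] γ = f) ↔ ∀ γ ∈ Γ, f ∣[k] γ = f := by
  constructor
  · intro h γ hγ
    exact h _ (Subgroup.mem_map_of_mem _ hγ)
  · rintro h _ ⟨γ, hγ, rfl⟩
    exact h γ hγ

theorem isCusp_mapGL_smul_infty [Γ.FiniteIndex] (g : SL(2, ℤ)) :
    IsCusp ((mapGL ℝ g : GL (Fin 2) ℝ) • (∞ : OnePoint ℝ)) (Γ : Subgroup (GL (Fin 2) ℝ)) :=
  (Subgroup.IsArithmetic.isCusp_iff_isCusp_SL2Z _).mpr (isCusp_SL2Z_iff'.mpr ⟨g, rfl⟩)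

/-- modular forms give vector valued forms. -/
theorem isVV_vvOf_modularForm [Γ.FiniteIndex] (f : ModularForm (Γ : Subgroup (GL (Fin 2) ℝ)) k) :
    IsVV (SL(2, ℤ) ⧸ Γ) k (vvOf Γ k ⇑f) := by
  have hf : ∀ γ ∈ Γ, (⇑f) ∣[k] γ = ⇑f := slash_mem_map_iff.mp (fun γ hγ => f.slash_action_eq' γ hγ)
  refine ⟨fun x => ?_, vvOf_equiv hf, fun x => ?_⟩
  · exact f.holo'.slash k _
  · induction x using QuotientGroup.induction_on with
    | H g =>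
      have : (fun z => vvOf Γ k ⇑f z (g : SL(2, ℤ) ⧸ Γ)) = (⇑f) ∣[k] g⁻¹ := by
        funext z; exact vvOf_mk hf g z
      rw [this]
      exact f.bdd_at_cusps' (isCusp_mapGL_smul_infty g⁻¹) _ rfl

/-- cusp forms give cuspidal vector valued forms. -/
theorem isVVCusp_vvOf_cuspForm [Γ.FiniteIndex] (f : CuspForm (Γ : Subgroup (GL (Fin 2) ℝ)) k) :
    IsVVCusp (SL(2, ℤ) ⧸ Γ) k (vvOf Γ k ⇑f) := by
  have hf : ∀ γ ∈ Γ, (⇑f) ∣[k] γ = ⇑f := slash_mem_map_iff.mp (fun γ hγ => f.slash_action_eq' γ hγ)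
  have hz : ∀ x : SL(2, ℤ) ⧸ Γ, IsZeroAtImInfty (fun z => vvOf Γ k ⇑f z x) := by
    intro x
    induction x using QuotientGroup.induction_on with
    | H g =>
      have : (fun z => vvOf Γ k ⇑f z (g : SL(2, ℤ) ⧸ Γ)) = (⇑f) ∣[k] g⁻¹ := by
        funext z; exact vvOf_mk hf g z
      rw [this]
      exact f.zero_at_cusps' (isCusp_mapGL_smul_infty g⁻¹) _ rfl
  refine ⟨⟨fun x => ?_, vvOf_equiv hf, fun x => ?_⟩, hz⟩
  · exact f.holo'.slash k _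
  · exact (hz x).isBoundedAtImInfty

/-- the component of a vector valued form at the identity coset is slash invariant under `Γ`. -/
theorem comp_one_slash {F : ℍ → SL(2, ℤ) ⧸ Γ → ℂ}
    (hF : ∀ (γ : SL(2, ℤ)) (z : ℍ) (x : SL(2, ℤ) ⧸ Γ), F (γ • z) x = denom γ z ^ k * F z (γ⁻¹ • x))
    (γ : SL(2, ℤ)) :
    (fun z => F z ((1 : SL(2, ℤ)) : SL(2, ℤ) ⧸ Γ)) ∣[k] γ
      = fun z => F z ((γ⁻¹ : SL(2, ℤ)) : SL(2, ℤ) ⧸ Γ) := by
  funext z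
  rw [SL_slash_apply, hF, smul_mk_quot, mul_one, mul_comm, ← mul_assoc,
    ← zpow_add₀ (denom_ne_zero γ z)]
  simp

theorem comp_one_slash_of_mem {F : ℍ → SL(2, ℤ) ⧸ Γ → ℂ}
    (hF : ∀ (γ : SL(2, ℤ)) (z : ℍ) (x : SL(2, ℤ) ⧸ Γ), F (γ • z) x = denom γ z ^ k * F z (γ⁻¹ • x))
    {γ : SL(2, ℤ)} (hγ : γ ∈ Γ) :
    (fun z => F z ((1 : SL(2, ℤ)) : SL(2, ℤ) ⧸ Γ)) ∣[k] γ
      = fun z => F z ((1 : SL(2, ℤ)) : SL(2, ℤ) ⧸ Γ) := by
  rw [comp_one_slash hF]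
  have : ((γ⁻¹ : SL(2, ℤ)) : SL(2, ℤ) ⧸ Γ) = ((1 : SL(2, ℤ)) : SL(2, ℤ) ⧸ Γ) := by
    rw [QuotientGroup.eq]
    simpa using hγ
  rw [this]

/-- the vector valued form is recovered from its identity component. -/
theorem vvOf_comp_one {F : ℍ → SL(2, ℤ) ⧸ Γ → ℂ}
    (hF : ∀ (γ : SL(2, ℤ)) (z : ℍ) (x : SL(2, ℤ) ⧸ Γ), F (γ • z) x = denom γ z ^ k * F z (γ⁻¹ • x)) :
    vvOf Γ k (fun z => F z ((1 : SL(2, ℤ)) : SL(2, ℤ) ⧸ Γ)) = F := by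
  funext z x
  induction x using QuotientGroup.induction_on with
  | H g =>
    rw [vvOf_mk (fun γ hγ => comp_one_slash_of_mem hF hγ), comp_one_slash hF, inv_inv]

/-- the scalar cusp form attached to a cuspidal vector valued form: its identity component. -/
noncomputable def cuspFormOfVV [Γ.FiniteIndex] {F : ℍ → SL(2, ℤ) ⧸ Γ → ℂ}
    (hF : IsVVCusp (SL(2, ℤ) ⧸ Γ) k F) : CuspForm (Γ : Subgroup (GL (Fin 2) ℝ)) k where
  toFun := fun z => F z ((1 : SL(2, ℤ)) : SL(2, ℤ) ⧸ Γ)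
  slash_action_eq' := slash_mem_map_iff.mpr (fun _ hγ => comp_one_slash_of_mem hF.equiv hγ)
  holo' := hF.holo _
  zero_at_cusps' := by
    intro c hc
    have hc' : IsCusp c 𝒮ℒ := (Subgroup.IsArithmetic.isCusp_iff_isCusp_SL2Z _).mp hc
    obtain ⟨g, rfl⟩ := isCusp_SL2Z_iff'.mp hc'
    rw [OnePoint.isZeroAt_iff_exists_SL2Z hc']
    refine ⟨g, rfl, ?_⟩
    rw [comp_one_slash hF.equiv]
    exact hF.zero _

/-- the scalar modular form attached to a vector valued form: its identity component. -/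
noncomputable def modularFormOfVV [Γ.FiniteIndex] {F : ℍ → SL(2, ℤ) ⧸ Γ → ℂ}
    (hF : IsVV (SL(2, ℤ) ⧸ Γ) k F) : ModularForm (Γ : Subgroup (GL (Fin 2) ℝ)) k where
  toFun := fun z => F z ((1 : SL(2, ℤ)) : SL(2, ℤ) ⧸ Γ)
  slash_action_eq' := slash_mem_map_iff.mpr (fun _ hγ => comp_one_slash_of_mem hF.equiv hγ)
  holo' := hF.holo _
  bdd_at_cusps' := by
    intro c hc
    have hc' : IsCusp c 𝒮ℒ := (Subgroup.IsArithmetic.isCusp_iff_isCusp_SL2Z _).mp hc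
    obtain ⟨g, rfl⟩ := isCusp_SL2Z_iff'.mp hc'
    rw [OnePoint.isBoundedAt_iff_exists_SL2Z hc']
    refine ⟨g, rfl, ?_⟩
    rw [comp_one_slash hF.equiv]
    exact hF.bdd _

variable (Γ k)

/-- **Bridge**, cusp forms: `S_k(Γ) ≃ S_k(SL(2, ℤ) ⧸ Γ)`. -/
noncomputable def bridgeCusp [Γ.FiniteIndex] :
    CuspForm (Γ : Subgroup (GL (Fin 2) ℝ)) k ≃ₗ[ℂ] Sk (SL(2, ℤ) ⧸ Γ) k where
  toFun f := ⟨vvOf Γ k ⇑f, isVVCusp_vvOf_cuspForm f⟩
  map_add' f f' := by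
    apply Subtype.ext
    exact vvOf_add _ _
  map_smul' c f := by
    apply Subtype.ext
    exact vvOf_smul c _
  invFun F := cuspFormOfVV F.2
  left_inv f := by
    ext z
    have hf : ∀ γ ∈ Γ, (⇑f) ∣[k] γ = ⇑f :=
      slash_mem_map_iff.mp (fun γ hγ => f.slash_action_eq' γ hγ)
    show vvOf Γ k ⇑f z ((1 : SL(2, ℤ)) : SL(2, ℤ) ⧸ Γ) = f z
    rw [vvOf_mk hf, inv_one, SlashAction.slash_one]
  right_inv F := by
    apply Subtype.ext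
    exact vvOf_comp_one F.2.equiv

/-- **Bridge**, modular forms: `M_k(Γ) ≃ M_k(SL(2, ℤ) ⧸ Γ)`. -/
noncomputable def bridgeMod [Γ.FiniteIndex] :
    ModularForm (Γ : Subgroup (GL (Fin 2) ℝ)) k ≃ₗ[ℂ] Mk (SL(2, ℤ) ⧸ Γ) k where
  toFun f := ⟨vvOf Γ k ⇑f, isVV_vvOf_modularForm f⟩
  map_add' f f' := by
    apply Subtype.ext
    exact vvOf_add _ _
  map_smul' c f := by
    apply Subtype.ext
    exact vvOf_smul c _
  invFun F := modularFormOfVV F.2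
  left_inv f := by
    ext z
    have hf : ∀ γ ∈ Γ, (⇑f) ∣[k] γ = ⇑f :=
      slash_mem_map_iff.mp (fun γ hγ => f.slash_action_eq' γ hγ)
    show vvOf Γ k ⇑f z ((1 : SL(2, ℤ)) : SL(2, ℤ) ⧸ Γ) = f z
    rw [vvOf_mk hf, inv_one, SlashAction.slash_one]
  right_inv F := by
    apply Subtype.ext
    exact vvOf_comp_one F.2.equiv

open CongruenceSubgroup in
theorem bridge (N : ℕ) [NeZero N] (k : ℤ) :
    Nonempty (CuspForm (Gamma0 N) k ≃ₗ[ℂ] Sk (SL(2, ℤ) ⧸ Gamma0 N) k) :=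
  ⟨bridgeCusp (Gamma0 N) k⟩

open CongruenceSubgroup in
theorem bridge_mod (N : ℕ) [NeZero N] (k : ℤ) :
    Nonempty (ModularForm (Gamma0 N) k ≃ₗ[ℂ] Mk (SL(2, ℤ) ⧸ Gamma0 N) k) :=
  ⟨bridgeMod (Gamma0 N) k⟩

end Fermat.Agent.S20x
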