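/-
S20 project, module M13 (part b): `X = SL(2, ℤ) ⧸ Γ₀(N)` satisfies the standing hypotheses `GoodX`.
The separating form has components `E₄ ∣[4] (diag(N, 1) * g⁻¹)`; they are pairwise distinct by the
Hermite normal form and the limits at `i∞`.
-/
import Fermat.Agent.S20x.BridgeIso
import Fermat.Agent.S22x.Hermite
import Fermat.Agent.S22x.CuspFn

set_option autoImplicit false

namespace Fermat.Agent.S20x

open UpperHalfPlane ModularForm EisensteinSeries Matrix.SpecialLinearGroup OnePoint Filter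
open CongruenceSubgroup
open scoped MatrixGroups ModularForm Manifold Topology

open Fermat.Agent.S22x (M2pos mapGL_mem_M2pos mapGL_val_apply mapGL_val_det exists_SL2Z_mul_upper
  smul_infty_mem_range_of_mem_M2pos)

theorem br_tendsto_levelOne {k : ℤ} (f : ModularForm 𝒮ℒ k) :
    Tendsto (⇑f) atImInfty (𝓝 ((qExpansion 1 f).coeff 0)) := by
  have hanal := ModularFormClass.analyticAt_cuspFunction_zero f one_pos one_mem_strictPeriods_SL
  have hper := SlashInvariantFormClass.periodic_comp_ofComplex f one_mem_strictPeriods_SL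
  rw [qExpansion_coeff_zero one_pos hanal hper, ← cuspFunction_apply_zero one_pos hanal hper]
  exact (hanal.continuousAt.tendsto.comp (qParam_tendsto_atImInfty one_pos)).congr
    (fun τ ↦ SlashInvariantFormClass.eq_cuspFunction f τ one_mem_strictPeriods_SL one_ne_zero)

theorem br_tendsto_E4 : Tendsto (⇑E₄) atImInfty (𝓝 1) := by
  have := br_tendsto_levelOne E₄
  rwa [E_qExpansion_coeff_zero _ ⟨2, rfl⟩] at this

theorem br_slash_SL (k : ℤ) (f : ℍ → ℂ) (γ : SL(2, ℤ)) :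
    f ∣[k] γ = f ∣[k] (mapGL ℝ γ : GL (Fin 2) ℝ) := rfl

/-- the limit at `i∞` of `E₄ ∣[4] u` for an upper triangular `u` of positive determinant. -/
theorem br_tendsto_E4_slash_upper {u : GL (Fin 2) ℝ} (hdet : 0 < u.val.det) (h10 : u 1 0 = 0) :
    Tendsto ((⇑E₄) ∣[(4 : ℤ)] u) atImInfty
      (𝓝 (((u.val.det : ℝ) : ℂ) ^ 3 * ((u 1 1 : ℝ) : ℂ) ^ (-4 : ℤ))) := by
  have h1 : Tendsto (fun z : ℍ => E₄ (u • z)) atImInfty (𝓝 1) :=
    br_tendsto_E4.comp (tendsto_smul_atImInfty h10)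
  have h2 : ((⇑E₄) ∣[(4 : ℤ)] u) = fun z : ℍ =>
      E₄ (u • z) * (((u.val.det : ℝ) : ℂ) ^ 3 * ((u 1 1 : ℝ) : ℂ) ^ (-4 : ℤ)) := by
    funext z
    have hdet' : 0 < u.det.val := by
      simpa [Matrix.GeneralLinearGroup.val_det_apply] using hdet
    rw [ModularForm.slash_apply]
    simp only [σ, hdet', if_true, denom, h10]
    simp [abs_of_pos hdet, Matrix.GeneralLinearGroup.val_det_apply, mul_assoc]
  rw [h2]
  simpa using h1.mul_const ((((u.val.det : ℝ) : ℂ)) ^ 3 * ((u 1 1 : ℝ) : ℂ) ^ (-4 : ℤ))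

/-- `diag(N, 1)`. -/
noncomputable def brAlphaN (N : ℕ) [NeZero N] : GL (Fin 2) ℝ :=
  Matrix.GeneralLinearGroup.mkOfDetNeZero !![(N : ℝ), 0; 0, 1] (by
    rw [Matrix.det_fin_two_of]
    simpa using NeZero.ne N)

theorem brAlphaN_val (N : ℕ) [NeZero N] : (brAlphaN N).val = !![(N : ℝ), 0; 0, 1] := rfl

theorem brAlphaN_det (N : ℕ) [NeZero N] : (brAlphaN N).val.det = N := by
  rw [brAlphaN_val, Matrix.det_fin_two_of]; simp

theorem brAlphaN_mem_M2pos (N : ℕ) [NeZero N] : brAlphaN N ∈ M2pos := by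
  refine ⟨?_, fun i j => ?_⟩
  · rw [brAlphaN_det]
    exact_mod_cast Nat.pos_of_ne_zero (NeZero.ne N)
  · rw [brAlphaN_val]
    fin_cases i <;> fin_cases j
    · exact ⟨N, by simp⟩
    · exact ⟨0, by simp⟩
    · exact ⟨0, by simp⟩
    · exact ⟨1, by simp⟩

/-- the function `E₄ ∣[4] diag(N, 1) = N³ E₄(N z)`. -/
noncomputable def e4N (N : ℕ) [NeZero N] : ℍ → ℂ := (⇑E₄) ∣[(4 : ℤ)] (brAlphaN N)

theorem br_E4_slash_SL (γ : SL(2, ℤ)) : (⇑E₄) ∣[(4 : ℤ)] (mapGL ℝ γ : GL (Fin 2) ℝ) = ⇑E₄ :=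
  SlashInvariantFormClass.slash_action_eq E₄ _ ⟨γ, rfl⟩

/-- conjugating `Γ₀(N)` by `diag(N, 1)` lands in `SL(2, ℤ)`. -/
theorem brAlphaN_mul_mapGL_of_mem (N : ℕ) [NeZero N] {γ : SL(2, ℤ)} (hγ : γ ∈ Gamma0 N) :
    ∃ γ' : SL(2, ℤ), brAlphaN N * (mapGL ℝ γ : GL (Fin 2) ℝ) = (mapGL ℝ γ' : GL (Fin 2) ℝ) * brAlphaN N := by
  rw [Gamma0_mem, ZMod.intCast_zmod_eq_zero_iff_dvd] at hγ
  obtain ⟨c', hc'⟩ := hγ
  have h2 : (γ.1 1 0 : ℤ) = N * c' := hc'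
  have hdet := γ.2
  rw [Matrix.det_fin_two, h2] at hdet
  have hdet' : (!![γ.1 0 0, N * γ.1 0 1; c', γ.1 1 1] : Matrix (Fin 2) (Fin 2) ℤ).det = 1 := by
    rw [Matrix.det_fin_two_of]
    linarith
  obtain ⟨γ', h00, h01, h10, h11⟩ : ∃ γ' : SL(2, ℤ), γ'.1 0 0 = γ.1 0 0 ∧ γ'.1 0 1 = N * γ.1 0 1 ∧
      γ'.1 1 0 = c' ∧ γ'.1 1 1 = γ.1 1 1 :=
    ⟨⟨!![γ.1 0 0, N * γ.1 0 1; c', γ.1 1 1], hdet'⟩, rfl, rfl, rfl, rfl⟩
  refine ⟨γ', ?_⟩
  have h3 : ((γ.1 1 0 : ℤ) : ℝ) = N * c' := by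
    rw [h2]; push_cast; ring
  apply Units.ext
  ext i j
  simp only [Units.val_mul, Matrix.mul_apply, Fin.sum_univ_two, mapGL_val_apply, brAlphaN_val]
  fin_cases i <;> fin_cases j <;> simp [h00, h01, h10, h11, h3, mul_comm]

theorem e4N_slash_of_mem (N : ℕ) [NeZero N] {γ : SL(2, ℤ)} (hγ : γ ∈ Gamma0 N) :
    (e4N N) ∣[(4 : ℤ)] γ = e4N N := by
  obtain ⟨γ', h⟩ := brAlphaN_mul_mapGL_of_mem N hγ
  rw [br_slash_SL, e4N, ← SlashAction.slash_mul, h, SlashAction.slash_mul, br_E4_slash_SL]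

/-- stabiliser of `e4N` is exactly `Γ₀(N)`. -/
theorem mem_Gamma0_of_e4N_slash (N : ℕ) [NeZero N] {γ : SL(2, ℤ)}
    (h : (e4N N) ∣[(4 : ℤ)] γ = e4N N) : γ ∈ Gamma0 N := by
  have hNpos : (0 : ℝ) < N := by exact_mod_cast Nat.pos_of_ne_zero (NeZero.ne N)
  have hmem : brAlphaN N * (mapGL ℝ γ : GL (Fin 2) ℝ) ∈ M2pos :=
    M2pos.mul_mem (brAlphaN_mem_M2pos N) (mapGL_mem_M2pos γ)
  obtain ⟨γ', b, hb, hb10, hfac⟩ := exists_SL2Z_mul_upper hmem
  -- `E₄ ∣ b = E₄ ∣ α`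
  have hEb : (⇑E₄) ∣[(4 : ℤ)] b = (⇑E₄) ∣[(4 : ℤ)] (brAlphaN N) := by
    have := h
    rw [br_slash_SL, e4N, ← SlashAction.slash_mul, hfac, SlashAction.slash_mul, br_E4_slash_SL] at this
    exact this
  -- determinant of `b`
  have hdetb : b.val.det = N := by
    have h1 : (brAlphaN N * (mapGL ℝ γ : GL (Fin 2) ℝ)).val.det = N := by
      rw [Units.val_mul, Matrix.det_mul, brAlphaN_det, mapGL_val_det, mul_one]
    rw [hfac, Units.val_mul, Matrix.det_mul, mapGL_val_det, one_mul] at h1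
    exact h1
  -- compare limits
  have hlim1 := br_tendsto_E4_slash_upper (u := b) (by rw [hdetb]; exact hNpos) hb10
  have hlim2 := br_tendsto_E4_slash_upper (u := brAlphaN N) (by rw [brAlphaN_det]; exact hNpos)
    (by simp [brAlphaN])
  rw [hEb] at hlim1
  have heq := tendsto_nhds_unique hlim1 hlim2
  rw [hdetb, brAlphaN_det] at heq
  have h11 : (brAlphaN N) 1 1 = 1 := by simp [brAlphaN]
  rw [h11] at heq
  have hN3 : (((N : ℝ) : ℂ)) ^ 3 ≠ 0 := by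
    apply pow_ne_zero
    exact_mod_cast hNpos.ne'
  have hb4 : ((b 1 1 : ℝ) : ℂ) ^ (-4 : ℤ) = 1 := by
    have := mul_left_cancel₀ hN3 heq
    simpa using this
  have hb4' : (b 1 1 : ℝ) ^ 4 = 1 := by
    have h5 : ((b 1 1 : ℝ) : ℂ) ^ (4 : ℕ) = 1 := by
      have := congrArg (fun w : ℂ => w⁻¹) hb4
      simpa [zpow_neg] using this
    exact_mod_cast h5
  have hb2 : (b 1 1 : ℝ) ^ 2 = 1 := by
    have : ((b 1 1 : ℝ) ^ 2 - 1) * ((b 1 1 : ℝ) ^ 2 + 1) = 0 := by ring_nf; linarith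
    rcases mul_eq_zero.mp this with h0 | h0
    · linarith
    · nlinarith [sq_nonneg (b 1 1 : ℝ)]
  -- `b 0 0 = N * b 1 1`
  have hdet2 : (b 0 0 : ℝ) * b 1 1 = N := by
    have := hdetb
    rw [Matrix.det_fin_two] at this
    have h10' : b.val 1 0 = 0 := hb10
    rw [h10'] at this
    simpa using this
  have hb00 : (b 0 0 : ℝ) = N * b 1 1 := by
    have : (b 0 0 : ℝ) * (b 1 1) ^ 2 = N * b 1 1 := by rw [← hdet2]; ring
    rw [hb2, mul_one] at this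
    exact this
  -- the lower left entry
  obtain ⟨m11, hm11⟩ := hb.2 1 1
  have hentry : ((γ.1 1 0 : ℤ) : ℝ) = ((γ'.1 1 0 : ℤ) : ℝ) * (N * m11) := by
    have h1 := congrArg (fun g : GL (Fin 2) ℝ => g.val 1 0) hfac
    simp only [Units.val_mul, Matrix.mul_apply, Fin.sum_univ_two, mapGL_val_apply] at h1
    have h10' : b.val 1 0 = 0 := hb10
    have h00' : b.val 0 0 = N * b.val 1 1 := hb00
    rw [h10', h00', hm11, brAlphaN_val] at h1
    simpa using h1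
  rw [Gamma0_mem, ZMod.intCast_zmod_eq_zero_iff_dvd]
  refine ⟨γ'.1 1 0 * m11, ?_⟩
  have : ((γ.1 1 0 : ℤ) : ℝ) = (((N : ℤ) * (γ'.1 1 0 * m11) : ℤ) : ℝ) := by
    rw [hentry]; push_cast; ring
  exact_mod_cast this

theorem isVV_vvOf_e4N (N : ℕ) [NeZero N] :
    IsVV (SL(2, ℤ) ⧸ Gamma0 N) 4 (vvOf (Gamma0 N) 4 (e4N N)) := by
  have hf : ∀ γ ∈ Gamma0 N, (e4N N) ∣[(4 : ℤ)] γ = e4N N := fun γ hγ => e4N_slash_of_mem N hγ
  refine ⟨fun x => ?_, vvOf_equiv hf, fun x => ?_⟩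
  · exact ((E₄.holo'.slash 4 (brAlphaN N)).slash 4 _)
  · induction x using QuotientGroup.induction_on with
    | H g =>
      have : (fun z => vvOf (Gamma0 N) 4 (e4N N) z (g : SL(2, ℤ) ⧸ Gamma0 N))
          = (⇑E₄) ∣[(4 : ℤ)] (brAlphaN N * (mapGL ℝ g⁻¹ : GL (Fin 2) ℝ)) := by
        funext z
        rw [vvOf_mk hf g z, br_slash_SL, e4N, ← SlashAction.slash_mul]
      rw [this]
      have hmem : brAlphaN N * (mapGL ℝ g⁻¹ : GL (Fin 2) ℝ) ∈ M2pos :=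
        M2pos.mul_mem (brAlphaN_mem_M2pos N) (mapGL_mem_M2pos g⁻¹)
      have hc : IsCusp ((brAlphaN N * (mapGL ℝ g⁻¹ : GL (Fin 2) ℝ)) • (∞ : OnePoint ℝ)) 𝒮ℒ :=
        isCusp_SL2Z_iff.mpr (smul_infty_mem_range_of_mem_M2pos hmem)
      exact E₄.bdd_at_cusps' hc _ rfl

theorem vvOf_e4N_sep (N : ℕ) [NeZero N] (x y : SL(2, ℤ) ⧸ Gamma0 N) (hxy : x ≠ y) :
    (fun z => vvOf (Gamma0 N) 4 (e4N N) z x) ≠ (fun z => vvOf (Gamma0 N) 4 (e4N N) z y) := by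
  have hf : ∀ γ ∈ Gamma0 N, (e4N N) ∣[(4 : ℤ)] γ = e4N N := fun γ hγ => e4N_slash_of_mem N hγ
  induction x using QuotientGroup.induction_on with
  | H g₁ =>
  induction y using QuotientGroup.induction_on with
  | H g₂ =>
    intro heq
    apply hxy
    rw [QuotientGroup.eq]
    apply mem_Gamma0_of_e4N_slash N
    have h1 : (e4N N) ∣[(4 : ℤ)] g₁⁻¹ = (e4N N) ∣[(4 : ℤ)] g₂⁻¹ := by
      funext z
      have := congrFun heq z
      simpa only [vvOf_mk hf] using this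
    rw [SlashAction.slash_mul, h1, ← SlashAction.slash_mul, inv_mul_cancel, SlashAction.slash_one]

/-- **M13**: `SL(2, ℤ) ⧸ Γ₀(N)` satisfies the standing hypotheses. -/
theorem goodX_Gamma0 (N : ℕ) [NeZero N] : GoodX (SL(2, ℤ) ⧸ Gamma0 N) where
  nonempty := ⟨((1 : SL(2, ℤ)) : SL(2, ℤ) ⧸ Gamma0 N)⟩
  finite := Subgroup.finite_quotient_of_finiteIndex
  trans := MulAction.isPretransitive_quotient _ _
  neg_one := by
    intro x
    induction x using QuotientGroup.induction_on with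
    | H g =>
      rw [smul_mk_quot, QuotientGroup.eq, Gamma0_mem]
      simp
  sep := ⟨4, vvOf (Gamma0 N) 4 (e4N N), isVV_vvOf_e4N N, vvOf_e4N_sep N⟩

end Fermat.Agent.S20x
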