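import Fermat.Agent.S20x.Defs

/-!
# S20 project, module M17: the number of `T`-orbits on `SL(2,ℤ) ⧸ Γ₀(N)`

`cuspsX (SL(2, ℤ) ⧸ Gamma0 N) = ModularCurve.cuspCount N = ∑_{d ∣ N} φ(gcd(d, N/d))`.

The coset of `g` is determined by the first column `(a, c)` of `g` up to `a c' ≡ c a' (mod N)`;
`T` acts by `(a, c) ↦ (a + c, c)`.  Complete invariants of the `T`-orbit: `d = gcd(c, N)` and
the class of `a (c/d)⁻¹` modulo `gcd(d, N/d)`.
-/

set_option autoImplicit false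

namespace Fermat.Agent.S20x
namespace Cusps

open CongruenceSubgroup
open scoped MatrixGroups

theorem inv_apply_10 (A : SL(2, ℤ)) : (A⁻¹) 1 0 = -A 1 0 := by
  rw [Matrix.SpecialLinearGroup.SL2_inv_expl]; rfl

theorem inv_apply_11 (A : SL(2, ℤ)) : (A⁻¹) 1 1 = A 0 0 := by
  rw [Matrix.SpecialLinearGroup.SL2_inv_expl]; rfl

theorem Tpow_mul_apply_00 (g : SL(2, ℤ)) (k : ℤ) :
    (ModularGroup.T ^ k * g) 0 0 = g 0 0 + k * g 1 0 := by
  rw [Matrix.SpecialLinearGroup.coe_mul, ModularGroup.coe_T_zpow]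
  simp [Matrix.mul_apply, Fin.sum_univ_two]

theorem Tpow_mul_apply_10 (g : SL(2, ℤ)) (k : ℤ) :
    (ModularGroup.T ^ k * g) 1 0 = g 1 0 := by
  rw [Matrix.SpecialLinearGroup.coe_mul, ModularGroup.coe_T_zpow]
  simp [Matrix.mul_apply, Fin.sum_univ_two]

/-- the coset of `T^k g'` equals the coset of `g` iff a congruence on the first columns holds -/
theorem coset_T_eq_iff (N : ℕ) (g g' : SL(2, ℤ)) (k : ℤ) :
    ((ModularGroup.T ^ k * g' : SL(2, ℤ)) : SL(2, ℤ) ⧸ Gamma0 N) = (g : SL(2, ℤ) ⧸ Gamma0 N) ↔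
      (N : ℤ) ∣ (g' 0 0 + k * g' 1 0) * g 1 0 - g' 1 0 * g 0 0 := by
  rw [QuotientGroup.eq, Gamma0_mem, ZMod.intCast_zmod_eq_zero_iff_dvd]
  have h : ((ModularGroup.T ^ k * g')⁻¹ * g) 1 0 =
      (g' 0 0 + k * g' 1 0) * g 1 0 - g' 1 0 * g 0 0 := by
    rw [Matrix.SpecialLinearGroup.coe_mul, Matrix.mul_apply, Fin.sum_univ_two, inv_apply_10,
      inv_apply_11, Tpow_mul_apply_00, Tpow_mul_apply_10]
    ring
  rw [h]


/-- first column of an element of `SL(2,ℤ)` is coprime -/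
theorem isCoprime_col (g : SL(2, ℤ)) : IsCoprime (g 0 0) (g 1 0) := by
  have h := g.det_coe
  rw [Matrix.det_fin_two] at h
  exact ⟨g 1 1, -(g 0 1), by linear_combination h⟩

/-- existence of a matrix with prescribed first column data -/
theorem exists_rep (d e : ℕ) (hd : d ≠ 0) (hed : e ∣ d) (u : (ZMod e)ˣ) :
    ∃ g : SL(2, ℤ), g 1 0 = (d : ℤ) ∧ ((g 0 0 : ℤ) : ZMod e) = (u : ZMod e) := by
  have : NeZero d := ⟨hd⟩
  obtain ⟨w, hw⟩ := ZMod.unitsMap_surjective hed u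
  have hcop : Nat.Coprime (w : ZMod d).val d := ZMod.val_coe_unit_coprime w
  have hcop' : IsCoprime (((w : ZMod d).val : ℕ) : ℤ) (d : ℤ) := Nat.isCoprime_iff_coprime.mpr hcop
  obtain ⟨x, y, hxy⟩ := hcop'
  refine ⟨⟨!![(((w : ZMod d).val : ℕ) : ℤ), -y; (d : ℤ), x], ?_⟩, ?_, ?_⟩
  · rw [Matrix.det_fin_two_of]
    linear_combination hxy
  · rfl
  · show (((((w : ZMod d).val : ℕ) : ℤ)) : ZMod e) = (u : ZMod e)
    rw [← hw, ZMod.unitsMap_val, Int.cast_natCast, ZMod.natCast_val]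

/-- solvability of a linear congruence -/
theorem exists_lin_congr (A M r : ℤ) (h : (Int.gcd A M : ℤ) ∣ r) : ∃ k : ℤ, M ∣ A * k - r := by
  obtain ⟨q, hq⟩ := h
  refine ⟨Int.gcdA A M * q, ?_⟩
  refine ⟨-(Int.gcdB A M * q), ?_⟩
  have := Int.gcd_eq_gcd_ab A M
  rw [hq, this]
  ring

/-- invariance of `gcd(c, N)` : one divisibility -/
theorem gcd_dvd_of_rel (N : ℕ) (g g' : SL(2, ℤ)) (k : ℤ)
    (h : (N : ℤ) ∣ (g' 0 0 + k * g' 1 0) * g 1 0 - g' 1 0 * g 0 0) :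
    Int.gcd (g' 1 0) N ∣ Int.gcd (g 1 0) N ∧ Int.gcd (g 1 0) N ∣ Int.gcd (g' 1 0) N := by
  constructor
  · apply Nat.dvd_gcd _ (Int.gcd_dvd_right _ _ |> Int.natCast_dvd_natCast.mp)
    -- `D' ∣ c`
    have hD1 : (Int.gcd (g' 1 0) N : ℤ) ∣ g' 1 0 := Int.gcd_dvd_left _ _
    have hD2 : (Int.gcd (g' 1 0) N : ℤ) ∣ (N : ℤ) := Int.gcd_dvd_right _ _
    have h1 : (Int.gcd (g' 1 0) N : ℤ) ∣ (g' 0 0 + k * g' 1 0) * g 1 0 := by
      have := (hD2.trans h)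
      have h2 : (Int.gcd (g' 1 0) N : ℤ) ∣ g' 1 0 * g 0 0 := Dvd.dvd.mul_right hD1 _
      have := dvd_add this h2
      simpa using this
    have hcop : IsCoprime (g' 0 0 + k * g' 1 0) (g' 1 0) :=
      (isCoprime_col g').add_mul_right_left k
    have hcop' : IsCoprime (Int.gcd (g' 1 0) N : ℤ) (g' 0 0 + k * g' 1 0) :=
      (hcop.symm.of_isCoprime_of_dvd_left hD1)
    exact Int.natCast_dvd.mp (hcop'.dvd_of_dvd_mul_left h1)
  · apply Nat.dvd_gcd _ (Int.gcd_dvd_right _ _ |> Int.natCast_dvd_natCast.mp)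
    have hD1 : (Int.gcd (g 1 0) N : ℤ) ∣ g 1 0 := Int.gcd_dvd_left _ _
    have hD2 : (Int.gcd (g 1 0) N : ℤ) ∣ (N : ℤ) := Int.gcd_dvd_right _ _
    have h1 : (Int.gcd (g 1 0) N : ℤ) ∣ g' 1 0 * g 0 0 := by
      have := (hD2.trans h)
      have h2 : (Int.gcd (g 1 0) N : ℤ) ∣ (g' 0 0 + k * g' 1 0) * g 1 0 := Dvd.dvd.mul_left hD1 _
      have := dvd_sub h2 this
      simpa using this
    have hcop' : IsCoprime (Int.gcd (g 1 0) N : ℤ) (g 0 0) :=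
      ((isCoprime_col g).symm.of_isCoprime_of_dvd_left hD1)
    exact Int.natCast_dvd.mp (hcop'.dvd_of_dvd_mul_right h1)


variable (N : ℕ)

/-- the `T`-orbit space of `SL(2,ℤ) ⧸ Γ₀(N)` -/
abbrev Q : Type := MulAction.orbitRel.Quotient (Subgroup.zpowers Tmat) (SL(2, ℤ) ⧸ Gamma0 N)

/-- class of a matrix in the orbit space -/
def mkQ (g : SL(2, ℤ)) : Q N :=
  Quotient.mk'' (g : SL(2, ℤ) ⧸ Gamma0 N)

theorem mkQ_surjective : Function.Surjective (mkQ N) := by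
  intro q
  induction q using Quotient.inductionOn' with
  | h x =>
    induction x using QuotientGroup.induction_on with
    | H g => exact ⟨g, rfl⟩

theorem mkQ_eq_iff (g g' : SL(2, ℤ)) :
    mkQ N g = mkQ N g' ↔
      ∃ k : ℤ, (N : ℤ) ∣ (g' 0 0 + k * g' 1 0) * g 1 0 - g' 1 0 * g 0 0 := by
  unfold mkQ
  rw [Quotient.eq'', MulAction.orbitRel_apply, MulAction.mem_orbit_iff]
  constructor
  · rintro ⟨⟨t, ht⟩, h⟩
    obtain ⟨k, rfl⟩ := Subgroup.mem_zpowers_iff.mp ht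
    refine ⟨k, ?_⟩
    rw [← coset_T_eq_iff]
    rw [← h]
    rfl
  · rintro ⟨k, hk⟩
    refine ⟨⟨Tmat ^ k, Subgroup.zpow_mem_zpowers _ _⟩, ?_⟩
    rw [← coset_T_eq_iff] at hk
    rw [← hk]
    rfl


/-- index type for the cusps -/
abbrev CuspIdx : Type := Σ d : {d : ℕ // d ∈ N.divisors}, (ZMod (Nat.gcd d (N / d)))ˣ

theorem exists_rep' (t : CuspIdx N) :
    ∃ g : SL(2, ℤ), g 1 0 = ((t.1 : ℕ) : ℤ) ∧
      ((g 0 0 : ℤ) : ZMod (Nat.gcd t.1 (N / t.1))) = (t.2 : ZMod (Nat.gcd t.1 (N / t.1))) := by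
  have hd : (t.1 : ℕ) ∣ N := Nat.dvd_of_mem_divisors t.1.2
  have hN : N ≠ 0 := (Nat.mem_divisors.mp t.1.2).2
  have hd0 : (t.1 : ℕ) ≠ 0 := fun h => hN (by rw [h, zero_dvd_iff] at hd; exact hd)
  exact exists_rep t.1 _ hd0 (Nat.gcd_dvd_left _ _) t.2

/-- representative matrix of a cusp index -/
noncomputable def rep (t : CuspIdx N) : SL(2, ℤ) := Classical.choose (exists_rep' N t)

theorem rep_10 (t : CuspIdx N) : (rep N t) 1 0 = ((t.1 : ℕ) : ℤ) :=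
  (Classical.choose_spec (exists_rep' N t)).1

theorem rep_00 (t : CuspIdx N) :
    (((rep N t) 0 0 : ℤ) : ZMod (Nat.gcd t.1 (N / t.1))) = (t.2 : ZMod (Nat.gcd t.1 (N / t.1))) :=
  (Classical.choose_spec (exists_rep' N t)).2

/-- the map from cusp indices to the orbit space -/
noncomputable def cuspMap (t : CuspIdx N) : Q N := mkQ N (rep N t)

theorem cuspMap_injective : Function.Injective (cuspMap N) := by
  rintro ⟨⟨d, hd⟩, u⟩ ⟨⟨d', hd'⟩, u'⟩ h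
  unfold cuspMap at h
  rw [mkQ_eq_iff] at h
  obtain ⟨k, hk⟩ := h
  have hdN : d ∣ N := Nat.dvd_of_mem_divisors hd
  have hd'N : d' ∣ N := Nat.dvd_of_mem_divisors hd'
  have hN : N ≠ 0 := (Nat.mem_divisors.mp hd).2
  have r1 := rep_10 N ⟨⟨d, hd⟩, u⟩
  have r1' := rep_10 N ⟨⟨d', hd'⟩, u'⟩
  have r0 := rep_00 N ⟨⟨d, hd⟩, u⟩
  have r0' := rep_00 N ⟨⟨d', hd'⟩, u'⟩
  simp only at r1 r1' r0 r0'
  obtain ⟨h1, h2⟩ := gcd_dvd_of_rel N _ _ k hk
  rw [r1, r1'] at h1 h2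
  rw [Int.gcd_natCast_natCast, Int.gcd_natCast_natCast, Nat.gcd_eq_left hdN,
    Nat.gcd_eq_left hd'N] at h1 h2
  have hdd : d = d' := Nat.dvd_antisymm h2 h1
  subst hdd
  have hd0 : d ≠ 0 := fun h => hN (by rw [h, zero_dvd_iff] at hdN; exact hdN)
  rw [r1, r1'] at hk
  -- `N ∣ d * (a' + k d - a)`
  set a := (rep N ⟨⟨d, hd⟩, u⟩) 0 0 with ha
  set a' := (rep N ⟨⟨d, hd'⟩, u'⟩) 0 0 with ha'
  have hM : ((N / d : ℕ) : ℤ) ∣ a' + k * d - a := by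
    have hNd : (N : ℤ) = (d : ℤ) * ((N / d : ℕ) : ℤ) := by
      rw [← Nat.cast_mul, Nat.mul_div_cancel' hdN]
    rw [hNd] at hk
    have : (d : ℤ) * ((N / d : ℕ) : ℤ) ∣ (d : ℤ) * (a' + k * d - a) := by
      convert hk using 1; ring
    exact (mul_dvd_mul_iff_left (by exact_mod_cast hd0)).mp this
  have he : ((Nat.gcd d (N / d) : ℕ) : ℤ) ∣ a' - a := by
    have e1 : ((Nat.gcd d (N / d) : ℕ) : ℤ) ∣ a' + k * d - a :=
      (Int.natCast_dvd_natCast.mpr (Nat.gcd_dvd_right _ _)).trans hM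
    have e2 : ((Nat.gcd d (N / d) : ℕ) : ℤ) ∣ k * d :=
      Dvd.dvd.mul_left (Int.natCast_dvd_natCast.mpr (Nat.gcd_dvd_left _ _)) _
    have h3 := dvd_sub e1 e2
    have e3 : a' + k * d - a - k * d = a' - a := by ring
    rwa [e3] at h3
  have huu : u = u' := by
    apply Units.ext
    rw [← r0, ← r0']
    exact (ZMod.intCast_eq_intCast_iff_dvd_sub _ _ _).mpr he
  rw [huu]


theorem cuspMap_surjective (hN : N ≠ 0) : Function.Surjective (cuspMap N) := by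
  intro q
  obtain ⟨g, rfl⟩ := mkQ_surjective N q
  set a := g 0 0 with ha
  set c := g 1 0 with hc
  set d := Int.gcd c N with hd
  have hdN : d ∣ N := Int.natCast_dvd_natCast.mp (Int.gcd_dvd_right c N)
  have hdc : (d : ℤ) ∣ c := Int.gcd_dvd_left c N
  have hd0 : d ≠ 0 := fun h => hN (by rw [h, zero_dvd_iff] at hdN; exact hdN)
  have hdpos : 0 < d := Nat.pos_of_ne_zero hd0
  have hmem : d ∈ N.divisors := Nat.mem_divisors.mpr ⟨hdN, hN⟩
  set M := N / d with hM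
  set e := Nat.gcd d M with he
  obtain ⟨c₀, hc₀⟩ := hdc
  -- `c₀` is coprime to `M`
  have hcopM : IsCoprime c₀ (M : ℤ) := by
    have h1 := Int.gcd_div_gcd_div_gcd (i := c) (j := (N : ℤ)) (by rw [← hd]; exact hdpos)
    rw [← hd] at h1
    have e1 : c / (d : ℤ) = c₀ := by
      rw [hc₀]; exact Int.mul_ediv_cancel_left _ (by exact_mod_cast hd0)
    have e2 : (N : ℤ) / (d : ℤ) = (M : ℤ) := by
      rw [hM, Int.natCast_div]
    rw [e1, e2] at h1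
    exact Int.isCoprime_iff_gcd_eq_one.mpr h1
  have heM : (e : ℤ) ∣ (M : ℤ) := Int.natCast_dvd_natCast.mpr (Nat.gcd_dvd_right _ _)
  have hed : (e : ℤ) ∣ (d : ℤ) := Int.natCast_dvd_natCast.mpr (Nat.gcd_dvd_left _ _)
  have hcopa : IsCoprime (e : ℤ) a := by
    have : IsCoprime a c := isCoprime_col g
    exact (this.symm.of_isCoprime_of_dvd_left (hed.trans ⟨c₀, hc₀⟩))
  have hcopc : IsCoprime (e : ℤ) c₀ := hcopM.symm.of_isCoprime_of_dvd_left heM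
  have hua : IsUnit ((a : ℤ) : ZMod e) := (ZMod.coe_int_isUnit_iff_isCoprime a e).mpr hcopa
  have huc : IsUnit ((c₀ : ℤ) : ZMod e) := (ZMod.coe_int_isUnit_iff_isCoprime c₀ e).mpr hcopc
  let t : CuspIdx N := ⟨⟨d, hmem⟩, hua.unit * huc.unit⁻¹⟩
  refine ⟨t, ?_⟩
  unfold cuspMap
  rw [mkQ_eq_iff]
  have r1 : (rep N t) 1 0 = (d : ℤ) := rep_10 N t
  have r0 : (((rep N t) 0 0 : ℤ) : ZMod e) = (a : ZMod e) * ((huc.unit⁻¹ : (ZMod e)ˣ) : ZMod e) := by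
    have := rep_00 N t
    simp only [t] at this
    rw [this, Units.val_mul, IsUnit.unit_spec]
  set a' := (rep N t) 0 0 with ha'
  rw [r1]
  -- `e ∣ c₀ a' - a`
  have hdiv : (e : ℤ) ∣ c₀ * a' - a := by
    rw [← ZMod.intCast_zmod_eq_zero_iff_dvd]
    push_cast
    rw [r0]
    have : (c₀ : ZMod e) * ((huc.unit⁻¹ : (ZMod e)ˣ) : ZMod e) = 1 := by
      have := huc.unit.mul_inv
      rwa [IsUnit.unit_spec] at this
    linear_combination (a : ZMod e) * this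
  -- `gcd (d c₀) M ∣ e`
  have hgcd : (Int.gcd ((d : ℤ) * c₀) (M : ℤ) : ℤ) ∣ c₀ * a' - a := by
    refine dvd_trans ?_ hdiv
    set G := Int.gcd ((d : ℤ) * c₀) (M : ℤ) with hG
    have hG1 : (G : ℤ) ∣ (d : ℤ) * c₀ := Int.gcd_dvd_left _ _
    have hG2 : (G : ℤ) ∣ (M : ℤ) := Int.gcd_dvd_right _ _
    have hGc : IsCoprime (G : ℤ) c₀ := hcopM.symm.of_isCoprime_of_dvd_left hG2
    have hGd : (G : ℤ) ∣ (d : ℤ) := hGc.dvd_of_dvd_mul_right hG1
    exact Int.natCast_dvd_natCast.mpr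
      (Nat.dvd_gcd (Int.natCast_dvd_natCast.mp hGd) (Int.natCast_dvd_natCast.mp hG2))
  obtain ⟨k, hk⟩ := exists_lin_congr ((d : ℤ) * c₀) (M : ℤ) (c₀ * a' - a) hgcd
  refine ⟨k, ?_⟩
  have hNd : (N : ℤ) = (d : ℤ) * (M : ℤ) := by
    rw [hM, ← Nat.cast_mul, Nat.mul_div_cancel' hdN]
  rw [hNd]
  show (d : ℤ) * (M : ℤ) ∣ (a + k * c) * (d : ℤ) - c * a'
  rw [hc₀]
  obtain ⟨m, hm⟩ := hk
  refine ⟨m, ?_⟩
  linear_combination (d : ℤ) * hm


theorem card_cuspIdx (hN : N ≠ 0) : Nat.card (CuspIdx N) = ModularCurve.cuspCount N := by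
  have hne : ∀ a : {d : ℕ // d ∈ N.divisors}, Nat.gcd a (N / a) ≠ 0 := by
    intro a h
    have h1 : (a : ℕ) = 0 := Nat.eq_zero_of_gcd_eq_zero_left h
    have h2 : (a : ℕ) ∣ N := Nat.dvd_of_mem_divisors a.2
    rw [h1, zero_dvd_iff] at h2
    exact hN h2
  have : ∀ a : {d : ℕ // d ∈ N.divisors}, Finite (ZMod (Nat.gcd a (N / a)))ˣ := by
    intro a
    have : NeZero (Nat.gcd a (N / a)) := ⟨hne a⟩
    infer_instance
  rw [Nat.card_sigma]
  unfold ModularCurve.cuspCount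
  rw [← Finset.sum_coe_sort N.divisors (fun d => Nat.totient (Nat.gcd d (N / d)))]
  apply Finset.sum_congr rfl
  intro a _
  have : NeZero (Nat.gcd a (N / a)) := ⟨hne a⟩
  rw [Nat.card_eq_fintype_card, ZMod.card_units_eq_totient]

end Cusps

open scoped MatrixGroups in
open CongruenceSubgroup in
/-- **M17**: the number of `T`-orbits on `SL(2,ℤ) ⧸ Γ₀(N)` is `cuspCount N`. -/
theorem cuspsX_Gamma0 (N : ℕ) [NeZero N] :
    cuspsX (SL(2, ℤ) ⧸ Gamma0 N) = ModularCurve.cuspCount N := by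
  unfold cuspsX
  rw [← Cusps.card_cuspIdx N (NeZero.ne N)]
  exact (Nat.card_congr (Equiv.ofBijective (Cusps.cuspMap N)
    ⟨Cusps.cuspMap_injective N, Cusps.cuspMap_surjective N (NeZero.ne N)⟩)).symm

end Fermat.Agent.S20x
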