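/-
S20 helper library, module M02: the ring of level one modular forms as plain functions
(`IsL1 k A`), generated by `E₄`, `E₆`.
-/
import Fermat.Agent.S20x.Defs
import Fermat.Agent.S24x.LevelOneRam

set_option autoImplicit false

namespace Fermat.Agent.S20x

open UpperHalfPlane ModularForm EisensteinSeries Filter Complex Derivative
open scoped MatrixGroups ModularForm Manifold Topology

local notation "Δ" => ModularForm.discriminant

theorem l1_E4 : IsL1 4 (⇑E₄) := ⟨E₄, rfl⟩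
theorem l1_E6 : IsL1 6 (⇑E₆) := ⟨E₆, rfl⟩

theorem l1_cast {k l : ℤ} (h : k = l) {A : ℍ → ℂ} (hA : IsL1 k A) : IsL1 l A := h ▸ hA

theorem l1_mul {k l : ℤ} {A B : ℍ → ℂ} (hA : IsL1 k A) (hB : IsL1 l B) :
    IsL1 (k + l) (fun z => A z * B z) := by
  obtain ⟨f, rfl⟩ := hA
  obtain ⟨g, rfl⟩ := hB
  exact ⟨f.mul g, rfl⟩

theorem l1_add {k : ℤ} {A B : ℍ → ℂ} (hA : IsL1 k A) (hB : IsL1 k B) :
    IsL1 k (fun z => A z + B z) := by
  obtain ⟨f, rfl⟩ := hA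
  obtain ⟨g, rfl⟩ := hB
  exact ⟨f + g, rfl⟩

theorem l1_smul {k : ℤ} {A : ℍ → ℂ} (c : ℂ) (hA : IsL1 k A) : IsL1 k (fun z => c * A z) := by
  obtain ⟨f, rfl⟩ := hA
  exact ⟨c • f, rfl⟩

theorem l1_zero (k : ℤ) : IsL1 k (0 : ℍ → ℂ) := ⟨0, rfl⟩

theorem l1_const (c : ℂ) : IsL1 0 (fun _ => c) := ⟨ModularForm.const c, rfl⟩

theorem l1_neg {k : ℤ} {A : ℍ → ℂ} (hA : IsL1 k A) : IsL1 k (fun z => -A z) := by
  obtain ⟨f, rfl⟩ := hA
  exact ⟨-f, rfl⟩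

theorem l1_sub {k : ℤ} {A B : ℍ → ℂ} (hA : IsL1 k A) (hB : IsL1 k B) :
    IsL1 k (fun z => A z - B z) := by
  obtain ⟨f, rfl⟩ := hA
  obtain ⟨g, rfl⟩ := hB
  exact ⟨f - g, rfl⟩

theorem l1_pow {k : ℤ} {A : ℍ → ℂ} (hA : IsL1 k A) (n : ℕ) :
    IsL1 ((n : ℤ) * k) (fun z => A z ^ n) := by
  obtain ⟨f, rfl⟩ := hA
  exact ⟨f.pow n, by rw [ModularForm.coe_pow]; rfl⟩

theorem l1_sum {ι : Type*} (s : Finset ι) {k : ℤ} {A : ι → ℍ → ℂ} (hA : ∀ i ∈ s, IsL1 k (A i)) :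
    IsL1 k (fun z => ∑ i ∈ s, A i z) := by
  classical
  induction s using Finset.induction_on with
  | empty => exact l1_zero k
  | insert a s ha ih =>
    have h1 := l1_add (hA a (Finset.mem_insert_self a s))
      (ih (fun i hi => hA i (Finset.mem_insert_of_mem hi)))
    have h2 : (fun z => ∑ i ∈ insert a s, A i z) = fun z => A a z + ∑ i ∈ s, A i z := by
      funext z
      rw [Finset.sum_insert ha]
    rw [h2]; exact h1

theorem l1_eq_zero_of_neg {k : ℤ} (hk : k < 0) {A : ℍ → ℂ} (hA : IsL1 k A) : A = 0 := by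
  obtain ⟨f, rfl⟩ := hA
  exact ModularFormClass.levelOne_neg_weight_eq_zero hk f

theorem l1_eq_zero_of_odd {k : ℤ} (hk : Odd k) {A : ℍ → ℂ} (hA : IsL1 k A) : A = 0 := by
  obtain ⟨f, rfl⟩ := hA
  rw [ModularForm.levelOne_odd_weight_eq_zero hk f]; rfl

theorem l1_eq_zero_of_two {A : ℍ → ℂ} (hA : IsL1 2 A) : A = 0 := by
  obtain ⟨f, rfl⟩ := hA
  have h := levelOne_weight_two_rank_zero
  rw [rank_zero_iff_forall_zero] at h
  rw [h f]; rfl

theorem l1_const_of_zero {A : ℍ → ℂ} (hA : IsL1 0 A) : ∃ c : ℂ, A = fun _ => c := by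
  obtain ⟨f, rfl⟩ := hA
  obtain ⟨c, hc⟩ := ModularFormClass.levelOne_weight_zero_const f
  exact ⟨c, hc⟩

theorem l1_tendsto {k : ℤ} {A : ℍ → ℂ} (hA : IsL1 k A) :
    ∃ c : ℂ, Tendsto A atImInfty (𝓝 c) := by
  obtain ⟨f, rfl⟩ := hA
  exact ⟨_, Fermat.Agent.S24x.ram_tendsto f⟩

theorem E4_tendsto : Tendsto (⇑E₄) atImInfty (𝓝 1) := by
  have h := Fermat.Agent.S24x.ram_tendsto E₄
  rwa [E_qExpansion_coeff_zero _ ⟨2, rfl⟩] at h

theorem E6_tendsto : Tendsto (⇑E₆) atImInfty (𝓝 1) := by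
  have h := Fermat.Agent.S24x.ram_tendsto E₆
  rwa [E_qExpansion_coeff_zero _ ⟨3, rfl⟩] at h

/-- a level one cusp form is `Δ` times a level one form (Mathlib `CuspForm.discriminantEquiv`). -/
theorem l1_cusp_eq_delta_mul {k : ℤ} {A : ℍ → ℂ} (hA : IsL1 k A) (h0 : IsZeroAtImInfty A) :
    ∃ B, IsL1 (k - 12) B ∧ ∀ z, A z = Δ z * B z := by
  obtain ⟨f, rfl⟩ := hA
  have h1 := Fermat.Agent.S24x.ram_tendsto f
  have h2 : (qExpansion 1 f).coeff 0 = 0 := tendsto_nhds_unique h1 h0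
  refine ⟨⇑(CuspForm.discriminantEquiv (toCuspForm f h2)), ⟨_, rfl⟩, fun z => ?_⟩
  rw [discriminant_mul_discriminantEquiv_apply]; rfl


theorem l1_exists_exponents {m : ℤ} (hm : Even m) (h4 : 4 ≤ m) :
    ∃ a b : ℕ, 4 * (a : ℤ) + 6 * (b : ℤ) = m ∧ (1 ≤ a ∨ 1 ≤ b) := by
  obtain ⟨k, rfl⟩ := hm
  rcases Int.even_or_odd' k with ⟨j, hj | hj⟩
  · refine ⟨j.toNat, 0, ?_, ?_⟩ <;> omega
  · refine ⟨(j - 1).toNat, 1, ?_, ?_⟩ <;> omega

theorem l1_monomial (a b : ℕ) : IsL1 (4 * (a : ℤ) + 6 * (b : ℤ)) (fun z => E₄ z ^ a * E₆ z ^ b) :=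
  l1_cast (by ring) (l1_mul (l1_pow l1_E4 a) (l1_pow l1_E6 b))

theorem l1_monomial_tendsto (a b : ℕ) :
    Tendsto (fun z => E₄ z ^ a * E₆ z ^ b) atImInfty (𝓝 1) := by
  have h := (E4_tendsto.pow a).mul (E6_tendsto.pow b)
  simpa using h

/-- splitting off the value at `i∞`. -/
theorem l1_split {m : ℤ} (hm : Even m) (h4 : 4 ≤ m) {A : ℍ → ℂ} (hA : IsL1 m A) :
    ∃ (a b : ℕ) (c₀ : ℂ) (B : ℍ → ℂ), 4 * (a : ℤ) + 6 * (b : ℤ) = m ∧ (1 ≤ a ∨ 1 ≤ b) ∧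
      IsL1 (m - 12) B ∧ ∀ z, A z = c₀ * (E₄ z ^ a * E₆ z ^ b) + Δ z * B z := by
  obtain ⟨a, b, hab, h1⟩ := l1_exists_exponents hm h4
  obtain ⟨c₀, hc₀⟩ := l1_tendsto hA
  have hG : IsL1 m (fun z => E₄ z ^ a * E₆ z ^ b) := l1_cast hab (l1_monomial a b)
  have hD : IsL1 m (fun z => A z - c₀ * (E₄ z ^ a * E₆ z ^ b)) := l1_sub hA (l1_smul c₀ hG)
  have h0 : IsZeroAtImInfty (fun z => A z - c₀ * (E₄ z ^ a * E₆ z ^ b)) := by
    have h := hc₀.sub ((l1_monomial_tendsto a b).const_mul c₀)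
    simpa [IsZeroAtImInfty, ZeroAtFilter] using h
  obtain ⟨B, hB, hAB⟩ := l1_cusp_eq_delta_mul hD h0
  refine ⟨a, b, c₀, B, hab, h1, hB, fun z => ?_⟩
  have := hAB z
  linear_combination this

/-- `R_{>0} = E₄ R + E₆ R`. -/
theorem l1_decomp {m : ℤ} (hm : m ≠ 0) {A : ℍ → ℂ} (hA : IsL1 m A) :
    ∃ B C, IsL1 (m - 4) B ∧ IsL1 (m - 6) C ∧ ∀ z, A z = E₄ z * B z + E₆ z * C z := by
  have hzero : A = 0 → ∃ B C, IsL1 (m - 4) B ∧ IsL1 (m - 6) C ∧
      ∀ z, A z = E₄ z * B z + E₆ z * C z := by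
    rintro rfl
    exact ⟨0, 0, l1_zero _, l1_zero _, fun z => by simp⟩
  rcases Int.even_or_odd m with he | ho
  swap
  · exact hzero (l1_eq_zero_of_odd ho hA)
  rcases lt_or_ge m 4 with hlt | h4
  · rcases lt_or_ge m 0 with hneg | hnn
    · exact hzero (l1_eq_zero_of_neg hneg hA)
    · have h2 : m = 2 := by
        obtain ⟨k, rfl⟩ := he
        omega
      subst h2
      exact hzero (l1_eq_zero_of_two hA)
  obtain ⟨a, b, c₀, B, hab, h1, hB, hAB⟩ := l1_split he h4 hA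
  have hB4 : IsL1 (m - 4) (fun z => (1 / 1728 : ℂ) * (E₄ z * (E₄ z * B z))) :=
    l1_smul _ (l1_cast (by ring) (l1_mul l1_E4 (l1_mul l1_E4 hB)))
  have hB6 : IsL1 (m - 6) (fun z => (-1 / 1728 : ℂ) * (E₆ z * B z)) :=
    l1_smul _ (l1_cast (by ring) (l1_mul l1_E6 hB))
  rcases h1 with h1 | h1
  · obtain ⟨a', rfl⟩ : ∃ a', a = a' + 1 := ⟨a - 1, by omega⟩
    have hG : IsL1 (m - 4) (fun z => c₀ * (E₄ z ^ a' * E₆ z ^ b)) :=
      l1_smul _ (l1_cast (by push_cast at hab; linarith) (l1_monomial a' b))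
    refine ⟨_, _, l1_add hG hB4, hB6, fun z => ?_⟩
    rw [hAB z, discriminant_eq_E₄_cube_sub_E₆_sq z]
    ring
  · obtain ⟨b', rfl⟩ : ∃ b', b = b' + 1 := ⟨b - 1, by omega⟩
    have hG : IsL1 (m - 6) (fun z => c₀ * (E₄ z ^ a * E₆ z ^ b')) :=
      l1_smul _ (l1_cast (by push_cast at hab; linarith) (l1_monomial a b'))
    refine ⟨_, _, hB4, l1_add hG hB6, fun z => ?_⟩
    rw [hAB z, discriminant_eq_E₄_cube_sub_E₆_sq z]
    ring

/-- `A` is an isobaric polynomial of weight `m` in `E₄`, `E₆`. -/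
def L1Iso (m : ℤ) (A : ℍ → ℂ) : Prop :=
  ∃ c : ℕ × ℕ →₀ ℂ, (∀ p ∈ c.support, 4 * (p.1 : ℤ) + 6 * (p.2 : ℤ) = m) ∧
    ∀ z, A z = c.sum (fun p a => a * E₄ z ^ p.1 * E₆ z ^ p.2)

theorem l1iso_cast {k l : ℤ} (h : k = l) {A : ℍ → ℂ} (hA : L1Iso k A) : L1Iso l A := h ▸ hA

theorem l1iso_zero (m : ℤ) : L1Iso m 0 := ⟨0, by simp, by simp⟩

theorem l1iso_add {m : ℤ} {A B : ℍ → ℂ} (hA : L1Iso m A) (hB : L1Iso m B) :
    L1Iso m (fun z => A z + B z) := by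
  classical
  obtain ⟨c, hc, hA⟩ := hA
  obtain ⟨d, hd, hB⟩ := hB
  refine ⟨c + d, fun p hp => ?_, fun z => ?_⟩
  · rcases Finset.mem_union.1 (Finsupp.support_add hp) with h | h
    · exact hc p h
    · exact hd p h
  · beta_reduce
    rw [hA, hB, Finsupp.sum_add_index']
    · intro p; simp
    · intro p a b; ring

theorem l1iso_smul {m : ℤ} {A : ℍ → ℂ} (t : ℂ) (hA : L1Iso m A) :
    L1Iso m (fun z => t * A z) := by
  obtain ⟨c, hc, hA⟩ := hA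
  refine ⟨t • c, fun p hp => hc p (Finsupp.support_smul hp), fun z => ?_⟩
  beta_reduce
  rw [hA, Finsupp.sum_smul_index', Finsupp.mul_sum]
  · refine Finsupp.sum_congr fun p _ => ?_
    simp only [smul_eq_mul]; ring
  · intro p; simp

theorem l1iso_mul_E4 {m : ℤ} {A : ℍ → ℂ} (hA : L1Iso m A) :
    L1Iso (m + 4) (fun z => E₄ z * A z) := by
  obtain ⟨c, hc, hA⟩ := hA
  refine ⟨c.mapDomain (fun p => (p.1 + 1, p.2)), fun p hp => ?_, fun z => ?_⟩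
  · obtain ⟨q, hq, rfl⟩ := Finset.mem_image.1 (Finsupp.mapDomain_support hp)
    have := hc q hq
    push_cast; linarith
  · beta_reduce
    rw [hA, Finsupp.sum_mapDomain_index, Finsupp.mul_sum]
    · refine Finsupp.sum_congr fun p _ => ?_
      ring
    · intro p; simp
    · intro p a b; ring

theorem l1iso_mul_E6 {m : ℤ} {A : ℍ → ℂ} (hA : L1Iso m A) :
    L1Iso (m + 6) (fun z => E₆ z * A z) := by
  obtain ⟨c, hc, hA⟩ := hA
  refine ⟨c.mapDomain (fun p => (p.1, p.2 + 1)), fun p hp => ?_, fun z => ?_⟩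
  · obtain ⟨q, hq, rfl⟩ := Finset.mem_image.1 (Finsupp.mapDomain_support hp)
    have := hc q hq
    push_cast; linarith
  · beta_reduce
    rw [hA, Finsupp.sum_mapDomain_index, Finsupp.mul_sum]
    · refine Finsupp.sum_congr fun p _ => ?_
      ring
    · intro p; simp
    · intro p a b; ring

theorem l1iso_monomial (a b : ℕ) :
    L1Iso (4 * (a : ℤ) + 6 * (b : ℤ)) (fun z => E₄ z ^ a * E₆ z ^ b) := by
  classical
  refine ⟨Finsupp.single (a, b) 1, fun p hp => ?_, fun z => ?_⟩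
  · have := Finsupp.support_single_subset hp
    rw [Finset.mem_singleton] at this
    subst this; rfl
  · rw [Finsupp.sum_single_index] <;> simp

theorem l1_monomial_span_aux (n : ℕ) :
    ∀ (m : ℤ), m < n → ∀ A : ℍ → ℂ, IsL1 m A → L1Iso m A := by
  induction n with
  | zero =>
    intro m hm A hA
    rw [l1_eq_zero_of_neg (by simpa using hm) hA]
    exact l1iso_zero m
  | succ n ih =>
    intro m hm A hA
    rcases Int.even_or_odd m with he | ho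
    swap
    · rw [l1_eq_zero_of_odd ho hA]; exact l1iso_zero m
    rcases lt_or_ge m 4 with hlt | h4
    · rcases lt_or_ge m 0 with hneg | hnn
      · rw [l1_eq_zero_of_neg hneg hA]; exact l1iso_zero m
      · have h2 : m = 0 ∨ m = 2 := by
          obtain ⟨k, rfl⟩ := he
          omega
        rcases h2 with rfl | rfl
        · obtain ⟨c, rfl⟩ := l1_const_of_zero hA
          have h := l1iso_smul c (l1iso_monomial 0 0)
          simpa using h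
        · rw [l1_eq_zero_of_two hA]; exact l1iso_zero _
    obtain ⟨a, b, c₀, B, hab, -, hB, hAB⟩ := l1_split he h4 hA
    have hBiso : L1Iso (m - 12) B := ih (m - 12) (by push_cast at hm; omega) B hB
    have h1 : L1Iso m (fun z => c₀ * (E₄ z ^ a * E₆ z ^ b)) :=
      l1iso_smul c₀ (l1iso_cast hab (l1iso_monomial a b))
    have h2 : L1Iso m (fun z => (1 / 1728 : ℂ) * (E₄ z * (E₄ z * (E₄ z * B z)))) :=
      l1iso_smul _ (l1iso_cast (by ring) (l1iso_mul_E4 (l1iso_mul_E4 (l1iso_mul_E4 hBiso))))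
    have h3 : L1Iso m (fun z => (-1 / 1728 : ℂ) * (E₆ z * (E₆ z * B z))) :=
      l1iso_smul _ (l1iso_cast (by ring) (l1iso_mul_E6 (l1iso_mul_E6 hBiso)))
    have h4 := l1iso_add h1 (l1iso_add h2 h3)
    have hfun : A = fun z => c₀ * (E₄ z ^ a * E₆ z ^ b) +
        ((1 / 1728 : ℂ) * (E₄ z * (E₄ z * (E₄ z * B z))) +
          (-1 / 1728 : ℂ) * (E₆ z * (E₆ z * B z))) := by
      funext z
      rw [hAB z, discriminant_eq_E₄_cube_sub_E₆_sq z]
      ring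
    rw [hfun]; exact h4

/-- every level one form is an isobaric polynomial in `E₄, E₆`. -/
theorem l1_monomial_span {m : ℤ} {A : ℍ → ℂ} (hA : IsL1 m A) :
    ∃ c : ℕ × ℕ →₀ ℂ, (∀ p ∈ c.support, 4 * (p.1 : ℤ) + 6 * (p.2 : ℤ) = m) ∧
      ∀ z, A z = c.sum (fun p a => a * E₄ z ^ p.1 * E₆ z ^ p.2) :=
  l1_monomial_span_aux (m.toNat + 1) m (by push_cast; omega) A hA

end Fermat.Agent.S20x
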