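/-
S20 module M08 (`LeadInfty`): discrete Fourier transform along the orbits of `T` on `X`, and the
lead coefficients at `i∞` of a vector-valued modular form.

* `liU g`, `liLam g` : for a group element `g` acting on a finite set `X`, the block DFT matrix
  along the orbits of `g`, and the exponents `a / w` (`w` the orbit size, `0 ≤ a < w`);
  `liU_shift`, `li_sum_lam`, `liU_det_ne_zero`.
* `li_tendsto_div_q`, `li_lead` : the analytic input (periodic holomorphic functions on `ℍ`).
* `exists_leadData` : the statement of the S20 plan.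
-/
import Fermat.Agent.S20x.Defs

set_option autoImplicit false
set_option linter.unusedSectionVars false

namespace Fermat.Agent.S20x

open UpperHalfPlane ModularForm EisensteinSeries Filter Complex Function
open scoped MatrixGroups ModularForm Manifold Topology Real

local notation "Δ" => ModularForm.discriminant

/-- periodic on `ℍ` gives periodic after composing with `ofComplex`. -/
theorem li_periodic_comp {V : ℍ → ℂ} (hper : ∀ z : ℍ, V ((1 : ℝ) +ᵥ z) = V z) :
    Periodic (V ∘ ofComplex) (1 : ℝ) := by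
  intro w
  by_cases hw : 0 < im w
  · have h1 : 0 < im (w + (1 : ℝ)) := by simpa using hw
    simp only [comp_apply, ofComplex_apply_of_im_pos h1, ofComplex_apply_of_im_pos hw]
    rw [← hper ⟨w, hw⟩]
    congr 1
    ext
    simp [add_comm]
  · have hw' : im w ≤ 0 := not_lt.mp hw
    have h1 : im (w + (1 : ℝ)) ≤ 0 := by simpa using hw'
    simp only [comp_apply, ofComplex_apply_of_im_nonpos h1, ofComplex_apply_of_im_nonpos hw']

/-- Lemma A: a holomorphic, `1`-periodic function on `ℍ` which tends to `0` at `i∞`, divided by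
`q = e^{2πiz}`, has a limit at `i∞`. -/
theorem li_tendsto_div_q {V : ℍ → ℂ} (hV : MDiff V) (hper : ∀ z : ℍ, V ((1 : ℝ) +ᵥ z) = V z)
    (hzero : IsZeroAtImInfty V) :
    ∃ L : ℂ, Tendsto (fun z : ℍ => cexp (-2 * π * Complex.I * z) * V z) atImInfty (𝓝 L) := by
  have hP := li_periodic_comp hper
  have h1 : (0 : ℝ) < 1 := one_pos
  set c := UpperHalfPlane.cuspFunction 1 V with hc
  have hc0 : c 0 = 0 := hzero.cuspFunction_apply_zero h1
  have hcd : DifferentiableAt ℂ c 0 :=
    UpperHalfPlane.differentiableAt_cuspFunction h1 hP hV hzero.isBoundedAtImInfty (by simp)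
  refine ⟨deriv c 0, ?_⟩
  have hs := (hasDerivAt_iff_tendsto_slope.mp hcd.hasDerivAt)
  have hq : Tendsto (fun τ : ℍ => Periodic.qParam 1 (τ : ℂ)) atImInfty (𝓝[≠] 0) :=
    (Periodic.qParam_tendsto h1).comp tendsto_coe_atImInfty
  have := hs.comp hq
  refine this.congr fun τ => ?_
  simp only [comp_apply, slope, vsub_eq_sub, sub_zero, hc0, smul_eq_mul]
  rw [hc, UpperHalfPlane.eq_cuspFunction τ h1.ne' hP]
  congr 1
  rw [Periodic.qParam, ← Complex.exp_neg]
  congr 1
  simp

/-- `z ↦ e^{a z}` is holomorphic on `ℍ`. -/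
theorem li_mdiff_exp (a : ℂ) : MDiff (fun z : ℍ => cexp (a * z)) := by
  have h1 : Differentiable ℂ (fun w : ℂ => cexp (a * w)) :=
    Complex.differentiable_exp.comp (differentiable_id.const_mul a)
  exact h1.mdifferentiable.comp mdifferentiable_coe

theorem li_norm_exp (t : ℝ) (z : ℍ) :
    ‖cexp (2 * π * Complex.I * t * z)‖ = Real.exp (-2 * π * t * z.im) := by
  rw [Complex.norm_exp]
  congr 1
  simp

/-- Lemma B: the leading coefficient of a holomorphic bounded function with a twisted period. -/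
theorem li_lead {W : ℍ → ℂ} {lam : ℝ} (h0 : 0 ≤ lam) (h1 : lam < 1)
    (hW : MDiff W) (hbd : IsBoundedAtImInfty W)
    (hshift : ∀ z : ℍ, W ((1 : ℝ) +ᵥ z) = cexp (2 * π * Complex.I * lam) * W z) :
    ∃ L : ℂ, Tendsto (fun z : ℍ => cexp (-2 * π * Complex.I * lam * z) * W z) atImInfty (𝓝 L) ∧
      (L = 0 → W =O[atImInfty] (fun z : ℍ => Real.exp (-2 * π * z.im))) := by
  have hμ : 0 < 1 - lam := by linarith
  -- the auxiliary periodic function
  have hV1 : MDiff (fun z : ℍ => cexp (2 * π * Complex.I * (1 - lam) * z) * W z) :=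
    (li_mdiff_exp _).mul hW
  have hper1 : ∀ z : ℍ, (fun z : ℍ => cexp (2 * π * Complex.I * (1 - lam) * z) * W z)
      ((1 : ℝ) +ᵥ z) = (fun z : ℍ => cexp (2 * π * Complex.I * (1 - lam) * z) * W z) z := by
    intro z
    simp only [hshift, coe_vadd]
    rw [← mul_assoc, ← Complex.exp_add]
    congr 1
    rw [← Complex.exp_periodic.sub_eq]
    congr 1
    push_cast
    ring
  have hzero1 : IsZeroAtImInfty
      (fun z : ℍ => cexp (2 * π * Complex.I * (1 - lam) * z) * W z) := by
    have hq : Tendsto (fun z : ℍ => cexp (2 * π * Complex.I * (1 - lam) * z)) atImInfty (𝓝 0) := by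
      have := qParam_tendsto_atImInfty (h := (1 - lam)⁻¹) (inv_pos.mpr hμ)
      refine this.congr fun z => ?_
      rw [Periodic.qParam]
      congr 1
      push_cast
      field_simp
    have hO : (fun z : ℍ => cexp (2 * π * Complex.I * (1 - lam) * z) * W z) =O[atImInfty]
        (fun z : ℍ => cexp (2 * π * Complex.I * (1 - lam) * z) * (1 : ℂ)) :=
      (Asymptotics.isBigO_refl _ _).mul (show W =O[atImInfty] (fun _ : ℍ => (1 : ℂ)) from
        (by simpa [IsBoundedAtImInfty, BoundedAtFilter, Pi.one_def] using hbd))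
    simp only [mul_one] at hO
    exact hO.trans_tendsto hq
  obtain ⟨L, hL⟩ := li_tendsto_div_q hV1 hper1 hzero1
  have hL' : Tendsto (fun z : ℍ => cexp (-2 * π * Complex.I * lam * z) * W z) atImInfty (𝓝 L) := by
    refine hL.congr fun z => ?_
    rw [← mul_assoc, ← Complex.exp_add]
    congr 2
    ring
  refine ⟨L, hL', ?_⟩
  rintro rfl
  -- second step: the twisted function itself is periodic and tends to zero
  have hV2 : MDiff (fun z : ℍ => cexp (-2 * π * Complex.I * lam * z) * W z) :=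
    (li_mdiff_exp _).mul hW
  have hper2 : ∀ z : ℍ, (fun z : ℍ => cexp (-2 * π * Complex.I * lam * z) * W z)
      ((1 : ℝ) +ᵥ z) = (fun z : ℍ => cexp (-2 * π * Complex.I * lam * z) * W z) z := by
    intro z
    simp only [hshift, coe_vadd]
    rw [← mul_assoc, ← Complex.exp_add]
    congr 2
    push_cast
    ring
  have hdec := IsZeroAtImInfty.exp_decay_atImInfty (f := fun z : ℍ =>
    cexp (-2 * π * Complex.I * lam * z) * W z) hL' one_pos (li_periodic_comp hper2) hV2
    (IsZeroAtImInfty.isBoundedAtImInfty hL')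
  have hle : W =O[atImInfty] (fun z : ℍ => cexp (-2 * π * Complex.I * lam * z) * W z) := by
    refine Asymptotics.isBigO_of_le _ fun z => ?_
    rw [norm_mul]
    have : cexp (-2 * π * Complex.I * lam * z) = cexp (2 * π * Complex.I * (-lam : ℝ) * z) := by
      congr 1; push_cast; ring
    rw [this, li_norm_exp]
    have h1le : 1 ≤ Real.exp (-2 * π * (-lam) * z.im) := by
      apply Real.one_le_exp
      have := z.im_pos
      have := Real.pi_pos
      nlinarith [mul_nonneg (mul_nonneg Real.pi_pos.le h0) z.im_pos.le]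
    exact le_mul_of_one_le_left (norm_nonneg _) h1le
  refine (hle.trans hdec).congr_right fun z => ?_
  simp

section DFT

variable {G X : Type} [Group G] [MulAction G X] [Fintype X] [DecidableEq X] (g : G)

/-- the orbit space of `⟨g⟩` on `X`. -/
abbrev liOrb (X : Type) [MulAction G X] : Type :=
  MulAction.orbitRel.Quotient (Subgroup.zpowers g) X

/-- the width (size) of the orbit `ω`. -/
noncomputable def liW (ω : liOrb g X) : ℕ := minimalPeriod (g • ·) ω.out

instance liW_neZero (ω : liOrb g X) : NeZero (liW g ω) := by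
  unfold liW
  infer_instance

/-- coordinates on `X`: orbit and position inside the orbit. -/
noncomputable def liEqv : X ≃ Σ ω : liOrb g X, ZMod (liW g ω) :=
  (MulAction.selfEquivSigmaOrbits (Subgroup.zpowers g) X).trans
    (Equiv.sigmaCongrRight fun ω => MulAction.orbitZPowersEquiv g ω.out)

theorem liEqv_symm_apply (ω : liOrb g X) (k : ZMod (liW g ω)) :
    (liEqv g).symm ⟨ω, k⟩ = g ^ (ZMod.cast k : ℤ) • ω.out := by
  rfl

theorem liEqv_symm_succ (ω : liOrb g X) (k : ZMod (liW g ω)) :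
    (liEqv g).symm ⟨ω, k + 1⟩ = g • (liEqv g).symm ⟨ω, k⟩ := by
  rw [liEqv_symm_apply, liEqv_symm_apply]
  have h : (k + 1 : ZMod (liW g ω)) = (((ZMod.cast k : ℤ) + 1 : ℤ) : ZMod (liW g ω)) := by
    simp
  rw [h, ZMod.coe_intCast]
  have := MulAction.zpow_smul_mod_minimalPeriod g ω.out ((ZMod.cast k : ℤ) + 1)
  refine this.trans ?_
  rw [add_comm, zpow_add, zpow_one, mul_smul]

/-- the block discrete Fourier transform along the orbits of `g`. -/
noncomputable def liDFT : (X → ℂ) ≃ₗ[ℂ] (X → ℂ) :=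
  (LinearEquiv.funCongrLeft ℂ ℂ (liEqv g).symm).trans <|
    (LinearEquiv.piCurry ℂ (fun (ω : liOrb g X) (_ : ZMod (liW g ω)) => ℂ)).trans <|
    (LinearEquiv.piCongrRight fun ω : liOrb g X =>
      (ZMod.dft : (ZMod (liW g ω) → ℂ) ≃ₗ[ℂ] _)).trans <|
    (LinearEquiv.piCurry ℂ (fun (ω : liOrb g X) (_ : ZMod (liW g ω)) => ℂ)).symm.trans <|
    (LinearEquiv.funCongrLeft ℂ ℂ (liEqv g))

theorem liDFT_apply (v : X → ℂ) (x : X) :
    liDFT g v x = ∑ j : ZMod (liW g (liEqv g x).1),
      ZMod.stdAddChar (-(j * (liEqv g x).2)) * v ((liEqv g).symm ⟨(liEqv g x).1, j⟩) := by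
  rfl

theorem liDFT_shift (v : X → ℂ) (x : X) :
    liDFT g (fun y => v (g • y)) x = ZMod.stdAddChar (liEqv g x).2 * liDFT g v x := by
  rw [liDFT_apply, liDFT_apply, Finset.mul_sum]
  simp_rw [← liEqv_symm_succ]
  refine Fintype.sum_equiv (Equiv.addRight 1) _ _ fun j => ?_
  simp only [Equiv.coe_addRight]
  rw [← mul_assoc, ← AddChar.map_add_eq_mul]
  congr 2
  ring

/-- the exponent `a/w` attached to the point `x`. -/
noncomputable def liLam (x : X) : ℝ :=
  ((liEqv g x).2.val : ℝ) / (liW g (liEqv g x).1 : ℝ)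

theorem liLam_nonneg (x : X) : 0 ≤ liLam g x := by
  unfold liLam; positivity

theorem liLam_lt_one (x : X) : liLam g x < 1 := by
  unfold liLam
  have hpos : (0 : ℝ) < (liW g (liEqv g x).1 : ℝ) := by
    exact_mod_cast Nat.pos_of_ne_zero (NeZero.ne _)
  rw [div_lt_one hpos]
  exact_mod_cast ZMod.val_lt _

theorem li_stdAddChar_eq (x : X) :
    ZMod.stdAddChar (liEqv g x).2 = cexp (2 * π * Complex.I * liLam g x) := by
  rw [ZMod.stdAddChar_apply, ZMod.toCircle_apply, liLam]
  congr 1
  push_cast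
  ring

theorem li_sum_range (m : ℕ) : ∑ i ∈ Finset.range (m + 1), (i : ℝ) = (m + 1) * m / 2 := by
  induction m with
  | zero => simp
  | succ m ih => rw [Finset.sum_range_succ, ih]; push_cast; ring

theorem li_sum_val (n : ℕ) [NeZero n] : 2 * ∑ k : ZMod n, (k.val : ℝ) / n = (n : ℝ) - 1 := by
  cases n with
  | zero => exact absurd rfl (NeZero.ne 0)
  | succ m =>
    have h1 : ∑ k : ZMod (m + 1), (k.val : ℝ) / ((m + 1 : ℕ) : ℝ) =
        ∑ i ∈ Finset.range (m + 1), (i : ℝ) / ((m + 1 : ℕ) : ℝ) :=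
      Fin.sum_univ_eq_sum_range (fun i => (i : ℝ) / ((m + 1 : ℕ) : ℝ)) (m + 1)
    rw [h1, ← Finset.sum_div, li_sum_range]
    have : ((m + 1 : ℕ) : ℝ) ≠ 0 := by positivity
    push_cast at this ⊢
    field_simp
    ring

theorem li_sum_lam :
    2 * ∑ x : X, liLam g x = (Fintype.card X : ℝ) - Nat.card (liOrb g X) := by
  classical
  let _ : Fintype (liOrb g X) := Fintype.ofFinite _
  have hcard : (Fintype.card X : ℝ) = ∑ ω : liOrb g X, (liW g ω : ℝ) := by
    have h1 : Fintype.card X = Fintype.card (Σ ω : liOrb g X, ZMod (liW g ω)) :=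
      Fintype.card_congr (liEqv g)
    rw [h1, Fintype.card_sigma]
    push_cast
    exact Finset.sum_congr rfl fun ω _ => by rw [ZMod.card]
  have hsum : ∑ x : X, liLam g x =
      ∑ ω : liOrb g X, ∑ k : ZMod (liW g ω), (k.val : ℝ) / (liW g ω : ℝ) := by
    rw [Finset.sum_sigma', Finset.univ_sigma_univ]
    exact Fintype.sum_equiv (liEqv g) _ _ fun x => rfl
  rw [hsum, Finset.mul_sum, hcard, Nat.card_eq_fintype_card]
  simp_rw [li_sum_val]
  rw [Finset.sum_sub_distrib]
  simp

/-- the matrix of the block discrete Fourier transform. -/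
noncomputable def liU : Matrix X X ℂ :=
  LinearMap.toMatrix' ((liDFT g : (X → ℂ) ≃ₗ[ℂ] (X → ℂ)) : (X → ℂ) →ₗ[ℂ] (X → ℂ))

theorem liU_mulVec (v : X → ℂ) : (liU g).mulVec v = liDFT g v := by
  rw [liU, LinearMap.toMatrix'_mulVec]
  rfl

theorem liU_det_ne_zero : (liU g : Matrix X X ℂ).det ≠ 0 := by
  rw [liU, LinearMap.det_toMatrix' (ι := X)]
  exact (LinearEquiv.isUnit_det' (liDFT g)).ne_zero

theorem liU_shift (v : X → ℂ) (x : X) :
    (liU g).mulVec (fun y => v (g • y)) x =
      cexp (2 * π * Complex.I * liLam g x) * (liU g).mulVec v x := by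
  rw [liU_mulVec, liU_mulVec, liDFT_shift, li_stdAddChar_eq]

end DFT

section Assemble

theorem li_mdiff_sum {ι : Type} [Fintype ι] (c : ι → ℂ) (f : ι → ℍ → ℂ)
    (hf : ∀ i, MDiff (f i)) : MDiff (fun z => ∑ i, c i * f i z) := by
  have h : (fun z => ∑ i, c i * f i z) = ∑ i, (fun z => c i * f i z) := by
    funext z; simp [Finset.sum_apply]
  rw [h]
  exact MDifferentiable.sum fun i _ => mdifferentiable_const.mul (hf i)

theorem li_bigO_sum {ι : Type} [Fintype ι] (c : ι → ℂ) (f : ι → ℍ → ℂ) {E : Type}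
    [NormedAddCommGroup E] (g : ℍ → E)
    (hf : ∀ i, f i =O[atImInfty] g) : (fun z => ∑ i, c i * f i z) =O[atImInfty] g :=
  Asymptotics.IsBigO.fun_sum fun i _ => (hf i).const_mul_left (c i)

theorem li_bdd_sum {ι : Type} [Fintype ι] (c : ι → ℂ) (f : ι → ℍ → ℂ)
    (hf : ∀ i, IsBoundedAtImInfty (f i)) : IsBoundedAtImInfty (fun z => ∑ i, c i * f i z) :=
  li_bigO_sum c f _ hf

variable {X : Type} [MulAction SL(2, ℤ) X]

theorem li_vv_shift {k : ℤ} {F : ℍ → X → ℂ} (hF : IsVV X k F) (z : ℍ) (x : X) :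
    F ((1 : ℝ) +ᵥ z) x = F z ((Tmat⁻¹ : SL(2, ℤ)) • x) := by
  have h := hF.equiv Tmat z x
  rw [UpperHalfPlane.modular_T_smul] at h
  rw [h]
  have hd : denom (Tmat : SL(2, ℤ)) z = 1 := by
    rw [ModularGroup.denom_apply]
    simp [ModularGroup.T]
  rw [hd, one_zpow, one_mul]

theorem exists_leadData [Fintype X] [DecidableEq X] (_hX : GoodX X) :
    ∃ (U : Matrix X X ℂ) (lam : X → ℝ), U.det ≠ 0 ∧ (∀ x, 0 ≤ lam x ∧ lam x < 1) ∧
      (2 * ∑ x, lam x = (Fintype.card X : ℝ) - cuspsX X) ∧
      ∀ (k : ℤ) (F : ℍ → X → ℂ), IsVV X k F →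
        ∃ L : X → ℂ, (∀ x, Tendsto (fun z => twist U lam F z x) atImInfty (𝓝 (L x))) ∧
          ((∀ x, L x = 0) → ∀ x, IsBoundedAtImInfty (fun z => F z x / Δ z)) := by
  set g : SL(2, ℤ) := (Tmat⁻¹ : SL(2, ℤ)) with hg
  refine ⟨liU g, liLam g, liU_det_ne_zero g, fun x => ⟨liLam_nonneg g x, liLam_lt_one g x⟩,
    ?_, ?_⟩
  · rw [li_sum_lam]
    congr 2
    unfold cuspsX liOrb
    rw [hg, Subgroup.zpowers_inv]
  · intro k F hF
    have hWholo : ∀ x, MDiff (fun z => ((liU g).mulVec (F z)) x) := fun x =>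
      li_mdiff_sum (fun y => liU g x y) (fun y z => F z y) hF.holo
    have hWbdd : ∀ x, IsBoundedAtImInfty (fun z => ((liU g).mulVec (F z)) x) := fun x =>
      li_bdd_sum (fun y => liU g x y) (fun y z => F z y) hF.bdd
    have hWshift : ∀ x (z : ℍ), ((liU g).mulVec (F ((1 : ℝ) +ᵥ z))) x =
        cexp (2 * π * Complex.I * liLam g x) * ((liU g).mulVec (F z)) x := by
      intro x z
      rw [← liU_shift]
      congr 2
      funext y
      exact li_vv_shift hF z y
    choose L hL1 hL2 using fun x =>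
      li_lead (liLam_nonneg g x) (liLam_lt_one g x) (hWholo x) (hWbdd x) (hWshift x)
    refine ⟨L, fun x => ?_, fun hL0 y => ?_⟩
    · refine (hL1 x).congr fun z => ?_
      simp only [twist]
    · have hW : ∀ x, (fun z => ((liU g).mulVec (F z)) x) =O[atImInfty]
          (fun z : ℍ => Real.exp (-2 * π * z.im)) := fun x => hL2 x (hL0 x)
      have hinv : ∀ z, F z y = ∑ x, (liU g)⁻¹ y x * ((liU g).mulVec (F z)) x := by
        intro z
        have h1 : (liU g)⁻¹.mulVec ((liU g).mulVec (F z)) = F z := by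
          rw [Matrix.mulVec_mulVec, Matrix.nonsing_inv_mul _
            ((liU g).isUnit_iff_isUnit_det.mp
              ((Matrix.isUnit_iff_isUnit_det _).mpr (isUnit_iff_ne_zero.mpr (liU_det_ne_zero g)))),
            Matrix.one_mulVec]
        conv_lhs => rw [← h1]
        rfl
      have hFO : (fun z => F z y) =O[atImInfty] (fun z : ℍ => Real.exp (-2 * π * z.im)) := by
        simp_rw [hinv]
        exact li_bigO_sum _ _ _ hW
      have hFΔ : (fun z => F z y) =O[atImInfty] Δ := hFO.trans exp_isBigO_discriminant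
      obtain ⟨C, hC⟩ := hFΔ.bound
      refine Asymptotics.IsBigO.of_bound C ?_
      filter_upwards [hC] with z hz
      have hpos : 0 < ‖Δ z‖ := norm_pos_iff.mpr (discriminant_ne_zero z)
      rw [norm_div, Pi.one_apply, norm_one, mul_one, div_le_iff₀ hpos]
      exact hz

end Assemble

end Fermat.Agent.S20x
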