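/-
S20 project, module M06, part 1 `LocalIndepCore.lean` (helper40): evaluating vector valued forms at
the elliptic points `I`, `ρ` (eigenvector properties), and the core linear independence argument
for the values of a free basis at a point (the division lemma is an explicit hypothesis here; the
three instances are in `LocalIndep.lean`).
-/
import Fermat.Agent.S20x.L1Ring

set_option autoImplicit false

namespace Fermat.Agent.S20x

open UpperHalfPlane ModularForm EisensteinSeries Filter Complex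
open scoped MatrixGroups ModularForm Manifold Topology

variable {X : Type} [MulAction SL(2, ℤ) X]

/-! ### The elliptic points -/

theorem m06_Smat_smul_I : Smat • UpperHalfPlane.I = UpperHalfPlane.I := by
  apply UpperHalfPlane.ext
  rw [UpperHalfPlane.modular_S_smul]
  simp [UpperHalfPlane.I]

theorem m06_denom_Smat (z : ℍ) : denom Smat z = z := by
  simpa using ModularGroup.denom_S z

theorem m06_Umat_entries : (Umat : Matrix (Fin 2) (Fin 2) ℤ) = !![0, -1; 1, 1] := by
  show ((ModularGroup.S * ModularGroup.T : SL(2, ℤ)) : Matrix (Fin 2) (Fin 2) ℤ) = _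
  rw [Matrix.SpecialLinearGroup.coe_mul, ModularGroup.coe_S, ModularGroup.coe_T]
  ext i j
  fin_cases i <;> fin_cases j <;> simp [Matrix.mul_apply, Fin.sum_univ_two]

theorem m06_denom_Umat (z : ℍ) : denom Umat z = (z : ℂ) + 1 := by
  rw [ModularGroup.denom_apply, m06_Umat_entries]
  simp

theorem m06_Umat_smul (z : ℍ) : ((Umat • z : ℍ) : ℂ) = -1 / ((z : ℂ) + 1) := by
  have h := UpperHalfPlane.coe_specialLinearGroup_apply Umat z
  rw [h, m06_Umat_entries]
  simp

theorem m06_rhoPt_coe : ((rhoPt : ℍ) : ℂ) = ⟨-1 / 2, Real.sqrt 3 / 2⟩ := rfl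

theorem m06_rho_add_one : ((rhoPt : ℍ) : ℂ) + 1 = cexp (Real.pi * Complex.I / 3) := by
  have h : (Real.pi : ℂ) * Complex.I / 3 = ((Real.pi / 3 : ℝ) : ℂ) * Complex.I := by
    push_cast; ring
  rw [h, Complex.exp_mul_I, ← Complex.ofReal_cos, ← Complex.ofReal_sin, Real.cos_pi_div_three,
    Real.sin_pi_div_three, m06_rhoPt_coe]
  apply Complex.ext <;> simp <;> ring

theorem m06_rho_mul : ((rhoPt : ℍ) : ℂ) * (((rhoPt : ℍ) : ℂ) + 1) = -1 := by
  rw [m06_rhoPt_coe]
  have h3 : Real.sqrt 3 * Real.sqrt 3 = 3 := Real.mul_self_sqrt (by norm_num)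
  apply Complex.ext
  · simp
    nlinarith [h3]
  · simp
    ring

theorem m06_Umat_smul_rhoPt : Umat • rhoPt = rhoPt := by
  apply UpperHalfPlane.ext
  rw [m06_Umat_smul]
  have h1 : ((rhoPt : ℍ) : ℂ) + 1 ≠ 0 := by
    intro h
    have := m06_rho_mul
    rw [h, mul_zero] at this
    norm_num at this
  rw [div_eq_iff h1, m06_rho_mul]

/-! ### Eigenvector properties of the values at `I` and `ρ` -/

theorem ev_I_eig {k : ℤ} (hk : Even k) {F : ℍ → X → ℂ} (hF : IsVV X k F) (x : X) :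
    F UpperHalfPlane.I (Smat • x) = (-1 : ℂ) ^ (k / 2) * F UpperHalfPlane.I x := by
  have h := hF.equiv Smat UpperHalfPlane.I (Smat • x)
  rw [m06_Smat_smul_I, inv_smul_smul, m06_denom_Smat] at h
  rw [h]
  congr 1
  obtain ⟨m, rfl⟩ := hk
  have hm : (m + m) / 2 = m := by omega
  rw [hm, zpow_add₀ (by simp [UpperHalfPlane.I] : ((UpperHalfPlane.I : ℍ) : ℂ) ≠ 0), ← mul_zpow]
  congr 1
  simp [UpperHalfPlane.I]

theorem ev_rho_eig {k : ℤ} (hk : Even k) {F : ℍ → X → ℂ} (hF : IsVV X k F) (x : X) :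
    F rhoPt (Umat • x) = (cexp (2 * Real.pi * Complex.I / 3)) ^ (k / 2) * F rhoPt x := by
  have h := hF.equiv Umat rhoPt (Umat • x)
  rw [m06_Umat_smul_rhoPt, inv_smul_smul, m06_denom_Umat, m06_rho_add_one] at h
  rw [h]
  congr 1
  obtain ⟨m, rfl⟩ := hk
  have hm : (m + m) / 2 = m := by omega
  rw [hm, ← Complex.exp_int_mul, ← Complex.exp_int_mul]
  congr 1
  push_cast
  ring

/-! ### Multiplying vector valued forms by level one forms -/

theorem m06_vv_cast {k l : ℤ} (h : k = l) {F : ℍ → X → ℂ} (hF : IsVV X k F) : IsVV X l F := h ▸ hF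

theorem m06_mem_SL (γ : SL(2, ℤ)) : (γ : GL (Fin 2) ℝ) ∈ 𝒮ℒ := ⟨γ, rfl⟩

theorem m06_l1_equiv {m : ℤ} {A : ℍ → ℂ} (hA : IsL1 m A) (γ : SL(2, ℤ)) (z : ℍ) :
    A (γ • z) = denom γ z ^ m * A z := by
  obtain ⟨f, rfl⟩ := hA
  have h := SlashInvariantForm.slash_action_eqn'' f (m06_mem_SL γ) z
  simpa using h

theorem m06_vv_l1_mul {m k : ℤ} {A : ℍ → ℂ} {F : ℍ → X → ℂ} (hA : IsL1 m A) (hF : IsVV X k F) :
    IsVV X (m + k) (fun z x => A z * F z x) := by
  refine ⟨fun x => ?_, fun γ z x => ?_, fun x => ?_⟩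
  · obtain ⟨f, rfl⟩ := hA
    exact (ModularFormClass.holo f).mul (hF.holo x)
  · rw [m06_l1_equiv hA, hF.equiv, zpow_add₀ (denom_ne_zero γ z)]; ring
  · obtain ⟨f, rfl⟩ := hA
    exact (ModularFormClass.bdd_at_infty f).mul (hF.bdd x)

theorem m06_indep_core [Fintype X] {J : Type} {wt : J → ℤ} {B : J → ℍ → X → ℂ}
    (hB : IsFreeBasis X J wt B) {w : ℤ} {P : ℍ → ℂ} {z₀ : ℍ} (hP : IsPrimeAt w P z₀)
    (hdiv : ∀ (k : ℤ) (F : ℍ → X → ℂ), IsVV X k F → (∀ x, F z₀ x = 0) →
      ∃ F', IsVV X (k - w) F' ∧ ∀ z x, F z x = P z * F' z x)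
    (s : Finset J) (k : ℤ)
    (hA : ∀ j ∈ s, ∃ A, IsL1 (k - wt j) A ∧ A z₀ = 1) :
    LinearIndependent ℂ (fun j : s => B j z₀) := by
  classical
  rw [Fintype.linearIndependent_iff]
  intro c hc i
  choose! A hA1 hA2 using hA
  set c' : J → ℂ := fun j => if h : j ∈ s then c ⟨j, h⟩ else 0 with hc'
  have hc's : ∀ j (h : j ∈ s), c' j = c ⟨j, h⟩ := fun j h => by simp [hc', h]
  have hc'n : ∀ j, j ∉ s → c' j = 0 := fun j h => by simp [hc', h]
  set G : ℍ → X → ℂ := fun z x => ∑ j ∈ s, (c' j * A j z) * B j z x with hGdef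
  have hG : IsVV X k G := by
    have h1 : G = ∑ j ∈ s, (fun z x => (c' j * A j z) * B j z x) := by
      funext z x
      simp [hGdef, Finset.sum_apply]
    rw [h1]
    refine (Mk X k).sum_mem fun j hj => ?_
    exact m06_vv_cast (by ring) (m06_vv_l1_mul (l1_smul (c' j) (hA1 j hj)) (hB.mem j))
  have hG0 : ∀ x, G z₀ x = 0 := by
    intro x
    have h1 : G z₀ x = ∑ j ∈ s, c' j * B j z₀ x := by
      simp only [hGdef]
      refine Finset.sum_congr rfl fun j hj => ?_
      rw [hA2 j hj, mul_one]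
    rw [h1, ← Finset.sum_coe_sort s (fun j => c' j * B j z₀ x)]
    have h2 := congrFun hc x
    simp only [Finset.sum_apply, Pi.smul_apply, smul_eq_mul, Pi.zero_apply] at h2
    rw [← h2]
    refine Finset.sum_congr rfl fun j _ => ?_
    rw [hc's j.1 j.2]
  obtain ⟨G', hG', hGG'⟩ := hdiv k G hG hG0
  obtain ⟨A', hA'1, hA'2⟩ := hB.gen (k - w) G' hG'
  set Df : J → ℍ → ℂ := fun j z => c' j * A j z - P z * A' j z with hDf
  have hDf0 : ∀ j, Df j ≠ 0 → j ∈ s ∪ A'.support := by
    intro j hj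
    by_contra hjn
    rw [Finset.mem_union, not_or] at hjn
    apply hj
    funext z
    have h1 : A' j = 0 := by simpa using hjn.2
    simp [hDf, hc'n j hjn.1, h1]
  set D : J →₀ (ℍ → ℂ) := Finsupp.onFinset (s ∪ A'.support) Df hDf0 with hD
  have hD1 : ∀ j, IsL1 (k - wt j) (D j) := by
    intro j
    rw [hD, Finsupp.onFinset_apply]
    have hPA : IsL1 (k - wt j) (fun z => P z * A' j z) :=
      l1_cast (by ring) (l1_mul hP.l1 (hA'1 j))
    by_cases hj : j ∈ s
    · exact l1_sub (l1_smul (c' j) (hA1 j hj)) hPA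
    · have h0 : (fun z => c' j * A j z) = (0 : ℍ → ℂ) := by
        funext z; simp [hc'n j hj]
      have := l1_sub (h0 ▸ l1_zero (k - wt j)) hPA
      simpa [hDf, hc'n j hj] using this
  have hD2 : ∀ z x, D.sum (fun j a => a z * B j z x) = 0 := by
    intro z x
    rw [hD, Finsupp.onFinset_sum hDf0 (fun j => by simp)]
    have e1 : ∑ j ∈ s ∪ A'.support, Df j z * B j z x
        = ∑ j ∈ s ∪ A'.support, (c' j * A j z) * B j z x
          - P z * ∑ j ∈ s ∪ A'.support, A' j z * B j z x := by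
      rw [Finset.mul_sum, ← Finset.sum_sub_distrib]
      refine Finset.sum_congr rfl fun j _ => ?_
      simp only [hDf]; ring
    have e2 : ∑ j ∈ s ∪ A'.support, (c' j * A j z) * B j z x = G z x := by
      simp only [hGdef]
      symm
      refine Finset.sum_subset Finset.subset_union_left fun j _ hj => ?_
      rw [hc'n j hj]; ring
    have e3 : ∑ j ∈ s ∪ A'.support, A' j z * B j z x = G' z x := by
      rw [hA'2 z x]
      symm
      exact Finsupp.sum_of_support_subset A' Finset.subset_union_right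
        (fun j a => a z * B j z x) (fun j _ => by simp)
    rw [e1, e2, e3, hGG' z x, sub_self]
  have hD0 := hB.indep k D hD1 hD2
  have h1 : D i.1 z₀ = 0 := by rw [hD0]; rfl
  rw [hD, Finsupp.onFinset_apply] at h1
  simp only [hDf] at h1
  rw [hA2 i.1 i.2, hP.zero, hc's i.1 i.2] at h1
  simpa using h1

end Fermat.Agent.S20x
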