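/-
S20 project, module M05a `Regular.lean`: `(E₄, E₆)` is a regular sequence on `M(X)` and the
vanishing statements for vector-valued forms (negative weight, odd weight, weight zero).
-/
import Fermat.Agent.S20x.Defs

set_option autoImplicit false

namespace Fermat.Agent.S20x

open UpperHalfPlane ModularForm EisensteinSeries Filter Complex Derivative
open scoped MatrixGroups ModularForm Manifold Topology

local notation "Δ" => ModularForm.discriminant

variable {X : Type} [MulAction SL(2, ℤ) X]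

/-! ### auxiliary facts on level one forms -/

/-- equivariance of a level one form as a plain identity. -/
theorem regular_l1_equiv {k : ℤ} (f : ModularForm 𝒮ℒ k) (γ : SL(2, ℤ)) (z : ℍ) :
    f (γ • z) = denom γ z ^ k * f z := by
  have hγ : (Matrix.SpecialLinearGroup.mapGL ℝ γ) ∈ 𝒮ℒ := ⟨γ, rfl⟩
  exact SlashInvariantForm.slash_action_eqn'' f hγ z

/-- equivariance of `Δ` as a plain identity. -/
theorem regular_delta_equiv (γ : SL(2, ℤ)) (z : ℍ) : Δ (γ • z) = denom γ z ^ (12 : ℤ) * Δ z := by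
  have hγ : (Matrix.SpecialLinearGroup.mapGL ℝ γ) ∈ 𝒮ℒ := ⟨γ, rfl⟩
  exact SlashInvariantForm.slash_action_eqn'' CuspForm.discriminant hγ z

/-- a level one form tends to its constant term at `i∞`. -/
theorem regular_l1_tendsto {k : ℤ} (f : ModularForm 𝒮ℒ k) :
    Tendsto (⇑f) atImInfty (𝓝 ((qExpansion 1 f).coeff 0)) := by
  have hanal := ModularFormClass.analyticAt_cuspFunction_zero f one_pos one_mem_strictPeriods_SL
  have hper := SlashInvariantFormClass.periodic_comp_ofComplex f one_mem_strictPeriods_SL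
  rw [qExpansion_coeff_zero one_pos hanal hper, ← cuspFunction_apply_zero one_pos hanal hper]
  exact (hanal.continuousAt.tendsto.comp (qParam_tendsto_atImInfty one_pos)).congr
    (fun τ ↦ SlashInvariantFormClass.eq_cuspFunction f τ one_mem_strictPeriods_SL one_ne_zero)

theorem regular_E4_tendsto : Tendsto (⇑E₄) atImInfty (𝓝 1) := by
  have h := regular_l1_tendsto E₄
  rwa [show ((qExpansion 1 E₄).coeff 0 : ℂ) = 1 from
    EisensteinSeries.E_qExpansion_coeff_zero (k := 4) (by norm_num) (by decide)] at h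

theorem regular_E4_norm_ge : ∀ᶠ z in atImInfty, (1 / 2 : ℝ) ≤ ‖E₄ z‖ := by
  have h := regular_E4_tendsto.norm
  have h1 : (1 / 2 : ℝ) < ‖(1 : ℂ)‖ := by norm_num
  exact (h.eventually (lt_mem_nhds h1)).mono fun z hz => hz.le

theorem regular_mdiff_div {f g : ℍ → ℂ} (hf : MDiff f) (hg : MDiff g) (h0 : ∀ z, g z ≠ 0) :
    MDiff (fun z => f z / g z) := by
  rw [UpperHalfPlane.mdifferentiable_iff] at hf hg ⊢
  exact hf.div hg (fun z _ => h0 _)

theorem regular_mdiff_delta : MDiff (Δ : ℍ → ℂ) := CuspForm.discriminant.holo'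

/-! ### regular sequence -/

theorem vv_regular {k : ℤ} {G H : ℍ → X → ℂ} (hG : IsVV X k G) (hH : IsVV X (k + 2) H)
    (h : ∀ z x, E₆ z * G z x = E₄ z * H z x) :
    ∃ Y, IsVV X (k - 4) Y ∧ (∀ z x, G z x = E₄ z * Y z x) ∧ (∀ z x, H z x = E₆ z * Y z x) := by
  have hD : ∀ z : ℍ, (1728 : ℂ) * Δ z ≠ 0 := fun z =>
    mul_ne_zero (by norm_num) (discriminant_ne_zero z)
  have hD' : ∀ z : ℍ, (1728 : ℂ) * Δ z = E₄ z ^ 3 - E₆ z ^ 2 := fun z => by
    rw [discriminant_eq_E₄_cube_sub_E₆_sq]; ring
  set Y : ℍ → X → ℂ := fun z x => (E₄ z ^ 2 * G z x - E₆ z * H z x) / (1728 * Δ z) with hY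
  have hGY : ∀ z x, G z x = E₄ z * Y z x := by
    intro z x
    simp only [hY]
    rw [mul_div_assoc', eq_div_iff (hD z), hD']
    linear_combination (-E₆ z) * h z x
  have hHY : ∀ z x, H z x = E₆ z * Y z x := by
    intro z x
    simp only [hY]
    rw [mul_div_assoc', eq_div_iff (hD z), hD']
    linear_combination (-E₄ z ^ 2) * h z x
  refine ⟨Y, ⟨fun x => ?_, fun γ z x => ?_, fun x => ?_⟩, hGY, hHY⟩
  · -- holomorphy
    have hnum : MDiff (fun z => E₄ z ^ 2 * G z x - E₆ z * H z x) :=
      ((E₄.holo'.pow 2).mul (hG.holo x)).sub (E₆.holo'.mul (hH.holo x))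
    have hden : MDiff (fun z : ℍ => (1728 : ℂ) * Δ z) :=
      mdifferentiable_const.mul regular_mdiff_delta
    exact regular_mdiff_div hnum hden hD
  · -- equivariance
    have hd : denom γ z ≠ 0 := denom_ne_zero γ z
    simp only [hY]
    rw [regular_l1_equiv E₄, regular_l1_equiv E₆, regular_delta_equiv, hG.equiv, hH.equiv]
    have e1 : denom γ z ^ (k + 2) = denom γ z ^ (k - 4) * denom γ z ^ (6 : ℕ) := by
      rw [← zpow_natCast, ← zpow_add₀ hd]; congr 1; push_cast; ring
    have e2 : denom γ z ^ k = denom γ z ^ (k - 4) * denom γ z ^ (4 : ℕ) := by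
      rw [← zpow_natCast, ← zpow_add₀ hd]; congr 1; push_cast; ring
    rw [e1, e2]
    simp only [zpow_ofNat]
    have hΔ := discriminant_ne_zero z
    field_simp
  · -- boundedness
    have hb := hG.bdd x
    rw [IsBoundedAtImInfty, BoundedAtFilter] at hb ⊢
    refine Asymptotics.IsBigO.trans ?_ hb
    refine Asymptotics.IsBigO.of_bound 2 ?_
    filter_upwards [regular_E4_norm_ge] with z hz
    rw [hGY z x, norm_mul]
    nlinarith [norm_nonneg (Y z x)]

/-! ### components as scalar modular forms for the stabilizer -/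

theorem regular_stab_finiteIndex [Finite X] (x : X) :
    (MulAction.stabilizer SL(2, ℤ) x).FiniteIndex := by
  refine ⟨?_⟩
  rw [MulAction.index_stabilizer]
  exact Set.ncard_ne_zero_of_mem (MulAction.mem_orbit_self x) (Set.toFinite _)

/-- slashing a component of an equivariant function moves the component. -/
theorem regular_comp_slash {k : ℤ} {F : ℍ → X → ℂ}
    (hF : ∀ (γ : SL(2, ℤ)) (z : ℍ) (x : X), F (γ • z) x = denom γ z ^ k * F z (γ⁻¹ • x))
    (x : X) (γ : SL(2, ℤ)) :
    (fun z => F z x) ∣[k] γ = fun z => F z (γ⁻¹ • x) := by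
  funext z
  rw [SL_slash_apply, hF, mul_comm, ← mul_assoc, ← zpow_add₀ (denom_ne_zero γ z)]
  simp

/-- the component at `x` of a vector valued form, as a scalar modular form for the stabilizer. -/
noncomputable def regularCompForm [Finite X] {k : ℤ} {F : ℍ → X → ℂ} (hF : IsVV X k F) (x : X) :
    haveI := regular_stab_finiteIndex x
    ModularForm ((MulAction.stabilizer SL(2, ℤ) x : Subgroup SL(2, ℤ)) :
      Subgroup (GL (Fin 2) ℝ)) k :=
  haveI := regular_stab_finiteIndex x
  { toFun := fun z => F z x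
    slash_action_eq' := by
      rintro _ ⟨γ, hγ, rfl⟩
      have h1 := regular_comp_slash hF.equiv x γ
      have h2 : γ⁻¹ • x = x := by
        have : γ⁻¹ ∈ MulAction.stabilizer SL(2, ℤ) x := inv_mem hγ
        exact this
      rw [h2] at h1
      exact h1
    holo' := hF.holo x
    bdd_at_cusps' := by
      intro c hc
      have hc' : IsCusp c 𝒮ℒ := (Subgroup.IsArithmetic.isCusp_iff_isCusp_SL2Z _).mp hc
      rw [OnePoint.isBoundedAt_iff_forall_SL2Z hc']
      intro γ _
      rw [regular_comp_slash hF.equiv]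
      exact hF.bdd _ }

/-! ### vanishing theorems -/

theorem vv_eq_zero_of_neg (hX : GoodX X) {k : ℤ} (hk : k < 0) {F : ℍ → X → ℂ}
    (hF : IsVV X k F) : F = 0 := by
  have := hX.finite
  funext z x
  have := regular_stab_finiteIndex x
  have h := ModularForm.isZero_of_neg_weight hk (regularCompForm hF x)
  exact DFunLike.congr_fun h z

theorem vv_eq_zero_of_odd (hX : GoodX X) {k : ℤ} (hk : Odd k) {F : ℍ → X → ℂ}
    (hF : IsVV X k F) : F = 0 := by
  funext z x
  have h := hF.equiv (-1) z x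
  have h1 : ((-1 : SL(2, ℤ)) • z) = z := by
    rw [ModularGroup.SL_neg_smul, one_smul]
  have h2 : denom (-1 : SL(2, ℤ)) z = -1 := by
    rw [ModularGroup.denom_apply]
    simp
  have h3 : ((-1 : SL(2, ℤ))⁻¹ • x) = x := by
    rw [inv_neg, inv_one]
    exact hX.neg_one x
  rw [h1, h2, h3, hk.neg_one_zpow] at h
  have : (2 : ℂ) * F z x = 0 := by linear_combination h
  simpa using this

theorem vv_const_of_zero (hX : GoodX X) {F : ℍ → X → ℂ} (hF : IsVV X 0 F) :
    ∃ c : ℂ, F = fun _ _ => c := by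
  have := hX.finite
  have := hX.trans
  have hc : ∀ x, ∃ c, (fun z => F z x) = Function.const ℍ c := fun x => by
    have := regular_stab_finiteIndex x
    exact ModularForm.eq_const_of_weight_zero (regularCompForm hF x)
  choose c hc using hc
  have hc' : ∀ z x, F z x = c x := fun z x => congrFun (hc x) z
  rcases isEmpty_or_nonempty X with hE | ⟨⟨x₀⟩⟩
  · exact ⟨0, by funext z x; exact (hE.false x).elim⟩
  · refine ⟨c x₀, ?_⟩
    funext z x
    obtain ⟨γ, hγ⟩ := MulAction.exists_smul_eq SL(2, ℤ) x x₀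
    have h1 := hF.equiv γ⁻¹ z x
    rw [inv_inv, hγ, zpow_zero, one_mul, hc', hc'] at h1
    rw [hc', h1]

theorem vvcusp_eq_zero_of_nonpos (hX : GoodX X) {k : ℤ} (hk : k ≤ 0) {F : ℍ → X → ℂ}
    (hF : IsVVCusp X k F) : F = 0 := by
  rcases lt_or_eq_of_le hk with hk | rfl
  · exact vv_eq_zero_of_neg hX hk hF.toIsVV
  · obtain ⟨c, rfl⟩ := vv_const_of_zero hX hF.toIsVV
    funext z x
    have h := hF.zero x
    rw [IsZeroAtImInfty, ZeroAtFilter] at h
    have : c = 0 := tendsto_const_nhds_iff.mp h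
    simp [this]

end Fermat.Agent.S20x
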