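/-
S20 helper library: shared utilities (level one predicate `IsL1`, closure properties of `IsVV`,
pairing, elementary symmetric functions).
-/
import Fermat.Agent.S20x.Defs

set_option autoImplicit false

namespace Fermat.Agent.S20x

open UpperHalfPlane ModularForm EisensteinSeries Filter Complex
open scoped MatrixGroups ModularForm Manifold Topology

local notation "Δ" => ModularForm.discriminant

/-! ### The predicate `IsL1` -/

/-- the equivariance property of weight `k` (plain form). -/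
def IsEquiv1 (k : ℤ) (A : ℍ → ℂ) : Prop :=
  ∀ (γ : SL(2, ℤ)) (z : ℍ), A (γ • z) = denom γ z ^ k * A z

theorem slash_eq_iff_equiv {k : ℤ} {A : ℍ → ℂ} :
    (∀ γ : SL(2, ℤ), A ∣[k] γ = A) ↔ IsEquiv1 k A := by
  constructor
  · intro h γ z
    have := congrFun (h γ) z
    rw [SL_slash_apply] at this
    have hd : denom (Matrix.SpecialLinearGroup.toGL
        ((Matrix.SpecialLinearGroup.map (Int.castRingHom ℝ)) γ)) z ≠ 0 := denom_ne_zero _ z
    rw [zpow_neg] at this
    rw [← this]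
    field_simp
  · intro h γ
    ext z
    rw [SL_slash_apply, h γ z, zpow_neg]
    have hd : denom (Matrix.SpecialLinearGroup.toGL
        ((Matrix.SpecialLinearGroup.map (Int.castRingHom ℝ)) γ)) z ≠ 0 := denom_ne_zero _ z
    field_simp

theorem isL1_iff {k : ℤ} {A : ℍ → ℂ} :
    IsL1 k A ↔ MDiff A ∧ IsEquiv1 k A ∧ IsBoundedAtImInfty A := by
  constructor
  · rintro ⟨f, rfl⟩
    refine ⟨f.holo', ?_, ?_⟩
    · rw [← slash_eq_iff_equiv]
      intro γ
      exact SlashInvariantFormClass.slash_action_eq f _ ⟨γ, rfl⟩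
    · have hc : IsCusp (OnePoint.infty : OnePoint ℝ) 𝒮ℒ := by
        rw [isCusp_SL2Z_iff']
        exact ⟨1, by simp⟩
      have := f.bdd_at_cusps' hc
      rwa [OnePoint.isBoundedAt_infty_iff] at this
  · rintro ⟨hA, hE, hB⟩
    rw [← slash_eq_iff_equiv] at hE
    refine ⟨{ toFun := A
              slash_action_eq' := ?_
              holo' := hA
              bdd_at_cusps' := ?_ }, rfl⟩
    · rintro _ ⟨γ, rfl⟩
      exact hE γ
    · intro c hc
      rw [OnePoint.isBoundedAt_iff_forall_SL2Z hc]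
      intro γ _
      rw [hE γ]
      exact hB

theorem IsL1.mdiff {k : ℤ} {A : ℍ → ℂ} (h : IsL1 k A) : MDiff A := (isL1_iff.mp h).1
theorem IsL1.equiv {k : ℤ} {A : ℍ → ℂ} (h : IsL1 k A) : IsEquiv1 k A := (isL1_iff.mp h).2.1
theorem IsL1.bdd {k : ℤ} {A : ℍ → ℂ} (h : IsL1 k A) : IsBoundedAtImInfty A := (isL1_iff.mp h).2.2

theorem isL1_E4 : IsL1 4 (⇑E₄) := ⟨E₄, rfl⟩
theorem isL1_E6 : IsL1 6 (⇑E₆) := ⟨E₆, rfl⟩

theorem IsL1.congr_weight {k l : ℤ} {A : ℍ → ℂ} (h : IsL1 k A) (hkl : k = l) : IsL1 l A := hkl ▸ h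

theorem IsL1.congr_fun' {k : ℤ} {A B : ℍ → ℂ} (h : IsL1 k A) (hAB : ∀ z, A z = B z) : IsL1 k B := by
  have : A = B := funext hAB
  exact this ▸ h

theorem IsL1.mul {k l : ℤ} {A B : ℍ → ℂ} (hA : IsL1 k A) (hB : IsL1 l B) :
    IsL1 (k + l) (fun z => A z * B z) := by
  rw [isL1_iff]
  refine ⟨hA.mdiff.mul hB.mdiff, fun γ z => ?_, hA.bdd.mul hB.bdd⟩
  show A (γ • z) * B (γ • z) = _ * (A z * B z)
  rw [hA.equiv γ z, hB.equiv γ z, zpow_add₀ (denom_ne_zero _ z)]
  ring

theorem IsL1.add {k : ℤ} {A B : ℍ → ℂ} (hA : IsL1 k A) (hB : IsL1 k B) :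
    IsL1 k (fun z => A z + B z) := by
  obtain ⟨f, rfl⟩ := hA
  obtain ⟨g, rfl⟩ := hB
  exact ⟨f + g, rfl⟩

theorem IsL1.smul {k : ℤ} {A : ℍ → ℂ} (c : ℂ) (hA : IsL1 k A) : IsL1 k (fun z => c * A z) := by
  obtain ⟨f, rfl⟩ := hA
  exact ⟨c • f, rfl⟩

theorem isL1_zero (k : ℤ) : IsL1 k (0 : ℍ → ℂ) := ⟨0, rfl⟩

theorem IsL1.neg {k : ℤ} {A : ℍ → ℂ} (hA : IsL1 k A) : IsL1 k (fun z => - A z) := by
  obtain ⟨f, rfl⟩ := hA
  exact ⟨-f, rfl⟩

theorem IsL1.sub {k : ℤ} {A B : ℍ → ℂ} (hA : IsL1 k A) (hB : IsL1 k B) :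
    IsL1 k (fun z => A z - B z) := by
  obtain ⟨f, rfl⟩ := hA
  obtain ⟨g, rfl⟩ := hB
  exact ⟨f - g, rfl⟩

theorem IsL1.sum {ι : Type*} (s : Finset ι) {k : ℤ} {A : ι → ℍ → ℂ} (hA : ∀ i ∈ s, IsL1 k (A i)) :
    IsL1 k (fun z => ∑ i ∈ s, A i z) := by
  classical
  induction s using Finset.induction_on with
  | empty => exact (isL1_zero k).congr_fun' (fun z => by simp)
  | insert a s ha ih =>
    have h1 := hA a (Finset.mem_insert_self a s)
    have h2 := ih (fun i hi => hA i (Finset.mem_insert_of_mem hi))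
    exact (h1.add h2).congr_fun' (fun z => by rw [Finset.sum_insert ha])

theorem isL1_const (c : ℂ) : IsL1 0 (fun _ => c) := by
  rw [isL1_iff]
  refine ⟨mdifferentiable_const, fun γ z => by simp, ?_⟩
  exact Filter.const_boundedAtFilter _ c

theorem IsL1.pow {k : ℤ} {A : ℍ → ℂ} (hA : IsL1 k A) (n : ℕ) :
    IsL1 (n * k) (fun z => A z ^ n) := by
  induction n with
  | zero => exact ((isL1_const 1).congr_weight (by simp)).congr_fun' (fun z => by simp)
  | succ n ih =>
    have := ih.mul hA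
    have hw : (n : ℤ) * k + k = ((n + 1 : ℕ) : ℤ) * k := by push_cast; ring
    exact (this.congr_weight hw).congr_fun' (fun z => by rw [pow_succ])

theorem isL1_delta : IsL1 12 Δ := by
  rw [isL1_iff]
  refine ⟨CuspForm.discriminant.holo', ?_, discriminant_isZeroAtImInfty.isBoundedAtImInfty⟩
  rw [← slash_eq_iff_equiv]
  intro γ
  exact SlashInvariantFormClass.slash_action_eq CuspForm.discriminant _ ⟨γ, rfl⟩

/-! ### Closure properties of `IsVV` -/

variable {X : Type} [MulAction SL(2, ℤ) X]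

theorem IsVV.add {k : ℤ} {F H : ℍ → X → ℂ} (hF : IsVV X k F) (hH : IsVV X k H) :
    IsVV X k (fun z x => F z x + H z x) := (Mk X k).add_mem hF hH

theorem IsVV.smul {k : ℤ} {F : ℍ → X → ℂ} (c : ℂ) (hF : IsVV X k F) :
    IsVV X k (fun z x => c * F z x) := (Mk X k).smul_mem c hF

theorem isVV_zero (k : ℤ) : IsVV X k (0 : ℍ → X → ℂ) := (Mk X k).zero_mem

theorem IsVV.neg {k : ℤ} {F : ℍ → X → ℂ} (hF : IsVV X k F) :
    IsVV X k (fun z x => - F z x) := (Mk X k).neg_mem hF

theorem IsVV.sub {k : ℤ} {F H : ℍ → X → ℂ} (hF : IsVV X k F) (hH : IsVV X k H) :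
    IsVV X k (fun z x => F z x - H z x) := (Mk X k).sub_mem hF hH

theorem IsVV.congr_fun' {k : ℤ} {F H : ℍ → X → ℂ} (hF : IsVV X k F) (h : ∀ z x, F z x = H z x) :
    IsVV X k H := by
  have : F = H := funext fun z => funext fun x => h z x
  exact this ▸ hF

theorem IsVV.congr_weight {k l : ℤ} {F : ℍ → X → ℂ} (hF : IsVV X k F) (h : k = l) :
    IsVV X l F := h ▸ hF

theorem IsVV.sum {ι : Type*} (s : Finset ι) {k : ℤ} {F : ι → ℍ → X → ℂ}
    (hF : ∀ i ∈ s, IsVV X k (F i)) : IsVV X k (fun z x => ∑ i ∈ s, F i z x) := by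
  have := (Mk X k).sum_mem hF
  refine IsVV.congr_fun' this (fun z x => ?_)
  simp [Finset.sum_apply]

/-- multiplication of a vector valued form by a level one form. -/
theorem IsVV.l1_mul {m k : ℤ} {A : ℍ → ℂ} {F : ℍ → X → ℂ} (hA : IsL1 m A) (hF : IsVV X k F) :
    IsVV X (m + k) (fun z x => A z * F z x) := by
  refine ⟨fun x => hA.mdiff.mul (hF.holo x), fun γ z x => ?_, fun x => hA.bdd.mul (hF.bdd x)⟩
  rw [hA.equiv γ z, hF.equiv γ z x, zpow_add₀ (denom_ne_zero _ z)]
  ring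

/-- componentwise powers. -/
theorem IsVV.pow {k : ℤ} {F : ℍ → X → ℂ} (hF : IsVV X k F) (n : ℕ) :
    IsVV X (n * k) (fun z x => F z x ^ n) := by
  refine ⟨fun x => ?_, fun γ z x => ?_, fun x => ?_⟩
  · exact (hF.holo x).pow n
  · rw [hF.equiv γ z x, mul_pow, ← zpow_natCast, ← zpow_mul, mul_comm k]
  · have h := (boundedAtImInftySubalgebra ℂ).pow_mem (hF.bdd x) n
    exact h

/-! ### Sums over `X` are invariant under the action -/

theorem sum_smul_eq [Fintype X] (γ : SL(2, ℤ)) (g : X → ℂ) : ∑ x, g (γ • x) = ∑ x, g x :=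
  Equiv.sum_comp (MulAction.toPerm γ) g

theorem mdiff_sum {ι : Type*} (s : Finset ι) {f : ι → ℍ → ℂ} (hf : ∀ i ∈ s, MDiff (f i)) :
    MDiff (fun z => ∑ i ∈ s, f i z) := by
  classical
  induction s using Finset.induction_on with
  | empty => simpa using (mdifferentiable_const : MDiff (fun _ : ℍ => (0 : ℂ)))
  | insert a s ha ih =>
    have h1 := hf a (Finset.mem_insert_self a s)
    have h2 := ih (fun i hi => hf i (Finset.mem_insert_of_mem hi))
    have : (fun z => ∑ i ∈ insert a s, f i z) = fun z => f a z + ∑ i ∈ s, f i z := by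
      funext z; rw [Finset.sum_insert ha]
    rw [this]
    exact h1.add h2

theorem mdiff_prod {ι : Type*} (s : Finset ι) {f : ι → ℍ → ℂ} (hf : ∀ i ∈ s, MDiff (f i)) :
    MDiff (fun z => ∏ i ∈ s, f i z) := by
  classical
  induction s using Finset.induction_on with
  | empty => simpa using (mdifferentiable_const : MDiff (fun _ : ℍ => (1 : ℂ)))
  | insert a s ha ih =>
    have h1 := hf a (Finset.mem_insert_self a s)
    have h2 := ih (fun i hi => hf i (Finset.mem_insert_of_mem hi))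
    have : (fun z => ∏ i ∈ insert a s, f i z) = fun z => f a z * ∏ i ∈ s, f i z := by
      funext z; rw [Finset.prod_insert ha]
    rw [this]
    exact h1.mul h2

theorem bdd_sum {ι : Type*} (s : Finset ι) {f : ι → ℍ → ℂ}
    (hf : ∀ i ∈ s, IsBoundedAtImInfty (f i)) : IsBoundedAtImInfty (fun z => ∑ i ∈ s, f i z) := by
  have := (boundedAtImInftySubalgebra ℂ).sum_mem hf
  have h2 : (∑ i ∈ s, f i) = fun z => ∑ i ∈ s, f i z := by
    funext z; simp [Finset.sum_apply]
  rw [h2] at this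
  exact this

theorem bdd_prod {ι : Type*} (s : Finset ι) {f : ι → ℍ → ℂ}
    (hf : ∀ i ∈ s, IsBoundedAtImInfty (f i)) : IsBoundedAtImInfty (fun z => ∏ i ∈ s, f i z) := by
  have := (boundedAtImInftySubalgebra ℂ).prod_mem hf
  have h2 : (∏ i ∈ s, f i) = fun z => ∏ i ∈ s, f i z := by
    funext z; simp [Finset.prod_apply]
  rw [h2] at this
  exact this

/-! ### The pairing -/

theorem pair_isL1 [Fintype X] {k l : ℤ} {F H : ℍ → X → ℂ} (hF : IsVV X k F) (hH : IsVV X l H) :
    IsL1 (k + l) (pair F H) := by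
  rw [isL1_iff]
  refine ⟨?_, fun γ z => ?_, ?_⟩
  · exact mdiff_sum _ (fun x _ => (hF.holo x).mul (hH.holo x))
  · show ∑ x, F (γ • z) x * H (γ • z) x = _ * ∑ x, F z x * H z x
    have : ∀ x, F (γ • z) x * H (γ • z) x =
        denom γ z ^ (k + l) * (F z (γ⁻¹ • x) * H z (γ⁻¹ • x)) := by
      intro x
      rw [hF.equiv γ z x, hH.equiv γ z x, zpow_add₀ (denom_ne_zero _ z)]
      ring
    simp_rw [this]
    rw [← Finset.mul_sum, sum_smul_eq γ⁻¹ (fun x => F z x * H z x)]
  · exact bdd_sum _ (fun x _ => (hF.bdd x).mul (hH.bdd x))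

theorem pair_isZeroAtImInfty [Fintype X] {k l : ℤ} {F H : ℍ → X → ℂ} (hF : IsVV X k F)
    (hH : IsVVCusp X l H) : IsZeroAtImInfty (pair F H) := by
  have h : ∀ x ∈ (Finset.univ : Finset X), (fun z => F z x * H z x) ∈ zeroAtImInftySubmodule ℂ := by
    intro x _
    have h1 : IsBoundedAtImInfty (fun z => F z x) := hF.bdd x
    have h2 : IsZeroAtImInfty (fun z => H z x) := hH.zero x
    exact Filter.BoundedAtFilter.mul_zeroAtFilter h1 h2
  have := (zeroAtImInftySubmodule ℂ).sum_mem h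
  have h2 : (∑ x, fun z => F z x * H z x) = pair F H := by
    funext z; simp [pair, Finset.sum_apply]
  rw [h2] at this
  exact this

/-! ### Elementary symmetric functions of the components -/

/-- `r`-th elementary symmetric function of the components of `F`. -/
def esym [Fintype X] (F : ℍ → X → ℂ) (r : ℕ) : ℍ → ℂ :=
  fun z => ∑ t ∈ (Finset.univ : Finset X).powersetCard r, ∏ x ∈ t, F z x

omit [MulAction SL(2, ℤ) X] in
theorem esym_eq_esymm [Fintype X] (F : ℍ → X → ℂ) (r : ℕ) (z : ℍ) :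
    esym F r z = ((Finset.univ : Finset X).val.map (F z)).esymm r := by
  rw [Finset.esymm_map_val]; rfl

theorem esym_smul_eq [Fintype X] (γ : SL(2, ℤ)) (g : X → ℂ) (r : ℕ) :
    ∑ t ∈ (Finset.univ : Finset X).powersetCard r, ∏ x ∈ t, g (γ • x) =
      ∑ t ∈ (Finset.univ : Finset X).powersetCard r, ∏ x ∈ t, g x := by
  rw [← Finset.esymm_map_val, ← Finset.esymm_map_val]
  congr 1
  have : (fun x => g (γ • x)) = g ∘ (MulAction.toPerm γ : X → X) := rfl
  rw [this, ← Multiset.map_map]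
  congr 1
  have h := Finset.map_univ_equiv (MulAction.toPerm γ : X ≃ X)
  have h2 := congrArg Finset.val h
  rw [Finset.map_val] at h2
  exact h2

theorem esym_isL1 [Fintype X] {k : ℤ} {F : ℍ → X → ℂ} (hF : IsVV X k F) (r : ℕ) :
    IsL1 (r * k) (esym F r) := by
  rw [isL1_iff]
  refine ⟨?_, fun γ z => ?_, ?_⟩
  · exact mdiff_sum _ (fun t _ => mdiff_prod _ (fun x _ => hF.holo x))
  · show ∑ t ∈ (Finset.univ : Finset X).powersetCard r, ∏ x ∈ t, F (γ • z) x =
      _ * ∑ t ∈ (Finset.univ : Finset X).powersetCard r, ∏ x ∈ t, F z x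
    have : ∀ t ∈ (Finset.univ : Finset X).powersetCard r, ∏ x ∈ t, F (γ • z) x =
        denom γ z ^ ((r : ℤ) * k) * ∏ x ∈ t, F z (γ⁻¹ • x) := by
      intro t ht
      have hc : t.card = r := (Finset.mem_powersetCard.mp ht).2
      simp_rw [hF.equiv γ z]
      rw [Finset.prod_mul_distrib, Finset.prod_const, hc, ← zpow_natCast, ← zpow_mul, mul_comm k]
    rw [Finset.sum_congr rfl this, ← Finset.mul_sum, esym_smul_eq γ⁻¹ (fun x => F z x) r]
  · exact bdd_sum _ (fun t _ => bdd_prod _ (fun x _ => hF.bdd x))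

omit [MulAction SL(2, ℤ) X] in
/-- Vieta: `∏ₓ (Y - F z x) = ∑ⱼ (-1)^j eⱼ(z) Y^(μ-j)`. -/
theorem prod_sub_eq_sum_esym [Fintype X] (F : ℍ → X → ℂ) (z : ℍ) (Y : ℂ) :
    ∏ x, (Y - F z x) = ∑ j ∈ Finset.range (Fintype.card X + 1),
      (-1) ^ j * (esym F j z * Y ^ (Fintype.card X - j)) := by
  have h := Multiset.prod_X_sub_X_eq_sum_esymm ((Finset.univ : Finset X).val.map (F z))
  have h2 := congrArg (Polynomial.eval Y) h
  simp only [Multiset.map_map, Multiset.card_map, Finset.card_val, Finset.card_univ,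
    Polynomial.eval_finsetSum, Polynomial.eval_mul, Polynomial.eval_pow, Polynomial.eval_neg,
    Polynomial.eval_one, Polynomial.eval_C, Polynomial.eval_X] at h2
  rw [Polynomial.eval_multiset_prod, Multiset.map_map] at h2
  simp only [Function.comp_def, Polynomial.eval_sub, Polynomial.eval_X, Polynomial.eval_C] at h2
  rw [Finset.prod_eq_multiset_prod, h2]
  refine Finset.sum_congr rfl (fun j _ => ?_)
  rw [esym_eq_esymm]

omit [MulAction SL(2, ℤ) X] in
/-- each component is a root of the characteristic polynomial of the components. -/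
theorem sum_esym_component_eq_zero [Fintype X] (F : ℍ → X → ℂ) (z : ℍ) (x₀ : X) :
    ∑ j ∈ Finset.range (Fintype.card X + 1),
      (-1) ^ j * (esym F j z * F z x₀ ^ (Fintype.card X - j)) = 0 := by
  rw [← prod_sub_eq_sum_esym F z (F z x₀)]
  exact Finset.prod_eq_zero (Finset.mem_univ x₀) (sub_self _)

omit [MulAction SL(2, ℤ) X] in
theorem esym_zero [Fintype X] (F : ℍ → X → ℂ) (z : ℍ) : esym F 0 z = 1 := by
  simp [esym]

/-- holomorphy of the components in the classical sense. -/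
theorem IsVV.differentiableOn {k : ℤ} {F : ℍ → X → ℂ} (hF : IsVV X k F) (x : X) :
    DifferentiableOn ℂ (fun w : ℂ => F (ofComplex w) x) {w | 0 < w.im} :=
  (UpperHalfPlane.mdifferentiable_iff.mp (hF.holo x))

end Fermat.Agent.S20x
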