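/-
S20 project, module M09 core `DetCore.lean` (helper34): the matrix `Φ(z)` of a finite free basis of `M(X)` is
invertible for every `z ∈ ℍ`, and the weights of the basis sum to `6 (μ - c)`.
Blueprint Step 5 (docs `S20_blueprint_helper83`).
-/
import Fermat.Agent.S20x.VVBasic
import Fermat.Agent.S20x.L1Ring
import Fermat.Agent.S20x.Regular
import Fermat.Agent.S20x.LocalIndepCore
import Fermat.Agent.S20x.LeadInfty

set_option autoImplicit false

namespace Fermat.Agent.S20x

open UpperHalfPlane ModularForm EisensteinSeries Filter Complex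
open scoped MatrixGroups ModularForm Manifold Topology

local notation "Δ" => ModularForm.discriminant

variable {X : Type} [MulAction SL(2, ℤ) X]

/-! ### Generalities on `MDiff`, boundedness and level one forms -/

theorem det_mdiff_sum {ι : Type*} (s : Finset ι) (f : ι → ℍ → ℂ) (h : ∀ i ∈ s, MDiff (f i)) :
    MDiff (fun z => ∑ i ∈ s, f i z) := by
  classical
  induction s using Finset.induction_on with
  | empty => simpa using (mdifferentiable_const : MDiff (fun _ : ℍ => (0 : ℂ)))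
  | insert a s ha ih =>
    have h1 : MDiff (f a) := h a (Finset.mem_insert_self a s)
    have h2 := ih (fun i hi => h i (Finset.mem_insert_of_mem hi))
    have : (fun z => ∑ i ∈ insert a s, f i z) = fun z => f a z + ∑ i ∈ s, f i z := by
      funext z; rw [Finset.sum_insert ha]
    rw [this]
    exact h1.add h2

theorem det_mdiff_prod {ι : Type*} (s : Finset ι) (f : ι → ℍ → ℂ) (h : ∀ i ∈ s, MDiff (f i)) :
    MDiff (fun z => ∏ i ∈ s, f i z) := by
  classical
  induction s using Finset.induction_on with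
  | empty => simpa using (mdifferentiable_const : MDiff (fun _ : ℍ => (1 : ℂ)))
  | insert a s ha ih =>
    have h1 : MDiff (f a) := h a (Finset.mem_insert_self a s)
    have h2 := ih (fun i hi => h i (Finset.mem_insert_of_mem hi))
    have : (fun z => ∏ i ∈ insert a s, f i z) = fun z => f a z * ∏ i ∈ s, f i z := by
      funext z; rw [Finset.prod_insert ha]
    rw [this]
    exact h1.mul h2

theorem det_bdd_sum {ι : Type*} (s : Finset ι) (f : ι → ℍ → ℂ)
    (h : ∀ i ∈ s, IsBoundedAtImInfty (f i)) : IsBoundedAtImInfty (fun z => ∑ i ∈ s, f i z) := by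
  have := (boundedAtImInftySubalgebra ℂ).sum_mem (t := s) (f := f) h
  have h2 : (∑ i ∈ s, f i) = fun z => ∑ i ∈ s, f i z := by
    funext z; simp
  rw [← h2]; exact this

theorem det_bdd_prod {ι : Type*} (s : Finset ι) (f : ι → ℍ → ℂ)
    (h : ∀ i ∈ s, IsBoundedAtImInfty (f i)) : IsBoundedAtImInfty (fun z => ∏ i ∈ s, f i z) := by
  have := (boundedAtImInftySubalgebra ℂ).prod_mem (t := s) (f := f) h
  have h2 : (∏ i ∈ s, f i) = fun z => ∏ i ∈ s, f i z := by
    funext z; simp
  rw [← h2]; exact this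

theorem det_zpow_sum {ι : Type*} (s : Finset ι) {a : ℂ} (ha : a ≠ 0) (f : ι → ℤ) :
    ∏ i ∈ s, a ^ f i = a ^ (∑ i ∈ s, f i) := by
  classical
  induction s using Finset.induction_on with
  | empty => simp
  | insert b s hb ih => rw [Finset.prod_insert hb, Finset.sum_insert hb, zpow_add₀ ha, ih]

/-- Build a level one modular form from a holomorphic function with the weight `k` transformation
law that is bounded at `i∞`. -/
theorem det_isL1_of {k : ℤ} {f : ℍ → ℂ} (hhol : MDiff f)
    (heq : ∀ (γ : SL(2, ℤ)) (z : ℍ), f (γ • z) = denom γ z ^ k * f z)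
    (hbdd : IsBoundedAtImInfty f) : IsL1 k f := by
  have hinv : ∀ γ : SL(2, ℤ), f ∣[k] γ = f := by
    intro γ
    funext z
    rw [SL_slash_apply, heq γ z]
    have hd : denom γ z ≠ 0 := denom_ne_zero γ z
    rw [mul_comm, ← mul_assoc, ← zpow_add₀ hd]
    simp
  refine ⟨{ toFun := f
            slash_action_eq' := ?_
            holo' := hhol
            bdd_at_cusps' := ?_ }, rfl⟩
  · rintro _ ⟨γ, rfl⟩
    exact hinv γ
  · intro c hc
    exact (OnePoint.isBoundedAt_iff_forall_SL2Z hc).mpr (fun γ _ => by rw [hinv γ]; exact hbdd)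

theorem det_isL1_equiv {k : ℤ} {f : ℍ → ℂ} (hf : IsL1 k f) (γ : SL(2, ℤ)) (z : ℍ) :
    f (γ • z) = denom γ z ^ k * f z := by
  obtain ⟨F, rfl⟩ := hf
  have h := SlashInvariantForm.slash_action_eqn'' F (show (γ : GL (Fin 2) ℝ) ∈ 𝒮ℒ from ⟨γ, rfl⟩) z
  simpa using h

theorem det_isL1_mdiff {k : ℤ} {f : ℍ → ℂ} (hf : IsL1 k f) : MDiff f := by
  obtain ⟨F, rfl⟩ := hf
  exact F.holo'

theorem det_isL1_bdd {k : ℤ} {f : ℍ → ℂ} (hf : IsL1 k f) : IsBoundedAtImInfty f := by
  obtain ⟨F, rfl⟩ := hf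
  exact ModularFormClass.bdd_at_infty F


/-! ### The matrix of a basis and its determinant -/

section Mat
variable [Fintype X] [DecidableEq X] {J : Type}

/-- The matrix whose rows are the values `B (e.symm y) z` of the basis. -/
noncomputable def detMat (e : J ≃ X) (B : J → ℍ → X → ℂ) (z : ℍ) : Matrix X X ℂ :=
  Matrix.of fun y x => B (e.symm y) z x

/-- Its determinant. -/
noncomputable def detFn (e : J ≃ X) (B : J → ℍ → X → ℂ) (z : ℍ) : ℂ := (detMat e B z).det

theorem det_mdiff_detFn (e : J ≃ X) {wt : J → ℤ} {B : J → ℍ → X → ℂ}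
    (hB : ∀ j, IsVV X (wt j) (B j)) : MDiff (detFn e B) := by
  unfold detFn
  simp only [Matrix.det_apply]
  apply det_mdiff_sum
  intro σ _
  have h1 : MDiff (fun z : ℍ => ∏ i, detMat e B z (σ i) i) := by
    apply det_mdiff_prod
    intro i _
    exact (hB (e.symm (σ i))).holo i
  have : (fun z : ℍ => Equiv.Perm.sign σ • ∏ i, detMat e B z (σ i) i)
      = fun z : ℍ => ((Equiv.Perm.sign σ : ℤ) : ℂ) * ∏ i, detMat e B z (σ i) i := by
    funext z
    rw [Units.smul_def, zsmul_eq_mul]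
  rw [this]
  exact mdifferentiable_const.mul h1

theorem det_bdd_detFn (e : J ≃ X) {wt : J → ℤ} {B : J → ℍ → X → ℂ}
    (hB : ∀ j, IsVV X (wt j) (B j)) : IsBoundedAtImInfty (detFn e B) := by
  unfold detFn
  simp only [Matrix.det_apply]
  apply det_bdd_sum
  intro σ _
  have h1 : IsBoundedAtImInfty (fun z : ℍ => ∏ i, detMat e B z (σ i) i) := by
    apply det_bdd_prod
    intro i _
    exact (hB (e.symm (σ i))).bdd i
  have : (fun z : ℍ => Equiv.Perm.sign σ • ∏ i, detMat e B z (σ i) i)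
      = fun z : ℍ => ((Equiv.Perm.sign σ : ℤ) : ℂ) * ∏ i, detMat e B z (σ i) i := by
    funext z
    rw [Units.smul_def, zsmul_eq_mul]
  rw [this]
  exact (const_boundedAtFilter _ _).mul h1

theorem det_detFn_smul [Fintype J] (e : J ≃ X) {wt : J → ℤ} {B : J → ℍ → X → ℂ}
    (hB : ∀ j, IsVV X (wt j) (B j)) (γ : SL(2, ℤ)) (z : ℍ) :
    detFn e B (γ • z) = ((Equiv.Perm.sign (MulAction.toPerm γ⁻¹ : Equiv.Perm X) : ℤ) : ℂ) *
      denom γ z ^ (∑ j, wt j) * detFn e B z := by
  unfold detFn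
  have h1 : detMat e B (γ • z) = Matrix.of fun y x => denom γ z ^ (wt (e.symm y)) *
      ((detMat e B z).submatrix id (MulAction.toPerm γ⁻¹ : Equiv.Perm X)) y x := by
    ext y x
    simp only [detMat, Matrix.of_apply, Matrix.submatrix_apply, id_eq, MulAction.toPerm_apply]
    exact (hB (e.symm y)).equiv γ z x
  rw [h1, Matrix.det_mul_column, Matrix.det_permute']
  have hd : denom γ z ≠ 0 := denom_ne_zero γ z
  have h2 : ∏ y, denom γ z ^ (wt (e.symm y)) = denom γ z ^ (∑ j, wt j) := by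
    rw [← Equiv.sum_comp e.symm wt]
    exact det_zpow_sum _ hd _
  rw [h2]
  ring

theorem det_isL1_detFn_sq [Fintype J] (e : J ≃ X) {wt : J → ℤ} {B : J → ℍ → X → ℂ}
    (hB : ∀ j, IsVV X (wt j) (B j)) : IsL1 (2 * ∑ j, wt j) (fun z => detFn e B z ^ 2) := by
  apply det_isL1_of
  · exact (det_mdiff_detFn e hB).pow 2
  · intro γ z
    rw [det_detFn_smul e hB γ z]
    have hd : denom γ z ≠ 0 := denom_ne_zero γ z
    have hs : (((Equiv.Perm.sign (MulAction.toPerm γ⁻¹ : Equiv.Perm X) : ℤ) : ℂ)) ^ 2 = 1 := by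
      rcases Int.units_eq_one_or (Equiv.Perm.sign (MulAction.toPerm γ⁻¹ : Equiv.Perm X)) with h | h
        <;> rw [h] <;> simp
    rw [mul_pow, mul_pow, hs, one_mul, two_mul, zpow_add₀ hd]
    ring
  · have := det_bdd_detFn e hB
    have h2 : (fun z => detFn e B z ^ 2) = fun z => detFn e B z * detFn e B z := by
      funext z; ring
    rw [h2]
    exact this.mul this

omit [MulAction SL(2, ℤ) X] in
theorem det_detFn_ne_zero_iff (e : J ≃ X) (B : J → ℍ → X → ℂ) (z : ℍ) :
    detFn e B z ≠ 0 ↔ LinearIndependent ℂ (fun j : J => B j z) := by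
  unfold detFn
  rw [← isUnit_iff_ne_zero, ← Matrix.isUnit_iff_isUnit_det,
    ← Matrix.linearIndependent_rows_iff_isUnit]
  have : (detMat e B z).row = (fun j : J => B j z) ∘ e.symm := by
    funext y
    rfl
  rw [this]
  exact linearIndependent_equiv e.symm

end Mat

/-! ### From finite bases to free bases; parity of the weights -/

theorem det_isFreeBasis_of_isFinBasis {J : Type} [Fintype J] {wt : J → ℤ} {B : J → ℍ → X → ℂ}
    (hB : IsFinBasis X J wt B) : IsFreeBasis X J wt B := by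
  classical
  refine ⟨hB.mem, ?_, ?_⟩
  · intro k F hF
    obtain ⟨A, hA, hsum⟩ := hB.gen k F hF
    refine ⟨Finsupp.equivFunOnFinite.symm A, fun j => by simpa using hA j, fun z x => ?_⟩
    rw [hsum z x, Finsupp.sum_fintype _ _ (fun i => by simp)]
    simp
  · intro k A hA hsum
    have h := hB.indep k (fun j => A j) hA (fun z x => by
      have := hsum z x
      rw [Finsupp.sum_fintype _ _ (fun i => by simp)] at this
      exact this)
    ext j : 1
    exact h j

theorem det_wt_even (hX : GoodX X) {J : Type} [Fintype J] {wt : J → ℤ} {B : J → ℍ → X → ℂ}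
    (hB : IsFinBasis X J wt B) (j : J) : Even (wt j) := by
  classical
  by_contra hodd
  rw [Int.not_even_iff_odd] at hodd
  have h0 : B j = 0 := vv_eq_zero_of_odd hX hodd (hB.mem j)
  have h := hB.indep (wt j) (fun j' => if j' = j then (fun _ => (1 : ℂ)) else 0) (fun j' => by
      by_cases hj : j' = j
      · subst hj
        simp only [if_true, sub_self]
        exact l1_const 1
      · simp only [hj, if_false]
        exact l1_zero _) (fun z x => by
      rw [Finset.sum_eq_single j]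
      · simp [h0]
      · intro b _ hb
        simp [hb]
      · intro h; exact absurd (Finset.mem_univ j) h) j
  simp only [if_true] at h
  have := congrFun h (Classical.arbitrary ℍ)
  simp at this

/-! ### Independence from eigenvector decompositions -/

omit [MulAction SL(2, ℤ) X] in
/-- Vectors `v j` that are eigenvectors of a "shift" `σ` for the eigenvalues `ζ ^ a j`, `ζ` a
primitive `n`-th root of unity, are linearly independent as soon as each family of vectors with the
same eigenvalue is. -/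
theorem det_indep_of_eig {J : Type} [Fintype J] (σ : X → X) (v : J → X → ℂ) {ζ : ℂ} {n : ℕ}
    (hn : 0 < n) (hζ : IsPrimitiveRoot ζ n) (a : J → ℤ)
    (heig : ∀ j x, v j (σ x) = ζ ^ a j * v j x)
    (hcls : ∀ r : ℤ, ∀ c : J → ℂ, (∀ j, ¬ (n : ℤ) ∣ a j - r → c j = 0) →
      (∀ x, ∑ j, c j * v j x = 0) → ∀ j, c j = 0) :
    LinearIndependent ℂ v := by
  classical
  rw [Fintype.linearIndependent_iff]
  intro c hc j₀
  have hc' : ∀ x, ∑ j, c j * v j x = 0 := by
    intro x
    have := congrFun hc x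
    simpa [Finset.sum_apply, Pi.smul_apply, smul_eq_mul] using this
  -- iterate the shift
  have hit : ∀ (t : ℕ) (x : X), ∑ j, c j * (ζ ^ a j) ^ t * v j x = 0 := by
    intro t
    induction t with
    | zero => intro x; simpa using hc' x
    | succ t ih =>
      intro x
      have := ih (σ x)
      rw [← this]
      apply Finset.sum_congr rfl
      intro j _
      rw [heig j x, pow_succ]
      ring
  have hζ0 : ζ ≠ 0 := hζ.ne_zero hn.ne'
  -- project to the class of `j₀`
  set r := a j₀ with hr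
  have hgeom : ∀ j, ∑ t ∈ Finset.range n, (ζ ^ (a j - r)) ^ t =
      if (n : ℤ) ∣ a j - r then (n : ℂ) else 0 := by
    intro j
    by_cases hd : (n : ℤ) ∣ a j - r
    · rw [if_pos hd, (hζ.zpow_eq_one_iff_dvd _).mpr hd]
      simp
    · rw [if_neg hd]
      have hne : ζ ^ (a j - r) ≠ 1 := fun h => hd ((hζ.zpow_eq_one_iff_dvd _).mp h)
      have h1 : (ζ ^ (a j - r)) ^ n = 1 := by
        rw [← zpow_natCast, ← zpow_mul, mul_comm, zpow_mul, zpow_natCast, hζ.pow_eq_one, one_zpow]
      have := mul_geom_sum (ζ ^ (a j - r)) n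
      rw [h1, sub_self] at this
      rcases mul_eq_zero.mp this with h | h
      · exact absurd (sub_eq_zero.mp h) hne
      · exact h
  have hproj : ∀ x, ∑ j, (c j * if (n : ℤ) ∣ a j - r then (n : ℂ) else 0) * v j x = 0 := by
    intro x
    have h1 : ∑ t ∈ Finset.range n, (ζ ^ (-r)) ^ t * ∑ j, c j * (ζ ^ a j) ^ t * v j x = 0 := by
      apply Finset.sum_eq_zero
      intro t _
      rw [hit t x, mul_zero]
    refine Eq.trans ?_ h1
    simp_rw [Finset.mul_sum]
    rw [Finset.sum_comm]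
    apply Finset.sum_congr rfl
    intro j _
    rw [← hgeom j, Finset.mul_sum, Finset.sum_mul]
    apply Finset.sum_congr rfl
    intro t _
    have : (ζ ^ (a j - r)) ^ t = (ζ ^ (-r)) ^ t * (ζ ^ a j) ^ t := by
      rw [← mul_pow, ← zpow_add₀ hζ0]
      congr 2
      ring
    rw [this]
    ring
  have := hcls r (fun j => c j * if (n : ℤ) ∣ a j - r then (n : ℂ) else 0) (fun j hj => by
    rw [if_neg hj, mul_zero]) hproj j₀
  have hd : (n : ℤ) ∣ a j₀ - r := by simp [hr]
  rw [if_pos hd] at this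
  rcases mul_eq_zero.mp this with h | h
  · exact h
  · exact absurd h (by exact_mod_cast hn.ne')


/-- Independence at an elliptic point from independence of the weight classes. -/
theorem det_indep_at_elliptic (hX : GoodX X) {J : Type} [Fintype J] {wt : J → ℤ}
    {B : J → ℍ → X → ℂ} (hB : IsFinBasis X J wt B) (z₀ : ℍ) (g : SL(2, ℤ)) {ζ : ℂ} {n : ℕ}
    (hn : 0 < n) (hζ : IsPrimitiveRoot ζ n)
    (heig : ∀ (k : ℤ), Even k → ∀ (F : ℍ → X → ℂ), IsVV X k F → ∀ x : X,
      F z₀ (g • x) = ζ ^ (k / 2) * F z₀ x)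
    (hind : ∀ (r : ℤ) (s : Finset J), (∀ j ∈ s, (2 * n : ℤ) ∣ wt j - r) →
      LinearIndependent ℂ (fun j : s => B j z₀)) :
    LinearIndependent ℂ (fun j : J => B j z₀) := by
  classical
  apply det_indep_of_eig (fun x => g • x) (fun j => B j z₀) hn hζ (fun j => wt j / 2)
  · intro j x
    exact heig (wt j) (det_wt_even hX hB j) (B j) (hB.mem j) x
  · intro r c hc hsum j
    set s : Finset J := Finset.univ.filter (fun j => (n : ℤ) ∣ wt j / 2 - r) with hs
    have hli := hind (2 * r) s (fun j hj => by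
      have hj' : (n : ℤ) ∣ wt j / 2 - r := (Finset.mem_filter.mp hj).2
      obtain ⟨m, hm⟩ := det_wt_even hX hB j
      obtain ⟨q, hq⟩ := hj'
      have h2 : wt j / 2 = m := by rw [hm]; omega
      rw [h2] at hq
      refine ⟨q, ?_⟩
      rw [hm]
      linear_combination 2 * hq)
    by_cases hj : j ∈ s
    · rw [Fintype.linearIndependent_iff] at hli
      have h0 : ∑ i : s, c i • B i z₀ = 0 := by
        funext x
        have h1 := hsum x
        rw [← Finset.sum_subset (Finset.subset_univ s) (fun j _ hjs => by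
          have : ¬ (n : ℤ) ∣ wt j / 2 - r := fun h => hjs (Finset.mem_filter.mpr ⟨Finset.mem_univ _, h⟩)
          rw [hc j this, zero_mul])] at h1
        rw [← Finset.sum_coe_sort s] at h1
        simpa [Finset.sum_apply, Pi.smul_apply, smul_eq_mul] using h1
      exact hli (fun i => c i) h0 ⟨j, hj⟩
    · exact hc j (fun h => hj (Finset.mem_filter.mpr ⟨Finset.mem_univ _, h⟩))

theorem det_indep_at_I (hX : GoodX X) {J : Type} [Fintype J] {wt : J → ℤ}
    {B : J → ℍ → X → ℂ} (hB : IsFinBasis X J wt B)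
    (hI : ∀ (r : ℤ) (s : Finset J), (∀ j ∈ s, (4 : ℤ) ∣ wt j - r) →
      LinearIndependent ℂ (fun j : s => B j UpperHalfPlane.I)) :
    LinearIndependent ℂ (fun j : J => B j UpperHalfPlane.I) := by
  apply det_indep_at_elliptic hX hB UpperHalfPlane.I Smat (n := 2) (by norm_num)
    (IsPrimitiveRoot.neg_one 0 (by norm_num))
  · intro k hk F hF x
    exact ev_I_eig hk hF x
  · intro r s hs
    exact hI r s (fun j hj => by simpa using hs j hj)

theorem det_indep_at_rho (hX : GoodX X) {J : Type} [Fintype J] {wt : J → ℤ}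
    {B : J → ℍ → X → ℂ} (hB : IsFinBasis X J wt B)
    (hρ : ∀ (r : ℤ) (s : Finset J), (∀ j ∈ s, (6 : ℤ) ∣ wt j - r) →
      LinearIndependent ℂ (fun j : s => B j rhoPt)) :
    LinearIndependent ℂ (fun j : J => B j rhoPt) := by
  have hprim : IsPrimitiveRoot (cexp (2 * Real.pi * Complex.I / 3)) 3 := by
    have := Complex.isPrimitiveRoot_exp 3 (by norm_num)
    simpa using this
  apply det_indep_at_elliptic hX hB rhoPt Umat (n := 3) (by norm_num) hprim
  · intro k hk F hF x
    exact ev_rho_eig hk hF x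
  · intro r s hs
    exact hρ r s (fun j hj => by simpa using hs j hj)

omit [MulAction SL(2, ℤ) X] in
theorem det_indep_of_univ {J : Type} [Fintype J] {B : J → ℍ → X → ℂ} (z₀ : ℍ)
    (h : LinearIndependent ℂ (fun j : (Finset.univ : Finset J) => B j z₀)) :
    LinearIndependent ℂ (fun j : J => B j z₀) := by
  classical
  let e : (Finset.univ : Finset J) ≃ J := ⟨fun j => j.1, fun j => ⟨j, Finset.mem_univ j⟩,
    fun j => rfl, fun j => rfl⟩
  have h' : LinearIndependent ℂ ((fun j : J => B j z₀) ∘ ⇑e) := h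
  exact (linearIndependent_equiv (R := ℂ) e (f := fun j : J => B j z₀)).mp h'


/-! ### The lead matrix at `i∞` -/

section Lead
variable [Fintype X] [DecidableEq X] {J : Type} [Fintype J]

omit [MulAction SL(2, ℤ) X] [DecidableEq X] in
theorem det_twist_sum (U : Matrix X X ℂ) (lam : X → ℝ) (a : J → ℍ → ℂ) (B : J → ℍ → X → ℂ)
    (z : ℍ) (x : X) :
    twist U lam (fun z x => ∑ j, a j z * B j z x) z x = ∑ j, a j z * twist U lam (B j) z x := by
  unfold twist
  simp only [Matrix.mulVec, dotProduct]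
  rw [Finset.mul_sum]
  simp_rw [Finset.mul_sum]
  rw [Finset.sum_comm]
  apply Finset.sum_congr rfl
  intro j _
  apply Finset.sum_congr rfl
  intro y _
  ring

omit [DecidableEq X] in
/-- The lead vectors of a finite basis are linearly independent. -/
theorem det_lead_indep {wt : J → ℤ} {B : J → ℍ → X → ℂ}
    (hB : IsFinBasis X J wt B) (hev : ∀ j, Even (wt j)) (U : Matrix X X ℂ) (lam : X → ℝ)
    (hlead : ∀ (k : ℤ) (F : ℍ → X → ℂ), IsVV X k F →
      ∃ L : X → ℂ, (∀ x, Tendsto (fun z => twist U lam F z x) atImInfty (𝓝 (L x))) ∧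
        ((∀ x, L x = 0) → ∀ x, IsBoundedAtImInfty (fun z => F z x / Δ z)))
    (hdiv : ∀ (k : ℤ) (F : ℍ → X → ℂ), IsVV X k F →
      (∀ x, IsBoundedAtImInfty (fun z => F z x / Δ z)) →
      ∃ F', IsVV X (k - 12) F' ∧ ∀ z x, F z x = Δ z * F' z x)
    (L : J → X → ℂ)
    (hL : ∀ j x, Tendsto (fun z => twist U lam (B j) z x) atImInfty (𝓝 (L j x))) :
    LinearIndependent ℂ L := by
  classical
  rw [Fintype.linearIndependent_iff]
  intro c hc j₀
  set k : ℤ := 4 + 2 * ∑ j, |wt j| with hk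
  have hkj : ∀ j, Even (k - wt j) ∧ 4 ≤ k - wt j := by
    intro j
    refine ⟨?_, ?_⟩
    · apply Even.sub _ (hev j)
      rw [hk]
      exact Even.add (by norm_num) (even_two_mul _)
    · have h1 : |wt j| ≤ ∑ j, |wt j| :=
        Finset.single_le_sum (f := fun j => |wt j|) (fun i _ => abs_nonneg _) (Finset.mem_univ j)
      have h2 : wt j ≤ |wt j| := le_abs_self _
      have h3 : 0 ≤ |wt j| := abs_nonneg _
      rw [hk]; linarith
  have hex : ∀ j, ∃ A : ℍ → ℂ, IsL1 (k - wt j) A ∧ Tendsto A atImInfty (𝓝 1) := by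
    intro j
    obtain ⟨a, b, hab, -⟩ := l1_exists_exponents (hkj j).1 (hkj j).2
    exact ⟨_, l1_cast hab (l1_monomial a b), l1_monomial_tendsto a b⟩
  choose A hA hAt using hex
  set G : ℍ → X → ℂ := fun z x => ∑ j, (c j * A j z) * B j z x with hG
  have hGvv : IsVV X k G := by
    refine IsVV.sum Finset.univ (fun j _ => ?_)
    exact (IsVV.l1_mul (l1_smul (c j) (hA j)) (hB.mem j)).congr_weight (by ring)
  obtain ⟨LG, hLG, hLG0⟩ := hlead k G hGvv
  have hLGz : ∀ x, LG x = 0 := by
    intro x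
    have h1 : Tendsto (fun z => twist U lam G z x) atImInfty (𝓝 (∑ j, (c j * 1) * L j x)) := by
      have : (fun z => twist U lam G z x)
          = fun z => ∑ j, (c j * A j z) * twist U lam (B j) z x := by
        funext z
        exact det_twist_sum U lam (fun j z => c j * A j z) B z x
      rw [this]
      apply tendsto_finsetSum
      intro j _
      exact ((hAt j).const_mul (c j)).mul (hL j x)
    have h2 : ∑ j, (c j * 1) * L j x = 0 := by
      have := congrFun hc x
      simpa [Finset.sum_apply, Pi.smul_apply, smul_eq_mul] using this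
    rw [h2] at h1
    exact tendsto_nhds_unique (hLG x) h1
  obtain ⟨G', hG', hGG'⟩ := hdiv k G hGvv (hLG0 hLGz)
  obtain ⟨A', hA', hsum'⟩ := hB.gen (k - 12) G' hG'
  have hind := hB.indep k (fun j z => c j * A j z - Δ z * A' j z)
    (fun j => l1_sub (l1_smul (c j) (hA j))
      (l1_cast (by ring) (l1_mul isL1_delta (hA' j))))
    (fun z x => by
      have h1 : ∑ j, (c j * A j z - Δ z * A' j z) * B j z x
          = G z x - Δ z * G' z x := by
        rw [hG, hsum' z x, Finset.mul_sum, ← Finset.sum_sub_distrib]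
        apply Finset.sum_congr rfl
        intro j _
        ring
      rw [h1, hGG' z x, sub_self])
  have h0 := hind j₀
  obtain ⟨l', hl'⟩ := l1_tendsto (hA' j₀)
  have hΔ : Tendsto (fun z : ℍ => Δ z) atImInfty (𝓝 0) := discriminant_isZeroAtImInfty
  have h1 : Tendsto (fun z => c j₀ * A j₀ z - Δ z * A' j₀ z) atImInfty (𝓝 (c j₀ * 1 - 0 * l')) :=
    ((hAt j₀).const_mul (c j₀)).sub (hΔ.mul hl')
  have h2 : Tendsto (fun z => c j₀ * A j₀ z - Δ z * A' j₀ z) atImInfty (𝓝 0) := by
    have : (fun z => c j₀ * A j₀ z - Δ z * A' j₀ z) = fun _ => 0 := by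
      funext z
      exact congrFun h0 z
    rw [this]
    exact tendsto_const_nhds
  have := tendsto_nhds_unique h1 h2
  simpa using this


omit [MulAction SL(2, ℤ) X] [Fintype J] in
theorem det_twistMat_eq (e : J ≃ X) (B : J → ℍ → X → ℂ) (U : Matrix X X ℂ) (lam : X → ℝ) (z : ℍ) :
    (Matrix.of fun y x => twist U lam (B (e.symm y)) z x : Matrix X X ℂ)
      = detMat e B z * U.transpose *
        Matrix.diagonal (fun x => cexp (-2 * Real.pi * Complex.I * lam x * z)) := by
  ext y x
  rw [Matrix.mul_diagonal, Matrix.of_apply]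
  unfold twist
  rw [mul_comm]
  congr 1
  simp only [Matrix.mulVec, dotProduct, Matrix.mul_apply, Matrix.transpose_apply, detMat,
    Matrix.of_apply]
  apply Finset.sum_congr rfl
  intro w _
  ring

omit [MulAction SL(2, ℤ) X] [Fintype J] in
theorem det_twistMat_det (e : J ≃ X) (B : J → ℍ → X → ℂ) (U : Matrix X X ℂ) (lam : X → ℝ) (z : ℍ) :
    (Matrix.of fun y x => twist U lam (B (e.symm y)) z x : Matrix X X ℂ).det
      = detFn e B z * U.det * cexp (-2 * Real.pi * Complex.I * (∑ x, lam x : ℝ) * z) := by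
  rw [det_twistMat_eq, Matrix.det_mul, Matrix.det_mul, Matrix.det_transpose, Matrix.det_diagonal,
    ← Complex.exp_sum]
  unfold detFn
  congr 2
  push_cast
  rw [Finset.mul_sum, Finset.sum_mul]

omit [MulAction SL(2, ℤ) X] [Fintype J] in
theorem det_tendsto_twist (e : J ≃ X) (B : J → ℍ → X → ℂ) (U : Matrix X X ℂ) (lam : X → ℝ)
    (L : J → X → ℂ)
    (hL : ∀ j x, Tendsto (fun z => twist U lam (B j) z x) atImInfty (𝓝 (L j x))) :
    Tendsto (fun z : ℍ => detFn e B z * U.det *
        cexp (-2 * Real.pi * Complex.I * (∑ x, lam x : ℝ) * z)) atImInfty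
      (𝓝 (Matrix.det (Matrix.of fun y x => L (e.symm y) x : Matrix X X ℂ))) := by
  have h1 : Tendsto (fun z : ℍ => (Matrix.of fun y x => twist U lam (B (e.symm y)) z x :
      Matrix X X ℂ)) atImInfty (𝓝 (Matrix.of fun y x => L (e.symm y) x : Matrix X X ℂ)) := by
    change Tendsto (fun z : ℍ => (fun y x => twist U lam (B (e.symm y)) z x : X → X → ℂ))
      atImInfty (𝓝 (fun y x => L (e.symm y) x : X → X → ℂ))
    rw [tendsto_pi_nhds]
    intro y
    rw [tendsto_pi_nhds]
    intro x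
    exact hL (e.symm y) x
  have h2 := ((continuous_id.matrix_det (n := X) (R := ℂ)).tendsto
    (Matrix.of fun y x => L (e.symm y) x : Matrix X X ℂ)).comp h1
  refine h2.congr fun z => ?_
  simp only [Function.comp_apply, id_eq]
  exact det_twistMat_det e B U lam z


/-- `Δ(z) e^{-2πiz} → 1` at `i∞`. -/
theorem det_tendsto_delta_mul_exp :
    Tendsto (fun z : ℍ => Δ z * cexp (-2 * Real.pi * Complex.I * z)) atImInfty (𝓝 1) := by
  refine tendsto_atImInfty_tprod_one_sub_eta_q_pow.congr fun z => ?_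
  rw [discriminant_eq_q_prod]
  have hq : Function.Periodic.qParam 1 (z : ℂ) * cexp (-2 * Real.pi * Complex.I * z) = 1 := by
    rw [Function.Periodic.qParam, ← Complex.exp_add]
    have : 2 * (Real.pi : ℂ) * Complex.I * (z : ℂ) / ((1 : ℝ) : ℂ) +
        -2 * Real.pi * Complex.I * z = 0 := by
      push_cast; ring
    rw [this, Complex.exp_zero]
  rw [mul_right_comm, hq, one_mul]

omit [MulAction SL(2, ℤ) X] [Fintype J] in
/-- The limit of `(det Φ)² / Δ^n` at `i∞`, `n = 2 Σ λ_x`. -/
theorem det_tendsto_sq_div (e : J ≃ X) (B : J → ℍ → X → ℂ) (U : Matrix X X ℂ) (hU : U.det ≠ 0)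
    (lam : X → ℝ) (n : ℕ) (hn : (n : ℝ) = 2 * ∑ x, lam x) (L : J → X → ℂ)
    (hL : ∀ j x, Tendsto (fun z => twist U lam (B j) z x) atImInfty (𝓝 (L j x))) :
    Tendsto (fun z : ℍ => detFn e B z ^ 2 / Δ z ^ n) atImInfty
      (𝓝 ((Matrix.det (Matrix.of fun y x => L (e.symm y) x : Matrix X X ℂ) / U.det) ^ 2)) := by
  have h1 := ((det_tendsto_twist e B U lam L hL).div_const U.det).pow 2
  have h2 := (det_tendsto_delta_mul_exp.pow n)
  have h3 := h1.div h2 (by simp)
  rw [one_pow, div_one] at h3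
  refine h3.congr fun z => ?_
  have hΔ : Δ z ≠ 0 := discriminant_ne_zero z
  have hexp : cexp (-2 * Real.pi * Complex.I * (∑ x, lam x : ℝ) * z) ^ 2
      = cexp (-2 * Real.pi * Complex.I * z) ^ n := by
    rw [← Complex.exp_nat_mul, ← Complex.exp_nat_mul]
    congr 1
    have : ((n : ℝ) : ℂ) = ((2 * ∑ x, lam x : ℝ) : ℂ) := by rw [hn]
    push_cast at this ⊢
    rw [this]
    ring
  have hne : cexp (-2 * Real.pi * Complex.I * z) ^ n ≠ 0 := pow_ne_zero _ (Complex.exp_ne_zero _)
  simp only [Pi.div_apply]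
  have e1 : (detFn e B z * U.det * cexp (-2 * Real.pi * Complex.I * (∑ x, lam x : ℝ) * z) / U.det) ^ 2
      = detFn e B z ^ 2 * cexp (-2 * Real.pi * Complex.I * z) ^ n := by
    rw [← hexp]
    field_simp
  rw [e1, mul_pow]
  field_simp

/-- The shape of the "endgame" statement (module `DetEndgame.lean`). -/
def DetEndgameStmt : Prop :=
  ∀ {W : ℤ} {d : ℍ → ℂ}, IsL1 W d → ∀ (m : ℕ) {c : ℂ}, c ≠ 0 →
    Tendsto (fun z => d z / Δ z ^ m) atImInfty (𝓝 c) → d UpperHalfPlane.I ≠ 0 → d rhoPt ≠ 0 →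
    (∀ z₀ : ℍ, E₄ z₀ ≠ 0 → E₆ z₀ ≠ 0 → d z₀ ≠ 0) →
    W = 12 * m ∧ ∃ c₀ : ℂ, c₀ ≠ 0 ∧ ∀ z, d z = c₀ * Δ z ^ m

/-- **Core of M09**: everything from explicit inputs. -/
theorem det_core (hX : GoodX X) {wt : J → ℤ} {B : J → ℍ → X → ℂ}
    (hB : IsFinBasis X J wt B) (hcard : Fintype.card J = Fintype.card X)
    (hI : ∀ (r : ℤ) (s : Finset J), (∀ j ∈ s, (4 : ℤ) ∣ wt j - r) →
      LinearIndependent ℂ (fun j : s => B j UpperHalfPlane.I))
    (hρ : ∀ (r : ℤ) (s : Finset J), (∀ j ∈ s, (6 : ℤ) ∣ wt j - r) →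
      LinearIndependent ℂ (fun j : s => B j rhoPt))
    (hgen : ∀ z₀ : ℍ, E₄ z₀ ≠ 0 → E₆ z₀ ≠ 0 → ∀ s : Finset J,
      LinearIndependent ℂ (fun j : s => B j z₀))
    (hdiv : ∀ (k : ℤ) (F : ℍ → X → ℂ), IsVV X k F →
      (∀ x, IsBoundedAtImInfty (fun z => F z x / Δ z)) →
      ∃ F', IsVV X (k - 12) F' ∧ ∀ z x, F z x = Δ z * F' z x)
    (hend : DetEndgameStmt) :
    (∀ z : ℍ, LinearIndependent ℂ (fun j : J => B j z)) ∧
      ∑ j, wt j = 6 * ((Fintype.card X : ℤ) - cuspsX X) := by
  classical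
  obtain ⟨U, lam, hU, hlam, hsum, hlead⟩ := exists_leadData hX
  let e : J ≃ X := Fintype.equivOfCardEq hcard
  -- lead vectors
  have hLex : ∀ j, ∃ L : X → ℂ, ∀ x, Tendsto (fun z => twist U lam (B j) z x) atImInfty (𝓝 (L x)) := by
    intro j
    obtain ⟨L, hL, -⟩ := hlead (wt j) (B j) (hB.mem j)
    exact ⟨L, hL⟩
  choose L hL using hLex
  have hLind : LinearIndependent ℂ L :=
    det_lead_indep hB (det_wt_even hX hB) U lam hlead hdiv L hL
  have hΛ : (Matrix.det (Matrix.of fun y x => L (e.symm y) x : Matrix X X ℂ)) ≠ 0 := by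
    rw [← isUnit_iff_ne_zero, ← Matrix.isUnit_iff_isUnit_det,
      ← Matrix.linearIndependent_rows_iff_isUnit]
    have : (Matrix.of fun y x => L (e.symm y) x : Matrix X X ℂ).row = L ∘ e.symm := by
      funext y
      rfl
    rw [this]
    exact (linearIndependent_equiv e.symm).mpr hLind
  -- the exponent
  have hcle : (cuspsX X : ℝ) ≤ Fintype.card X := by
    have h0 : 0 ≤ ∑ x, lam x := Finset.sum_nonneg (fun x _ => (hlam x).1)
    linarith
  have hcle' : cuspsX X ≤ Fintype.card X := by exact_mod_cast hcle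
  set n : ℕ := Fintype.card X - cuspsX X with hn
  have hnR : (n : ℝ) = 2 * ∑ x, lam x := by
    rw [hsum, hn, Nat.cast_sub hcle']
  have hlim := det_tendsto_sq_div e B U hU lam n hnR L hL
  have hc : (Matrix.det (Matrix.of fun y x => L (e.symm y) x : Matrix X X ℂ) / U.det) ^ 2 ≠ 0 :=
    pow_ne_zero _ (div_ne_zero hΛ hU)
  have hd : IsL1 (2 * ∑ j, wt j) (fun z => detFn e B z ^ 2) := det_isL1_detFn_sq e hB.mem
  have hdI : detFn e B UpperHalfPlane.I ^ 2 ≠ 0 :=
    pow_ne_zero _ ((det_detFn_ne_zero_iff e B _).mpr (det_indep_at_I hX hB hI))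
  have hdρ : detFn e B rhoPt ^ 2 ≠ 0 :=
    pow_ne_zero _ ((det_detFn_ne_zero_iff e B _).mpr (det_indep_at_rho hX hB hρ))
  have hdgen : ∀ z₀ : ℍ, E₄ z₀ ≠ 0 → E₆ z₀ ≠ 0 → detFn e B z₀ ^ 2 ≠ 0 := fun z₀ h4 h6 =>
    pow_ne_zero _ ((det_detFn_ne_zero_iff e B _).mpr
      (det_indep_of_univ z₀ (hgen z₀ h4 h6 Finset.univ)))
  obtain ⟨hW, c₀, hc₀, hform⟩ := hend hd n hc hlim hdI hdρ hdgen
  refine ⟨fun z => ?_, ?_⟩
  · rw [← det_detFn_ne_zero_iff e B z]
    intro h0
    have := hform z
    rw [h0] at this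
    have h1 : c₀ * Δ z ^ n ≠ 0 := mul_ne_zero hc₀ (pow_ne_zero _ (discriminant_ne_zero z))
    exact h1 (by rw [← this]; ring)
  · have : ((n : ℕ) : ℤ) = (Fintype.card X : ℤ) - cuspsX X := by
      rw [hn, Nat.cast_sub hcle']
    rw [← this]
    linarith

end Lead

end Fermat.Agent.S20x
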