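/-
S20 helper library, module M09 part (c): the algebraic endgame for the determinant.

A level one form `d` which vanishes nowhere on the "generic" locus `E₄ E₆ ≠ 0`, nor at `i`, `ρ`,
and whose quotient by `Δ ^ m` has a nonzero limit at `i∞`, is a nonzero constant times `Δ ^ m`
(in particular its weight is `12 m` and it vanishes nowhere).
-/
import Fermat.Agent.S20x.L1Ring
import Fermat.Agent.S24x.JFun

set_option autoImplicit false

namespace Fermat.Agent.S20x

open UpperHalfPlane ModularForm EisensteinSeries Filter Complex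
open scoped MatrixGroups ModularForm Manifold Topology

local notation "Δ" => ModularForm.discriminant

/-- `Δ` vanishes nowhere. -/
theorem de_delta_ne_zero (z : ℍ) : Δ z ≠ 0 := ModularForm.discriminant_ne_zero z

/-- `Δ → 0` at `i∞`. -/
theorem de_delta_tendsto : Tendsto Δ atImInfty (𝓝 0) := Fermat.Agent.S24x.jf_tendsto_discriminant

/-- dividing `m` times by `Δ`. -/
theorem de_div_pow (m : ℕ) : ∀ {W : ℤ} {d : ℍ → ℂ}, IsL1 W d → ∀ c : ℂ,
    Tendsto (fun z => d z / Δ z ^ m) atImInfty (𝓝 c) →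
    ∃ d₁, IsL1 (W - 12 * m) d₁ ∧ ∀ z, d z = Δ z ^ m * d₁ z := by
  induction m with
  | zero =>
    intro W d hd c _
    exact ⟨d, l1_cast (by simp) hd, fun z => by simp⟩
  | succ m ih =>
    intro W d hd c hlim
    have h0 : IsZeroAtImInfty d := by
      have h1 : Tendsto (fun z => d z / Δ z ^ (m + 1) * Δ z ^ (m + 1)) atImInfty (𝓝 (c * 0 ^ (m + 1))) :=
        hlim.mul (de_delta_tendsto.pow (m + 1))
      have h2 : (fun z => d z / Δ z ^ (m + 1) * Δ z ^ (m + 1)) = d := by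
        funext z
        rw [div_mul_cancel₀ _ (pow_ne_zero _ (de_delta_ne_zero z))]
      rw [h2] at h1
      simpa [IsZeroAtImInfty, ZeroAtFilter] using h1
    obtain ⟨B, hB, hdB⟩ := l1_cusp_eq_delta_mul hd h0
    have hlimB : Tendsto (fun z => B z / Δ z ^ m) atImInfty (𝓝 c) := by
      refine hlim.congr (fun z => ?_)
      rw [hdB z, pow_succ]
      field_simp [de_delta_ne_zero z]
    obtain ⟨d₁, hd₁, hBd₁⟩ := ih hB c hlimB
    refine ⟨d₁, l1_cast (by push_cast; ring) hd₁, fun z => ?_⟩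
    rw [hdB z, hBd₁ z, pow_succ]
    ring

/-- existence of a zero of `E₄³ - α E₆²` for `α ≠ 1` (via surjectivity of `j`). -/
theorem de_exists_zero (α : ℂ) (hα1 : α ≠ 1) : ∃ z₀ : ℍ, E₄ z₀ ^ 3 = α * E₆ z₀ ^ 2 := by
  obtain ⟨z₀, hz₀⟩ := Fermat.Agent.S24x.jFun_surjective (1728 * α / (α - 1))
  refine ⟨z₀, ?_⟩
  have h1 := Fermat.Agent.S24x.jFun_mul_discriminant z₀
  rw [hz₀, discriminant_eq_E₄_cube_sub_E₆_sq z₀] at h1
  have hα : α - 1 ≠ 0 := sub_ne_zero.mpr hα1
  field_simp at h1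
  linear_combination h1

/-- at a zero of `E₄³ - α E₆²` with `α ≠ 0`, both `E₄` and `E₆` are nonzero. -/
theorem de_generic_of_zero {α : ℂ} (hα0 : α ≠ 0) {z₀ : ℍ} (h : E₄ z₀ ^ 3 = α * E₆ z₀ ^ 2) :
    E₄ z₀ ≠ 0 ∧ E₆ z₀ ≠ 0 := by
  have hΔ := de_delta_ne_zero z₀
  rw [discriminant_eq_E₄_cube_sub_E₆_sq z₀] at hΔ
  constructor
  · intro h4
    rw [h4] at h
    have h6 : E₆ z₀ = 0 := by
      have : α * E₆ z₀ ^ 2 = 0 := by rw [← h]; ring
      rcases mul_eq_zero.mp this with h' | h'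
      · exact absurd h' hα0
      · exact pow_eq_zero_iff (two_ne_zero) |>.mp h'
    apply hΔ
    rw [h4, h6]; ring
  · intro h6
    rw [h6] at h
    have h4 : E₄ z₀ = 0 := by
      have : E₄ z₀ ^ 3 = 0 := by rw [h]; ring
      exact pow_eq_zero_iff (three_ne_zero) |>.mp this
    apply hΔ
    rw [h4, h6]; ring

/-- **Endgame.**  See the file header. -/
theorem de_endgame {W : ℤ} {d : ℍ → ℂ} (hd : IsL1 W d) (m : ℕ) {c : ℂ} (hc : c ≠ 0)
    (hlim : Tendsto (fun z => d z / Δ z ^ m) atImInfty (𝓝 c))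
    (h6I : E₆ UpperHalfPlane.I = 0) (h4rho : E₄ rhoPt = 0)
    (hI : d UpperHalfPlane.I ≠ 0) (hrho : d rhoPt ≠ 0)
    (hgen : ∀ z₀ : ℍ, E₄ z₀ ≠ 0 → E₆ z₀ ≠ 0 → d z₀ ≠ 0) :
    W = 12 * m ∧ ∃ c₀ : ℂ, c₀ ≠ 0 ∧ ∀ z, d z = c₀ * Δ z ^ m := by
  obtain ⟨d₁, hd₁, hdd₁⟩ := de_div_pow m hd c hlim
  have hd₁lim : Tendsto d₁ atImInfty (𝓝 c) := by
    refine hlim.congr (fun z => ?_)
    rw [hdd₁ z]
    field_simp [de_delta_ne_zero z]
  have hd₁ne : ∀ z, d z ≠ 0 → d₁ z ≠ 0 := by
    intro z hz h0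
    apply hz
    rw [hdd₁ z, h0, mul_zero]
  have hd₁I := hd₁ne _ hI
  have hd₁rho := hd₁ne _ hrho
  set W' : ℤ := W - 12 * m with hW'
  obtain ⟨cf, hsupp, hsum⟩ := l1_monomial_span hd₁
  -- a monomial `E₄^a` occurs (value at `I`)
  have hex1 : ∃ p ∈ cf.support, p.2 = 0 := by
    by_contra hcon
    push Not at hcon
    apply hd₁I
    rw [hsum, Finsupp.sum]
    apply Finset.sum_eq_zero
    intro p hp
    rw [h6I, zero_pow (hcon p hp), mul_zero]
  -- a monomial `E₆^b` occurs (value at `ρ`)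
  have hex2 : ∃ p ∈ cf.support, p.1 = 0 := by
    by_contra hcon
    push Not at hcon
    apply hd₁rho
    rw [hsum, Finsupp.sum]
    apply Finset.sum_eq_zero
    intro p hp
    rw [h4rho, zero_pow (hcon p hp), mul_zero, zero_mul]
  obtain ⟨p1, hp1, hp1'⟩ := hex1
  obtain ⟨p2, hp2, hp2'⟩ := hex2
  have hw1 := hsupp p1 hp1
  have hw2 := hsupp p2 hp2
  rw [hp1'] at hw1
  rw [hp2'] at hw2
  -- `W' = 12 u`
  obtain ⟨u, hu⟩ : ∃ u : ℕ, p1.1 = 3 * u := by
    have : 2 * (p1.1 : ℤ) = 3 * (p2.2 : ℤ) := by push_cast at hw1 hw2; linarith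
    have h3 : (3 : ℤ) ∣ (p1.1 : ℤ) := by
      have : (3 : ℤ) ∣ 2 * (p1.1 : ℤ) := ⟨p2.2, this⟩
      exact (IsCoprime.dvd_of_dvd_mul_left (by norm_num : IsCoprime (3 : ℤ) 2) this)
    obtain ⟨u, hu⟩ := h3
    have hu0 : 0 ≤ u := by omega
    exact ⟨u.toNat, by omega⟩
  have hW'u : W' = 12 * (u : ℤ) := by push_cast at hw1; rw [← hw1, hu]; push_cast; ring
  have hp22 : p2.2 = 2 * u := by push_cast at hw2; omega
  -- shape of the support
  have hshape : ∀ p ∈ cf.support, ∃ s : ℕ, s ≤ u ∧ p = (3 * s, 2 * (u - s)) := by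
    intro p hp
    have hw := hsupp p hp
    rw [hW'u] at hw
    have h3 : (3 : ℤ) ∣ (p.1 : ℤ) := by
      have : (3 : ℤ) ∣ 2 * (p.1 : ℤ) := ⟨2 * u - p.2, by linarith⟩
      exact (IsCoprime.dvd_of_dvd_mul_left (by norm_num : IsCoprime (3 : ℤ) 2) this)
    obtain ⟨s, hs⟩ := h3
    have hs0 : 0 ≤ s := by omega
    refine ⟨s.toNat, by omega, ?_⟩
    ext <;> simp only <;> omega
  -- the coefficient family
  set a : ℕ → ℂ := fun s => cf (3 * s, 2 * (u - s)) with ha
  have hinj : Set.InjOn (fun s : ℕ => ((3 * s, 2 * (u - s)) : ℕ × ℕ)) (Finset.range (u + 1) : Set ℕ) := by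
    intro s _ t _ hst
    simp only [Prod.mk.injEq] at hst
    omega
  have hsum' : ∀ z, d₁ z = ∑ s ∈ Finset.range (u + 1), a s * E₄ z ^ (3 * s) * E₆ z ^ (2 * (u - s)) := by
    intro z
    rw [hsum z, Finsupp.sum]
    have himg : cf.support ⊆ (Finset.range (u + 1)).image (fun s : ℕ => ((3 * s, 2 * (u - s)) : ℕ × ℕ)) := by
      intro p hp
      obtain ⟨s, hs, rfl⟩ := hshape p hp
      exact Finset.mem_image.mpr ⟨s, Finset.mem_range.mpr (by omega), rfl⟩
    rw [Finset.sum_subset himg, Finset.sum_image hinj]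
    intro p _ hp
    rw [Finsupp.notMem_support_iff.mp hp, zero_mul, zero_mul]
  have ha_u : a u ≠ 0 := by
    have : p1 = (3 * u, 2 * (u - u)) := by ext <;> simp [hu, hp1']
    rw [ha]; simp only; rw [← this]
    exact Finsupp.mem_support_iff.mp hp1
  have ha_0 : a 0 ≠ 0 := by
    have : p2 = (3 * 0, 2 * (u - 0)) := by ext <;> simp [hp2', hp22]
    rw [ha]; simp only; rw [← this]
    exact Finsupp.mem_support_iff.mp hp2
  -- sum of coefficients = limit at infinity
  have hsum1 : ∑ s ∈ Finset.range (u + 1), a s = c := by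
    have h1 : Tendsto d₁ atImInfty (𝓝 (∑ s ∈ Finset.range (u + 1), a s * 1 ^ (3 * s) * 1 ^ (2 * (u - s)))) := by
      have : d₁ = fun z => ∑ s ∈ Finset.range (u + 1), a s * E₄ z ^ (3 * s) * E₆ z ^ (2 * (u - s)) :=
        funext hsum'
      rw [this]
      apply tendsto_finsetSum
      intro s _
      exact (tendsto_const_nhds.mul (E4_tendsto.pow _)).mul (E6_tendsto.pow _)
    have h2 := tendsto_nhds_unique h1 hd₁lim
    simpa using h2
  -- the case `u = 0` is what we want; exclude `u ≥ 1`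
  have hu0 : u = 0 := by
    by_contra hu0
    have hupos : 0 < u := Nat.pos_of_ne_zero hu0
    set P : Polynomial ℂ := ∑ s ∈ Finset.range (u + 1), Polynomial.C (a s) * Polynomial.X ^ s with hP
    have hcoeff : ∀ t, t ≤ u → P.coeff t = a t := by
      intro t ht
      rw [hP, Polynomial.finsetSum_coeff]
      simp only [Polynomial.coeff_C_mul, Polynomial.coeff_X_pow]
      rw [Finset.sum_eq_single t]
      · simp
      · intro b _ hb
        simp [Ne.symm hb]
      · intro h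
        exact absurd (Finset.mem_range.mpr (by omega)) h
    have heval : ∀ x : ℂ, P.eval x = ∑ s ∈ Finset.range (u + 1), a s * x ^ s := by
      intro x
      rw [hP, Polynomial.eval_finsetSum]
      simp
    have hdeg : 0 < P.degree := by
      have h1 : P.coeff u ≠ 0 := by rw [hcoeff u le_rfl]; exact ha_u
      have h2 : (u : WithBot ℕ) ≤ P.degree := Polynomial.le_degree_of_ne_zero h1
      exact lt_of_lt_of_le (by exact_mod_cast hupos) h2
    obtain ⟨α, hα⟩ := Complex.exists_root hdeg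
    rw [Polynomial.IsRoot, heval] at hα
    have hα0 : α ≠ 0 := by
      intro h0
      rw [h0] at hα
      apply ha_0
      rw [Finset.sum_eq_single 0] at hα
      · simpa using hα
      · intro b _ hb
        simp [hb]
      · intro h
        exact absurd (Finset.mem_range.mpr (by omega)) h
    have hα1 : α ≠ 1 := by
      intro h1
      rw [h1] at hα
      apply hc
      rw [← hsum1]
      simpa using hα
    obtain ⟨z₀, hz₀⟩ := de_exists_zero α hα1
    obtain ⟨h4, h6⟩ := de_generic_of_zero hα0 hz₀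
    have hdz : d₁ z₀ ≠ 0 := hd₁ne _ (hgen z₀ h4 h6)
    apply hdz
    rw [hsum' z₀]
    have : ∀ s ∈ Finset.range (u + 1), a s * E₄ z₀ ^ (3 * s) * E₆ z₀ ^ (2 * (u - s))
        = E₆ z₀ ^ (2 * u) * (a s * α ^ s) := by
      intro s hs
      have hs' : s ≤ u := by have := Finset.mem_range.mp hs; omega
      rw [pow_mul, hz₀, mul_pow, ← pow_mul]
      have : 2 * u = 2 * s + 2 * (u - s) := by omega
      rw [this, pow_add]
      ring
    rw [Finset.sum_congr rfl this, ← Finset.mul_sum, hα, mul_zero]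
  -- conclusion
  have hW0 : W' = 0 := by rw [hW'u, hu0]; simp
  have hd₁0 : IsL1 0 d₁ := l1_cast hW0 hd₁
  obtain ⟨c₀, hc₀⟩ := l1_const_of_zero hd₁0
  have hc₀c : c₀ = c := by
    rw [hc₀] at hd₁lim
    exact tendsto_nhds_unique tendsto_const_nhds hd₁lim
  refine ⟨by omega, c₀, by rw [hc₀c]; exact hc, fun z => ?_⟩
  rw [hdd₁ z, hc₀]
  ring

end Fermat.Agent.S20x
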