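/-
S20 helper library, module M02c: the homogeneous prime ideal of a point of `ℍ` in the ring of
level one modular forms is principal, generated by a form with a simple zero there.
-/
import Fermat.Agent.S20x.L1Ring

set_option autoImplicit false

namespace Fermat.Agent.S20x

open UpperHalfPlane ModularForm EisensteinSeries Filter Complex Derivative
open scoped MatrixGroups ModularForm Manifold Topology

local notation "Δ" => ModularForm.discriminant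

theorem l1_delta : IsL1 12 (Δ : ℍ → ℂ) :=
  ⟨CuspForm.toModularFormₗ CuspForm.discriminant, rfl⟩

/-! ### special values (also in `Ramanujan.lean`, reproved here to keep this file independent) -/

theorem pa_equiv {k : ℤ} (f : ModularForm 𝒮ℒ k) (γ : SL(2, ℤ)) (z : ℍ) :
    f (γ • z) = denom γ z ^ k * f z := by
  have h := congrFun (Fermat.Agent.S24x.ram_slash_SL f γ) z
  rw [SL_slash_apply] at h
  have hd : denom (Matrix.SpecialLinearGroup.toGL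
      ((Matrix.SpecialLinearGroup.map (Int.castRingHom ℝ)) γ)) z ≠ 0 := denom_ne_zero _ z
  rw [← h, mul_comm, mul_assoc, ← zpow_add₀ hd, neg_add_cancel, zpow_zero, mul_one]

theorem pa_not_both_zero (z : ℍ) : E₄ z ≠ 0 ∨ E₆ z ≠ 0 := by
  by_contra h
  rw [not_or, not_not, not_not] at h
  have h1 := discriminant_eq_E₄_cube_sub_E₆_sq z
  rw [h.1, h.2] at h1
  exact discriminant_ne_zero z (by rw [h1]; norm_num)

theorem pa_S_smul_I : Smat • UpperHalfPlane.I = UpperHalfPlane.I := by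
  apply UpperHalfPlane.ext
  rw [modular_S_smul]
  simp

theorem pa_E6_I : E₆ UpperHalfPlane.I = 0 := by
  have h := pa_equiv E₆ ModularGroup.S UpperHalfPlane.I
  have hS : ModularGroup.S • UpperHalfPlane.I = UpperHalfPlane.I := pa_S_smul_I
  rw [hS, ModularGroup.denom_S, coe_I] at h
  have h6 : (Complex.I : ℂ) ^ (6 : ℤ) = -1 := by
    have : (Complex.I : ℂ) ^ (6 : ℤ) = (Complex.I ^ 2) ^ 3 := by
      rw [← pow_mul]; norm_cast
    rw [this, Complex.I_sq]; norm_num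
  rw [h6] at h
  have : (2 : ℂ) * E₆ UpperHalfPlane.I = 0 := by linear_combination h
  simpa using this

theorem pa_rho_coe : ((rhoPt : ℍ) : ℂ) = ⟨-1 / 2, Real.sqrt 3 / 2⟩ := rfl

theorem pa_rho_sq : ((rhoPt : ℍ) : ℂ) ^ 2 + (rhoPt : ℂ) + 1 = 0 := by
  have h3 : Real.sqrt 3 * Real.sqrt 3 = 3 := Real.mul_self_sqrt (by norm_num)
  rw [pa_rho_coe]
  apply Complex.ext
  · simp only [pow_two, Complex.add_re, Complex.mul_re, Complex.one_re, Complex.zero_re]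
    nlinarith [h3]
  · simp only [pow_two, Complex.add_im, Complex.mul_im, Complex.one_im, Complex.zero_im]
    ring

theorem pa_rho_add_one_ne : ((rhoPt : ℍ) : ℂ) + 1 ≠ 0 := by
  intro h
  have := congrArg Complex.im h
  rw [pa_rho_coe] at this
  simp at this

theorem pa_U_smul_rho : Umat • rhoPt = rhoPt := by
  have h1 := pa_rho_add_one_ne
  apply UpperHalfPlane.ext
  change (((ModularGroup.S * ModularGroup.T) • rhoPt : ℍ) : ℂ) = _
  rw [mul_smul, modular_T_smul, modular_S_smul]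
  simp only [UpperHalfPlane.coe_vadd]
  have := pa_rho_sq
  apply inv_eq_of_mul_eq_one_right
  push_cast
  linear_combination -this

theorem pa_denom_U (z : ℍ) : denom Umat z = z + 1 := by
  rw [ModularGroup.denom_apply]
  simp [Umat, Matrix.SpecialLinearGroup.coe_mul, ModularGroup.coe_S, ModularGroup.coe_T,
    Matrix.mul_apply, Fin.sum_univ_two]

theorem pa_E4_rho : E₄ rhoPt = 0 := by
  have h := pa_equiv E₄ Umat rhoPt
  rw [pa_U_smul_rho, pa_denom_U] at h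
  have hsq := pa_rho_sq
  have h4 : (((rhoPt : ℍ) : ℂ) + 1) ^ (4 : ℤ) = (rhoPt : ℂ) ^ 2 := by
    have : (((rhoPt : ℍ) : ℂ) + 1) ^ (4 : ℤ) = ((rhoPt : ℂ) + 1) ^ 4 := by norm_cast
    rw [this]
    linear_combination ((rhoPt : ℂ) ^ 2 + 3 * (rhoPt : ℂ) + 1) * hsq
  rw [h4] at h
  have hne : (1 : ℂ) - (rhoPt : ℂ) ^ 2 ≠ 0 := by
    have e : (1 : ℂ) - (rhoPt : ℂ) ^ 2 = 2 + (rhoPt : ℂ) := by linear_combination -hsq
    rw [e]
    intro h0
    have := congrArg Complex.im h0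
    rw [pa_rho_coe] at this
    simp at this
  have : ((1 : ℂ) - (rhoPt : ℂ) ^ 2) * E₄ rhoPt = 0 := by linear_combination h
  exact (mul_eq_zero.1 this).resolve_left hne

/-! ### the primes at `I` and `ρ` -/

theorem pa_E4_I_ne_zero : E₄ UpperHalfPlane.I ≠ 0 := by
  rcases pa_not_both_zero UpperHalfPlane.I with h | h
  · exact h
  · exact absurd pa_E6_I h

theorem pa_E6_rho_ne_zero : E₆ rhoPt ≠ 0 := by
  rcases pa_not_both_zero rhoPt with h | h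
  · exact absurd pa_E4_rho h
  · exact h

theorem pa_exists_exponents {m : ℤ} (hm : Even m) (h : m = 0 ∨ 4 ≤ m) :
    ∃ a b : ℕ, 4 * (a : ℤ) + 6 * (b : ℤ) = m := by
  rcases h with rfl | h
  · exact ⟨0, 0, by simp⟩
  · obtain ⟨a, b, hab, -⟩ := l1_exists_exponents hm h
    exact ⟨a, b, hab⟩

theorem pa_deriv_ne_zero {F : ℍ → ℂ} {z : ℍ} (h : D F z ≠ 0) :
    deriv (F ∘ ofComplex) (z : ℂ) ≠ 0 := by
  intro h0
  apply h
  simp [normalizedDerivOfComplex, h0]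

/-- divisibility by `P` of forms vanishing at `z₀`, from a decomposition `R_{>0} = Q R + P R`
with `Q z₀ ≠ 0`. -/
theorem pa_gen_of_decomp {wP wQ : ℤ} (hwQ : 0 < wQ) {P Q : ℍ → ℂ} (hQ : IsL1 wQ Q) (z₀ : ℍ)
    (hQ0 : Q z₀ ≠ 0)
    (hdec : ∀ (m : ℤ), m ≠ 0 → ∀ A : ℍ → ℂ, IsL1 m A →
      ∃ B C, IsL1 (m - wQ) B ∧ IsL1 (m - wP) C ∧ ∀ z, A z = Q z * B z + P z * C z)
    (hP0 : P z₀ = 0) (n : ℕ) :
    ∀ (m : ℤ), m < n → ∀ A : ℍ → ℂ, IsL1 m A → A z₀ = 0 →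
      ∃ B, IsL1 (m - wP) B ∧ ∀ z, A z = P z * B z := by
  induction n with
  | zero =>
    intro m hm A hA _
    rw [l1_eq_zero_of_neg (by simpa using hm) hA]
    exact ⟨0, l1_zero _, fun z => by simp⟩
  | succ n ih =>
    intro m hm A hA hA0
    by_cases hm0 : m = 0
    · subst hm0
      obtain ⟨c, rfl⟩ := l1_const_of_zero hA
      have hc : c = 0 := hA0
      subst hc
      exact ⟨0, l1_zero _, fun z => by simp⟩
    obtain ⟨B, C, hB, hC, hABC⟩ := hdec m hm0 A hA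
    have hB0 : B z₀ = 0 := by
      have h := hABC z₀
      rw [hA0, hP0, zero_mul, add_zero] at h
      exact (mul_eq_zero.1 h.symm).resolve_left hQ0
    obtain ⟨B', hB', hBB'⟩ := ih (m - wQ) (by push_cast at hm; omega) B hB hB0
    refine ⟨fun z => Q z * B' z + C z, l1_add (l1_cast (by ring) (l1_mul hQ hB')) hC, fun z => ?_⟩
    rw [hABC z, hBB' z]; ring

/-- forms of weight not divisible by `wQ` vanish at `z₀`. -/
theorem pa_eq_zero_of_decomp {wP wQ : ℤ} (hwQ : 0 < wQ) {P Q : ℍ → ℂ} (z₀ : ℍ)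
    (hdec : ∀ (m : ℤ), m ≠ 0 → ∀ A : ℍ → ℂ, IsL1 m A →
      ∃ B C, IsL1 (m - wQ) B ∧ IsL1 (m - wP) C ∧ ∀ z, A z = Q z * B z + P z * C z)
    (hP0 : P z₀ = 0) (n : ℕ) :
    ∀ (m : ℤ), m < n → ¬ wQ ∣ m → ∀ A : ℍ → ℂ, IsL1 m A → A z₀ = 0 := by
  induction n with
  | zero =>
    intro m hm _ A hA
    rw [l1_eq_zero_of_neg (by simpa using hm) hA]; rfl
  | succ n ih =>
    intro m hm hdvd A hA
    have hm0 : m ≠ 0 := by
      rintro rfl
      exact hdvd (dvd_zero _)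
    obtain ⟨B, C, hB, hC, hABC⟩ := hdec m hm0 A hA
    have hB0 : B z₀ = 0 := by
      refine ih (m - wQ) (by push_cast at hm; omega) (fun h => hdvd ?_) B hB
      have := dvd_add h (dvd_refl wQ)
      simpa using this
    rw [hABC z₀, hB0, hP0]; ring

theorem pa_decomp_I (m : ℤ) (hm : m ≠ 0) (A : ℍ → ℂ) (hA : IsL1 m A) :
    ∃ B C, IsL1 (m - 4) B ∧ IsL1 (m - 6) C ∧ ∀ z, A z = E₄ z * B z + E₆ z * C z :=
  l1_decomp hm hA

theorem pa_decomp_rho (m : ℤ) (hm : m ≠ 0) (A : ℍ → ℂ) (hA : IsL1 m A) :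
    ∃ B C, IsL1 (m - 6) B ∧ IsL1 (m - 4) C ∧ ∀ z, A z = E₆ z * B z + E₄ z * C z := by
  obtain ⟨B, C, hB, hC, h⟩ := l1_decomp hm hA
  exact ⟨C, B, hC, hB, fun z => by rw [h z]; ring⟩

theorem isPrimeAt_I : IsPrimeAt 6 (⇑E₆) UpperHalfPlane.I where
  l1 := l1_E6
  zero := pa_E6_I
  simple := by
    apply pa_deriv_ne_zero
    rw [Fermat.Agent.S24x.ram_E6, pa_E6_I]
    have := pa_E4_I_ne_zero
    simp [this]
  infty := ⟨1, one_ne_zero, E6_tendsto⟩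
  gen := fun m A hA hA0 =>
    pa_gen_of_decomp (by norm_num) l1_E4 UpperHalfPlane.I pa_E4_I_ne_zero pa_decomp_I pa_E6_I
      (m.toNat + 1) m (by push_cast; omega) A hA hA0

theorem isPrimeAt_rho : IsPrimeAt 4 (⇑E₄) rhoPt where
  l1 := l1_E4
  zero := pa_E4_rho
  simple := by
    apply pa_deriv_ne_zero
    rw [Fermat.Agent.S24x.ram_E4, pa_E4_rho]
    have := pa_E6_rho_ne_zero
    simp [this]
  infty := ⟨1, one_ne_zero, E4_tendsto⟩
  gen := fun m A hA hA0 =>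
    pa_gen_of_decomp (by norm_num) l1_E6 rhoPt pa_E6_rho_ne_zero pa_decomp_rho pa_E4_rho
      (m.toNat + 1) m (by push_cast; omega) A hA hA0

theorem l1_I_eq_zero {m : ℤ} (h4 : ¬ (4 : ℤ) ∣ m) {A : ℍ → ℂ} (hA : IsL1 m A) :
    A UpperHalfPlane.I = 0 :=
  pa_eq_zero_of_decomp (by norm_num) UpperHalfPlane.I pa_decomp_I pa_E6_I
    (m.toNat + 1) m (by push_cast; omega) h4 A hA

theorem l1_rho_eq_zero {m : ℤ} (h6 : ¬ (6 : ℤ) ∣ m) {A : ℍ → ℂ} (hA : IsL1 m A) :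
    A rhoPt = 0 :=
  pa_eq_zero_of_decomp (by norm_num) rhoPt pa_decomp_rho pa_E4_rho
    (m.toNat + 1) m (by push_cast; omega) h6 A hA


/-! ### generic points -/

theorem pa_cube_ne_sq (z₀ : ℍ) : E₆ z₀ ^ 2 - E₄ z₀ ^ 3 ≠ 0 := by
  have h1 := discriminant_eq_E₄_cube_sub_E₆_sq z₀
  have h2 := discriminant_ne_zero z₀
  intro h
  apply h2
  rw [h1]
  have : E₄ z₀ ^ 3 - E₆ z₀ ^ 2 = 0 := by linear_combination -h
  rw [this, zero_div]

theorem pa_generic_l1 (z₀ : ℍ) :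
    IsL1 12 (fun z => E₆ z₀ ^ 2 * E₄ z ^ 3 - E₄ z₀ ^ 3 * E₆ z ^ 2) :=
  l1_sub (l1_smul _ (l1_cast (by norm_num) (l1_pow l1_E4 3)))
    (l1_smul _ (l1_cast (by norm_num) (l1_pow l1_E6 2)))

theorem pa_generic_tendsto (z₀ : ℍ) :
    Tendsto (fun z => E₆ z₀ ^ 2 * E₄ z ^ 3 - E₄ z₀ ^ 3 * E₆ z ^ 2) atImInfty
      (𝓝 (E₆ z₀ ^ 2 - E₄ z₀ ^ 3)) := by
  have h := ((E4_tendsto.pow 3).const_mul (E₆ z₀ ^ 2)).sub
    ((E6_tendsto.pow 2).const_mul (E₄ z₀ ^ 3))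
  simpa using h

theorem pa_generic_D (z₀ : ℍ) :
    D (fun z => E₆ z₀ ^ 2 * E₄ z ^ 3 - E₄ z₀ ^ 3 * E₆ z ^ 2) z₀ =
      E₄ z₀ ^ 2 * E₆ z₀ * (E₄ z₀ ^ 3 - E₆ z₀ ^ 2) := by
  have hfun : (fun z => E₆ z₀ ^ 2 * E₄ z ^ 3 - E₄ z₀ ^ 3 * E₆ z ^ 2) =
      (E₆ z₀ ^ 2) • ((⇑E₄ : ℍ → ℂ) ^ 3) - (E₄ z₀ ^ 3) • ((⇑E₆ : ℍ → ℂ) ^ 2) := by
    funext z; simp
  have h4 : MDiff (⇑E₄ : ℍ → ℂ) := E₄.holo'
  have h6 : MDiff (⇑E₆ : ℍ → ℂ) := E₆.holo'
  have h43 : MDiff ((⇑E₄ : ℍ → ℂ) ^ 3) := h4.pow 3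
  have h62 : MDiff ((⇑E₆ : ℍ → ℂ) ^ 2) := h6.pow 2
  rw [hfun, normalizedDerivOfComplex_sub _ _ (h43.const_smul _) (h62.const_smul _),
    normalizedDerivOfComplex_smul _ _ h43, normalizedDerivOfComplex_smul _ _ h62,
    normalizedDerivOfComplex_pow _ _ h4, normalizedDerivOfComplex_pow _ _ h6]
  simp only [Pi.sub_apply, Pi.smul_apply, Pi.mul_apply, Pi.pow_apply, smul_eq_mul,
    Fermat.Agent.S24x.ram_E4, Fermat.Agent.S24x.ram_E6, Nat.cast_ofNat, Pi.ofNat_apply]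
  ring

theorem pa_gen_generic (z₀ : ℍ) (h4 : E₄ z₀ ≠ 0) (h6 : E₆ z₀ ≠ 0) (n : ℕ) :
    ∀ (m : ℤ), m < n → ∀ A : ℍ → ℂ, IsL1 m A → A z₀ = 0 →
      ∃ B, IsL1 (m - 12) B ∧
        ∀ z, A z = (E₆ z₀ ^ 2 * E₄ z ^ 3 - E₄ z₀ ^ 3 * E₆ z ^ 2) * B z := by
  induction n with
  | zero =>
    intro m hm A hA _
    rw [l1_eq_zero_of_neg (by simpa using hm) hA]
    exact ⟨0, l1_zero _, fun z => by simp⟩
  | succ n ih =>
    intro m hm A hA hA0
    have hzero : A = 0 → ∃ B, IsL1 (m - 12) B ∧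
        ∀ z, A z = (E₆ z₀ ^ 2 * E₄ z ^ 3 - E₄ z₀ ^ 3 * E₆ z ^ 2) * B z := by
      rintro rfl
      exact ⟨0, l1_zero _, fun z => by simp⟩
    rcases Int.even_or_odd m with he | ho
    swap
    · exact hzero (l1_eq_zero_of_odd ho hA)
    rcases lt_or_ge m 4 with hlt | hge4
    · rcases lt_or_ge m 0 with hneg | hnn
      · exact hzero (l1_eq_zero_of_neg hneg hA)
      · have h2 : m = 0 ∨ m = 2 := by
          obtain ⟨k, rfl⟩ := he
          omega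
        rcases h2 with rfl | rfl
        · obtain ⟨c, rfl⟩ := l1_const_of_zero hA
          have hc : c = 0 := hA0
          subst hc
          exact hzero rfl
        · exact hzero (l1_eq_zero_of_two hA)
    -- now `m ≥ 4` even
    by_cases hsmall : m < 12 ∨ m = 14
    · obtain ⟨a, b, c₀, B, hab, -, hB, hAB⟩ := l1_split he hge4 hA
      have hB0 : B = 0 := by
        rcases hsmall with h | rfl
        · exact l1_eq_zero_of_neg (by omega) hB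
        · exact l1_eq_zero_of_two hB
      subst hB0
      have hG0 : E₄ z₀ ^ a * E₆ z₀ ^ b ≠ 0 := mul_ne_zero (pow_ne_zero _ h4) (pow_ne_zero _ h6)
      have hc₀ : c₀ = 0 := by
        have h := hAB z₀
        rw [hA0] at h
        simp only [Pi.zero_apply, mul_zero, add_zero] at h
        exact (mul_eq_zero.1 h.symm).resolve_right hG0
      apply hzero
      funext z
      rw [hAB z, hc₀]; simp
    · have hm12 : m - 12 = 0 ∨ 4 ≤ m - 12 := by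
        obtain ⟨k, rfl⟩ := he
        omega
      have he12 : Even (m - 12) := by
        obtain ⟨k, rfl⟩ := he
        exact ⟨k - 6, by ring⟩
      obtain ⟨a, b, hab⟩ := pa_exists_exponents he12 hm12
      obtain ⟨c₀, hc₀⟩ := l1_tendsto hA
      have hG : IsL1 (m - 12) (fun z => E₄ z ^ a * E₆ z ^ b) := l1_cast hab (l1_monomial a b)
      have hP := pa_generic_l1 z₀
      have hPG : IsL1 m (fun z => (E₆ z₀ ^ 2 * E₄ z ^ 3 - E₄ z₀ ^ 3 * E₆ z ^ 2) *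
          (E₄ z ^ a * E₆ z ^ b)) := l1_cast (by ring) (l1_mul hP hG)
      set t : ℂ := c₀ / (E₆ z₀ ^ 2 - E₄ z₀ ^ 3) with ht
      have hA' : IsL1 m (fun z => A z - t * ((E₆ z₀ ^ 2 * E₄ z ^ 3 - E₄ z₀ ^ 3 * E₆ z ^ 2) *
          (E₄ z ^ a * E₆ z ^ b))) := l1_sub hA (l1_smul t hPG)
      have h0 : IsZeroAtImInfty (fun z => A z - t * ((E₆ z₀ ^ 2 * E₄ z ^ 3 -
          E₄ z₀ ^ 3 * E₆ z ^ 2) * (E₄ z ^ a * E₆ z ^ b))) := by
        have h := hc₀.sub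
          (((pa_generic_tendsto z₀).mul (l1_monomial_tendsto a b)).const_mul t)
        have hlim : c₀ - t * ((E₆ z₀ ^ 2 - E₄ z₀ ^ 3) * 1) = 0 := by
          rw [ht, mul_one, div_mul_cancel₀ _ (pa_cube_ne_sq z₀), sub_self]
        rw [hlim] at h
        exact h
      obtain ⟨B', hB', hAB'⟩ := l1_cusp_eq_delta_mul hA' h0
      have hB'0 : B' z₀ = 0 := by
        have hP0 : E₆ z₀ ^ 2 * E₄ z₀ ^ 3 - E₄ z₀ ^ 3 * E₆ z₀ ^ 2 = 0 := by ring
        have h := hAB' z₀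
        simp only [hA0, hP0, sub_self, zero_mul, mul_zero] at h
        exact (mul_eq_zero.1 h.symm).resolve_left (discriminant_ne_zero z₀)
      obtain ⟨B'', hB'', hBB''⟩ := ih (m - 12) (by push_cast at hm; omega) B' hB' hB'0
      refine ⟨fun z => t * (E₄ z ^ a * E₆ z ^ b) + Δ z * B'' z,
        l1_add (l1_smul t hG) (l1_cast (by ring) (l1_mul l1_delta hB'')), fun z => ?_⟩
      have h1 := hAB' z
      rw [hBB'' z] at h1
      linear_combination h1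

theorem isPrimeAt_generic (z₀ : ℍ) (h4 : E₄ z₀ ≠ 0) (h6 : E₆ z₀ ≠ 0) :
    IsPrimeAt 12 (fun z => E₆ z₀ ^ 2 * E₄ z ^ 3 - E₄ z₀ ^ 3 * E₆ z ^ 2) z₀ where
  l1 := pa_generic_l1 z₀
  zero := by ring
  simple := by
    apply pa_deriv_ne_zero
    rw [pa_generic_D]
    have h := pa_cube_ne_sq z₀
    have h' : E₄ z₀ ^ 3 - E₆ z₀ ^ 2 ≠ 0 := by
      intro h0
      apply h
      linear_combination -h0
    exact mul_ne_zero (mul_ne_zero (pow_ne_zero _ h4) h6) h'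
  infty := ⟨_, pa_cube_ne_sq z₀, pa_generic_tendsto z₀⟩
  gen := fun m A hA hA0 =>
    pa_gen_generic z₀ h4 h6 (m.toNat + 1) m (by push_cast; omega) A hA hA0

/-! ### forms with value one -/

theorem pa_exists_one_of_monomial (z₀ : ℍ) {m : ℤ} (a b : ℕ) (hab : 4 * (a : ℤ) + 6 * (b : ℤ) = m)
    (h0 : E₄ z₀ ^ a * E₆ z₀ ^ b ≠ 0) : ∃ A, IsL1 m A ∧ A z₀ = 1 :=
  ⟨fun z => (E₄ z₀ ^ a * E₆ z₀ ^ b)⁻¹ * (E₄ z ^ a * E₆ z ^ b),
    l1_smul _ (l1_cast hab (l1_monomial a b)), inv_mul_cancel₀ h0⟩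

/-- elements of `R` with value `1` at a point, in every admissible weight. -/
theorem l1_exists_one_generic (z₀ : ℍ) (h4 : E₄ z₀ ≠ 0) (h6 : E₆ z₀ ≠ 0) {m : ℤ} (hm : Even m)
    (hm' : m = 0 ∨ 4 ≤ m) : ∃ A, IsL1 m A ∧ A z₀ = 1 := by
  obtain ⟨a, b, hab⟩ := pa_exists_exponents hm hm'
  exact pa_exists_one_of_monomial z₀ a b hab (mul_ne_zero (pow_ne_zero _ h4) (pow_ne_zero _ h6))

theorem l1_exists_one_I {m : ℤ} (hm : 0 ≤ m) (h4 : (4 : ℤ) ∣ m) :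
    ∃ A, IsL1 m A ∧ A UpperHalfPlane.I = 1 := by
  obtain ⟨j, rfl⟩ := h4
  refine pa_exists_one_of_monomial _ j.toNat 0 ?_ ?_
  · have : 0 ≤ j := by omega
    push_cast
    rw [Int.toNat_of_nonneg this]; ring
  · rw [pow_zero, mul_one]; exact pow_ne_zero _ pa_E4_I_ne_zero

theorem l1_exists_one_rho {m : ℤ} (hm : 0 ≤ m) (h6 : (6 : ℤ) ∣ m) :
    ∃ A, IsL1 m A ∧ A rhoPt = 1 := by
  obtain ⟨j, rfl⟩ := h6
  refine pa_exists_one_of_monomial _ 0 j.toNat ?_ ?_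
  · have : 0 ≤ j := by omega
    push_cast
    rw [Int.toNat_of_nonneg this]; ring
  · rw [pow_zero, one_mul]; exact pow_ne_zero _ pa_E6_rho_ne_zero

theorem l1_exists_one_infty {m : ℤ} (hm : Even m) (hm' : m = 0 ∨ 4 ≤ m) :
    ∃ A, IsL1 m A ∧ Tendsto A atImInfty (𝓝 1) := by
  obtain ⟨a, b, hab⟩ := pa_exists_exponents hm hm'
  exact ⟨_, l1_cast hab (l1_monomial a b), l1_monomial_tendsto a b⟩

end Fermat.Agent.S20x
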