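/-
S20 project, module M03 (pure analysis): a function which is a root of a "homogenised" monic
polynomial with holomorphic coefficients is divisible by `P` in the ring of holomorphic functions.
This is a reindexing wrapper around `Fermat.Agent.X0x.exists_mdiff_quotient` (helper17).
-/
import Fermat.Agent.X0x.IntegralQuotient

set_option autoImplicit false

namespace Fermat.Agent.S20x

open UpperHalfPlane
open scoped Manifold

theorem mh_exists_div {n : ℕ} (f P : ℍ → ℂ) (c : Fin n → ℍ → ℂ) (hf : MDiff f) (hP : MDiff P)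
    (hc : ∀ i, MDiff (c i)) (hP0 : ∃ z, P z ≠ 0)
    (heq : ∀ z, f z ^ n + ∑ i : Fin n, c i z * f z ^ (i : ℕ) * P z ^ (n - (i : ℕ)) = 0) :
    ∃ h : ℍ → ℂ, MDiff h ∧ ∀ z, f z = P z * h z := by
  cases n with
  | zero => exact absurd (heq UpperHalfPlane.I) (by simp)
  | succ m =>
    have hG0 : P ≠ 0 := by
      obtain ⟨z, hz⟩ := hP0
      intro h
      exact hz (by simp [h])
    have key : f ^ (m + 1) + ∑ i ∈ Finset.range (m + 1),
        (fun i => c ⟨m - i, Nat.sub_lt_succ m i⟩) i * f ^ (m - i) * P ^ (i + 1) = 0 := by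
      funext z
      simp only [Pi.add_apply, Pi.pow_apply, Finset.sum_apply, Pi.mul_apply, Pi.zero_apply]
      rw [← heq z]
      congr 1
      rw [Finset.sum_range, ← Equiv.sum_comp Fin.revPerm]
      refine Finset.sum_congr rfl fun i _ => ?_
      have hi : (i : ℕ) < m + 1 := i.isLt
      have e1 : ((Fin.revPerm i : Fin (m + 1)) : ℕ) = m - i := by
        simp [Fin.val_rev]
      have e2 : (⟨m - ((Fin.revPerm i : Fin (m + 1)) : ℕ), Nat.sub_lt_succ m _⟩ : Fin (m + 1))
          = i := by
        apply Fin.ext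
        simp only [e1]
        omega
      rw [e2, e1]
      have e3 : m - (m - (i : ℕ)) = i := by omega
      have e4 : m - (i : ℕ) + 1 = m + 1 - i := by omega
      rw [e3, e4]
    obtain ⟨H, hH, hHG, -, -⟩ := Fermat.Agent.X0x.exists_mdiff_quotient (n := m) hf hP hG0
      (fun i => c ⟨m - i, Nat.sub_lt_succ m i⟩) (fun i => hc _) key
    refine ⟨H, hH, fun z => ?_⟩
    rw [← hHG]
    simp [mul_comm]

end Fermat.Agent.S20x
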