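/-
S20 project, module M04: the division lemma for vector valued modular forms (blueprint Step 3).

* `vvd_isL1_of` / `vvd_l1_mdiff` / `vvd_l1_equiv` / `vvd_l1_bdd`: level one forms as plain functions
  (`IsL1 k A` iff holomorphic + weight `k` equivariant + bounded at `i∞`);
* `vvdE F r`: the `r`-th elementary symmetric function of the components of `F`; it is `IsL1 (r * k)`
  (`vvdE_isL1`), vanishes to order `≥ r` where all components vanish (`vvdE_ord_ge`), and every
  component is a root of the corresponding monic polynomial (`vvdE_vieta`);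
* `vvd_pow_dvd`: a level one form vanishing to order `≥ r` at `z₀` is divisible by `P ^ r`;
* `vv_div`, `vv_div_delta`: the division lemmas (exact Spec statements).
-/
import Fermat.Agent.S20x.Defs
import Fermat.Agent.S20x.MonicHolo

set_option autoImplicit false

namespace Fermat.Agent.S20x

open UpperHalfPlane ModularForm EisensteinSeries Filter Complex
open scoped MatrixGroups ModularForm Manifold Topology

local notation "Δ" => ModularForm.discriminant

/-! ### level one forms as plain functions -/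

theorem vvd_l1_mdiff {k : ℤ} {A : ℍ → ℂ} (hA : IsL1 k A) : MDiff A := by
  obtain ⟨f, rfl⟩ := hA
  exact f.holo'

theorem vvd_l1_equiv {k : ℤ} {A : ℍ → ℂ} (hA : IsL1 k A) (γ : SL(2, ℤ)) (z : ℍ) :
    A (γ • z) = denom γ z ^ k * A z := by
  obtain ⟨f, rfl⟩ := hA
  have hγ : (γ : GL (Fin 2) ℝ) ∈ 𝒮ℒ := ⟨γ, rfl⟩
  exact SlashInvariantForm.slash_action_eqn'' f hγ z

theorem vvd_l1_bdd {k : ℤ} {A : ℍ → ℂ} (hA : IsL1 k A) : IsBoundedAtImInfty A := by
  obtain ⟨f, rfl⟩ := hA
  exact ModularFormClass.bdd_at_infty f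

theorem vvd_slash_eq {k : ℤ} {A : ℍ → ℂ}
    (heq : ∀ (γ : SL(2, ℤ)) (z : ℍ), A (γ • z) = denom γ z ^ k * A z) (γ : SL(2, ℤ)) :
    A ∣[k] γ = A := by
  funext z
  rw [SL_slash_apply, heq γ z, mul_comm, ← mul_assoc, ← zpow_add₀ (denom_ne_zero γ z)]
  simp

theorem vvd_isL1_of {k : ℤ} {A : ℍ → ℂ} (hA : MDiff A)
    (heq : ∀ (γ : SL(2, ℤ)) (z : ℍ), A (γ • z) = denom γ z ^ k * A z)
    (hb : IsBoundedAtImInfty A) : IsL1 k A := by
  refine ⟨{ toFun := A
            slash_action_eq' := ?_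
            holo' := hA
            bdd_at_cusps' := ?_ }, rfl⟩
  · rintro _ ⟨γ, rfl⟩
    exact vvd_slash_eq heq γ
  · intro c hc
    rw [OnePoint.isBoundedAt_iff_forall_SL2Z hc]
    intro γ _
    rw [vvd_slash_eq heq γ]
    exact hb

/-! ### orders of vanishing in the chart -/

theorem vvd_analyticAt {A : ℍ → ℂ} (hA : MDiff A) (z₀ : ℍ) :
    AnalyticAt ℂ (A ∘ ofComplex) (z₀ : ℂ) := by
  rw [mdifferentiable_iff] at hA
  exact hA.analyticAt (isOpen_upperHalfPlaneSet.mem_nhds z₀.im_pos)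

/-- order of vanishing of `A` at `z₀`, computed in the chart. -/
noncomputable def vvdOrd (A : ℍ → ℂ) (z₀ : ℍ) : ℕ∞ := analyticOrderAt (A ∘ ofComplex) (z₀ : ℂ)

theorem vvdOrd_mul {A B : ℍ → ℂ} (hA : MDiff A) (hB : MDiff B) (z₀ : ℍ) :
    vvdOrd (fun z => A z * B z) z₀ = vvdOrd A z₀ + vvdOrd B z₀ :=
  analyticOrderAt_mul (vvd_analyticAt hA z₀) (vvd_analyticAt hB z₀)

theorem vvdOrd_pow {A : ℍ → ℂ} (hA : MDiff A) (z₀ : ℍ) (n : ℕ) :
    vvdOrd (fun z => A z ^ n) z₀ = n • vvdOrd A z₀ :=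
  analyticOrderAt_pow (vvd_analyticAt hA z₀) n

theorem vvdOrd_ne_zero_iff {A : ℍ → ℂ} (hA : MDiff A) (z₀ : ℍ) :
    vvdOrd A z₀ ≠ 0 ↔ A z₀ = 0 := by
  unfold vvdOrd
  rw [analyticOrderAt_ne_zero]
  simp [vvd_analyticAt hA z₀, ofComplex_apply]

theorem vvd_le_order_sum {ι : Type*} (T : Finset ι) (ψ : ι → ℂ → ℂ) (n : ℕ∞) (z₀ : ℂ)
    (h : ∀ i ∈ T, n ≤ analyticOrderAt (ψ i) z₀) : n ≤ analyticOrderAt (∑ i ∈ T, ψ i) z₀ := by
  classical
  induction T using Finset.induction_on with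
  | empty =>
    have : analyticOrderAt (∑ i ∈ (∅ : Finset ι), ψ i) z₀ = ⊤ := by
      rw [analyticOrderAt_eq_top]; simp
    rw [this]; exact le_top
  | insert a T ha ih =>
    rw [Finset.sum_insert ha]
    refine le_trans (le_min (h a (Finset.mem_insert_self a T)) (ih ?_)) le_analyticOrderAt_add
    exact fun i hi => h i (Finset.mem_insert_of_mem hi)

theorem vvd_card_le_order_prod {ι : Type*} (S : Finset ι) (φ : ι → ℂ → ℂ) (z₀ : ℂ)
    (ha : ∀ i ∈ S, AnalyticAt ℂ (φ i) z₀) (h0 : ∀ i ∈ S, φ i z₀ = 0) :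
    (S.card : ℕ∞) ≤ analyticOrderAt (∏ i ∈ S, φ i) z₀ := by
  classical
  induction S using Finset.induction_on with
  | empty => simp
  | insert a S haS ih =>
    rw [Finset.prod_insert haS, Finset.card_insert_of_notMem haS,
      analyticOrderAt_mul (ha a (Finset.mem_insert_self a S))
        (S.analyticAt_prod fun i hi => ha i (Finset.mem_insert_of_mem hi))]
    have h1 : (1 : ℕ∞) ≤ analyticOrderAt (φ a) z₀ := by
      rw [Order.one_le_iff_ne_zero, analyticOrderAt_ne_zero]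
      exact ⟨ha a (Finset.mem_insert_self a S), h0 a (Finset.mem_insert_self a S)⟩
    have h2 := ih (fun i hi => ha i (Finset.mem_insert_of_mem hi))
      (fun i hi => h0 i (Finset.mem_insert_of_mem hi))
    push_cast
    rw [add_comm]
    exact add_le_add h1 h2


/-! ### elementary symmetric functions of the components -/

section Esymm

variable {X : Type} [MulAction SL(2, ℤ) X] [Fintype X]

/-- the `r`-th elementary symmetric function of the components. -/
noncomputable def vvdE (F : ℍ → X → ℂ) (r : ℕ) : ℍ → ℂ :=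
  fun z => ((Finset.univ : Finset X).val.map (F z)).esymm r

omit [MulAction SL(2, ℤ) X] in
theorem vvdE_eq_sum (F : ℍ → X → ℂ) (r : ℕ) (z : ℍ) :
    vvdE F r z = ∑ S ∈ (Finset.univ : Finset X).powersetCard r, ∏ x ∈ S, F z x :=
  Finset.esymm_map_val (F z) _ r

omit [MulAction SL(2, ℤ) X] in
theorem vvdE_mdiff {F : ℍ → X → ℂ} (hF : ∀ x, MDiff (fun z => F z x)) (r : ℕ) :
    MDiff (vvdE F r) := by
  have : vvdE F r = ∑ S ∈ (Finset.univ : Finset X).powersetCard r, ∏ x ∈ S, (fun z => F z x) := by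
    funext z
    rw [vvdE_eq_sum]
    simp [Finset.sum_apply, Finset.prod_apply]
  rw [this]
  exact MDifferentiable.sum fun S _ => MDifferentiable.prod fun x _ => hF x

theorem vvdE_equiv {k : ℤ} {F : ℍ → X → ℂ}
    (hF : ∀ (γ : SL(2, ℤ)) (z : ℍ) (x : X), F (γ • z) x = denom γ z ^ k * F z (γ⁻¹ • x))
    (r : ℕ) (γ : SL(2, ℤ)) (z : ℍ) :
    vvdE F r (γ • z) = denom γ z ^ ((r : ℤ) * k) * vvdE F r z := by
  unfold vvdE
  have h1 : (Finset.univ : Finset X).val.map (F (γ • z)) =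
      ((Finset.univ : Finset X).val.map (F z)).map (fun a => denom γ z ^ k • a) := by
    rw [Multiset.map_map]
    conv_rhs => rw [← Multiset.map_univ_val_equiv (MulAction.toPerm γ⁻¹ : X ≃ X)]
    rw [Multiset.map_map]
    apply Multiset.map_congr rfl
    intro x _
    simp only [Function.comp_apply, MulAction.toPerm_apply, smul_eq_mul]
    exact hF γ z x
  rw [h1, ← Multiset.pow_smul_esymm, smul_eq_mul, ← zpow_natCast, ← zpow_mul, mul_comm k]

omit [MulAction SL(2, ℤ) X] in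
theorem vvdE_bdd {F : ℍ → X → ℂ} (hF : ∀ x, IsBoundedAtImInfty (fun z => F z x)) (r : ℕ) :
    IsBoundedAtImInfty (vvdE F r) := by
  have : vvdE F r = ∑ S ∈ (Finset.univ : Finset X).powersetCard r, ∏ x ∈ S, (fun z => F z x) := by
    funext z
    rw [vvdE_eq_sum]
    simp [Finset.sum_apply, Finset.prod_apply]
  rw [this]
  exact (boundedAtImInftySubalgebra ℂ).sum_mem fun S _ =>
    (boundedAtImInftySubalgebra ℂ).prod_mem fun x _ => hF x

theorem vvdE_isL1 {k : ℤ} {F : ℍ → X → ℂ} (hF : IsVV X k F) (r : ℕ) :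
    IsL1 ((r : ℤ) * k) (vvdE F r) :=
  vvd_isL1_of (vvdE_mdiff hF.holo r) (vvdE_equiv hF.equiv r) (vvdE_bdd hF.bdd r)

omit [MulAction SL(2, ℤ) X] in
/-- Vieta: each component is a root of the monic polynomial with coefficients `± vvdE`. -/
theorem vvdE_vieta (F : ℍ → X → ℂ) (z : ℍ) (x : X) :
    ∑ j ∈ Finset.range (Fintype.card X + 1),
      (-1 : ℂ) ^ j * (vvdE F j z * F z x ^ (Fintype.card X - j)) = 0 := by
  have h := congrArg (Polynomial.eval (F z x))
    (Multiset.prod_X_sub_X_eq_sum_esymm ((Finset.univ : Finset X).val.map (F z)))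
  rw [Polynomial.eval_multiset_prod, Multiset.map_map] at h
  have h0 : (Multiset.map (Polynomial.eval (F z x) ∘ fun t => Polynomial.X - Polynomial.C t)
      ((Finset.univ : Finset X).val.map (F z))).prod = 0 := by
    apply Multiset.prod_eq_zero
    rw [Multiset.mem_map]
    refine ⟨F z x, Multiset.mem_map_of_mem _ (Finset.mem_univ_val x), by simp⟩
  rw [h0] at h
  rw [h]
  simp [Polynomial.eval_finsetSum, vvdE]


omit [MulAction SL(2, ℤ) X] in
theorem vvdE_ord_ge {F : ℍ → X → ℂ} (hF : ∀ x, MDiff (fun z => F z x)) {z₀ : ℍ}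
    (h0 : ∀ x, F z₀ x = 0) (r : ℕ) : (r : ℕ∞) ≤ vvdOrd (vvdE F r) z₀ := by
  have : vvdE F r ∘ ofComplex = ∑ S ∈ (Finset.univ : Finset X).powersetCard r,
      ∏ x ∈ S, ((fun z => F z x) ∘ ofComplex) := by
    funext z
    simp [vvdE_eq_sum, Finset.sum_apply, Finset.prod_apply]
  unfold vvdOrd
  rw [this]
  apply vvd_le_order_sum
  intro S hS
  rw [← (Finset.mem_powersetCard.mp hS).2]
  apply vvd_card_le_order_prod
  · intro x _
    exact vvd_analyticAt (hF x) z₀
  · intro x _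
    simp [ofComplex_apply, h0]

end Esymm

/-! ### dividing by powers of the prime -/

theorem vvd_prime_ord {w : ℤ} {P : ℍ → ℂ} {z₀ : ℍ} (hP : IsPrimeAt w P z₀) : vvdOrd P z₀ = 1 := by
  unfold vvdOrd
  apply (vvd_analyticAt (vvd_l1_mdiff hP.l1) z₀).analyticOrderAt_eq_one_of_zero_deriv_ne_zero
  · simp [ofComplex_apply, hP.zero]
  · exact hP.simple

theorem vvd_pow_dvd {w : ℤ} {P : ℍ → ℂ} {z₀ : ℍ} (hP : IsPrimeAt w P z₀) {m : ℤ} {A : ℍ → ℂ}
    (hA : IsL1 m A) (r : ℕ) (hr : (r : ℕ∞) ≤ vvdOrd A z₀) :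
    ∃ B, IsL1 (m - r * w) B ∧ ∀ z, A z = P z ^ r * B z := by
  induction r with
  | zero => exact ⟨A, by simpa using hA, by simp⟩
  | succ r ih =>
    have hr' : (r : ℕ∞) ≤ vvdOrd A z₀ := le_trans (by exact_mod_cast Nat.le_succ r) hr
    obtain ⟨B, hB, hAB⟩ := ih hr'
    have hPmd := vvd_l1_mdiff hP.l1
    have hBmd := vvd_l1_mdiff hB
    have hord : vvdOrd A z₀ = r + vvdOrd B z₀ := by
      have hPr : MDiff (fun z => P z ^ r) := hPmd.pow r
      have : A = fun z => (fun z => P z ^ r) z * B z := funext hAB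
      rw [this, vvdOrd_mul hPr hBmd, vvdOrd_pow hPmd, vvd_prime_ord hP]
      simp
    have hB0 : B z₀ = 0 := by
      rw [← vvdOrd_ne_zero_iff hBmd]
      intro h0
      rw [hord, h0, add_zero] at hr
      have : r + 1 ≤ r := by exact_mod_cast hr
      omega
    obtain ⟨B', hB', hBB'⟩ := hP.gen _ B hB hB0
    refine ⟨B', ?_, fun z => ?_⟩
    · have : m - ((r + 1 : ℕ) : ℤ) * w = m - r * w - w := by push_cast; ring
      rw [this]; exact hB'
    · rw [hAB z, hBB' z]; ring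


/-! ### the division lemma -/

section Division

variable {X : Type} [MulAction SL(2, ℤ) X]

/-- uniqueness of quotients: a nonzero holomorphic function is a nonzerodivisor. -/
theorem vvd_eq_zero_of_mul {P g : ℍ → ℂ} (hP : MDiff P) (hg : MDiff g) (hP0 : ∃ z, P z ≠ 0)
    (h : ∀ z, P z * g z = 0) : ∀ z, g z = 0 := by
  have h1 : P * g = 0 := funext h
  rcases (UpperHalfPlane.mul_eq_zero_iff hP hg).mp h1 with h2 | h2
  · obtain ⟨z, hz⟩ := hP0; exact absurd (congrFun h2 z) hz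
  · exact fun z => congrFun h2 z

theorem vvd_monic_rel [Fintype X] {w : ℤ} {P : ℍ → ℂ} {z₀ : ℍ} (hP : IsPrimeAt w P z₀) {k : ℤ}
    {F : ℍ → X → ℂ} (hF : IsVV X k F) (h0 : ∀ x, F z₀ x = 0) :
    ∃ c : Fin (Fintype.card X) → ℍ → ℂ, (∀ i, MDiff (c i)) ∧ ∀ x z,
      F z x ^ Fintype.card X + ∑ i : Fin (Fintype.card X),
        c i z * F z x ^ (i : ℕ) * P z ^ (Fintype.card X - (i : ℕ)) = 0 := by
  have hB : ∀ j : ℕ, ∃ B, IsL1 ((j : ℤ) * k - j * w) B ∧ ∀ z, vvdE F j z = P z ^ j * B z :=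
    fun j => vvd_pow_dvd hP (vvdE_isL1 hF j) j (vvdE_ord_ge hF.holo h0 j)
  choose B hB1 hB2 using hB
  refine ⟨fun i z => (-1) ^ (Fintype.card X - (i : ℕ)) * B (Fintype.card X - (i : ℕ)) z,
    fun i => ?_, fun x z => ?_⟩
  · exact mdifferentiable_const.mul (vvd_l1_mdiff (hB1 _))
  · have hv := vvdE_vieta F z x
    rw [← Finset.sum_range_reflect, Finset.sum_range_succ] at hv
    rw [Fin.sum_univ_eq_sum_range (fun i => (-1) ^ (Fintype.card X - i) * B (Fintype.card X - i) z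
      * F z x ^ i * P z ^ (Fintype.card X - i)) (Fintype.card X), add_comm]
    rw [← hv]
    congr 1
    · apply Finset.sum_congr rfl
      intro i hi
      have hi' : i < Fintype.card X := Finset.mem_range.mp hi
      have e1 : Fintype.card X + 1 - 1 - i = Fintype.card X - i := by omega
      have e2 : Fintype.card X - (Fintype.card X - i) = i := by omega
      rw [e1, e2, hB2]
      ring
    · have e1 : Fintype.card X + 1 - 1 - Fintype.card X = 0 := by omega
      rw [e1, vvdE_eq_sum]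
      simp


theorem vvd_prime_ne_zero {w : ℤ} {P : ℍ → ℂ} {z₀ : ℍ} (hP : IsPrimeAt w P z₀) : ∃ z, P z ≠ 0 := by
  by_contra hcon
  push Not at hcon
  apply hP.simple
  have : P ∘ ofComplex = fun _ => 0 := by funext z; simp [hcon]
  rw [this]; simp

theorem vv_div [Fintype X] {w : ℤ} {P : ℍ → ℂ} {z₀ : ℍ}
    (hP : IsPrimeAt w P z₀) {k : ℤ} {F : ℍ → X → ℂ} (hF : IsVV X k F) (h0 : ∀ x, F z₀ x = 0) :
    ∃ F', IsVV X (k - w) F' ∧ ∀ z x, F z x = P z * F' z x := by
  have hPmd := vvd_l1_mdiff hP.l1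
  have hP0 := vvd_prime_ne_zero hP
  obtain ⟨c, hc, hrel⟩ := vvd_monic_rel hP hF h0
  have hex : ∀ x, ∃ h : ℍ → ℂ, MDiff h ∧ ∀ z, F z x = P z * h z := fun x =>
    mh_exists_div (fun z => F z x) P c (hF.holo x) hPmd hc hP0 (hrel x)
  choose h hh1 hh2 using hex
  refine ⟨fun z x => h x z, ⟨hh1, ?_, ?_⟩, fun z x => hh2 x z⟩
  · -- equivariance
    intro γ z x
    have hg : MDiff (fun z => h x (γ • z) - denom γ z ^ (k - w) * h (γ⁻¹ • x) z) := by
      refine MDifferentiable.sub ?_ ?_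
      · exact (hh1 x).comp (mdifferentiable_smul (g := (γ : GL (Fin 2) ℝ)) (by simp))
      · exact (mdifferentiable_denom_zpow γ (k - w)).mul (hh1 _)
    have hzero := vvd_eq_zero_of_mul hPmd hg hP0 ?_ z
    · exact sub_eq_zero.mp hzero
    · intro z
      have hd : denom γ z ^ w ≠ 0 := zpow_ne_zero _ (denom_ne_zero γ z)
      apply mul_left_cancel₀ hd
      have e1 := hF.equiv γ z x
      rw [hh2 x (γ • z), hh2 (γ⁻¹ • x) z, vvd_l1_equiv hP.l1 γ z] at e1
      rw [mul_zero]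
      have : denom γ z ^ k = denom γ z ^ w * denom γ z ^ (k - w) := by
        rw [← zpow_add₀ (denom_ne_zero γ z)]; congr 1; ring
      rw [this] at e1
      linear_combination e1
  · -- boundedness
    intro x
    obtain ⟨c0, hc0, hlim⟩ := hP.infty
    have h1 : (fun z => F z x) =O[atImInfty] (1 : ℍ → ℝ) := hF.bdd x
    have h2 : (fun z => (P z)⁻¹) =O[atImInfty] (1 : ℍ → ℝ) := (hlim.inv₀ hc0).isBigO_one ℝ
    have h3 := h1.mul h2
    have hne : ∀ᶠ z in atImInfty, P z ≠ 0 := hlim.eventually_ne hc0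
    refine (h3.congr' ?_ ?_)
    · filter_upwards [hne] with z hz
      rw [hh2 x z]; field_simp
    · exact Eventually.of_forall fun z => by simp


theorem vvd_delta_equiv (γ : SL(2, ℤ)) (z : ℍ) : Δ (γ • z) = denom γ z ^ (12 : ℤ) * Δ z := by
  have hγ : (γ : GL (Fin 2) ℝ) ∈ 𝒮ℒ := ⟨γ, rfl⟩
  exact SlashInvariantForm.slash_action_eqn'' CuspForm.discriminant hγ z

theorem vv_div_delta {k : ℤ} {F : ℍ → X → ℂ} (hF : IsVV X k F)
    (h0 : ∀ x, IsBoundedAtImInfty (fun z => F z x / Δ z)) :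
    ∃ F', IsVV X (k - 12) F' ∧ ∀ z x, F z x = Δ z * F' z x := by
  refine ⟨fun z x => F z x / Δ z, ⟨fun x => ?_, fun γ z x => ?_, h0⟩, fun z x => ?_⟩
  · exact (hF.holo x).div CuspForm.discriminant.holo' discriminant_ne_zero
  · have hd := denom_ne_zero γ z
    rw [hF.equiv, vvd_delta_equiv, zpow_sub₀ hd]
    have := discriminant_ne_zero z
    field_simp
  · have := discriminant_ne_zero z
    field_simp


end Division

end Fermat.Agent.S20x
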