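/-
S20 project, module M06 `LocalIndep.lean` (helper40): the values of a free basis at `I`, `ρ` and at
generic points are linearly independent (in each congruence class of weights for `I`, `ρ`).
-/
import Fermat.Agent.S20x.LocalIndepCore
import Fermat.Agent.S20x.PrimeAt
import Fermat.Agent.S20x.VVDiv
import Fermat.Agent.S20x.Regular

set_option autoImplicit false

namespace Fermat.Agent.S20x

open UpperHalfPlane ModularForm EisensteinSeries Filter Complex
open scoped MatrixGroups ModularForm Manifold Topology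

variable {X : Type} [MulAction SL(2, ℤ) X]

/-! ### The three instances -/

theorem indep_at_I [Fintype X] {J : Type} {wt : J → ℤ} {B : J → ℍ → X → ℂ}
    (hB : IsFreeBasis X J wt B) (r : ℤ) (s : Finset J) (hs : ∀ j ∈ s, (4 : ℤ) ∣ wt j - r) :
    LinearIndependent ℂ (fun j : s => B j UpperHalfPlane.I) := by
  refine m06_indep_core hB isPrimeAt_I (fun _ _ hF h0 => vv_div isPrimeAt_I hF h0) s (r + 4 * ∑ j ∈ s, |wt j - r|) fun j hj => ?_
  have h1 : |wt j - r| ≤ ∑ j ∈ s, |wt j - r| :=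
    Finset.single_le_sum (f := fun j => |wt j - r|) (fun j _ => abs_nonneg _) hj
  have h2 : wt j - r ≤ |wt j - r| := le_abs_self _
  have h3 : 0 ≤ |wt j - r| := abs_nonneg _
  refine l1_exists_one_I (by linarith) ?_
  have h4 : r + 4 * ∑ j ∈ s, |wt j - r| - wt j = 4 * ∑ j ∈ s, |wt j - r| - (wt j - r) := by ring
  rw [h4]
  exact dvd_sub (dvd_mul_right _ _) (hs j hj)

theorem indep_at_rho [Fintype X] {J : Type} {wt : J → ℤ} {B : J → ℍ → X → ℂ}
    (hB : IsFreeBasis X J wt B) (r : ℤ) (s : Finset J) (hs : ∀ j ∈ s, (6 : ℤ) ∣ wt j - r) :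
    LinearIndependent ℂ (fun j : s => B j rhoPt) := by
  refine m06_indep_core hB isPrimeAt_rho (fun _ _ hF h0 => vv_div isPrimeAt_rho hF h0) s (r + 6 * ∑ j ∈ s, |wt j - r|) fun j hj => ?_
  have h1 : |wt j - r| ≤ ∑ j ∈ s, |wt j - r| :=
    Finset.single_le_sum (f := fun j => |wt j - r|) (fun j _ => abs_nonneg _) hj
  have h2 : wt j - r ≤ |wt j - r| := le_abs_self _
  have h3 : 0 ≤ |wt j - r| := abs_nonneg _
  refine l1_exists_one_rho (by linarith) ?_
  have h4 : r + 6 * ∑ j ∈ s, |wt j - r| - wt j = 6 * ∑ j ∈ s, |wt j - r| - (wt j - r) := by ring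
  rw [h4]
  exact dvd_sub (dvd_mul_right _ _) (hs j hj)

/-- the weights of a free basis are even (under the standing hypotheses). -/
theorem m06_wt_even (hX : GoodX X) {J : Type} {wt : J → ℤ} {B : J → ℍ → X → ℂ}
    (hB : IsFreeBasis X J wt B) (j : J) : Even (wt j) := by
  classical
  by_contra hodd
  rw [Int.not_even_iff_odd] at hodd
  have hB0 : B j = 0 := vv_eq_zero_of_odd hX hodd (hB.mem j)
  have h1 : ∀ j', IsL1 (wt j - wt j') ((Finsupp.single j (fun _ : ℍ => (1 : ℂ))) j') := by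
    intro j'
    by_cases hjj : j' = j
    · subst hjj
      rw [Finsupp.single_eq_same]
      exact l1_cast (by ring) (l1_const 1)
    · rw [Finsupp.single_eq_of_ne hjj]
      exact l1_zero _
  have h2 : ∀ z x, (Finsupp.single j (fun _ : ℍ => (1 : ℂ))).sum
      (fun j a => a z * B j z x) = 0 := by
    intro z x
    rw [Finsupp.sum_single_index (by simp), hB0]
    simp
  have h3 := hB.indep (wt j) _ h1 h2
  have h4 := congrFun (DFunLike.congr_fun h3 j) UpperHalfPlane.I
  rw [Finsupp.single_eq_same] at h4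
  simp at h4

theorem indep_at_generic [Fintype X] (hX : GoodX X) {J : Type} {wt : J → ℤ}
    {B : J → ℍ → X → ℂ} (hB : IsFreeBasis X J wt B) (z₀ : ℍ) (h4 : E₄ z₀ ≠ 0) (h6 : E₆ z₀ ≠ 0)
    (s : Finset J) : LinearIndependent ℂ (fun j : s => B j z₀) := by
  refine m06_indep_core hB (isPrimeAt_generic z₀ h4 h6)
    (fun _ _ hF h0 => vv_div (isPrimeAt_generic z₀ h4 h6) hF h0) s (2 * (∑ j ∈ s, |wt j|) + 4)
    fun j hj => ?_
  have h1 : |wt j| ≤ ∑ j ∈ s, |wt j| :=
    Finset.single_le_sum (f := fun j => |wt j|) (fun j _ => abs_nonneg _) hj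
  have h2 : wt j ≤ |wt j| := le_abs_self _
  have h3 : 0 ≤ |wt j| := abs_nonneg _
  refine l1_exists_one_generic z₀ h4 h6 ?_ (Or.inr (by linarith))
  exact ((even_two_mul _).add (by decide)).sub (m06_wt_even hX hB j)

end Fermat.Agent.S20x
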