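/-
S20 project, module M02b: Serre derivatives of `E₄`, `E₆` (Ramanujan identities) and the special
values `E₆(i) = 0`, `E₄(ρ) = 0`; `E₄`, `E₆` have no common zero.
The Ramanujan identities themselves are imported from `S24x/LevelOneRam.lean`.
-/
import Fermat.Agent.S20x.Defs
import Fermat.Agent.S24x.LevelOneRam

set_option autoImplicit false

namespace Fermat.Agent.S20x

open UpperHalfPlane ModularForm EisensteinSeries Filter Complex Derivative
open scoped MatrixGroups ModularForm Manifold Topology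

/-- Serre derivative of `E₄`: `ϑ E₄ = -E₆ / 3`. -/
theorem ramanujan_E4 : serreDerivative 4 (⇑E₄) = fun z => -(1 / 3 : ℂ) * E₆ z := by
  funext z
  simp only [serreDerivative_apply]
  rw [Fermat.Agent.S24x.ram_E4 z]
  ring

/-- Serre derivative of `E₆`: `ϑ E₆ = -E₄² / 2`. -/
theorem ramanujan_E6 : serreDerivative 6 (⇑E₆) = fun z => -(1 / 2 : ℂ) * E₄ z ^ 2 := by
  funext z
  simp only [serreDerivative_apply]
  rw [Fermat.Agent.S24x.ram_E6 z]
  ring

/-- `S` fixes `i`. -/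
theorem Smat_smul_I : Smat • UpperHalfPlane.I = UpperHalfPlane.I := by
  apply UpperHalfPlane.ext
  rw [UpperHalfPlane.modular_S_smul]
  simp only [UpperHalfPlane.coe_I]
  rw [inv_neg, Complex.inv_I, neg_neg]

theorem rm_rhoPt_coe : (rhoPt : ℂ) = ⟨-1 / 2, Real.sqrt 3 / 2⟩ := rfl

/-- `U = S T` fixes `ρ`. -/
theorem Umat_smul_rhoPt : Umat • rhoPt = rhoPt := by
  apply UpperHalfPlane.ext
  show ((ModularGroup.S * ModularGroup.T) • rhoPt : ℍ) = (rhoPt : ℂ)
  rw [mul_smul, UpperHalfPlane.modular_S_smul, UpperHalfPlane.modular_T_smul]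
  simp only [UpperHalfPlane.coe_vadd, rm_rhoPt_coe]
  have h3 : Real.sqrt 3 * Real.sqrt 3 = 3 := Real.mul_self_sqrt (by norm_num)
  have hne : (-(((1:ℝ):ℂ) + (⟨-1 / 2, Real.sqrt 3 / 2⟩ : ℂ))) ≠ 0 := by
    intro h
    have := congrArg Complex.re h
    simp at this
    norm_num at this
  rw [inv_eq_iff_eq_inv, eq_comm, inv_eq_iff_eq_inv, ← one_div, eq_div_iff hne]
  apply Complex.ext
  · simp
    nlinarith
  · simp
    nlinarith

theorem rm_mem (γ : SL(2, ℤ)) : (γ : GL (Fin 2) ℝ) ∈ 𝒮ℒ := ⟨γ, rfl⟩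

/-- The automorphy equation of a level one form, for `γ ∈ SL(2, ℤ)`. -/
theorem rm_smul_eq {k : ℤ} (f : ModularForm 𝒮ℒ k) (γ : SL(2, ℤ)) (z : ℍ) :
    f (γ • z) = (denom γ z) ^ k * f z :=
  SlashInvariantForm.slash_action_eqn'' f (rm_mem γ) z

theorem E6_I : E₆ UpperHalfPlane.I = 0 := by
  have h := rm_smul_eq E₆ Smat UpperHalfPlane.I
  rw [Smat_smul_I] at h
  have hd : denom Smat UpperHalfPlane.I = Complex.I := by
    rw [show Smat = ModularGroup.S from rfl, ModularGroup.denom_S]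
    rfl
  rw [hd] at h
  have h6 : (Complex.I : ℂ) ^ (6 : ℤ) = -1 := by
    have : (Complex.I : ℂ) ^ (6 : ℤ) = Complex.I ^ (6 : ℕ) := by norm_cast
    rw [this, show (6 : ℕ) = 2 * 3 from rfl, pow_mul, Complex.I_sq]
    norm_num
  rw [h6] at h
  have : (2 : ℂ) * E₆ UpperHalfPlane.I = 0 := by linear_combination h
  simpa using this

theorem E4_rho : E₄ rhoPt = 0 := by
  have h := rm_smul_eq E₄ Umat rhoPt
  rw [Umat_smul_rhoPt] at h
  have hd : denom Umat rhoPt = (rhoPt : ℂ) + 1 := by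
    rw [ModularGroup.denom_apply]
    have e10 : (Umat : Matrix (Fin 2) (Fin 2) ℤ) 1 0 = 1 := by decide
    have e11 : (Umat : Matrix (Fin 2) (Fin 2) ℤ) 1 1 = 1 := by decide
    rw [e10, e11]
    simp
  rw [hd] at h
  have h3 : Real.sqrt 3 * Real.sqrt 3 = 3 := Real.mul_self_sqrt (by norm_num)
  -- `(ρ + 1)^2 = ρ`, `ρ^2 = conj ρ`
  have h2 : ((rhoPt : ℂ) + 1) ^ 2 = (rhoPt : ℂ) := by
    rw [rm_rhoPt_coe]
    apply Complex.ext
    · simp [pow_two]
      nlinarith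
    · simp [pow_two]
      ring
  have h2' : (rhoPt : ℂ) ^ 2 = ⟨-1 / 2, -(Real.sqrt 3 / 2)⟩ := by
    rw [rm_rhoPt_coe]
    apply Complex.ext
    · simp [pow_two]
      nlinarith
    · simp [pow_two]
      ring
  have h4 : ((rhoPt : ℂ) + 1) ^ (4 : ℤ) = ⟨-1 / 2, -(Real.sqrt 3 / 2)⟩ := by
    have : ((rhoPt : ℂ) + 1) ^ (4 : ℤ) = (((rhoPt : ℂ) + 1) ^ 2) ^ 2 := by
      rw [← pow_mul]; norm_cast
    rw [this, h2, h2']
  rw [h4] at h
  have hne : (1 : ℂ) - (⟨-1 / 2, -(Real.sqrt 3 / 2)⟩ : ℂ) ≠ 0 := by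
    intro h0
    have := congrArg Complex.re h0
    simp at this
    norm_num at this
  have : ((1 : ℂ) - (⟨-1 / 2, -(Real.sqrt 3 / 2)⟩ : ℂ)) * E₄ rhoPt = 0 := by
    linear_combination h
  rcases mul_eq_zero.mp this with h' | h'
  · exact absurd h' hne
  · exact h'

theorem E4_E6_not_both_zero (z : ℍ) : E₄ z ≠ 0 ∨ E₆ z ≠ 0 := by
  by_contra h
  push Not at h
  have h1 := ModularForm.discriminant_eq_E₄_cube_sub_E₆_sq z
  have h3 := ModularForm.discriminant_ne_zero z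
  rw [h.1, h.2] at h1
  apply h3
  rw [h1]
  simp

end Fermat.Agent.S20x
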