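/-
S20 project, module M09 `Det.lean` (helper34 + helper82): the exact statements of the plan.
`basis_indep_everywhere` : the matrix `Φ(z)` of a finite free basis is invertible for every `z ∈ ℍ`;
`sum_wt` : the weights of the basis sum to `6 (μ - c)`.
Proof: `DetCore.det_core` (helper34) + `DetEndgame.de_endgame` (helper82) + landed M04/M06/M08.
-/
import Fermat.Agent.S20x.DetCore
import Fermat.Agent.S20x.DetEndgame
import Fermat.Agent.S20x.LocalIndep
import Fermat.Agent.S20x.VVDiv
import Fermat.Agent.S20x.Ramanujan

set_option autoImplicit false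

namespace Fermat.Agent.S20x

open UpperHalfPlane ModularForm EisensteinSeries Filter Complex
open scoped MatrixGroups ModularForm Manifold Topology

local notation "Δ" => ModularForm.discriminant

variable {X : Type} [MulAction SL(2, ℤ) X]

theorem det_endgameStmt : DetEndgameStmt := by
  intro W d hd m c hc hlim hI hrho hgen
  exact de_endgame hd m hc hlim E6_I E4_rho hI hrho hgen

theorem det_main [Fintype X] (hX : GoodX X) {J : Type} [Fintype J]
    {wt : J → ℤ} {B : J → ℍ → X → ℂ} (hB : IsFinBasis X J wt B)
    (hcard : Fintype.card J = Fintype.card X) :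
    (∀ z : ℍ, LinearIndependent ℂ (fun j : J => B j z)) ∧
      ∑ j, wt j = 6 * ((Fintype.card X : ℤ) - cuspsX X) := by
  classical
  have hF := det_isFreeBasis_of_isFinBasis hB
  exact det_core hX hB hcard
    (fun r s hs => indep_at_I hF r s hs)
    (fun r s hs => indep_at_rho hF r s hs)
    (fun z₀ h4 h6 s => indep_at_generic hX hF z₀ h4 h6 s)
    (fun k F hF h0 => vv_div_delta hF h0)
    det_endgameStmt

theorem basis_indep_everywhere [Fintype X] (hX : GoodX X) {J : Type} [Fintype J]
    {wt : J → ℤ} {B : J → ℍ → X → ℂ} (hB : IsFinBasis X J wt B)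
    (hcard : Fintype.card J = Fintype.card X) (z : ℍ) :
    LinearIndependent ℂ (fun j : J => B j z) :=
  (det_main hX hB hcard).1 z

theorem sum_wt [Fintype X] (hX : GoodX X) {J : Type} [Fintype J] {wt : J → ℤ}
    {B : J → ℍ → X → ℂ} (hB : IsFinBasis X J wt B) (hcard : Fintype.card J = Fintype.card X) :
    ∑ j, wt j = 6 * ((Fintype.card X : ℤ) - cuspsX X) :=
  (det_main hX hB hcard).2

end Fermat.Agent.S20x
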