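/-
S20 project, module M10 part (b) `DualCount.lean` (helper52): from a dual family `G` of a finite free
basis `B` (pointwise `∑ x, G i z x * B j z x = δ_ij`) such that `Δ • G j` is a cuspidal vector valued
form of weight `12 - wt j`, deduce `wt j ≤ 10` and `dim S_2(X) = #{j | wt j = 10}`.
The level-one inputs are taken as explicit hypotheses (they are provided by other modules).
-/
import Fermat.Agent.S20x.Defs
import Fermat.Agent.S20x.L1Ring
import Fermat.Agent.S20x.VVBasic
import Fermat.Agent.S20x.Regular

set_option autoImplicit false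

namespace Fermat.Agent.S20x

open UpperHalfPlane ModularForm EisensteinSeries Filter Complex
open scoped MatrixGroups ModularForm Manifold Topology

local notation "Δ" => ModularForm.discriminant

variable {X : Type} [MulAction SL(2, ℤ) X]

section DualCount

variable [Fintype X] {J : Type} [Fintype J] [DecidableEq J] {wt : J → ℤ} {B : J → ℍ → X → ℂ}

omit [MulAction SL(2, ℤ) X] in
/-- reconstruction of a vector from its pairings with the basis, using the dual family. -/
theorem dc_rec (hcard : Fintype.card J = Fintype.card X) (G : J → ℍ → X → ℂ)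
    (hdual : ∀ z i j, ∑ x, G i z x * B j z x = if i = j then 1 else 0)
    (H : X → ℂ) (z : ℍ) (y : X) :
    H y = ∑ j, (∑ x, H x * B j z x) * G j z y := by
  classical
  let A : Matrix J X ℂ := fun i x => G i z x
  let Bm : Matrix X J ℂ := fun x j => B j z x
  have hAB : A * Bm = 1 := by
    ext i j
    rw [Matrix.mul_apply, Matrix.one_apply]
    exact hdual z i j
  have hBA : Bm * A = 1 := (Matrix.mul_eq_one_comm_of_equiv (Fintype.equivOfCardEq hcard)).1 hAB
  have hxy : ∀ x, ∑ j, B j z x * G j z y = if x = y then 1 else 0 := by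
    intro x
    have := congrFun (congrFun hBA x) y
    rw [Matrix.mul_apply, Matrix.one_apply] at this
    exact this
  calc H y = ∑ x, H x * (if x = y then 1 else 0) := by simp
    _ = ∑ x, H x * ∑ j, B j z x * G j z y := by
        refine Finset.sum_congr rfl fun x _ => ?_
        rw [hxy x]
    _ = ∑ x, ∑ j, H x * B j z x * G j z y := by
        refine Finset.sum_congr rfl fun x _ => ?_
        rw [Finset.mul_sum]
        refine Finset.sum_congr rfl fun j _ => ?_
        ring
    _ = ∑ j, ∑ x, H x * B j z x * G j z y := Finset.sum_comm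
    _ = ∑ j, (∑ x, H x * B j z x) * G j z y := by
        refine Finset.sum_congr rfl fun j _ => ?_
        rw [Finset.sum_mul]

omit [Fintype X] in
/-- the basis elements are nonzero -/
theorem dc_basis_ne_zero (hB : IsFinBasis X J wt B) (h_one : IsL1 0 (fun _ : ℍ => (1 : ℂ)))
    (j : J) : B j ≠ 0 := by
  classical
  intro h0
  have hA : ∀ i, IsL1 (wt j - wt i) ((fun i => if i = j then (fun _ : ℍ => (1 : ℂ)) else 0) i) := by
    intro i
    by_cases hij : i = j
    · subst hij
      simp only [if_true, sub_self]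
      exact h_one
    · simp only [if_neg hij]
      exact ⟨0, rfl⟩
  have := hB.indep (wt j) (fun i => if i = j then (fun _ : ℍ => (1 : ℂ)) else 0) hA (by
    intro z x
    rw [Finset.sum_eq_single j]
    · simp [h0]
    · intro i _ hij
      simp [hij]
    · intro hj
      exact absurd (Finset.mem_univ j) hj) j
  simp only [if_true] at this
  have h1 := congrFun this UpperHalfPlane.I
  simp at h1


omit [Fintype X] in
/-- all weights of a free basis are even (odd weight forms vanish) -/
theorem dc_wt_even (hB : IsFinBasis X J wt B) (h_one : IsL1 0 (fun _ : ℍ => (1 : ℂ)))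
    (h_odd : ∀ {k : ℤ}, Odd k → ∀ {F : ℍ → X → ℂ}, IsVV X k F → F = 0) (j : J) :
    Even (wt j) := by
  rw [← Int.not_odd_iff_even]
  intro hodd
  exact dc_basis_ne_zero hB h_one j (h_odd hodd (hB.mem j))

/-- `wt j ≤ 10` -/
theorem dc_wt_le_ten (hB : IsFinBasis X J wt B) (G : J → ℍ → X → ℂ)
    (hdual : ∀ z i j, ∑ x, G i z x * B j z x = if i = j then 1 else 0)
    (hcusp : ∀ j, IsVVCusp X (12 - wt j) (fun z x => Δ z * G j z x))
    (h_one : IsL1 0 (fun _ : ℍ => (1 : ℂ)))
    (h_odd : ∀ {k : ℤ}, Odd k → ∀ {F : ℍ → X → ℂ}, IsVV X k F → F = 0)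
    (h_cusp_nonpos : ∀ {k : ℤ}, k ≤ 0 → ∀ {F : ℍ → X → ℂ}, IsVVCusp X k F → F = 0)
    (j : J) : wt j ≤ 10 := by
  have hev := dc_wt_even hB h_one h_odd j
  have hlt : wt j < 12 := by
    by_contra hge
    rw [not_lt] at hge
    have h0 := h_cusp_nonpos (show (12 : ℤ) - wt j ≤ 0 by omega) (hcusp j)
    have hG0 : ∀ x, G j UpperHalfPlane.I x = 0 := by
      intro x
      have := congrFun (congrFun h0 UpperHalfPlane.I) x
      simp only [Pi.zero_apply] at this
      rcases mul_eq_zero.1 this with h | h
      · exact absurd h (ModularForm.discriminant_ne_zero _)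
      · exact h
    have := hdual UpperHalfPlane.I j j
    simp [hG0] at this
  obtain ⟨m, hm⟩ := hev
  omega

/-- **dimension of `S_2(X)`** from a dual family. -/
theorem dc_finrank_Sk_two (hB : IsFinBasis X J wt B) (hcard : Fintype.card J = Fintype.card X)
    (G : J → ℍ → X → ℂ)
    (hdual : ∀ z i j, ∑ x, G i z x * B j z x = if i = j then 1 else 0)
    (hcusp : ∀ j, IsVVCusp X (12 - wt j) (fun z x => Δ z * G j z x))
    (hwt : ∀ j, wt j ≤ 10)
    (h_pair : ∀ {k l : ℤ} {F H : ℍ → X → ℂ}, IsVVCusp X k F → IsVV X l H →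
      IsL1 (k + l) (pair F H) ∧ IsZeroAtImInfty (pair F H))
    (h_cuspdiv : ∀ {k : ℤ} {A : ℍ → ℂ}, IsL1 k A → IsZeroAtImInfty A →
      ∃ A', IsL1 (k - 12) A' ∧ ∀ z, A z = Δ z * A' z)
    (h_neg : ∀ {k : ℤ}, k < 0 → ∀ {A : ℍ → ℂ}, IsL1 k A → A = 0)
    (h_zero : ∀ {A : ℍ → ℂ}, IsL1 0 A → ∃ c : ℂ, A = fun _ => c) :
    Module.finrank ℂ (Sk X 2) = Nat.card {j : J // wt j = 10} := by
  classical
  -- the candidate basis
  have hmem : ∀ j : {j : J // wt j = 10}, (fun z x => Δ z * G j.1 z x) ∈ Sk X 2 := by
    intro j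
    have := hcusp j.1
    rw [j.2] at this
    exact this
  let T : ({j : J // wt j = 10} → ℂ) →ₗ[ℂ] Sk X 2 :=
    { toFun := fun c => ∑ j, c j • (⟨_, hmem j⟩ : Sk X 2)
      map_add' := by
        intro c d
        simp only [Pi.add_apply, add_smul, Finset.sum_add_distrib]
      map_smul' := by
        intro a c
        simp only [Pi.smul_apply, smul_eq_mul, RingHom.id_apply, Finset.smul_sum, mul_smul] }
  have hT : ∀ (c : {j : J // wt j = 10} → ℂ) (z : ℍ) (x : X),
      ((T c : Sk X 2) : ℍ → X → ℂ) z x = ∑ j, c j * (Δ z * G j.1 z x) := by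
    intro c z x
    simp only [T, LinearMap.coe_mk, AddHom.coe_mk, Submodule.coe_sum, Submodule.coe_smul,
      Finset.sum_apply, Pi.smul_apply, smul_eq_mul]
  have hinj : Function.Injective T := by
    rw [← LinearMap.ker_eq_bot, LinearMap.ker_eq_bot']
    intro c hc
    funext i
    -- pair with `B i`
    have h1 : ∀ x, ∑ j, c j * (Δ UpperHalfPlane.I * G j.1 UpperHalfPlane.I x) = 0 := by
      intro x
      rw [← hT c UpperHalfPlane.I x, hc]
      rfl
    have h2 : ∑ x, (∑ j, c j * (Δ UpperHalfPlane.I * G j.1 UpperHalfPlane.I x)) *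
        B i.1 UpperHalfPlane.I x = 0 := by
      simp only [h1, zero_mul, Finset.sum_const_zero]
    have h3 : ∑ x, (∑ j, c j * (Δ UpperHalfPlane.I * G j.1 UpperHalfPlane.I x)) *
        B i.1 UpperHalfPlane.I x = c i * Δ UpperHalfPlane.I := by
      calc ∑ x, (∑ j, c j * (Δ UpperHalfPlane.I * G j.1 UpperHalfPlane.I x)) *
            B i.1 UpperHalfPlane.I x
          = ∑ x, ∑ j : {j : J // wt j = 10}, c j * Δ UpperHalfPlane.I *
              (G j.1 UpperHalfPlane.I x * B i.1 UpperHalfPlane.I x) := by
            refine Finset.sum_congr rfl fun x _ => ?_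
            rw [Finset.sum_mul]
            refine Finset.sum_congr rfl fun j _ => ?_
            ring
        _ = ∑ j : {j : J // wt j = 10}, ∑ x, c j * Δ UpperHalfPlane.I *
              (G j.1 UpperHalfPlane.I x * B i.1 UpperHalfPlane.I x) := Finset.sum_comm
        _ = ∑ j : {j : J // wt j = 10}, c j * Δ UpperHalfPlane.I *
              (if j.1 = i.1 then 1 else 0) := by
            refine Finset.sum_congr rfl fun j _ => ?_
            rw [← Finset.mul_sum, hdual]
        _ = c i * Δ UpperHalfPlane.I := by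
            rw [Finset.sum_eq_single i]
            · simp
            · intro j _ hji
              have : j.1 ≠ i.1 := fun h => hji (Subtype.ext h)
              simp [this]
            · intro hi
              exact absurd (Finset.mem_univ i) hi
    rw [h3] at h2
    rcases mul_eq_zero.1 h2 with h | h
    · exact h
    · exact absurd h (ModularForm.discriminant_ne_zero _)
  have hsurj : Function.Surjective T := by
    rintro ⟨H, hH⟩
    have hHc : IsVVCusp X 2 H := hH
    -- the pairings
    have hP : ∀ j, ∃ A', IsL1 (2 + wt j - 12) A' ∧ ∀ z, pair H (B j) z = Δ z * A' z := by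
      intro j
      obtain ⟨h1, h2⟩ := h_pair hHc (hB.mem j)
      exact h_cuspdiv h1 h2
    choose A' hA'1 hA'2 using hP
    have hA'lt : ∀ j, wt j ≠ 10 → A' j = 0 := by
      intro j hj
      have : wt j < 10 := lt_of_le_of_ne (hwt j) hj
      exact h_neg (by omega) (hA'1 j)
    have hA'c : ∀ j : {j : J // wt j = 10}, ∃ c : ℂ, A' j.1 = fun _ => c := by
      intro j
      have h := hA'1 j.1
      rw [j.2] at h
      exact h_zero (by simpa using h)
    choose c hc using hA'c
    refine ⟨c, Subtype.ext ?_⟩
    funext z y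
    rw [hT c z y]
    show _ = H z y
    have hrec := dc_rec hcard G hdual (H z) z y
    have hpair : ∀ j, (∑ x, H z x * B j z x) = Δ z * A' j z := fun j => hA'2 j z
    rw [hrec]
    simp only [hpair]
    symm
    rw [← Fintype.sum_subtype_add_sum_subtype (fun j => wt j = 10)]
    have hz : ∑ j : {j : J // ¬ wt j = 10}, Δ z * A' j.1 z * G j.1 z y = 0 := by
      refine Finset.sum_eq_zero fun j _ => ?_
      rw [hA'lt j.1 j.2]
      simp
    rw [hz, add_zero]
    refine Finset.sum_congr rfl fun j _ => ?_
    rw [hc j]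
    ring
  have e : ({j : J // wt j = 10} → ℂ) ≃ₗ[ℂ] Sk X 2 := LinearEquiv.ofBijective T ⟨hinj, hsurj⟩
  rw [← e.finrank_eq, Module.finrank_fintype_fun_eq_card, Nat.card_eq_fintype_card]


omit [MulAction SL(2, ℤ) X] in
theorem dc_pair_comm (F H : ℍ → X → ℂ) : pair F H = pair H F := by
  funext z
  simp only [pair]
  exact Finset.sum_congr rfl fun x _ => mul_comm _ _

/-- **M10 (b), first half**: `wt j ≤ 10`, from a dual family in helper28's shape. -/
theorem dual_count_wt_le_ten (hX : GoodX X) (hB : IsFinBasis X J wt B)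
    (hdualex : ∃ G : J → ℍ → X → ℂ,
      (∀ i j z, ∑ x, B i z x * G j z x = if i = j then 1 else 0) ∧
      ∀ j, IsVVCusp X (12 - wt j) (fun z x => Δ z * G j z x)) (j : J) : wt j ≤ 10 := by
  obtain ⟨G, hd, hc⟩ := hdualex
  have hdual : ∀ z i j, ∑ x, G i z x * B j z x = if i = j then 1 else 0 := by
    intro z i j
    have := hd j i z
    simp only [mul_comm (G i z _)]
    rw [this]
    by_cases h : i = j
    · subst h; simp
    · have h' : ¬ j = i := fun e => h e.symm
      simp [h, h']
  exact dc_wt_le_ten hB G hdual hc (l1_const 1)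
    (fun hk _ hF => vv_eq_zero_of_odd hX hk hF)
    (fun hk _ hF => vvcusp_eq_zero_of_nonpos hX hk hF) j

/-- **M10 (b), second half**: `dim S_2(X) = #{j | wt j = 10}`, from a dual family. -/
theorem dual_count_finrank_Sk_two (hX : GoodX X) (hB : IsFinBasis X J wt B)
    (hcard : Fintype.card J = Fintype.card X)
    (hdualex : ∃ G : J → ℍ → X → ℂ,
      (∀ i j z, ∑ x, B i z x * G j z x = if i = j then 1 else 0) ∧
      ∀ j, IsVVCusp X (12 - wt j) (fun z x => Δ z * G j z x)) :
    Module.finrank ℂ (Sk X 2) = Nat.card {j : J // wt j = 10} := by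
  have hwt := dual_count_wt_le_ten hX hB hdualex
  obtain ⟨G, hd, hc⟩ := hdualex
  have hdual : ∀ z i j, ∑ x, G i z x * B j z x = if i = j then 1 else 0 := by
    intro z i j
    have := hd j i z
    simp only [mul_comm (G i z _)]
    rw [this]
    by_cases h : i = j
    · subst h; simp
    · have h' : ¬ j = i := fun e => h e.symm
      simp [h, h']
  refine dc_finrank_Sk_two hB hcard G hdual hc hwt ?_
    (fun hA h0 => l1_cusp_eq_delta_mul hA h0)
    (fun hk _ hA => l1_eq_zero_of_neg hk hA)
    (fun hA => l1_const_of_zero hA)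
  intro k l F H hF hH
  refine ⟨pair_isL1 hF.toIsVV hH, ?_⟩
  rw [dc_pair_comm]
  exact pair_isZeroAtImInfty hH hF

end DualCount

end Fermat.Agent.S20x
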