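/-
S20 helper (helper28): the dual family of a pointwise basis `B j z` of `X → ℂ`
(rows of the inverse matrix), holomorphy (Cramer), equivariance, behaviour at `i∞`.
Blueprint Step 6.
-/
import Fermat.Agent.S20x.Defs

set_option autoImplicit false

namespace Fermat.Agent.S20x

open UpperHalfPlane ModularForm EisensteinSeries Filter Complex
open scoped MatrixGroups ModularForm Manifold Topology

local notation "Δ" => ModularForm.discriminant

section Det

variable {n : Type} [Fintype n] [DecidableEq n]

theorem db_mdiff_det (A : ℍ → Matrix n n ℂ) (h : ∀ i j, MDiff (fun z => A z i j)) :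
    MDiff (fun z => (A z).det) := by
  have h1 : (fun z => (A z).det) =
      ∑ σ : Equiv.Perm n, fun z => ((Equiv.Perm.sign σ : ℤ) : ℂ) * ∏ i, A z (σ i) i := by
    funext z
    rw [Matrix.det_apply']
    simp [Finset.sum_apply]
  rw [h1]
  refine MDifferentiable.sum fun σ _ => ?_
  refine mdifferentiable_const.mul ?_
  have h2 : (fun z => ∏ i, A z (σ i) i) = ∏ i, fun z => A z (σ i) i := by
    funext z
    simp [Finset.prod_apply]
  rw [h2]
  exact MDifferentiable.prod fun i _ => h (σ i) i

theorem db_mdiff_inv_entry (A : ℍ → Matrix n n ℂ) (h : ∀ i j, MDiff (fun z => A z i j))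
    (hdet : ∀ z, (A z).det ≠ 0) (i j : n) : MDiff (fun z => (A z)⁻¹ i j) := by
  have h1 : (fun z => (A z)⁻¹ i j) =
      fun z => ((A z).det)⁻¹ * ((A z).updateRow j (Pi.single i 1)).det := by
    funext z
    rw [Matrix.inv_def, Matrix.smul_apply, Matrix.adjugate_apply, Ring.inverse_eq_inv',
      smul_eq_mul]
  rw [h1]
  refine ((db_mdiff_det A h).inv hdet).mul ?_
  refine db_mdiff_det (fun z => (A z).updateRow j (Pi.single i 1)) fun i' j' => ?_
  by_cases hi : i' = j
  · subst hi
    simp only [Matrix.updateRow_self]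
    exact mdifferentiable_const
  · simp only [Matrix.updateRow_ne hi]
    exact h i' j'

theorem db_tendsto_inv_entry {l : Filter ℍ} (A : ℍ → Matrix n n ℂ) (L : Matrix n n ℂ)
    (h : ∀ i j, Tendsto (fun z => A z i j) l (𝓝 (L i j))) (hL : L.det ≠ 0) (i j : n) :
    Tendsto (fun z => (A z)⁻¹ i j) l (𝓝 (L⁻¹ i j)) := by
  have hA : Tendsto A l (𝓝 L) :=
    tendsto_pi_nhds.mpr fun i => tendsto_pi_nhds.mpr fun j => h i j
  have hinv : ContinuousAt Inv.inv L := by
    refine continuousAt_matrix_inv L ?_
    have hu : IsUnit L.det := isUnit_iff_ne_zero.mpr hL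
    obtain ⟨u, hu⟩ := hu
    rw [← hu]
    exact NormedRing.inverse_continuousAt u
  have h2 : Tendsto (fun z => (A z)⁻¹) l (𝓝 L⁻¹) := hinv.tendsto.comp hA
  have h3 := ((continuous_apply j).comp (continuous_apply i)).tendsto L⁻¹
  exact h3.comp h2

end Det

section Dual

variable {X : Type} [Fintype X] [DecidableEq X] {J : Type} [Fintype J] [DecidableEq J]

/-- the matrix with rows `B (e.symm y) z`. -/
def basisMat (B : J → ℍ → X → ℂ) (e : J ≃ X) (z : ℍ) : Matrix X X ℂ :=
  Matrix.of fun y x => B (e.symm y) z x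

/-- the dual family: columns of the inverse matrix. -/
noncomputable def dualFam (B : J → ℍ → X → ℂ) (e : J ≃ X) (j : J) (z : ℍ) (x : X) : ℂ :=
  (basisMat B e z)⁻¹ x (e j)

variable {B : J → ℍ → X → ℂ} (e : J ≃ X)

omit [Fintype J] [DecidableEq J] in
theorem db_isUnit_basisMat {z : ℍ} (hind : LinearIndependent ℂ (fun j : J => B j z)) :
    IsUnit (basisMat B e z) := by
  rw [← Matrix.linearIndependent_rows_iff_isUnit]
  have : (basisMat B e z).row = (fun j : J => B j z) ∘ e.symm := by
    funext y x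
    rfl
  rw [this]
  exact hind.comp _ e.symm.injective

omit [Fintype J] [DecidableEq J] in
theorem db_det_ne_zero {z : ℍ} (hind : LinearIndependent ℂ (fun j : J => B j z)) :
    (basisMat B e z).det ≠ 0 := by
  have := (Matrix.isUnit_iff_isUnit_det _).mp (db_isUnit_basisMat e hind)
  exact this.ne_zero

omit [Fintype J] in
theorem db_pair_dual {z : ℍ} (hind : LinearIndependent ℂ (fun j : J => B j z)) (i j : J) :
    ∑ x, B i z x * dualFam B e j z x = if i = j then 1 else 0 := by
  have h := Matrix.mul_nonsing_inv (basisMat B e z)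
    ((Matrix.isUnit_iff_isUnit_det _).mp (db_isUnit_basisMat e hind))
  have h2 := congrFun (congrFun h (e i)) (e j)
  rw [Matrix.mul_apply] at h2
  simp only [basisMat, Matrix.of_apply, Equiv.symm_apply_apply] at h2
  rw [show (∑ x, B i z x * dualFam B e j z x) =
    ∑ x, B i z x * (Matrix.of fun y x => B (e.symm y) z x)⁻¹ x (e j) from rfl, h2,
    Matrix.one_apply]
  simp [e.injective.eq_iff]

omit [DecidableEq J] in
theorem db_dual_pair {z : ℍ} (hind : LinearIndependent ℂ (fun j : J => B j z)) (x x' : X) :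
    ∑ j, dualFam B e j z x * B j z x' = if x = x' then 1 else 0 := by
  have h := Matrix.nonsing_inv_mul (basisMat B e z)
    ((Matrix.isUnit_iff_isUnit_det _).mp (db_isUnit_basisMat e hind))
  have h2 := congrFun (congrFun h x) x'
  rw [Matrix.mul_apply, Matrix.one_apply] at h2
  rw [← h2]
  refine Fintype.sum_equiv e _ _ fun j => ?_
  simp [dualFam, basisMat]

omit [DecidableEq J] in
/-- expansion of a vector in the dual family -/
theorem db_expand {z : ℍ} (hind : LinearIndependent ℂ (fun j : J => B j z)) (v : X → ℂ) (x : X) :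
    v x = ∑ j, (∑ x', v x' * B j z x') * dualFam B e j z x := by
  have h : ∑ j, (∑ x', v x' * B j z x') * dualFam B e j z x =
      ∑ x', v x' * ∑ j, dualFam B e j z x * B j z x' := by
    simp_rw [Finset.sum_mul, Finset.mul_sum]
    rw [Finset.sum_comm]
    refine Finset.sum_congr rfl fun x' _ => Finset.sum_congr rfl fun j _ => ?_
    ring
  rw [h]
  simp_rw [db_dual_pair e hind]
  simp

/-- uniqueness of the dual vector -/
theorem db_dual_unique {z : ℍ} (hind : LinearIndependent ℂ (fun j : J => B j z)) (j : J)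
    (g : X → ℂ) (hg : ∀ i, ∑ x, B i z x * g x = if i = j then 1 else 0) (x : X) :
    g x = dualFam B e j z x := by
  rw [db_expand e hind g x]
  have : ∀ i, (∑ x', g x' * B i z x') = if i = j then 1 else 0 := by
    intro i
    rw [← hg i]
    refine Finset.sum_congr rfl fun x _ => ?_
    ring
  simp_rw [this]
  simp

omit [Fintype J] [DecidableEq J] in
theorem db_mdiff_dual (hind : ∀ z, LinearIndependent ℂ (fun j : J => B j z))
    (hB : ∀ j x, MDiff (fun z => B j z x)) (j : J) (x : X) :
    MDiff (fun z => dualFam B e j z x) := by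
  unfold dualFam
  refine db_mdiff_inv_entry (basisMat B e) (fun y x' => ?_) (fun z => db_det_ne_zero e (hind z))
    x (e j)
  exact hB (e.symm y) x'

end Dual

section Equivariance

variable {X : Type} [MulAction SL(2, ℤ) X] [Fintype X] [DecidableEq X] {J : Type} [Fintype J]
  [DecidableEq J]

theorem db_dual_equiv {B : J → ℍ → X → ℂ} (e : J ≃ X) {wt : J → ℤ}
    (hind : ∀ z, LinearIndependent ℂ (fun j : J => B j z))
    (hB : ∀ j, IsVV X (wt j) (B j)) (j : J) (γ : SL(2, ℤ)) (z : ℍ) (x : X) :
    dualFam B e j (γ • z) x = denom γ z ^ (-(wt j)) * dualFam B e j z (γ⁻¹ • x) := by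
  symm
  refine db_dual_unique e (hind (γ • z)) j
    (fun x => denom γ z ^ (-(wt j)) * dualFam B e j z (γ⁻¹ • x)) (fun i => ?_) x
  have h1 : ∀ x, B i (γ • z) x * (denom γ z ^ (-(wt j)) * dualFam B e j z (γ⁻¹ • x)) =
      (denom γ z ^ (wt i) * denom γ z ^ (-(wt j))) *
        (B i z (γ⁻¹ • x) * dualFam B e j z (γ⁻¹ • x)) := by
    intro x
    rw [(hB i).equiv]
    ring
  simp_rw [h1]
  rw [← Finset.mul_sum]
  have h2 : ∑ x, B i z (γ⁻¹ • x) * dualFam B e j z (γ⁻¹ • x) =
      ∑ x, B i z x * dualFam B e j z x :=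
    Fintype.sum_equiv (MulAction.toPerm γ⁻¹) _ _ (fun x => rfl)
  rw [h2, db_pair_dual e (hind z)]
  by_cases hij : i = j
  · subst hij
    rw [if_pos rfl, mul_one, ← zpow_add₀ (denom_ne_zero _ _)]
    simp
  · rw [if_neg hij, mul_zero]

end Equivariance

end Fermat.Agent.S20x
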