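/-
S20 helper (helper28): the lead vectors (at `i∞`) of a finite free basis of `M(X)` are linearly
independent (blueprint Step 4 (∞)).  Used by M09 (Det) and M10 (Duality).
-/
import Fermat.Agent.S20x.VVBasic
import Fermat.Agent.S20x.L1Ring
import Fermat.Agent.S20x.Regular

set_option autoImplicit false

namespace Fermat.Agent.S20x

open UpperHalfPlane ModularForm EisensteinSeries Filter Complex
open scoped MatrixGroups ModularForm Manifold Topology

local notation "Δ" => ModularForm.discriminant

section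

variable {X : Type} [MulAction SL(2, ℤ) X]

/-- the property of `(U, lam)` delivered by M08 (`exists_leadData`). -/
def IsLeadData [Fintype X] (U : Matrix X X ℂ) (lam : X → ℝ) : Prop :=
  ∀ (k : ℤ) (F : ℍ → X → ℂ), IsVV X k F →
    ∃ L : X → ℂ, (∀ x, Tendsto (fun z => twist U lam F z x) atImInfty (𝓝 (L x))) ∧
      ((∀ x, L x = 0) → ∀ x, IsBoundedAtImInfty (fun z => F z x / Δ z))

omit [MulAction SL(2, ℤ) X] in
theorem ldi_twist_sum_mul [Fintype X] {J : Type} [Fintype J] (U : Matrix X X ℂ) (lam : X → ℝ)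
    (a : J → ℍ → ℂ) (B : J → ℍ → X → ℂ) (z : ℍ) (x : X) :
    twist U lam (fun z x => ∑ j, a j z * B j z x) z x = ∑ j, a j z * twist U lam (B j) z x := by
  unfold twist
  simp only [Matrix.mulVec, dotProduct, Finset.mul_sum]
  rw [Finset.sum_comm]
  refine Finset.sum_congr rfl fun j _ => Finset.sum_congr rfl fun y _ => ?_
  ring

/-- a level one form of even weight `≥ 4` with value `1` at `i∞`. -/
theorem ldi_exists_one_infty {m : ℤ} (hm : Even m) (h4 : 4 ≤ m) :
    ∃ A, IsL1 m A ∧ Tendsto A atImInfty (𝓝 1) := by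
  obtain ⟨a, b, hab, -⟩ := l1_exists_exponents hm h4
  exact ⟨fun z => E₄ z ^ a * E₆ z ^ b, l1_cast hab (l1_monomial a b), l1_monomial_tendsto a b⟩

/-- division by `Δ` of a vector valued form whose components are `O(Δ)` at `i∞`. -/
theorem ldi_vv_div_delta {k : ℤ} {F : ℍ → X → ℂ} (hF : IsVV X k F)
    (h0 : ∀ x, IsBoundedAtImInfty (fun z => F z x / Δ z)) :
    ∃ F', IsVV X (k - 12) F' ∧ ∀ z x, F z x = Δ z * F' z x := by
  refine ⟨fun z x => F z x / Δ z, ⟨fun x => ?_, fun γ z x => ?_, h0⟩, fun z x => ?_⟩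
  · exact regular_mdiff_div (hF.holo x) regular_mdiff_delta discriminant_ne_zero
  · rw [hF.equiv γ z x, regular_delta_equiv γ z, zpow_sub₀ (denom_ne_zero γ z)]
    have h1 : denom γ z ^ (12 : ℤ) ≠ 0 := zpow_ne_zero _ (denom_ne_zero γ z)
    have h2 : Δ z ≠ 0 := discriminant_ne_zero z
    field_simp
  · have h2 : Δ z ≠ 0 := discriminant_ne_zero z
    field_simp

/-- members of a finite free basis are nonzero -/
theorem ldi_basis_ne_zero {J : Type} [Fintype J] [DecidableEq J] {wt : J → ℤ}
    {B : J → ℍ → X → ℂ} (hB : IsFinBasis X J wt B) (j : J) : B j ≠ 0 := by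
  intro h0
  let A : J → ℍ → ℂ := fun i => if i = j then (fun _ => 1) else 0
  have hA : ∀ i, IsL1 (wt j - wt i) (A i) := by
    intro i
    by_cases hij : i = j
    · subst hij
      simp only [A, if_true, sub_self]
      exact l1_const 1
    · simp only [A, if_neg hij]
      exact l1_zero _
  have hsum : ∀ z x, ∑ i, A i z * B i z x = 0 := by
    intro z x
    rw [Finset.sum_eq_single j]
    · simp [h0]
    · intro i _ hij
      simp [A, if_neg hij]
    · intro hj
      exact absurd (Finset.mem_univ j) hj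
  have := hB.indep (wt j) A hA hsum j
  have h1 : A j UpperHalfPlane.I = 0 := by rw [this]; rfl
  simp [A] at h1

theorem ldi_wt_nonneg (hX : GoodX X) {J : Type} [Fintype J] [DecidableEq J] {wt : J → ℤ}
    {B : J → ℍ → X → ℂ} (hB : IsFinBasis X J wt B) (j : J) : 0 ≤ wt j := by
  by_contra h
  exact ldi_basis_ne_zero hB j (vv_eq_zero_of_neg hX (not_le.mp h) (hB.mem j))

theorem ldi_wt_even (hX : GoodX X) {J : Type} [Fintype J] [DecidableEq J] {wt : J → ℤ}
    {B : J → ℍ → X → ℂ} (hB : IsFinBasis X J wt B) (j : J) : Even (wt j) := by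
  rcases Int.even_or_odd (wt j) with h | h
  · exact h
  · exact absurd (vv_eq_zero_of_odd hX h (hB.mem j)) (ldi_basis_ne_zero hB j)

/-- **Lead vectors of a finite free basis are linearly independent.** -/
theorem lead_linearIndependent [Fintype X] (hX : GoodX X) {J : Type} [Fintype J]
    {wt : J → ℤ} {B : J → ℍ → X → ℂ} (hB : IsFinBasis X J wt B) {U : Matrix X X ℂ}
    {lam : X → ℝ} (hlead : IsLeadData U lam) (Lm : J → X → ℂ)
    (hLm : ∀ j x, Tendsto (fun z => twist U lam (B j) z x) atImInfty (𝓝 (Lm j x))) :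
    LinearIndependent ℂ Lm := by
  classical
  rw [Fintype.linearIndependent_iff]
  intro c hc
  -- weights
  have hnn := ldi_wt_nonneg hX hB
  have hev := ldi_wt_even hX hB
  set k : ℤ := 4 + ∑ j, wt j with hk
  have hm_even : ∀ j, Even (k - wt j) := by
    intro j
    have h1 : Even (∑ j, wt j) := Finset.even_sum _ fun i _ => hev i
    have h4 : Even (4 : ℤ) := ⟨2, by norm_num⟩
    exact (h4.add h1).sub (hev j)
  have hm_ge : ∀ j, 4 ≤ k - wt j := by
    intro j
    have : wt j ≤ ∑ j, wt j :=
      Finset.single_le_sum (f := wt) (fun i _ => hnn i) (Finset.mem_univ j)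
    omega
  have hex : ∀ j, ∃ A, IsL1 (k - wt j) A ∧ Tendsto A atImInfty (𝓝 1) :=
    fun j => ldi_exists_one_infty (hm_even j) (hm_ge j)
  choose A hA hA1 using hex
  -- the combination
  set G : ℍ → X → ℂ := fun z x => ∑ j, (c j * A j z) * B j z x with hG
  have hGvv : IsVV X k G := by
    refine IsVV.sum (Finset.univ) (F := fun j z x => (c j * A j z) * B j z x) fun j _ => ?_
    have h1 : IsL1 (k - wt j) (fun z => c j * A j z) := l1_smul (c j) (hA j)
    have h2 := IsVV.l1_mul h1 (hB.mem j)
    rwa [sub_add_cancel] at h2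
  obtain ⟨L', hL', hL'0⟩ := hlead k G hGvv
  have hL'zero : ∀ x, L' x = 0 := by
    intro x
    have h1 : Tendsto (fun z => twist U lam G z x) atImInfty (𝓝 (∑ j, (c j * 1) * Lm j x)) := by
      have : (fun z => twist U lam G z x) =
          fun z => ∑ j, (c j * A j z) * twist U lam (B j) z x := by
        funext z
        exact ldi_twist_sum_mul U lam (fun j z => c j * A j z) B z x
      rw [this]
      refine tendsto_finsetSum _ fun j _ => ?_
      exact ((hA1 j).const_mul (c j)).mul (hLm j x)
    have h2 : ∑ j, (c j * 1) * Lm j x = 0 := by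
      have := congrFun hc x
      simpa [Finset.sum_apply] using this
    rw [h2] at h1
    exact tendsto_nhds_unique (hL' x) h1
  obtain ⟨G', hG'vv, hG'eq⟩ := ldi_vv_div_delta hGvv (hL'0 hL'zero)
  obtain ⟨A', hA', hA'eq⟩ := hB.gen (k - 12) G' hG'vv
  -- the relation
  set C : J → ℍ → ℂ := fun j z => c j * A j z - Δ z * A' j z with hC
  have hCl1 : ∀ j, IsL1 (k - wt j) (C j) := by
    intro j
    have h1 : IsL1 (k - wt j) (fun z => c j * A j z) := l1_smul (c j) (hA j)
    have h2 : IsL1 (12 + (k - 12 - wt j)) (fun z => Δ z * A' j z) :=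
      l1_mul isL1_delta (hA' j)
    have h3 : (12 : ℤ) + (k - 12 - wt j) = k - wt j := by ring
    rw [h3] at h2
    exact l1_sub h1 h2
  have hCsum : ∀ z x, ∑ j, C j z * B j z x = 0 := by
    intro z x
    have h1 : ∑ j, C j z * B j z x = G z x - Δ z * G' z x := by
      simp only [hC, hG, hA'eq, Finset.mul_sum, ← Finset.sum_sub_distrib]
      refine Finset.sum_congr rfl fun j _ => ?_
      ring
    rw [h1, hG'eq z x, sub_self]
  have hC0 := hB.indep k C hCl1 hCsum
  intro j
  obtain ⟨a', ha'⟩ := l1_tendsto (hA' j)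
  have h1 : Tendsto (fun z => c j * A j z) atImInfty (𝓝 (c j * 1)) := (hA1 j).const_mul (c j)
  have h2 : Tendsto (fun z => Δ z * A' j z) atImInfty (𝓝 (0 * a')) :=
    (ModularForm.discriminant_isZeroAtImInfty).mul ha'
  have h3 : (fun z => c j * A j z) = fun z => Δ z * A' j z := by
    funext z
    have := congrFun (hC0 j) z
    simp only [hC, Pi.zero_apply] at this
    exact sub_eq_zero.mp this
  rw [h3] at h1
  have := tendsto_nhds_unique h1 h2
  simpa using this

end

end Fermat.Agent.S20x
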