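/-
S20 helper (helper28), first half of M10 (Duality): the dual family `G_j` of a finite free basis
`B_j` of `M(X)` with `|J| = |X|`; `Δ · G_j` is a cuspidal vector-valued form of weight `12 - wt j`.
Blueprint Step 6.
-/
import Fermat.Agent.S20x.DualBasis
import Fermat.Agent.S20x.LeadIndep

set_option autoImplicit false

namespace Fermat.Agent.S20x

open UpperHalfPlane ModularForm EisensteinSeries Filter Complex
open scoped MatrixGroups ModularForm Manifold Topology

local notation "Δ" => ModularForm.discriminant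

/-- `Δ(z) q^{-λ} → 0` at `i∞` for `λ < 1`. -/
theorem dcusp_delta_mul_exp_tendsto {lam : ℝ} (h1 : lam < 1) :
    Tendsto (fun z : ℍ => Δ z * cexp (-2 * Real.pi * Complex.I * lam * z)) atImInfty (𝓝 0) := by
  have hpos : 0 < (1 - lam)⁻¹ := inv_pos.mpr (by linarith)
  have hq := UpperHalfPlane.qParam_tendsto_atImInfty hpos
  have hp := tendsto_atImInfty_tprod_one_sub_eta_q_pow
  have h := hq.mul hp
  rw [zero_mul] at h
  refine h.congr fun z => ?_
  rw [discriminant_eq_q_prod]
  unfold Function.Periodic.qParam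
  rw [mul_right_comm (cexp _) _ (cexp _), ← Complex.exp_add]
  congr 2
  have : ((1 : ℂ) - lam) ≠ 0 := by
    have : (1 - lam : ℝ) ≠ 0 := by linarith
    exact_mod_cast this
  push_cast
  field_simp
  ring

section Decay

variable {X : Type} [Fintype X] [DecidableEq X] {J : Type} [Fintype J] [DecidableEq J]

/-- the matrix of twisted basis vectors, rows indexed through `e`. -/
noncomputable def twistMat (U : Matrix X X ℂ) (lam : X → ℝ) (B : J → ℍ → X → ℂ) (e : J ≃ X)
    (z : ℍ) : Matrix X X ℂ :=
  Matrix.of fun y x => twist U lam (B (e.symm y)) z x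

/-- the candidate formula for the dual vector in terms of the inverse of the twisted matrix. -/
noncomputable def twistDual (U : Matrix X X ℂ) (lam : X → ℝ) (B : J → ℍ → X → ℂ) (e : J ≃ X)
    (j : J) (z : ℍ) (x : X) : ℂ :=
  ∑ x', U x' x * cexp (-2 * Real.pi * Complex.I * lam x' * z) * (twistMat U lam B e z)⁻¹ x' (e j)

omit [Fintype J] in
theorem dcusp_pair_twistDual (U : Matrix X X ℂ) (lam : X → ℝ) (B : J → ℍ → X → ℂ) (e : J ≃ X)
    {z : ℍ} (hdet : (twistMat U lam B e z).det ≠ 0) (i j : J) :
    ∑ x, B i z x * twistDual U lam B e j z x = if i = j then 1 else 0 := by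
  have h := Matrix.mul_nonsing_inv (twistMat U lam B e z) (isUnit_iff_ne_zero.mpr hdet)
  have h2 := congrFun (congrFun h (e i)) (e j)
  rw [Matrix.mul_apply, Matrix.one_apply] at h2
  simp only [e.injective.eq_iff] at h2
  rw [← h2]
  unfold twistDual
  simp_rw [Finset.mul_sum]
  rw [Finset.sum_comm]
  refine Finset.sum_congr rfl fun x' _ => ?_
  have h3 : twistMat U lam B e z (e i) x' =
      cexp (-2 * Real.pi * Complex.I * lam x' * z) * ∑ x, U x' x * B i z x := by
    simp [twistMat, twist, Matrix.mulVec, dotProduct]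
  rw [h3, Finset.mul_sum, Finset.sum_mul]
  refine Finset.sum_congr rfl fun x _ => ?_
  ring

theorem dcusp_twistDual_eq (U : Matrix X X ℂ) (lam : X → ℝ) {B : J → ℍ → X → ℂ} (e : J ≃ X)
    {z : ℍ} (hind : LinearIndependent ℂ (fun j : J => B j z))
    (hdet : (twistMat U lam B e z).det ≠ 0) (j : J) (x : X) :
    twistDual U lam B e j z x = dualFam B e j z x :=
  db_dual_unique e hind j _ (fun i => dcusp_pair_twistDual U lam B e hdet i j) x

/-- **Decay**: if the twisted basis matrix tends to an invertible matrix at `i∞` and all exponents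
are `< 1`, then `Δ` times the dual family tends to zero. -/
theorem dcusp_tendsto_zero (U : Matrix X X ℂ) (lam : X → ℝ) {B : J → ℍ → X → ℂ} (e : J ≃ X)
    (hind : ∀ z, LinearIndependent ℂ (fun j : J => B j z)) (hlam : ∀ x, lam x < 1)
    (Lm : J → X → ℂ)
    (hLm : ∀ j x, Tendsto (fun z => twist U lam (B j) z x) atImInfty (𝓝 (Lm j x)))
    (hLind : LinearIndependent ℂ Lm) (j : J) (x : X) :
    Tendsto (fun z => Δ z * dualFam B e j z x) atImInfty (𝓝 0) := by
  set Lmat : Matrix X X ℂ := Matrix.of fun y x => Lm (e.symm y) x with hLmat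
  have hLunit : IsUnit Lmat := by
    rw [← Matrix.linearIndependent_rows_iff_isUnit]
    have : Lmat.row = Lm ∘ e.symm := by
      funext y x
      rfl
    rw [this]
    exact hLind.comp _ e.symm.injective
  have hLdet : Lmat.det ≠ 0 := ((Matrix.isUnit_iff_isUnit_det _).mp hLunit).ne_zero
  have hT : ∀ y x, Tendsto (fun z => twistMat U lam B e z y x) atImInfty (𝓝 (Lmat y x)) :=
    fun y x => hLm (e.symm y) x
  have hTm : Tendsto (twistMat U lam B e) atImInfty (𝓝 Lmat) :=
    tendsto_pi_nhds.mpr fun y => tendsto_pi_nhds.mpr fun x => hT y x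
  have hdet : Tendsto (fun z => (twistMat U lam B e z).det) atImInfty (𝓝 Lmat.det) :=
    ((continuous_id.matrix_det).tendsto Lmat).comp hTm
  have hev : ∀ᶠ z in atImInfty, (twistMat U lam B e z).det ≠ 0 := hdet.eventually_ne hLdet
  have hinv := db_tendsto_inv_entry (twistMat U lam B e) Lmat hT hLdet
  have hlim : Tendsto (fun z => ∑ x', U x' x *
      (Δ z * cexp (-2 * Real.pi * Complex.I * lam x' * z)) *
        (twistMat U lam B e z)⁻¹ x' (e j)) atImInfty (𝓝 (∑ x', U x' x * 0 * Lmat⁻¹ x' (e j))) := by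
    refine tendsto_finsetSum _ fun x' _ => ?_
    exact ((dcusp_delta_mul_exp_tendsto (hlam x')).const_mul (U x' x)).mul (hinv x' (e j))
  simp only [mul_zero, zero_mul, Finset.sum_const_zero] at hlim
  refine hlim.congr' ?_
  filter_upwards [hev] with z hz
  rw [← dcusp_twistDual_eq U lam e (hind z) hz j x]
  unfold twistDual
  rw [Finset.mul_sum]
  refine Finset.sum_congr rfl fun x' _ => ?_
  ring

end Decay

section Main

variable {X : Type} [MulAction SL(2, ℤ) X]

/-- **The dual family.**  For a finite free basis `B` of `M(X)` with `|J| = |X|` whose values are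
linearly independent at every point (M09), and lead data `(U, lam)` with exponents in `[0,1)`
(M08), there is a family `G_j` dual to `B_j` for the pairing, with `Δ · G_j` a cuspidal form of
weight `12 - wt j`. -/
theorem dual_cusp_exists [Fintype X] (hX : GoodX X) {J : Type} [Fintype J] [DecidableEq J]
    {wt : J → ℤ} {B : J → ℍ → X → ℂ} (hB : IsFinBasis X J wt B)
    (hcard : Fintype.card J = Fintype.card X)
    (hind : ∀ z, LinearIndependent ℂ (fun j : J => B j z))
    {U : Matrix X X ℂ} {lam : X → ℝ} (hlam : ∀ x, lam x < 1) (hlead : IsLeadData U lam) :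
    ∃ G : J → ℍ → X → ℂ,
      (∀ i j z, ∑ x, B i z x * G j z x = if i = j then 1 else 0) ∧
      (∀ (v : X → ℂ) z x, v x = ∑ j, (∑ x', v x' * B j z x') * G j z x) ∧
      ∀ j, IsVVCusp X (12 - wt j) (fun z x => Δ z * G j z x) := by
  classical
  let e : J ≃ X := Fintype.equivOfCardEq hcard
  refine ⟨dualFam B e, fun i j z => ?_, fun v z x => db_expand e (hind z) v x, fun j => ?_⟩
  · convert db_pair_dual e (hind z) i j
  -- lead vectors
  have hex : ∀ j, ∃ L : X → ℂ, ∀ x, Tendsto (fun z => twist U lam (B j) z x) atImInfty (𝓝 (L x)) :=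
    fun j => (hlead (wt j) (B j) (hB.mem j)).imp fun L hL => hL.1
  choose Lm hLm using hex
  have hLind : LinearIndependent ℂ Lm := lead_linearIndependent hX hB hlead Lm hLm
  have hzero : ∀ x, Tendsto (fun z => Δ z * dualFam B e j z x) atImInfty (𝓝 0) :=
    fun x => dcusp_tendsto_zero U lam e hind hlam Lm hLm hLind j x
  have hΔ : IsL1 12 (Δ : ℍ → ℂ) := isL1_delta
  refine ⟨⟨fun x => ?_, fun γ z x => ?_, fun x => ?_⟩, fun x => hzero x⟩
  · exact hΔ.mdiff.mul (db_mdiff_dual e hind (fun j x => (hB.mem j).holo x) j x)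
  · rw [hΔ.equiv γ z, db_dual_equiv e hind hB.mem j γ z x, sub_eq_add_neg,
      zpow_add₀ (denom_ne_zero γ z)]
    ring
  · exact ZeroAtFilter.boundedAtFilter (hzero x)

end Main

end Fermat.Agent.S20x
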