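/-
S20 module M10 (Duality), core: `wt j ≤ 10` and `dim S_2(X) = #{j | wt j = 10}` for a finite free
basis of `M(X)` with `|J| = |X|`, GIVEN pointwise linear independence of the basis (M09).
Blueprint Step 6.  Assembly of `DualCusp.dual_cusp_exists` (helper28), `DualCount` (helper52) and
`LeadInfty.exists_leadData` (helper23).
-/
import Fermat.Agent.S20x.DualCusp
import Fermat.Agent.S20x.DualCount
import Fermat.Agent.S20x.LeadInfty

set_option autoImplicit false

namespace Fermat.Agent.S20x

open UpperHalfPlane ModularForm EisensteinSeries Filter Complex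
open scoped MatrixGroups ModularForm Manifold Topology

local notation "Δ" => ModularForm.discriminant

variable {X : Type} [MulAction SL(2, ℤ) X]

/-- the dual family exists (M08 + `dual_cusp_exists`), given pointwise independence. -/
theorem duality_exists_dual_of_indep [Fintype X] (hX : GoodX X) {J : Type} [Fintype J]
    [DecidableEq J] {wt : J → ℤ} {B : J → ℍ → X → ℂ} (hB : IsFinBasis X J wt B)
    (hcard : Fintype.card J = Fintype.card X)
    (hind : ∀ z, LinearIndependent ℂ (fun j : J => B j z)) :
    ∃ G : J → ℍ → X → ℂ,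
      (∀ i j z, ∑ x, B i z x * G j z x = if i = j then 1 else 0) ∧
      ∀ j, IsVVCusp X (12 - wt j) (fun z x => Δ z * G j z x) := by
  classical
  obtain ⟨U, lam, -, hlam, -, hlead⟩ := exists_leadData hX
  obtain ⟨G, h1, -, h3⟩ := dual_cusp_exists hX hB hcard hind (fun x => (hlam x).2) hlead
  exact ⟨G, h1, h3⟩

theorem wt_le_ten_of_indep [Fintype X] (hX : GoodX X) {J : Type} [Fintype J] {wt : J → ℤ}
    {B : J → ℍ → X → ℂ} (hB : IsFinBasis X J wt B) (hcard : Fintype.card J = Fintype.card X)
    (hind : ∀ z, LinearIndependent ℂ (fun j : J => B j z)) (j : J) : wt j ≤ 10 := by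
  classical
  exact dual_count_wt_le_ten hX hB (duality_exists_dual_of_indep hX hB hcard hind) j

theorem finrank_Sk_two_eq_of_indep [Fintype X] (hX : GoodX X) {J : Type} [Fintype J]
    {wt : J → ℤ} {B : J → ℍ → X → ℂ} (hB : IsFinBasis X J wt B)
    (hcard : Fintype.card J = Fintype.card X)
    (hind : ∀ z, LinearIndependent ℂ (fun j : J => B j z)) :
    Module.finrank ℂ (Sk X 2) = Nat.card {j : J // wt j = 10} := by
  classical
  exact dual_count_finrank_Sk_two hX hB hcard (duality_exists_dual_of_indep hX hB hcard hind)

end Fermat.Agent.S20x
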