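/-
S20 module M10 (Duality): `wt j ≤ 10` and `dim S_2(X) = #{j | wt j = 10}` for a finite free
basis of `M(X)` with `|J| = |X|`.  Blueprint Step 6.  (`DualityCore` + M09 `Det`.)
-/
import Fermat.Agent.S20x.DualityCore
import Fermat.Agent.S20x.Det

set_option autoImplicit false

namespace Fermat.Agent.S20x

open UpperHalfPlane ModularForm EisensteinSeries Filter Complex
open scoped MatrixGroups ModularForm Manifold Topology

variable {X : Type} [MulAction SL(2, ℤ) X]

theorem wt_le_ten [Fintype X] (hX : GoodX X) {J : Type} [Fintype J] {wt : J → ℤ}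
    {B : J → ℍ → X → ℂ} (hB : IsFinBasis X J wt B) (hcard : Fintype.card J = Fintype.card X)
    (j : J) : wt j ≤ 10 :=
  wt_le_ten_of_indep hX hB hcard (fun z => basis_indep_everywhere hX hB hcard z) j

theorem finrank_Sk_two_eq [Fintype X] (hX : GoodX X) {J : Type} [Fintype J] {wt : J → ℤ}
    {B : J → ℍ → X → ℂ} (hB : IsFinBasis X J wt B) (hcard : Fintype.card J = Fintype.card X) :
    Module.finrank ℂ (Sk X 2) = Nat.card {j : J // wt j = 10} :=
  finrank_Sk_two_eq_of_indep hX hB hcard (fun z => basis_indep_everywhere hX hB hcard z)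

end Fermat.Agent.S20x
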