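/-
S20 project, module M11 `RankLower.lean`: any generating family of the module of vector-valued
modular forms has at least `μ = |X|` elements (Vandermonde argument on the powers of a separating
form).
-/
import Fermat.Agent.S20x.Defs

set_option autoImplicit false

namespace Fermat.Agent.S20x

open UpperHalfPlane ModularForm EisensteinSeries Filter Complex
open scoped MatrixGroups ModularForm Manifold Topology

variable {X : Type} [MulAction SL(2, ℤ) X]

/-- If a finite product of analytic functions vanishes identically on a preconnected nonempty set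
then one of the factors does. -/
theorem rl_exists_eqOn_zero_of_prod_eq_zero {ι : Type*} (s : Finset ι) (g : ι → ℂ → ℂ) {U : Set ℂ}
    (hU : IsPreconnected U) (hne : U.Nonempty) (hg : ∀ i ∈ s, AnalyticOnNhd ℂ (g i) U)
    (h : ∀ z ∈ U, ∏ i ∈ s, g i z = 0) : ∃ i ∈ s, ∀ z ∈ U, g i z = 0 := by
  classical
  induction s using Finset.induction_on with
  | empty =>
    obtain ⟨z, hz⟩ := hne
    have := h z hz
    simp at this
  | insert a s ha ih =>
    have hga : AnalyticOnNhd ℂ (g a) U := hg a (Finset.mem_insert_self a s)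
    have hgs : AnalyticOnNhd ℂ (fun z => ∏ i ∈ s, g i z) U :=
      Finset.analyticOnNhd_fun_prod s (fun i hi => hg i (Finset.mem_insert_of_mem hi))
    have h' : ∀ z ∈ U, g a z * ∏ i ∈ s, g i z = 0 := by
      intro z hz
      have := h z hz
      rwa [Finset.prod_insert ha] at this
    rcases AnalyticOnNhd.eq_zero_or_eq_zero_of_mul_eq_zero hga hgs h' hU with h1 | h1
    · exact ⟨a, Finset.mem_insert_self a s, h1⟩
    · obtain ⟨i, hi, hi'⟩ := ih (fun i hi => hg i (Finset.mem_insert_of_mem hi)) h1
      exact ⟨i, Finset.mem_insert_of_mem hi, hi'⟩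

omit [MulAction SL(2, ℤ) X] in
/-- Pairwise distinct holomorphic functions on `ℍ` take pairwise distinct values at some point. -/
theorem rl_exists_point_injective [Fintype X] (f : X → ℍ → ℂ) (hf : ∀ x, MDiff (f x))
    (hne : ∀ x y : X, x ≠ y → f x ≠ f y) : ∃ z : ℍ, Function.Injective (fun x => f x z) := by
  classical
  by_contra hcon
  push Not at hcon
  set U : Set ℂ := {z | 0 < z.im} with hUdef
  have hUo : IsOpen U := isOpen_upperHalfPlaneSet
  have hUc : IsPreconnected U := (convex_halfSpace_im_gt 0).isPreconnected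
  have hUn : U.Nonempty := ⟨Complex.I, by simp [hUdef]⟩
  set s : Finset (X × X) := Finset.univ.filter (fun p => p.1 ≠ p.2) with hs
  have hg : ∀ p ∈ s, AnalyticOnNhd ℂ
      (fun w => (f p.1 ∘ ofComplex) w - (f p.2 ∘ ofComplex) w) U := by
    intro p _
    have h1 := (UpperHalfPlane.mdifferentiable_iff.mp (hf p.1))
    have h2 := (UpperHalfPlane.mdifferentiable_iff.mp (hf p.2))
    exact (h1.sub h2).analyticOnNhd hUo
  have hprod : ∀ w ∈ U, ∏ p ∈ s, ((f p.1 ∘ ofComplex) w - (f p.2 ∘ ofComplex) w) = 0 := by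
    intro w hw
    have hinj := hcon ⟨w, hw⟩
    rw [Function.Injective] at hinj
    push Not at hinj
    obtain ⟨x, y, hxy, hne'⟩ := hinj
    apply Finset.prod_eq_zero (i := (x, y))
    · simp [hs, hne']
    · simp only [Function.comp_apply]
      rw [ofComplex_apply_of_im_pos hw]
      exact sub_eq_zero.mpr hxy
  obtain ⟨p, hp, hp'⟩ := rl_exists_eqOn_zero_of_prod_eq_zero s
    (fun p w => (f p.1 ∘ ofComplex) w - (f p.2 ∘ ofComplex) w) hUc hUn hg hprod
  have hp1 : p.1 ≠ p.2 := by
    simpa [hs] using hp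
  apply hne p.1 p.2 hp1
  funext z
  have := hp' (z : ℂ) z.im_pos
  simp only [Function.comp_apply, ofComplex_apply] at this
  exact sub_eq_zero.mp this

/-- Componentwise powers of a vector-valued form are vector-valued forms. -/
theorem rl_isVV_pow {k : ℤ} {F : ℍ → X → ℂ} (hF : IsVV X k F) (r : ℕ) :
    IsVV X (r * k) (fun z x => F z x ^ r) := by
  refine ⟨fun x => ?_, fun γ z x => ?_, fun x => ?_⟩
  · exact (hF.holo x).pow r
  · show F (γ • z) x ^ r = denom γ z ^ ((r : ℤ) * k) * F z (γ⁻¹ • x) ^ r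
    rw [hF.equiv, mul_pow, ← zpow_natCast (denom γ z ^ k) r, ← zpow_mul, mul_comm k]
  · have := (boundedAtImInftySubalgebra ℂ).pow_mem (hF.bdd x) r
    exact this

theorem card_le_of_gen [Fintype X] (hX : GoodX X) {J : Type} [Fintype J] {wt : J → ℤ}
    {B : J → ℍ → X → ℂ}
    (gen : ∀ (k : ℤ) (F : ℍ → X → ℂ), IsVV X k F → ∃ A : J → ℍ → ℂ,
      ∀ z x, F z x = ∑ j, A j z * B j z x) : Fintype.card X ≤ Fintype.card J := by
  classical
  obtain ⟨k, F, hF, hsep⟩ := hX.sep
  obtain ⟨z₀, hz₀⟩ := rl_exists_point_injective (fun x z => F z x) hF.holo hsep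
  -- the Vandermonde vectors
  set μ := Fintype.card X with hμ
  let e : Fin μ ≃ X := (Fintype.equivFin X).symm
  let v : Fin μ → ℂ := fun i => F z₀ (e i)
  have hv : Function.Injective v := fun a b hab => e.injective (hz₀ hab)
  have hdet : (Matrix.vandermonde v).det ≠ 0 := Matrix.det_vandermonde_ne_zero_iff.mpr hv
  -- columns of the Vandermonde matrix: `r ↦ (i ↦ v i ^ r)`
  have hli : LinearIndependent ℂ (fun r : Fin μ => fun i : Fin μ => v i ^ (r : ℕ)) := by
    have := Matrix.linearIndependent_rows_of_det_ne_zero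
      (A := (Matrix.vandermonde v).transpose) (by rwa [Matrix.det_transpose])
    exact this
  -- transport to functions on `X`
  let T : (Fin μ → ℂ) ≃ₗ[ℂ] (X → ℂ) := LinearEquiv.funCongrLeft ℂ ℂ e.symm
  have hli' : LinearIndependent ℂ (fun r : Fin μ => fun x : X => F z₀ x ^ (r : ℕ)) := by
    have h1 := hli.map' (T : (Fin μ → ℂ) →ₗ[ℂ] (X → ℂ)) T.ker
    have h2 : (fun r : Fin μ => fun x : X => F z₀ x ^ (r : ℕ)) =
        (⇑(T : (Fin μ → ℂ) →ₗ[ℂ] (X → ℂ)) ∘ fun r : Fin μ => fun i : Fin μ => v i ^ (r : ℕ)) := by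
      funext r x
      simp [T, v, LinearEquiv.funCongrLeft_apply, LinearMap.funLeft_apply]
    rw [h2]
    exact h1
  -- every Vandermonde vector lies in the span of the `B j z₀`
  have hspan : Set.range (fun r : Fin μ => fun x : X => F z₀ x ^ (r : ℕ)) ≤
      Submodule.span ℂ (Set.range (fun j : J => B j z₀)) := by
    rintro _ ⟨r, rfl⟩
    obtain ⟨A, hA⟩ := gen _ _ (rl_isVV_pow hF (r : ℕ))
    have : (fun x : X => F z₀ x ^ (r : ℕ)) = ∑ j, A j z₀ • B j z₀ := by
      funext x
      rw [hA z₀ x]
      simp [Finset.sum_apply, Pi.smul_apply, smul_eq_mul]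
    show (fun x : X => F z₀ x ^ (r : ℕ)) ∈ Submodule.span ℂ (Set.range (fun j : J => B j z₀))
    rw [this]
    exact Submodule.sum_mem _ (fun j _ => Submodule.smul_mem _ _
      (Submodule.subset_span ⟨j, rfl⟩))
  have hfin : (Set.range (fun j : J => B j z₀)).Finite := Set.finite_range _
  have : Fintype (Set.range (fun j : J => B j z₀)) := hfin.fintype
  have h1 := linearIndependent_le_span' _ hli' (Set.range (fun j : J => B j z₀)) hspan
  have h2 : Fintype.card (Set.range (fun j : J => B j z₀)) ≤ Fintype.card J :=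
    Fintype.card_range_le _
  have h3 : (Fintype.card (Fin μ) : Cardinal) ≤ Fintype.card J := by
    rw [Cardinal.mk_fintype] at h1
    exact h1.trans (by exact_mod_cast h2)
  have h4 : Fintype.card (Fin μ) ≤ Fintype.card J := by exact_mod_cast h3
  simpa using h4

end Fermat.Agent.S20x
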