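/-
S20 project, module M06b `FinBasis.lean` (helper80): finiteness of a free basis, `|J| = μ`, and the
congruence counts of the generator weights modulo `4` and `6`.

The core statements take their analytic inputs (values of the basis at `I` and `ρ`) as explicit
hypotheses bundled in `FBInputs`; the final theorems plug in the landed modules.
-/
import Fermat.Agent.S20x.Defs
import Fermat.Agent.S20x.RankLower

set_option autoImplicit false
set_option linter.unusedSectionVars false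

namespace Fermat.Agent.S20x

open UpperHalfPlane Module
open scoped MatrixGroups

variable {X : Type} [MulAction SL(2, ℤ) X]

/-! ### Eigenspaces of the permutation operators -/

/-- `{v : X → ℂ | v (g • x) = ε * v x}`. -/
def fbEig (g : SL(2, ℤ)) (ε : ℂ) : Submodule ℂ (X → ℂ) where
  carrier := {v | ∀ x, v (g • x) = ε * v x}
  zero_mem' := by intro x; simp
  add_mem' := by
    intro v w hv hw x
    simp only [Pi.add_apply, hv x, hw x, mul_add]
  smul_mem' := by
    intro c v hv x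
    simp only [Pi.smul_apply, smul_eq_mul, hv x]
    ring

theorem mem_fbEig {g : SL(2, ℤ)} {ε : ℂ} {v : X → ℂ} :
    v ∈ fbEig (X := X) g ε ↔ ∀ x, v (g • x) = ε * v x := Iff.rfl

theorem fbEig_disjoint (g : SL(2, ℤ)) {ε₁ ε₂ : ℂ} (h : ε₁ ≠ ε₂) :
    fbEig (X := X) g ε₁ ⊓ fbEig g ε₂ = ⊥ := by
  rw [eq_bot_iff]
  rintro v ⟨h1, h2⟩
  rw [Submodule.mem_bot]
  funext x
  have e : (ε₁ - ε₂) * v x = 0 := by
    have := (h1 x).symm.trans (h2 x)
    rw [sub_mul, this, sub_self]
  rcases mul_eq_zero.mp e with h0 | h0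
  · exact absurd (sub_eq_zero.mp h0) h
  · exact h0

/-- an independent family inside a subspace has at most `finrank` elements -/
theorem fb_card_le_finrank [Fintype X] {ι : Type*} [Fintype ι] (E : Submodule ℂ (X → ℂ))
    (v : ι → X → ℂ) (hv : LinearIndependent ℂ v) (hmem : ∀ i, v i ∈ E) :
    Fintype.card ι ≤ finrank ℂ E := by
  have h1 : LinearIndependent ℂ (fun i => (⟨v i, hmem i⟩ : E)) := by
    apply LinearIndependent.of_comp E.subtype
    exact hv
  exact h1.fintype_card_le_finrank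

theorem fb_finrank_add_le [Fintype X] (g : SL(2, ℤ)) {ε₁ ε₂ : ℂ} (h : ε₁ ≠ ε₂) :
    finrank ℂ (fbEig (X := X) g ε₁) + finrank ℂ (fbEig (X := X) g ε₂) ≤ Fintype.card X := by
  have h1 := Submodule.finrank_sup_add_finrank_inf_eq (fbEig (X := X) g ε₁) (fbEig g ε₂)
  rw [fbEig_disjoint g h, finrank_bot, add_zero] at h1
  rw [← h1]
  calc finrank ℂ ↥(fbEig (X := X) g ε₁ ⊔ fbEig g ε₂) ≤ finrank ℂ (X → ℂ) := Submodule.finrank_le _
    _ = Fintype.card X := finrank_fintype_fun_eq_card ℂ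


/-! ### Arithmetic of the eigenvalues -/

theorem fb_neg_one_zpow_of_four_dvd {k : ℤ} (h : (4 : ℤ) ∣ k) : (-1 : ℂ) ^ (k / 2) = 1 := by
  obtain ⟨m, rfl⟩ := h
  have e : 4 * m / 2 = 2 * m := by omega
  rw [e]
  exact Even.neg_one_zpow ⟨m, by ring⟩

theorem fb_neg_one_zpow_of_four_dvd_sub_two {k : ℤ} (h : (4 : ℤ) ∣ k - 2) :
    (-1 : ℂ) ^ (k / 2) = -1 := by
  obtain ⟨m, hm⟩ := h
  have e : k / 2 = 2 * m + 1 := by omega
  rw [e]
  exact Odd.neg_one_zpow ⟨m, by ring⟩

theorem fb_zpow_of_six_dvd {ζ : ℂ} (hζ : ζ ^ 3 = 1) {k : ℤ} (h : (6 : ℤ) ∣ k) :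
    ζ ^ (k / 2) = 1 := by
  obtain ⟨m, rfl⟩ := h
  have e : 6 * m / 2 = 3 * m := by omega
  have h3 : ζ ^ (3 : ℤ) = 1 := by exact_mod_cast hζ
  rw [e, zpow_mul, h3, one_zpow]

theorem fb_zpow_of_six_dvd_sub_two {ζ : ℂ} (hζ : ζ ^ 3 = 1) {k : ℤ} (h : (6 : ℤ) ∣ k - 2) :
    ζ ^ (k / 2) = ζ := by
  obtain ⟨m, hm⟩ := h
  have e : k / 2 = 3 * m + 1 := by omega
  have h3 : ζ ^ (3 : ℤ) = 1 := by exact_mod_cast hζ
  have hζ0 : ζ ≠ 0 := by
    rintro rfl
    norm_num at hζ
  rw [e, zpow_add₀ hζ0, zpow_mul, h3, one_zpow, one_mul, zpow_one]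

theorem fb_zpow_of_six_dvd_sub_four {ζ : ℂ} (hζ : ζ ^ 3 = 1) {k : ℤ} (h : (6 : ℤ) ∣ k - 4) :
    ζ ^ (k / 2) = ζ ^ 2 := by
  obtain ⟨m, hm⟩ := h
  have e : k / 2 = 3 * m + 2 := by omega
  have h3 : ζ ^ (3 : ℤ) = 1 := by exact_mod_cast hζ
  have hζ0 : ζ ≠ 0 := by
    rintro rfl
    norm_num at hζ
  rw [e, zpow_add₀ hζ0, zpow_mul, h3, one_zpow, one_mul]
  norm_cast

/-! ### The inputs -/

/-- The analytic inputs about a family `B` (values at `I` and `ρ`), supplied by M05a/M06.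
`ζ` is the cube root of unity occurring in the transformation law at `ρ`. -/
structure FBInputs (X : Type) [MulAction SL(2, ℤ) X] (J : Type) (wt : J → ℤ)
    (B : J → ℍ → X → ℂ) (ζ : ℂ) : Prop where
  hodd : ∀ j, Odd (wt j) → B j = 0
  evI : ∀ j, Even (wt j) → ∀ x,
    B j UpperHalfPlane.I (Smat • x) = (-1 : ℂ) ^ (wt j / 2) * B j UpperHalfPlane.I x
  indI : ∀ (r : ℤ) (s : Finset J), (∀ j ∈ s, (4 : ℤ) ∣ wt j - r) →
    LinearIndependent ℂ (fun j : s => B j UpperHalfPlane.I)
  evR : ∀ j, Even (wt j) → ∀ x, B j rhoPt (Umat • x) = ζ ^ (wt j / 2) * B j rhoPt x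
  indR : ∀ (r : ℤ) (s : Finset J), (∀ j ∈ s, (6 : ℤ) ∣ wt j - r) →
    LinearIndependent ℂ (fun j : s => B j rhoPt)

section Core

variable [Fintype X] {J : Type} {wt : J → ℤ} {B : J → ℍ → X → ℂ} {ζ : ℂ}

theorem FBInputs.even_wt (h : FBInputs X J wt B ζ) (j : J) : Even (wt j) := by
  classical
  by_contra hne
  have hodd : Odd (wt j) := Int.not_even_iff_odd.mp hne
  have hli := h.indI (wt j) {j} (by
    intro j' hj'
    rw [Finset.mem_singleton.mp hj', sub_self]
    exact dvd_zero _)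
  have hne0 := hli.ne_zero ⟨j, Finset.mem_singleton_self j⟩
  apply hne0
  show B j UpperHalfPlane.I = 0
  rw [h.hodd j hodd]
  rfl

theorem FBInputs.memI_one (h : FBInputs X J wt B ζ) (j : J) (hj : (4 : ℤ) ∣ wt j) :
    B j UpperHalfPlane.I ∈ fbEig (X := X) Smat 1 := by
  intro x
  rw [h.evI j (h.even_wt j) x, fb_neg_one_zpow_of_four_dvd hj]

theorem FBInputs.memI_neg_one (h : FBInputs X J wt B ζ) (j : J) (hj : (4 : ℤ) ∣ wt j - 2) :
    B j UpperHalfPlane.I ∈ fbEig (X := X) Smat (-1) := by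
  intro x
  rw [h.evI j (h.even_wt j) x, fb_neg_one_zpow_of_four_dvd_sub_two hj]

theorem FBInputs.card_le_I_one (h : FBInputs X J wt B ζ) (s : Finset J)
    (hs : ∀ j ∈ s, (4 : ℤ) ∣ wt j) : s.card ≤ finrank ℂ (fbEig (X := X) Smat 1) := by
  have hli := h.indI 0 s (by simpa using hs)
  have := fb_card_le_finrank (ι := s) (fbEig (X := X) Smat 1) _ hli
    (fun j => h.memI_one j (hs j j.2))
  simpa using this

theorem FBInputs.card_le_I_neg_one (h : FBInputs X J wt B ζ) (s : Finset J)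
    (hs : ∀ j ∈ s, (4 : ℤ) ∣ wt j - 2) : s.card ≤ finrank ℂ (fbEig (X := X) Smat (-1)) := by
  have hli := h.indI 2 s hs
  have := fb_card_le_finrank (ι := s) (fbEig (X := X) Smat (-1)) _ hli
    (fun j => h.memI_neg_one j (hs j j.2))
  simpa using this

theorem FBInputs.four_dvd_or (h : FBInputs X J wt B ζ) (j : J) :
    (4 : ℤ) ∣ wt j ∨ (4 : ℤ) ∣ wt j - 2 := by
  obtain ⟨t, ht⟩ := h.even_wt j
  rcases Int.even_or_odd t with ⟨u, hu⟩ | ⟨u, hu⟩
  · left; exact ⟨u, by omega⟩
  · right; exact ⟨u, by omega⟩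

/-- every finite set of generators has at most `μ` elements -/
theorem FBInputs.card_le (h : FBInputs X J wt B ζ) (s : Finset J) : s.card ≤ Fintype.card X := by
  classical
  have h1 := h.card_le_I_one (s.filter (fun j => (4 : ℤ) ∣ wt j))
    (fun j hj => (Finset.mem_filter.mp hj).2)
  have h2 := h.card_le_I_neg_one (s.filter (fun j => ¬ (4 : ℤ) ∣ wt j)) (fun j hj => by
    rcases h.four_dvd_or j with h4 | h4
    · exact absurd h4 (Finset.mem_filter.mp hj).2
    · exact h4)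
  have h3 := Finset.card_filter_add_card_filter_not (s := s) (fun j => (4 : ℤ) ∣ wt j)
  have h4 := fb_finrank_add_le (X := X) Smat (show (1 : ℂ) ≠ -1 by norm_num)
  omega

theorem FBInputs.finite (h : FBInputs X J wt B ζ) : Finite J := by
  by_contra hinf
  rw [not_finite_iff_infinite] at hinf
  obtain ⟨s, hs⟩ := Infinite.exists_subset_card_eq J (Fintype.card X + 1)
  have := h.card_le s
  omega

end Core


/-! ### Conversions between `IsFreeBasis` and `IsFinBasis` -/

section Convert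

variable {J : Type} [Fintype J] {wt : J → ℤ} {B : J → ℍ → X → ℂ}

theorem IsFreeBasis.toFin (hB : IsFreeBasis X J wt B) : IsFinBasis X J wt B := by
  classical
  refine ⟨hB.mem, ?_, ?_⟩
  · intro k F hF
    obtain ⟨A, hA, hsum⟩ := hB.gen k F hF
    refine ⟨fun j => A j, hA, fun z x => ?_⟩
    rw [hsum z x, Finsupp.sum_fintype]
    intro j
    simp
  · intro k A hA h0 j
    have hA' : ∀ j, IsL1 (k - wt j) ((Finsupp.equivFunOnFinite.symm A) j) := by
      intro j
      simpa using hA j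
    have := hB.indep k (Finsupp.equivFunOnFinite.symm A) hA' (by
      intro z x
      rw [Finsupp.sum_fintype]
      · simpa using h0 z x
      · intro j
        simp)
    have h2 : (Finsupp.equivFunOnFinite.symm A) j = 0 := by rw [this]; rfl
    simpa using h2

theorem IsFinBasis.toFree (hB : IsFinBasis X J wt B) : IsFreeBasis X J wt B := by
  classical
  refine ⟨hB.mem, ?_, ?_⟩
  · intro k F hF
    obtain ⟨A, hA, hsum⟩ := hB.gen k F hF
    refine ⟨Finsupp.equivFunOnFinite.symm A, ?_, fun z x => ?_⟩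
    · intro j
      simpa using hA j
    · rw [hsum z x, Finsupp.sum_fintype]
      · simp
      · intro j
        simp
  · intro k A hA h0
    have := hB.indep k (fun j => A j) hA (by
      intro z x
      have := h0 z x
      rw [Finsupp.sum_fintype] at this
      · exact this
      · intro j
        simp)
    ext j : 1
    exact this j

end Convert


/-! ### The core theorems (inputs as hypotheses) -/

section Core2

variable [Fintype X] {J : Type} {wt : J → ℤ} {B : J → ℍ → X → ℂ} {ζ : ℂ}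

theorem exists_isFinBasis_core (hX : GoodX X) (hB : IsFreeBasis X J wt B)
    (h : FBInputs X J wt B ζ) :
    ∃ (_ : Fintype J), IsFinBasis X J wt B ∧ Fintype.card J = Fintype.card X := by
  have := h.finite
  let _ : Fintype J := Fintype.ofFinite J
  refine ⟨inferInstance, hB.toFin, le_antisymm ?_ ?_⟩
  · have := h.card_le Finset.univ
    simpa using this
  · refine card_le_of_gen hX (wt := wt) (B := B) fun k F hF => ?_
    obtain ⟨A, _, hA⟩ := hB.toFin.gen k F hF
    exact ⟨A, hA⟩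

theorem FBInputs.memR_one (h : FBInputs X J wt B ζ) (hζ : ζ ^ 3 = 1) (j : J)
    (hj : (6 : ℤ) ∣ wt j) : B j rhoPt ∈ fbEig (X := X) Umat 1 := by
  intro x
  rw [h.evR j (h.even_wt j) x, fb_zpow_of_six_dvd hζ hj]

theorem FBInputs.memR_zeta (h : FBInputs X J wt B ζ) (hζ : ζ ^ 3 = 1) (j : J)
    (hj : (6 : ℤ) ∣ wt j - 2) : B j rhoPt ∈ fbEig (X := X) Umat ζ := by
  intro x
  rw [h.evR j (h.even_wt j) x, fb_zpow_of_six_dvd_sub_two hζ hj]

theorem FBInputs.memR_zeta_sq (h : FBInputs X J wt B ζ) (hζ : ζ ^ 3 = 1) (j : J)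
    (hj : (6 : ℤ) ∣ wt j - 4) : B j rhoPt ∈ fbEig (X := X) Umat (ζ ^ 2) := by
  intro x
  rw [h.evR j (h.even_wt j) x, fb_zpow_of_six_dvd_sub_four hζ hj]

theorem FBInputs.card_le_R_one (h : FBInputs X J wt B ζ) (hζ : ζ ^ 3 = 1) (s : Finset J)
    (hs : ∀ j ∈ s, (6 : ℤ) ∣ wt j) : s.card ≤ finrank ℂ (fbEig (X := X) Umat 1) := by
  have hli := h.indR 0 s (by simpa using hs)
  have := fb_card_le_finrank (ι := s) (fbEig (X := X) Umat 1) _ hli
    (fun j => h.memR_one hζ j (hs j j.2))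
  simpa using this

theorem FBInputs.card_le_R_zeta (h : FBInputs X J wt B ζ) (hζ : ζ ^ 3 = 1) (s : Finset J)
    (hs : ∀ j ∈ s, (6 : ℤ) ∣ wt j - 2) : s.card ≤ finrank ℂ (fbEig (X := X) Umat ζ) := by
  have hli := h.indR 2 s hs
  have := fb_card_le_finrank (ι := s) (fbEig (X := X) Umat ζ) _ hli
    (fun j => h.memR_zeta hζ j (hs j j.2))
  simpa using this

theorem FBInputs.card_le_R_zeta_sq (h : FBInputs X J wt B ζ) (hζ : ζ ^ 3 = 1) (s : Finset J)
    (hs : ∀ j ∈ s, (6 : ℤ) ∣ wt j - 4) : s.card ≤ finrank ℂ (fbEig (X := X) Umat (ζ ^ 2)) := by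
  have hli := h.indR 4 s hs
  have := fb_card_le_finrank (ι := s) (fbEig (X := X) Umat (ζ ^ 2)) _ hli
    (fun j => h.memR_zeta_sq hζ j (hs j j.2))
  simpa using this

theorem FBInputs.six_dvd_cases (h : FBInputs X J wt B ζ) (j : J) :
    (6 : ℤ) ∣ wt j ∨ (6 : ℤ) ∣ wt j - 2 ∨ (6 : ℤ) ∣ wt j - 4 := by
  obtain ⟨t, ht⟩ := h.even_wt j
  have h3 : t % 3 = 0 ∨ t % 3 = 1 ∨ t % 3 = 2 := by omega
  rcases h3 with h3 | h3 | h3
  · left; exact ⟨t / 3, by omega⟩
  · right; left; exact ⟨t / 3, by omega⟩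
  · right; right; exact ⟨t / 3, by omega⟩

theorem count_mod4_core [Fintype J] (h : FBInputs X J wt B ζ)
    (hcard : Fintype.card J = Fintype.card X)
    (hS : 2 * finrank ℂ (fbEig (X := X) Smat 1) = Fintype.card X + nu2 X) :
    2 * Nat.card {j : J // (4 : ℤ) ∣ wt j} = Fintype.card X + nu2 X := by
  classical
  have h1 := h.card_le_I_one (Finset.univ.filter (fun j => (4 : ℤ) ∣ wt j))
    (fun j hj => (Finset.mem_filter.mp hj).2)
  have h2 := h.card_le_I_neg_one (Finset.univ.filter (fun j => ¬ (4 : ℤ) ∣ wt j)) (fun j hj => by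
    rcases h.four_dvd_or j with h4 | h4
    · exact absurd h4 (Finset.mem_filter.mp hj).2
    · exact h4)
  have h3 := Finset.card_filter_add_card_filter_not (s := (Finset.univ : Finset J))
    (fun j => (4 : ℤ) ∣ wt j)
  have h4 := fb_finrank_add_le (X := X) Smat (show (1 : ℂ) ≠ -1 by norm_num)
  have h5 : Nat.card {j : J // (4 : ℤ) ∣ wt j}
      = (Finset.univ.filter (fun j => (4 : ℤ) ∣ wt j)).card := by
    rw [Nat.card_eq_fintype_card, Fintype.card_subtype]
  rw [Finset.card_univ] at h3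
  omega

theorem count_mod6_core [Fintype J] (h : FBInputs X J wt B ζ) (hζ : ζ ^ 3 = 1)
    (hcard : Fintype.card J = Fintype.card X)
    (hU1 : 3 * finrank ℂ (fbEig (X := X) Umat 1) = Fintype.card X + 2 * nu3 X)
    (hUz : 3 * finrank ℂ (fbEig (X := X) Umat ζ) + nu3 X = Fintype.card X)
    (hUzz : 3 * finrank ℂ (fbEig (X := X) Umat (ζ ^ 2)) + nu3 X = Fintype.card X) :
    3 * Nat.card {j : J // (6 : ℤ) ∣ wt j} = Fintype.card X + 2 * nu3 X ∧
    3 * Nat.card {j : J // (6 : ℤ) ∣ wt j - 2} + nu3 X = Fintype.card X := by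
  classical
  set s0 := Finset.univ.filter (fun j : J => (6 : ℤ) ∣ wt j) with hs0
  set s0' := Finset.univ.filter (fun j : J => ¬ (6 : ℤ) ∣ wt j) with hs0'
  set s2 := s0'.filter (fun j : J => (6 : ℤ) ∣ wt j - 2) with hs2
  set s4 := s0'.filter (fun j : J => ¬ (6 : ℤ) ∣ wt j - 2) with hs4
  have h0 := h.card_le_R_one hζ s0 (fun j hj => (Finset.mem_filter.mp hj).2)
  have h2 := h.card_le_R_zeta hζ s2 (fun j hj => (Finset.mem_filter.mp hj).2)
  have h4 := h.card_le_R_zeta_sq hζ s4 (fun j hj => by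
    have hj' := Finset.mem_filter.mp hj
    have hj'' := Finset.mem_filter.mp hj'.1
    rcases h.six_dvd_cases j with h6 | h6 | h6
    · exact absurd h6 hj''.2
    · exact absurd h6 hj'.2
    · exact h6)
  have e1 : s0.card + s0'.card = Fintype.card J := by
    rw [← Finset.card_univ]
    exact Finset.card_filter_add_card_filter_not (s := (Finset.univ : Finset J))
      (fun j => (6 : ℤ) ∣ wt j)
  have e2 : s2.card + s4.card = s0'.card :=
    Finset.card_filter_add_card_filter_not (s := s0') (fun j => (6 : ℤ) ∣ wt j - 2)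
  have e3 : Nat.card {j : J // (6 : ℤ) ∣ wt j} = s0.card := by
    rw [Nat.card_eq_fintype_card, Fintype.card_subtype]
  have e4 : Nat.card {j : J // (6 : ℤ) ∣ wt j - 2} = s2.card := by
    rw [Nat.card_eq_fintype_card, Fintype.card_subtype]
    congr 1
    ext j
    simp only [hs2, hs0', Finset.mem_filter, Finset.mem_univ, true_and]
    constructor
    · intro hj
      refine ⟨fun h6 => ?_, hj⟩
      have : (6 : ℤ) ∣ 2 := by
        have := dvd_sub h6 hj
        simp at this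
      omega
    · exact fun hj => hj.2
  omega

end Core2

end Fermat.Agent.S20x
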