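/-
S20x/GradedFree.lean (helper52): abstract "free over C[E4,E6]" theorem.

`V` a vector space, `e4 e6 : V →ₗ V` commuting, `M : ℤ → Submodule V` a graded family with
`e4 (M k) ≤ M (k+4)`, `e6 (M k) ≤ M (k+6)`, `M k = ⊥` for `k < 0` and the regular-sequence property
`e6 G = e4 H → ∃ Y, G = e4 Y ∧ H = e6 Y`.  Then there are generators `F j ∈ M (kk j)` such that for
every `k` the monomials `e4^a e6^b F_j` with `4a+6b+kk j = k` form a basis of `M k`.
-/
import Mathlib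

set_option autoImplicit false

namespace Fermat.Agent.S20x

open Submodule Set

section GradedFree

universe u v

variable {𝕜 : Type u} [Field 𝕜] {V : Type v} [AddCommGroup V] [Module 𝕜 V]

/-- the monomial family `e4^a e6^b F_j`, indexed by `(j,a,b)` -/
def gfMono {J : Type*} (e4 e6 : V →ₗ[𝕜] V) (F : J → V) (t : J × ℕ × ℕ) : V :=
  (e4 ^ t.2.1) ((e6 ^ t.2.2) (F t.1))

/-- index set of the monomials of total weight `k` -/
def gfIdx {J : Type*} (kk : J → ℤ) (k : ℤ) : Set (J × ℕ × ℕ) :=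
  {t | 4 * (t.2.1 : ℤ) + 6 * (t.2.2 : ℤ) + kk t.1 = k}

/-- shift `a ↦ a+1` -/
def gfSh4 {J : Type*} (t : J × ℕ × ℕ) : J × ℕ × ℕ := (t.1, t.2.1 + 1, t.2.2)

/-- shift `b ↦ b+1` -/
def gfSh6 {J : Type*} (t : J × ℕ × ℕ) : J × ℕ × ℕ := (t.1, t.2.1, t.2.2 + 1)

theorem gfSh4_injective {J : Type*} : Function.Injective (gfSh4 (J := J)) := by
  rintro ⟨j, a, b⟩ ⟨j', a', b'⟩ h
  simp only [gfSh4, Prod.mk.injEq] at h
  obtain ⟨rfl, h2, rfl⟩ := h
  have : a = a' := by omega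
  subst this
  rfl

theorem gfSh6_injective {J : Type*} : Function.Injective (gfSh6 (J := J)) := by
  rintro ⟨j, a, b⟩ ⟨j', a', b'⟩ h
  simp only [gfSh6, Prod.mk.injEq] at h
  obtain ⟨rfl, rfl, h2⟩ := h
  have : b = b' := by omega
  subst this
  rfl

theorem gfMono_sh4 {J : Type*} (e4 e6 : V →ₗ[𝕜] V) (F : J → V) (t : J × ℕ × ℕ) :
    gfMono e4 e6 F (gfSh4 t) = e4 (gfMono e4 e6 F t) := by
  simp only [gfMono, gfSh4, pow_succ', Module.End.mul_apply]

theorem gfMono_sh6 {J : Type*} (e4 e6 : V →ₗ[𝕜] V) (hcomm : e4 ∘ₗ e6 = e6 ∘ₗ e4)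
    (F : J → V) (t : J × ℕ × ℕ) :
    gfMono e4 e6 F (gfSh6 t) = e6 (gfMono e4 e6 F t) := by
  have hc : Commute e6 e4 := by
    show e6 * e4 = e4 * e6
    exact hcomm.symm
  have hc' : Commute e6 (e4 ^ t.2.1) := hc.pow_right _
  simp only [gfMono, gfSh6, pow_succ', Module.End.mul_apply]
  have := congrArg (fun f : Module.End 𝕜 V => f ((e6 ^ t.2.2) (F t.1))) hc'.eq
  simp only [Module.End.mul_apply] at this
  exact this.symm


/-- cast-free form of the regularity hypothesis -/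
theorem gf_reg' (e4 e6 : V →ₗ[𝕜] V) (M : ℤ → Submodule 𝕜 V)
    (hreg : ∀ k, ∀ G ∈ M k, ∀ H ∈ M (k + 2), e6 G = e4 H →
        ∃ Y ∈ M (k - 4), G = e4 Y ∧ H = e6 Y)
    (k k2 k4 : ℤ) (h2 : k2 = k + 2) (h4 : k4 = k - 4) (G : V) (hG : G ∈ M k) (H : V)
    (hH : H ∈ M k2) (h : e6 G = e4 H) : ∃ Y ∈ M k4, G = e4 Y ∧ H = e6 Y := by
  subst h2 h4
  exact hreg k G hG H hH h

/-- `e4` and `e6` are injective on every `M k` -/
theorem gf_inj (e4 e6 : V →ₗ[𝕜] V) (M : ℤ → Submodule 𝕜 V)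
    (hneg : ∀ k, k < 0 → M k = ⊥)
    (hreg : ∀ k, ∀ G ∈ M k, ∀ H ∈ M (k + 2), e6 G = e4 H →
        ∃ Y ∈ M (k - 4), G = e4 Y ∧ H = e6 Y) :
    ∀ n : ℕ, ∀ k : ℤ, k < n →
      (∀ y ∈ M k, e4 y = 0 → y = 0) ∧ (∀ z ∈ M k, e6 z = 0 → z = 0) := by
  intro n
  induction n with
  | zero =>
    intro k hk
    have hk' : k < 0 := by simpa using hk
    have hb := hneg k hk'
    constructor
    · intro y hy _
      rw [hb] at hy
      exact (Submodule.mem_bot 𝕜).1 hy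
    · intro z hz _
      rw [hb] at hz
      exact (Submodule.mem_bot 𝕜).1 hz
  | succ n ih =>
    intro k hk
    have hk' : k < (n : ℤ) + 1 := by exact_mod_cast hk
    constructor
    · intro y hy hy0
      obtain ⟨Y, hY, h0, hyY⟩ := gf_reg' e4 e6 M hreg (k - 2) k (k - 6) (by ring) (by ring)
        0 (Submodule.zero_mem _) y hy (by rw [map_zero, hy0])
      have hY0 : Y = 0 := (ih (k - 6) (by omega)).1 Y hY h0.symm
      rw [hyY, hY0, map_zero]
    · intro z hz hz0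
      obtain ⟨Y, hY, hzY, h0⟩ := gf_reg' e4 e6 M hreg k (k + 2) (k - 4) rfl rfl
        z hz 0 (Submodule.zero_mem _) (by rw [map_zero, hz0])
      have hY0 : Y = 0 := (ih (k - 4) (by omega)).2 Y hY h0.symm
      rw [hzY, hY0, map_zero]

theorem gf_inj4 (e4 e6 : V →ₗ[𝕜] V) (M : ℤ → Submodule 𝕜 V)
    (hneg : ∀ k, k < 0 → M k = ⊥)
    (hreg : ∀ k, ∀ G ∈ M k, ∀ H ∈ M (k + 2), e6 G = e4 H →
        ∃ Y ∈ M (k - 4), G = e4 Y ∧ H = e6 Y) (k : ℤ) :
    Set.InjOn e4 (M k : Set V) := by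
  intro x hx y hy hxy
  have h := (gf_inj e4 e6 M hneg hreg (k.toNat + 1) k (by push_cast; omega)).1 (x - y)
    (Submodule.sub_mem _ hx hy) (by rw [map_sub, hxy, sub_self])
  exact sub_eq_zero.1 h

theorem gf_inj6 (e4 e6 : V →ₗ[𝕜] V) (M : ℤ → Submodule 𝕜 V)
    (hneg : ∀ k, k < 0 → M k = ⊥)
    (hreg : ∀ k, ∀ G ∈ M k, ∀ H ∈ M (k + 2), e6 G = e4 H →
        ∃ Y ∈ M (k - 4), G = e4 Y ∧ H = e6 Y) (k : ℤ) :
    Set.InjOn e6 (M k : Set V) := by
  intro x hx y hy hxy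
  have h := (gf_inj e4 e6 M hneg hreg (k.toNat + 1) k (by push_cast; omega)).2 (x - y)
    (Submodule.sub_mem _ hx hy) (by rw [map_sub, hxy, sub_self])
  exact sub_eq_zero.1 h


section Core

variable {J : Type*} (e4 e6 : V →ₗ[𝕜] V) (M : ℤ → Submodule 𝕜 V) (kk : J → ℤ) (F : J → V)

theorem gfMono_zero_zero (j : J) : gfMono e4 e6 F (j, 0, 0) = F j := by
  simp [gfMono]

theorem gf_mem_idx_zero_zero (j : J) (k : ℤ) : ((j, 0, 0) : J × ℕ × ℕ) ∈ gfIdx kk k ↔ kk j = k := by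
  simp [gfIdx]

theorem gfSh4_mem_idx (t : J × ℕ × ℕ) (k : ℤ) : gfSh4 t ∈ gfIdx kk k ↔ t ∈ gfIdx kk (k - 4) := by
  simp only [gfIdx, gfSh4, Set.mem_ofPred_eq]
  push_cast
  constructor <;> intro h <;> linarith

theorem gfSh6_mem_idx (t : J × ℕ × ℕ) (k : ℤ) : gfSh6 t ∈ gfIdx kk k ↔ t ∈ gfIdx kk (k - 6) := by
  simp only [gfIdx, gfSh6, Set.mem_ofPred_eq]
  push_cast
  constructor <;> intro h <;> linarith

/-- image of the span under `e4` -/
theorem gf_map_e4_span (s : Set (J × ℕ × ℕ)) :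
    Submodule.map e4 (span 𝕜 (gfMono e4 e6 F '' s)) = span 𝕜 (gfMono e4 e6 F '' (gfSh4 '' s)) := by
  rw [Submodule.map_span, Set.image_image, Set.image_image]
  congr 1
  apply Set.image_congr
  intro t _
  exact (gfMono_sh4 e4 e6 F t).symm

theorem gf_map_e6_span (hcomm : e4 ∘ₗ e6 = e6 ∘ₗ e4) (s : Set (J × ℕ × ℕ)) :
    Submodule.map e6 (span 𝕜 (gfMono e4 e6 F '' s)) = span 𝕜 (gfMono e4 e6 F '' (gfSh6 '' s)) := by
  rw [Submodule.map_span, Set.image_image, Set.image_image]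
  congr 1
  apply Set.image_congr
  intro t _
  exact (gfMono_sh6 e4 e6 hcomm F t).symm

/-- monomials lie in the right graded piece -/
theorem gfMono_mem (h4 : ∀ k, ∀ v ∈ M k, e4 v ∈ M (k + 4)) (h6 : ∀ k, ∀ v ∈ M k, e6 v ∈ M (k + 6))
    (hF : ∀ j, F j ∈ M (kk j)) (t : J × ℕ × ℕ) (k : ℤ) (ht : t ∈ gfIdx kk k) :
    gfMono e4 e6 F t ∈ M k := by
  obtain ⟨j, a, b⟩ := t
  have hb : ∀ b : ℕ, (e6 ^ b) (F j) ∈ M (kk j + 6 * b) := by
    intro b
    induction b with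
    | zero => simpa using hF j
    | succ b ih =>
      rw [pow_succ', Module.End.mul_apply]
      have := h6 _ _ ih
      have e : kk j + 6 * (b : ℤ) + 6 = kk j + 6 * ((b + 1 : ℕ) : ℤ) := by push_cast; ring
      rwa [e] at this
  have ha : ∀ a : ℕ, (e4 ^ a) ((e6 ^ b) (F j)) ∈ M (kk j + 6 * b + 4 * a) := by
    intro a
    induction a with
    | zero => simpa using hb b
    | succ a ih =>
      rw [pow_succ', Module.End.mul_apply]
      have := h4 _ _ ih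
      have e : kk j + 6 * (b : ℤ) + 4 * (a : ℤ) + 4 = kk j + 6 * (b : ℤ) + 4 * ((a + 1 : ℕ) : ℤ) := by
        push_cast; ring
      rwa [e] at this
  have hk : kk j + 6 * (b : ℤ) + 4 * (a : ℤ) = k := by
    simp only [gfIdx, Set.mem_ofPred_eq] at ht
    linarith
  have := ha a
  rw [hk] at this
  exact this

theorem gf_span_le_M (h4 : ∀ k, ∀ v ∈ M k, e4 v ∈ M (k + 4))
    (h6 : ∀ k, ∀ v ∈ M k, e6 v ∈ M (k + 6))
    (hF : ∀ j, F j ∈ M (kk j)) (k : ℤ) :
    span 𝕜 (gfMono e4 e6 F '' gfIdx kk k) ≤ M k := by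
  rw [Submodule.span_le]
  rintro _ ⟨t, ht, rfl⟩
  exact gfMono_mem e4 e6 M kk F h4 h6 hF t k ht

/-- (A): the monomials of weight `k` span `M k`. -/
theorem gf_M_le_span (hcomm : e4 ∘ₗ e6 = e6 ∘ₗ e4)
    (hneg : ∀ k, k < 0 → M k = ⊥)
    (W : ℤ → Submodule 𝕜 V)
    (hW3 : ∀ k, M k ≤ W k ⊔ (Submodule.map e4 (M (k - 4)) ⊔ Submodule.map e6 (M (k - 6))))
    (hF2 : ∀ k, W k ≤ span 𝕜 (F '' {j | kk j = k})) :
    ∀ n : ℕ, ∀ k : ℤ, k < n → M k ≤ span 𝕜 (gfMono e4 e6 F '' gfIdx kk k) := by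
  intro n
  induction n with
  | zero =>
    intro k hk
    have hk' : k < 0 := by simpa using hk
    rw [hneg k hk']
    exact bot_le
  | succ n ih =>
    intro k hk
    have hk' : k < (n : ℤ) + 1 := by exact_mod_cast hk
    refine (hW3 k).trans (sup_le ?_ (sup_le ?_ ?_))
    · refine (hF2 k).trans (Submodule.span_mono ?_)
      rintro _ ⟨j, hj, rfl⟩
      exact ⟨(j, 0, 0), (gf_mem_idx_zero_zero kk j k).2 hj, gfMono_zero_zero e4 e6 F j⟩
    · refine (Submodule.map_mono (ih (k - 4) (by omega))).trans ?_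
      rw [gf_map_e4_span]
      apply Submodule.span_mono
      apply Set.image_mono
      rintro _ ⟨t, ht, rfl⟩
      exact (gfSh4_mem_idx kk t k).2 ht
    · refine (Submodule.map_mono (ih (k - 6) (by omega))).trans ?_
      rw [gf_map_e6_span e4 e6 F hcomm]
      apply Submodule.span_mono
      apply Set.image_mono
      rintro _ ⟨t, ht, rfl⟩
      exact (gfSh6_mem_idx kk t k).2 ht


/-- the part of the index set with `a = 0` -/
def gfIdx0 (k : ℤ) : Set (J × ℕ × ℕ) := {t | t ∈ gfIdx kk k ∧ t.2.1 = 0}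

theorem gfIdx_subset (k : ℤ) :
    gfIdx kk k ⊆ ((fun j : J => ((j, 0, 0) : J × ℕ × ℕ)) '' {j | kk j = k}) ∪
      (gfSh4 '' gfIdx kk (k - 4) ∪ gfSh6 '' gfIdx0 kk (k - 6)) := by
  rintro ⟨j, a, b⟩ ht
  rcases Nat.eq_zero_or_pos a with ha | ha
  · subst ha
    rcases Nat.eq_zero_or_pos b with hb | hb
    · subst hb
      left
      exact ⟨j, (gf_mem_idx_zero_zero kk j k).1 ht, rfl⟩
    · right; right
      obtain ⟨b', rfl⟩ : ∃ b', b = b' + 1 := ⟨b - 1, by omega⟩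
      refine ⟨(j, 0, b'), ⟨?_, rfl⟩, rfl⟩
      exact (gfSh6_mem_idx kk (j, 0, b') k).1 ht
  · right; left
    obtain ⟨a', rfl⟩ : ∃ a', a = a' + 1 := ⟨a - 1, by omega⟩
    exact ⟨(j, a', b), (gfSh4_mem_idx kk (j, a', b) k).1 ht, rfl⟩

theorem gf_disjoint_sh4_idx0 (k : ℤ) :
    Disjoint (gfSh4 '' gfIdx kk (k - 4)) (gfIdx0 kk k) := by
  rw [Set.disjoint_left]
  rintro _ ⟨t, _, rfl⟩ ⟨_, h0⟩
  simp [gfSh4] at h0

/-- (B): the monomials of weight `k` are linearly independent. -/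
theorem gf_linearIndepOn (hcomm : e4 ∘ₗ e6 = e6 ∘ₗ e4)
    (h4 : ∀ k, ∀ v ∈ M k, e4 v ∈ M (k + 4))
    (h6 : ∀ k, ∀ v ∈ M k, e6 v ∈ M (k + 6))
    (hneg : ∀ k, k < 0 → M k = ⊥)
    (hreg : ∀ k, ∀ G ∈ M k, ∀ H ∈ M (k + 2), e6 G = e4 H →
        ∃ Y ∈ M (k - 4), G = e4 Y ∧ H = e6 Y)
    (W : ℤ → Submodule 𝕜 V)
    (hW2 : ∀ k, Disjoint (W k) (Submodule.map e4 (M (k - 4)) ⊔ Submodule.map e6 (M (k - 6))))
    (hW3 : ∀ k, M k ≤ W k ⊔ (Submodule.map e4 (M (k - 4)) ⊔ Submodule.map e6 (M (k - 6))))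
    (hF : ∀ j, F j ∈ M (kk j))
    (hF1 : ∀ k, LinearIndepOn 𝕜 F {j | kk j = k})
    (hF2 : ∀ k, span 𝕜 (F '' {j | kk j = k}) = W k) :
    ∀ n : ℕ, ∀ k : ℤ, k < n → LinearIndepOn 𝕜 (gfMono e4 e6 F) (gfIdx kk k) := by
  -- spans equal the graded pieces
  have hspan : ∀ k, span 𝕜 (gfMono e4 e6 F '' gfIdx kk k) = M k := fun k =>
    le_antisymm (gf_span_le_M e4 e6 M kk F h4 h6 hF k)
      (gf_M_le_span e4 e6 M kk F hcomm hneg W hW3 (fun k => (hF2 k).ge) (k.toNat + 1) k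
        (by push_cast; omega))
  intro n
  induction n with
  | zero =>
    intro k hk
    have hk' : k < 0 := by simpa using hk
    -- all monomials of negative weight are zero, hence the index set must be empty
    have hempty : gfIdx kk k = ∅ := by
      by_contra hne
      obtain ⟨⟨j, a, b⟩, ht⟩ := Set.nonempty_iff_ne_empty.2 hne
      have hkj : kk j < 0 := by
        simp only [gfIdx, Set.mem_ofPred_eq] at ht
        have ha : (0 : ℤ) ≤ a := Int.natCast_nonneg a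
        have hb : (0 : ℤ) ≤ b := Int.natCast_nonneg b
        linarith
      have hFj : F j = 0 := by
        have := hF j
        rw [hneg _ hkj] at this
        exact (Submodule.mem_bot 𝕜).1 this
      have hli := hF1 (kk j)
      have := hli.ne_zero (show j ∈ {j' | kk j' = kk j} from rfl)
      exact this hFj
    rw [hempty]
    exact linearIndepOn_empty 𝕜 _
  | succ n ih =>
    intro k hk
    have hk' : k < (n : ℤ) + 1 := by exact_mod_cast hk
    refine LinearIndepOn.mono ?_ (gfIdx_subset kk k)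
    -- the three pieces
    have hTop : LinearIndepOn 𝕜 (gfMono e4 e6 F)
        ((fun j : J => ((j, 0, 0) : J × ℕ × ℕ)) '' {j | kk j = k}) := by
      apply LinearIndepOn.image_of_comp
      have : gfMono e4 e6 F ∘ (fun j : J => ((j, 0, 0) : J × ℕ × ℕ)) = F :=
        funext fun j => gfMono_zero_zero e4 e6 F j
      rw [this]
      exact hF1 k
    have hS4 : LinearIndepOn 𝕜 (gfMono e4 e6 F) (gfSh4 '' gfIdx kk (k - 4)) := by
      apply LinearIndepOn.image_of_comp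
      have : gfMono e4 e6 F ∘ gfSh4 = e4 ∘ gfMono e4 e6 F :=
        funext fun t => gfMono_sh4 e4 e6 F t
      rw [this]
      refine (ih (k - 4) (by omega)).map_injOn e4 ?_
      rw [hspan]
      exact gf_inj4 e4 e6 M hneg hreg (k - 4)
    have hsub0 : gfIdx0 kk (k - 6) ⊆ gfIdx kk (k - 6) := fun t ht => ht.1
    have hN : span 𝕜 (gfMono e4 e6 F '' gfIdx0 kk (k - 6)) ≤ M (k - 6) := by
      rw [← hspan]
      exact Submodule.span_mono (Set.image_mono hsub0)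
    have hS6 : LinearIndepOn 𝕜 (gfMono e4 e6 F) (gfSh6 '' gfIdx0 kk (k - 6)) := by
      apply LinearIndepOn.image_of_comp
      have : gfMono e4 e6 F ∘ gfSh6 = e6 ∘ gfMono e4 e6 F :=
        funext fun t => gfMono_sh6 e4 e6 hcomm F t
      rw [this]
      refine ((ih (k - 6) (by omega)).mono hsub0).map_injOn e6 ?_
      exact (gf_inj6 e4 e6 M hneg hreg (k - 6)).mono (fun x hx => hN hx)
    -- spans of the pieces
    have hspTop : span 𝕜 (gfMono e4 e6 F '' ((fun j : J => ((j, 0, 0) : J × ℕ × ℕ)) '' {j | kk j = k}))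
        = W k := by
      rw [Set.image_image, ← hF2 k]
      simp only [gfMono_zero_zero]
    have hsp4 : span 𝕜 (gfMono e4 e6 F '' (gfSh4 '' gfIdx kk (k - 4)))
        = Submodule.map e4 (M (k - 4)) := by
      rw [← gf_map_e4_span, hspan]
    have hsp6 : span 𝕜 (gfMono e4 e6 F '' (gfSh6 '' gfIdx0 kk (k - 6)))
        = Submodule.map e6 (span 𝕜 (gfMono e4 e6 F '' gfIdx0 kk (k - 6))) := by
      rw [← gf_map_e6_span e4 e6 F hcomm]
    -- disjointness of the `a = 0` part from the image of `e4` in weight `k - 6`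
    have hdisj0 : Disjoint (span 𝕜 (gfMono e4 e6 F '' gfIdx0 kk (k - 6)))
        (Submodule.map e4 (M (k - 6 - 4))) := by
      have hli := ih (k - 6) (by omega)
      have hsub : gfIdx0 kk (k - 6) ∪ gfSh4 '' gfIdx kk (k - 6 - 4) ⊆ gfIdx kk (k - 6) := by
        apply Set.union_subset hsub0
        rintro _ ⟨t, ht, rfl⟩
        exact (gfSh4_mem_idx kk t (k - 6)).2 ht
      have h := (linearIndepOn_union_iff (gf_disjoint_sh4_idx0 kk (k - 6)).symm).1 (hli.mono hsub)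
      have h3 := h.2.2
      rwa [← gf_map_e4_span, hspan] at h3
    -- e4 M(k-4) and e6 N(k-6) are disjoint
    have hD2 : Disjoint (span 𝕜 (gfMono e4 e6 F '' (gfSh4 '' gfIdx kk (k - 4))))
        (span 𝕜 (gfMono e4 e6 F '' (gfSh6 '' gfIdx0 kk (k - 6)))) := by
      rw [hsp4, hsp6, Submodule.disjoint_def]
      rintro v ⟨y, hy, rfl⟩ ⟨z, hz, hzv⟩
      have hzM : z ∈ M (k - 6) := hN hz
      obtain ⟨Y, hY, hzY, hyY⟩ := gf_reg' e4 e6 M hreg (k - 6) (k - 4) (k - 6 - 4) (by ring) rfl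
        z hzM y hy hzv
      have hz0 : z = 0 := by
        have := Submodule.disjoint_def.1 hdisj0 z hz (hzY ▸ Submodule.mem_map_of_mem hY)
        exact this
      rw [← hzv, hz0, map_zero]
    have hU := hS4.union hS6 hD2
    refine hTop.union hU ?_
    rw [hspTop, Set.image_union, Submodule.span_union, hsp4, hsp6]
    exact (hW2 k).mono_right (sup_le_sup le_rfl (Submodule.map_mono hN))

end Core


/-- existence of a complement of `D ≤ M` inside `M` -/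
theorem gf_exists_compl (D M : Submodule 𝕜 V) (hD : D ≤ M) :
    ∃ W : Submodule 𝕜 V, W ≤ M ∧ Disjoint W D ∧ W ⊔ D = M := by
  obtain ⟨q, hq⟩ := Submodule.exists_isCompl D
  refine ⟨q ⊓ M, inf_le_right, ?_, ?_⟩
  · exact (hq.symm.disjoint).mono_left inf_le_left
  · rw [sup_comm, ← sup_inf_assoc_of_le q hD, hq.sup_eq_top, top_inf_eq]

/-- **Graded freeness.**  Generators `F j` of weights `kk j ≥ 0` such that for every `k` the
monomials `e4^a e6^b F_j` with `4a + 6b + kk j = k` form a basis of `M k`. -/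
theorem gf_exists_free_basis (e4 e6 : V →ₗ[𝕜] V) (hcomm : e4 ∘ₗ e6 = e6 ∘ₗ e4)
    (M : ℤ → Submodule 𝕜 V)
    (h4 : ∀ k, ∀ v ∈ M k, e4 v ∈ M (k + 4))
    (h6 : ∀ k, ∀ v ∈ M k, e6 v ∈ M (k + 6))
    (hneg : ∀ k, k < 0 → M k = ⊥)
    (hreg : ∀ k, ∀ G ∈ M k, ∀ H ∈ M (k + 2), e6 G = e4 H →
        ∃ Y ∈ M (k - 4), G = e4 Y ∧ H = e6 Y) :
    ∃ (J : Type v) (kk : J → ℤ) (F : J → V),
      (∀ j, F j ∈ M (kk j)) ∧ (∀ j, 0 ≤ kk j) ∧
      (∀ k, LinearIndepOn 𝕜 F {j | kk j = k}) ∧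
      (∀ k, Disjoint (span 𝕜 (F '' {j | kk j = k}))
        (Submodule.map e4 (M (k - 4)) ⊔ Submodule.map e6 (M (k - 6)))) ∧
      (∀ k, span 𝕜 (F '' {j | kk j = k}) ⊔
        (Submodule.map e4 (M (k - 4)) ⊔ Submodule.map e6 (M (k - 6))) = M k) ∧
      ∀ k, LinearIndepOn 𝕜 (gfMono e4 e6 F) (gfIdx kk k) ∧
        span 𝕜 (gfMono e4 e6 F '' gfIdx kk k) = M k := by
  classical
  have hD : ∀ k, Submodule.map e4 (M (k - 4)) ⊔ Submodule.map e6 (M (k - 6)) ≤ M k := by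
    intro k
    refine sup_le ?_ ?_
    · rintro _ ⟨y, hy, rfl⟩
      have := h4 _ _ hy
      rwa [sub_add_cancel] at this
    · rintro _ ⟨y, hy, rfl⟩
      have := h6 _ _ hy
      rwa [sub_add_cancel] at this
  choose W hWM hW2 hW3 using fun k => gf_exists_compl _ _ (hD k)
  let J := Σ k : ℤ, ↥(Module.Basis.ofVectorSpaceIndex 𝕜 ↥(W k))
  let kk : J → ℤ := fun j => j.1
  let F : J → V := fun j => ((j.2 : ↥(W j.1)) : V)
  have hset : ∀ k, {j : J | kk j = k} = Set.range (Sigma.mk k) := by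
    intro k
    ext ⟨k', i⟩
    constructor
    · rintro (rfl : k' = k)
      exact ⟨i, rfl⟩
    · rintro ⟨i', hi'⟩
      exact (congrArg Sigma.fst hi').symm
  have hcomp : ∀ k, F ∘ (Sigma.mk k) = (W k).subtype ∘ (Module.Basis.ofVectorSpace 𝕜 ↥(W k)) := by
    intro k
    funext i
    simp [F]
  have hF1 : ∀ k, LinearIndepOn 𝕜 F {j | kk j = k} := by
    intro k
    rw [hset k, ← Set.image_univ]
    apply LinearIndepOn.image_of_comp
    rw [hcomp k]
    rw [linearIndepOn_univ_iff]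
    exact (Module.Basis.ofVectorSpace 𝕜 ↥(W k)).linearIndependent.map' _ (Submodule.ker_subtype _)
  have hF2 : ∀ k, span 𝕜 (F '' {j | kk j = k}) = W k := by
    intro k
    rw [hset k, ← Set.range_comp, hcomp k, Set.range_comp, ← Submodule.map_span,
      (Module.Basis.ofVectorSpace 𝕜 ↥(W k)).span_eq, Submodule.map_top, Submodule.range_subtype]
  have hF : ∀ j, F j ∈ M (kk j) := fun j => hWM j.1 (j.2 : ↥(W j.1)).2
  have hpos : ∀ j, 0 ≤ kk j := by
    intro j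
    by_contra hlt
    rw [not_le] at hlt
    have hFj : F j = 0 := by
      have := hF j
      rw [hneg _ hlt] at this
      exact (Submodule.mem_bot 𝕜).1 this
    exact (hF1 (kk j)).ne_zero (show j ∈ {j' | kk j' = kk j} from rfl) hFj
  refine ⟨J, kk, F, hF, hpos, hF1, ?_, ?_, ?_⟩
  · intro k
    rw [hF2 k]
    exact hW2 k
  · intro k
    rw [hF2 k]
    exact hW3 k
  · intro k
    refine ⟨gf_linearIndepOn e4 e6 M kk F hcomm h4 h6 hneg hreg W hW2 (fun k => (hW3 k).ge) hF hF1 hF2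
      (k.toNat + 1) k (by push_cast; omega), ?_⟩
    exact le_antisymm (gf_span_le_M e4 e6 M kk F h4 h6 hF k)
      (gf_M_le_span e4 e6 M kk F hcomm hneg W (fun k => (hW3 k).ge) (fun k => (hF2 k).ge)
        (k.toNat + 1) k (by push_cast; omega))


/-- For `k < 4` (and nonnegative generator weights) the only monomials of weight `k` are the
generators of weight `k` themselves. -/
theorem gfIdx_eq_of_lt_four {J : Type*} (kk : J → ℤ) (hpos : ∀ j, 0 ≤ kk j) (k : ℤ) (hk : k < 4) :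
    gfIdx kk k = (fun j : J => ((j, 0, 0) : J × ℕ × ℕ)) '' {j | kk j = k} := by
  ext ⟨j, a, b⟩
  simp only [gfIdx, Set.mem_ofPred_eq, Set.mem_image, Prod.mk.injEq]
  constructor
  · intro h
    have hj := hpos j
    have ha : a = 0 := by omega
    have hb : b = 0 := by omega
    subst ha hb
    exact ⟨j, by simpa using h, rfl, rfl, rfl⟩
  · rintro ⟨j', hj', rfl, rfl, rfl⟩
    simpa using hj'

/-- dimension of `M k` = number of monomials of weight `k` -/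
theorem gf_finrank_eq {J : Type*} (e4 e6 : V →ₗ[𝕜] V) (M : ℤ → Submodule 𝕜 V) (kk : J → ℤ)
    (F : J → V) (k : ℤ)
    (hli : LinearIndepOn 𝕜 (gfMono e4 e6 F) (gfIdx kk k))
    (hsp : span 𝕜 (gfMono e4 e6 F '' gfIdx kk k) = M k) :
    Module.finrank 𝕜 (M k) = Nat.card (gfIdx kk k) := by
  have hli' : LinearIndependent 𝕜 (fun t : gfIdx kk k => gfMono e4 e6 F t) := hli
  have hsp' : span 𝕜 (Set.range (fun t : gfIdx kk k => gfMono e4 e6 F t)) = M k := by
    rw [← hsp]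
    congr 1
    ext v
    constructor
    · rintro ⟨t, rfl⟩
      exact ⟨t.1, t.2, rfl⟩
    · rintro ⟨t, ht, rfl⟩
      exact ⟨⟨t, ht⟩, rfl⟩
  have b := Module.Basis.span hli'
  rw [← hsp']
  exact Module.finrank_eq_nat_card_basis b

/-- dimension of `M k` for `k < 4` = number of generators of weight `k` -/
theorem gf_finrank_eq_of_lt_four {J : Type*} (e4 e6 : V →ₗ[𝕜] V) (M : ℤ → Submodule 𝕜 V)
    (kk : J → ℤ) (F : J → V) (hpos : ∀ j, 0 ≤ kk j) (k : ℤ) (hk : k < 4)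
    (hli : LinearIndepOn 𝕜 (gfMono e4 e6 F) (gfIdx kk k))
    (hsp : span 𝕜 (gfMono e4 e6 F '' gfIdx kk k) = M k) :
    Module.finrank 𝕜 (M k) = Nat.card {j : J // kk j = k} := by
  rw [gf_finrank_eq e4 e6 M kk F k hli hsp, gfIdx_eq_of_lt_four kk hpos k hk]
  have hinj : Function.Injective (fun j : J => ((j, 0, 0) : J × ℕ × ℕ)) := by
    intro j j' h
    exact (Prod.mk.injEq _ _ _ _ ▸ h).1
  exact Nat.card_image_of_injective hinj _


/-- **Graded freeness, coefficient form.**  Same as `gf_exists_free_basis`, with generation and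
independence spelled out with finitely supported coefficient families. -/
theorem gf_exists_free_basis_coeff (e4 e6 : V →ₗ[𝕜] V) (hcomm : e4 ∘ₗ e6 = e6 ∘ₗ e4)
    (M : ℤ → Submodule 𝕜 V)
    (h4 : ∀ k, ∀ v ∈ M k, e4 v ∈ M (k + 4))
    (h6 : ∀ k, ∀ v ∈ M k, e6 v ∈ M (k + 6))
    (hneg : ∀ k, k < 0 → M k = ⊥)
    (hreg : ∀ k, ∀ G ∈ M k, ∀ H ∈ M (k + 2), e6 G = e4 H →
        ∃ Y ∈ M (k - 4), G = e4 Y ∧ H = e6 Y) :
    ∃ (J : Type v) (kk : J → ℤ) (F : J → V),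
      (∀ j, F j ∈ M (kk j)) ∧ (∀ j, 0 ≤ kk j) ∧
      (∀ k, ∀ v ∈ M k, ∃ c : J × ℕ × ℕ →₀ 𝕜,
        (∀ t ∈ c.support, 4 * (t.2.1 : ℤ) + 6 * (t.2.2 : ℤ) + kk t.1 = k) ∧
        v = c.sum (fun t a => a • (e4 ^ t.2.1) ((e6 ^ t.2.2) (F t.1)))) ∧
      (∀ k, ∀ c : J × ℕ × ℕ →₀ 𝕜,
        (∀ t ∈ c.support, 4 * (t.2.1 : ℤ) + 6 * (t.2.2 : ℤ) + kk t.1 = k) →
        c.sum (fun t a => a • (e4 ^ t.2.1) ((e6 ^ t.2.2) (F t.1))) = 0 → c = 0) ∧
      (∀ k, Module.finrank 𝕜 (M k) = Nat.card (gfIdx kk k)) := by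
  obtain ⟨J, kk, F, hF, hpos, -, -, -, hb⟩ :=
    gf_exists_free_basis e4 e6 hcomm M h4 h6 hneg hreg
  refine ⟨J, kk, F, hF, hpos, ?_, ?_, ?_⟩
  · intro k v hv
    rw [← (hb k).2, Finsupp.mem_span_image_iff_linearCombination] at hv
    obtain ⟨l, hl, rfl⟩ := hv
    refine ⟨l, ?_, ?_⟩
    · intro t ht
      exact (Finsupp.mem_supported 𝕜 l).1 hl ht
    · rw [Finsupp.linearCombination_apply]
      rfl
  · intro k c hc h0
    have hli := (hb k).1
    rw [linearIndepOn_iff] at hli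
    refine hli c ?_ ?_
    · rw [Finsupp.mem_supported]
      intro t ht
      exact hc t ht
    · rw [Finsupp.linearCombination_apply]
      exact h0
  · intro k
    exact gf_finrank_eq e4 e6 M kk F k (hb k).1 (hb k).2

end GradedFree

end Fermat.Agent.S20x
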