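import Fermat.Agent.S20x.L1Ring
import Fermat.Agent.S20x.Regular
import Fermat.Agent.S20x.GradedFree

/-!
S20 / M05b: existence of a free homogeneous basis of `M(X)` over `R = ℂ[E₄, E₆]`.

`isFreeBasis_of_monomial` converts a "monomial basis" statement (`E₄^a E₆^b B_j` with
`4a + 6b + wt j = k` is a basis of `M_k(X)`) into the `IsFreeBasis` structure of `Defs.lean`.
-/

set_option autoImplicit false

namespace Fermat.Agent.S20x

open UpperHalfPlane ModularForm EisensteinSeries
open scoped MatrixGroups ModularForm Manifold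

variable {X : Type} [MulAction SL(2, ℤ) X]

/-! ### level one monomials -/

theorem fb_l1_E4_pow (a : ℕ) : IsL1 (4 * (a : ℤ)) (fun z => E₄ z ^ a) := by
  induction a with
  | zero => simpa using l1_const 1
  | succ a ih =>
    have h := l1_mul ih l1_E4
    have e : (4 * (a : ℤ) + 4) = 4 * ((a + 1 : ℕ) : ℤ) := by push_cast; ring
    rw [e] at h
    simpa [pow_succ] using h

theorem fb_l1_E6_pow (b : ℕ) : IsL1 (6 * (b : ℤ)) (fun z => E₆ z ^ b) := by
  induction b with
  | zero => simpa using l1_const 1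
  | succ b ih =>
    have h := l1_mul ih l1_E6
    have e : (6 * (b : ℤ) + 6) = 6 * ((b + 1 : ℕ) : ℤ) := by push_cast; ring
    rw [e] at h
    simpa [pow_succ] using h

theorem fb_l1_monomial (a b : ℕ) (c : ℂ) :
    IsL1 (4 * (a : ℤ) + 6 * (b : ℤ)) (fun z => c * (E₄ z ^ a * E₆ z ^ b)) :=
  l1_smul c (l1_mul (fb_l1_E4_pow a) (fb_l1_E6_pow b))

theorem fb_l1_sum {ι : Type} (s : Finset ι) (m : ℤ) (f : ι → ℍ → ℂ) (h : ∀ i ∈ s, IsL1 m (f i)) :
    IsL1 m (fun z => ∑ i ∈ s, f i z) := by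
  classical
  induction s using Finset.induction_on with
  | empty =>
    have h0 : (fun z => ∑ i ∈ (∅ : Finset ι), f i z) = (0 : ℍ → ℂ) := by funext z; simp
    rw [h0]
    exact l1_zero m
  | insert i s hi ih =>
    have h1 := h i (Finset.mem_insert_self i s)
    have h2 := ih (fun j hj => h j (Finset.mem_insert_of_mem hj))
    have := l1_add h1 h2
    simpa [Finset.sum_insert hi] using this

/-! ### from a monomial basis to `IsFreeBasis` -/

theorem isFreeBasis_of_monomial (J : Type) (kk : J → ℤ) (B : J → ℍ → X → ℂ)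
    (hmem : ∀ j, IsVV X (kk j) (B j))
    (hgen : ∀ (k : ℤ) (F : ℍ → X → ℂ), IsVV X k F →
      ∃ (s : Finset (J × ℕ × ℕ)) (c : J × ℕ × ℕ → ℂ),
        (∀ p ∈ s, 4 * (p.2.1 : ℤ) + 6 * (p.2.2 : ℤ) + kk p.1 = k) ∧
        ∀ z x, F z x = ∑ p ∈ s, c p * (E₄ z ^ p.2.1 * (E₆ z ^ p.2.2 * B p.1 z x)))
    (hind : ∀ (k : ℤ) (s : Finset (J × ℕ × ℕ)) (c : J × ℕ × ℕ → ℂ),
        (∀ p ∈ s, 4 * (p.2.1 : ℤ) + 6 * (p.2.2 : ℤ) + kk p.1 = k) →
        (∀ z x, ∑ p ∈ s, c p * (E₄ z ^ p.2.1 * (E₆ z ^ p.2.2 * B p.1 z x)) = 0) →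
        ∀ p ∈ s, c p = 0) :
    IsFreeBasis X J kk B := by
  classical
  refine ⟨hmem, ?_, ?_⟩
  · -- generation
    intro k F hF
    obtain ⟨s, c, hs, hFs⟩ := hgen k F hF
    let f : J → ℍ → ℂ := fun j z =>
      ∑ p ∈ s.filter (fun p => p.1 = j), c p * (E₄ z ^ p.2.1 * E₆ z ^ p.2.2)
    have hf : ∀ j, f j ≠ 0 → j ∈ s.image Prod.fst := by
      intro j hj
      by_contra hnot
      apply hj
      have hempty : s.filter (fun p => p.1 = j) = ∅ := by
        rw [Finset.filter_eq_empty_iff]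
        intro p hp hpj
        exact hnot (Finset.mem_image.mpr ⟨p, hp, hpj⟩)
      funext z
      simp [f, hempty]
    refine ⟨Finsupp.onFinset (s.image Prod.fst) f hf, ?_, ?_⟩
    · intro j
      rw [Finsupp.onFinset_apply]
      apply fb_l1_sum
      intro p hp
      rw [Finset.mem_filter] at hp
      have h1 := hs p hp.1
      have h2 : k - kk j = 4 * (p.2.1 : ℤ) + 6 * (p.2.2 : ℤ) := by rw [← hp.2, ← h1]; ring
      rw [h2]
      exact fb_l1_monomial _ _ _
    · intro z x
      rw [hFs z x, Finsupp.onFinset_sum hf (fun j => by simp)]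
      rw [← Finset.sum_fiberwise_of_maps_to (g := Prod.fst) (t := s.image Prod.fst)
        (fun p hp => Finset.mem_image_of_mem _ hp)]
      apply Finset.sum_congr rfl
      intro j _
      simp only [f]
      rw [Finset.sum_mul]
      apply Finset.sum_congr rfl
      intro p hp
      rw [Finset.mem_filter] at hp
      rw [hp.2]
      ring
  · -- independence
    intro k A hA hsum
    choose cj hcj1 hcj2 using fun j => l1_monomial_span (hA j)
    let e : (Σ _ : J, ℕ × ℕ) ↪ J × ℕ × ℕ := (Equiv.sigmaEquivProd J (ℕ × ℕ)).toEmbedding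
    let s : Finset (J × ℕ × ℕ) := (A.support.sigma (fun j => (cj j).support)).map e
    let c : J × ℕ × ℕ → ℂ := fun p => cj p.1 p.2
    have hs : ∀ p ∈ s, 4 * (p.2.1 : ℤ) + 6 * (p.2.2 : ℤ) + kk p.1 = k := by
      intro p hp
      obtain ⟨⟨j, ab⟩, hq, rfl⟩ := Finset.mem_map.mp hp
      rw [Finset.mem_sigma] at hq
      have := hcj1 j ab hq.2
      simp only [e, Equiv.toEmbedding_apply, Equiv.sigmaEquivProd_apply]
      linarith
    have hzero : ∀ z x, ∑ p ∈ s, c p * (E₄ z ^ p.2.1 * (E₆ z ^ p.2.2 * B p.1 z x)) = 0 := by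
      intro z x
      rw [Finset.sum_map, Finset.sum_sigma]
      have h0 := hsum z x
      rw [Finsupp.sum] at h0
      rw [← h0]
      apply Finset.sum_congr rfl
      intro j _
      rw [hcj2 j z, Finsupp.sum, Finset.sum_mul]
      apply Finset.sum_congr rfl
      intro ab _
      simp only [e, c, Equiv.toEmbedding_apply, Equiv.sigmaEquivProd_apply]
      ring
    have hall := hind k s c hs hzero
    rw [← Finsupp.support_eq_empty, Finset.eq_empty_iff_forall_notMem]
    intro j hj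
    have hcj0 : cj j = 0 := by
      rw [← Finsupp.support_eq_empty, Finset.eq_empty_iff_forall_notMem]
      intro ab hab
      have hp : e ⟨j, ab⟩ ∈ s :=
        Finset.mem_map_of_mem e (Finset.mem_sigma.mpr ⟨hj, hab⟩)
      have := hall _ hp
      simp only [e, c, Equiv.toEmbedding_apply, Equiv.sigmaEquivProd_apply] at this
      exact (Finsupp.mem_support_iff.mp hab) this
    have : A j = 0 := by
      funext z
      rw [hcj2 j z, hcj0]
      simp
    exact (Finsupp.mem_support_iff.mp hj) this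

/-! ### instantiating the abstract graded-free theorem -/

/-- multiplication by a scalar function on vector valued functions -/
def fbMul (A : ℍ → ℂ) : (ℍ → X → ℂ) →ₗ[ℂ] (ℍ → X → ℂ) where
  toFun F := fun z x => A z * F z x
  map_add' F G := by funext z x; simp [mul_add]
  map_smul' c F := by funext z x; simp only [Pi.smul_apply, smul_eq_mul, RingHom.id_apply]; ring

@[simp] theorem fbMul_apply (A : ℍ → ℂ) (F : ℍ → X → ℂ) (z : ℍ) (x : X) :
    fbMul A F z x = A z * F z x := rfl

theorem fbMul_pow_apply (A : ℍ → ℂ) (n : ℕ) (F : ℍ → X → ℂ) (z : ℍ) (x : X) :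
    ((fbMul A) ^ n) F z x = A z ^ n * F z x := by
  induction n generalizing F with
  | zero => simp
  | succ n ih =>
    rw [pow_succ, Module.End.mul_apply, ih, fbMul_apply]
    ring

theorem fb_vv_mul {m k : ℤ} {A : ℍ → ℂ} (hA : IsL1 m A) {F : ℍ → X → ℂ} (hF : IsVV X k F) :
    IsVV X (k + m) (fun z x => A z * F z x) := by
  obtain ⟨f, rfl⟩ := hA
  refine ⟨fun x => ?_, fun γ z x => ?_, fun x => ?_⟩
  · exact (ModularFormClass.holo f).mul (hF.holo x)
  · have h1 := SlashInvariantForm.slash_action_eqn'' f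
      (⟨γ, rfl⟩ : ((γ : SL(2, ℤ)) : GL (Fin 2) ℝ) ∈ 𝒮ℒ) z
    have h2 : f (γ • z) = denom γ z ^ m * f z := by simpa using h1
    rw [h2, hF.equiv, zpow_add₀ (denom_ne_zero γ z)]
    ring
  · exact (ModularFormClass.bdd_at_infty f).mul (hF.bdd x)

theorem exists_isFreeBasis (hX : GoodX X) :
    ∃ (J : Type) (wt : J → ℤ) (B : J → ℍ → X → ℂ), IsFreeBasis X J wt B := by
  classical
  obtain ⟨J, kk, F, hmem, -, hgen, hind, -⟩ :=
    gf_exists_free_basis_coeff (𝕜 := ℂ) (V := ℍ → X → ℂ) (fbMul (⇑E₄)) (fbMul (⇑E₆))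
      (by
        apply LinearMap.ext
        intro G
        funext z x
        simp only [LinearMap.comp_apply, fbMul_apply]
        ring)
      (Mk X)
      (fun k v hv => fb_vv_mul l1_E4 (mem_Mk.mp hv))
      (fun k v hv => fb_vv_mul l1_E6 (mem_Mk.mp hv))
      (fun k hk => by
        rw [eq_bot_iff]
        intro v hv
        rw [Submodule.mem_bot]
        exact vv_eq_zero_of_neg hX hk (mem_Mk.mp hv))
      (fun k G hG H hH hGH => by
        obtain ⟨Y, hY, h1, h2⟩ := vv_regular (mem_Mk.mp hG) (mem_Mk.mp hH)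
          (fun z x => congrFun (congrFun hGH z) x)
        exact ⟨Y, mem_Mk.mpr hY, by funext z x; exact h1 z x, by funext z x; exact h2 z x⟩)
  have hterm : ∀ (t : J × ℕ × ℕ) (z : ℍ) (x : X),
      ((fbMul (⇑E₄) ^ t.2.1) ((fbMul (⇑E₆) ^ t.2.2) (F t.1))) z x =
        E₄ z ^ t.2.1 * (E₆ z ^ t.2.2 * F t.1 z x) := by
    intro t z x
    rw [fbMul_pow_apply, fbMul_pow_apply]
  refine ⟨J, kk, F, isFreeBasis_of_monomial J kk F (fun j => mem_Mk.mp (hmem j)) ?_ ?_⟩
  · intro k G hG
    obtain ⟨c, hc, hGc⟩ := hgen k G (mem_Mk.mpr hG)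
    refine ⟨c.support, c, hc, ?_⟩
    intro z x
    have := congrFun (congrFun hGc z) x
    rw [this, Finsupp.sum, Finset.sum_apply, Finset.sum_apply]
    apply Finset.sum_congr rfl
    intro t _
    rw [Pi.smul_apply, Pi.smul_apply, smul_eq_mul, hterm]
  · intro k s c hs hzero
    have hf : ∀ p, (if p ∈ s then c p else 0) ≠ 0 → p ∈ s := by
      intro p hp
      by_contra hnot
      simp [hnot] at hp
    let c' : J × ℕ × ℕ →₀ ℂ := Finsupp.onFinset s (fun p => if p ∈ s then c p else 0) hf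
    have hc's : ∀ t ∈ c'.support, 4 * (t.2.1 : ℤ) + 6 * (t.2.2 : ℤ) + kk t.1 = k := by
      intro t ht
      exact hs t (Finsupp.support_onFinset_subset ht)
    have hsum0 : c'.sum (fun t a => a • (fbMul (⇑E₄) ^ t.2.1) ((fbMul (⇑E₆) ^ t.2.2) (F t.1))) = 0 := by
      rw [Finsupp.onFinset_sum hf (fun t => by simp)]
      funext z x
      rw [Finset.sum_apply, Finset.sum_apply]
      rw [Pi.zero_apply, Pi.zero_apply, ← hzero z x]
      apply Finset.sum_congr rfl
      intro t ht
      rw [Pi.smul_apply, Pi.smul_apply, smul_eq_mul, hterm, if_pos ht]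
    have h0 := hind k c' hc's hsum0
    intro p hp
    have : c' p = 0 := by rw [h0]; rfl
    simpa [c', Finsupp.onFinset_apply, hp] using this

end Fermat.Agent.S20x
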