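/-
S20 project, module M07 (backup by helper46): eigenspace dimensions of the permutation operators
of `S` and `U = S T` on `X → ℂ`, stated for `FinBasis.fbEig`.

Method: for a map `σ : X → X` with `σ ∘ σ = id` (resp. `σ ∘ σ ∘ σ = id`) the operator
`(1 + ε P)/2` (resp. `(1 + ε² P + ε P²)/3`) is a projector onto the `ε`-eigenspace of
`P v = v ∘ σ`; its trace is the dimension of the eigenspace and is computed from the numbers of
fixed points.
-/
import Fermat.Agent.S20x.FinBasis

set_option autoImplicit false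

namespace Fermat.Agent.S20x

open Module
open scoped MatrixGroups

set_option linter.unusedSectionVars false

section General

variable {X : Type} [Fintype X] [DecidableEq X]

/-- the composition operator `v ↦ v ∘ σ` -/
noncomputable def pebOp (σ : X → X) : (X → ℂ) →ₗ[ℂ] (X → ℂ) := LinearMap.funLeft ℂ ℂ σ

@[simp] theorem pebOp_apply (σ : X → X) (v : X → ℂ) (x : X) : pebOp σ v x = v (σ x) := rfl

/-- the `ε`-eigenspace of `v ↦ v ∘ σ` -/
def pebEig (σ : X → X) (ε : ℂ) : Submodule ℂ (X → ℂ) where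
  carrier := {v | ∀ x, v (σ x) = ε * v x}
  zero_mem' := by intro x; simp
  add_mem' := by
    intro v w hv hw x
    simp only [Pi.add_apply, hv x, hw x, mul_add]
  smul_mem' := by
    intro c v hv x
    simp only [Pi.smul_apply, smul_eq_mul, hv x]
    ring

theorem mem_pebEig {σ : X → X} {ε : ℂ} {v : X → ℂ} :
    v ∈ pebEig σ ε ↔ ∀ x, v (σ x) = ε * v x := Iff.rfl

theorem peb_trace (σ : X → X) :
    LinearMap.trace ℂ (X → ℂ) (pebOp σ) = (Fintype.card {x : X // σ x = x} : ℂ) := by
  rw [LinearMap.trace_eq_matrix_trace ℂ (Pi.basisFun ℂ X), LinearMap.toMatrix_eq_toMatrix',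
    Matrix.trace]
  simp only [Matrix.diag_apply, LinearMap.toMatrix'_apply, pebOp_apply]
  rw [Fintype.card_subtype, Finset.card_filter]
  push_cast
  refine Finset.sum_congr rfl fun x _ => ?_
  rw [Pi.single_apply]

theorem peb_trace_id :
    LinearMap.trace ℂ (X → ℂ) (LinearMap.id) = (Fintype.card X : ℂ) := by
  rw [LinearMap.trace_id, finrank_fintype_fun_eq_card]

/-- involutions -/
theorem peb_two (σ : X → X) (h2 : ∀ x, σ (σ x) = x) {ε : ℂ} (hε : ε ^ 2 = 1) :
    (2 : ℂ) * (finrank ℂ (pebEig σ ε) : ℂ) =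
      (Fintype.card X : ℂ) + ε * (Fintype.card {x : X // σ x = x} : ℂ) := by
  set π : (X → ℂ) →ₗ[ℂ] (X → ℂ) := (1 / 2 : ℂ) • (LinearMap.id + ε • pebOp σ) with hπ
  have hproj : LinearMap.IsProj (pebEig σ ε) π := by
    refine ⟨fun v => ?_, fun v hv => ?_⟩
    · intro x
      simp only [hπ, LinearMap.smul_apply, LinearMap.add_apply, LinearMap.id_apply, Pi.smul_apply,
        Pi.add_apply, pebOp_apply, smul_eq_mul, h2]
      linear_combination (-(1 / 2 : ℂ) * v (σ x)) * hε
    · funext x
      simp only [hπ, LinearMap.smul_apply, LinearMap.add_apply, LinearMap.id_apply, Pi.smul_apply,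
        Pi.add_apply, pebOp_apply, smul_eq_mul, hv x]
      linear_combination (1 / 2 : ℂ) * v x * hε
  have ht := hproj.trace
  rw [← ht, hπ, map_smul, map_add, map_smul, peb_trace, peb_trace_id]
  simp only [smul_eq_mul]
  ring

/-- maps of order three -/
theorem peb_three (σ : X → X) (h3 : ∀ x, σ (σ (σ x)) = x) {ε : ℂ} (hε : ε ^ 3 = 1) :
    (3 : ℂ) * (finrank ℂ (pebEig σ ε) : ℂ) =
      (Fintype.card X : ℂ) + (ε ^ 2 + ε) * (Fintype.card {x : X // σ x = x} : ℂ) := by
  set π : (X → ℂ) →ₗ[ℂ] (X → ℂ) :=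
    (1 / 3 : ℂ) • (LinearMap.id + ε ^ 2 • pebOp σ + ε • pebOp (σ ∘ σ)) with hπ
  have hproj : LinearMap.IsProj (pebEig σ ε) π := by
    refine ⟨fun v => ?_, fun v hv => ?_⟩
    · intro x
      simp only [hπ, LinearMap.smul_apply, LinearMap.add_apply, LinearMap.id_apply, Pi.smul_apply,
        Pi.add_apply, pebOp_apply, smul_eq_mul, Function.comp_apply, h3]
      linear_combination (-(1 / 3 : ℂ) * v (σ x)) * hε
    · funext x
      simp only [hπ, LinearMap.smul_apply, LinearMap.add_apply, LinearMap.id_apply, Pi.smul_apply,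
        Pi.add_apply, pebOp_apply, smul_eq_mul, Function.comp_apply, hv (σ x), hv x]
      linear_combination (2 / 3 : ℂ) * v x * hε
  have hfix : Fintype.card {x : X // (σ ∘ σ) x = x} = Fintype.card {x : X // σ x = x} := by
    apply Fintype.card_congr
    refine Equiv.subtypeEquivRight (fun x => ?_)
    simp only [Function.comp_apply]
    constructor
    · intro h
      have := h3 x
      rw [h] at this
      exact this
    · intro h
      rw [h, h]
  have ht := hproj.trace
  rw [← ht, hπ, map_smul, map_add, map_add, map_smul, map_smul, peb_trace, peb_trace,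
    peb_trace_id, hfix]
  simp only [smul_eq_mul]
  ring

end General

section Special

open ModularGroup

variable {X : Type} [MulAction SL(2, ℤ) X]

theorem peb_S_sq : Smat * Smat = (-1 : SL(2, ℤ)) := by
  apply Subtype.ext
  rw [Matrix.SpecialLinearGroup.coe_mul, S_mul_S_eq]
  simp

theorem peb_U_cube : Umat * Umat * Umat = (-1 : SL(2, ℤ)) := by
  apply Subtype.ext
  simp only [Matrix.SpecialLinearGroup.coe_mul, coe_S, coe_T,
    Matrix.SpecialLinearGroup.coe_neg, Matrix.SpecialLinearGroup.coe_one]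
  ext i j
  fin_cases i <;> fin_cases j <;> simp [Matrix.mul_apply, Fin.sum_univ_two]

theorem peb_S_smul (hX : GoodX X) (x : X) : Smat • Smat • x = x := by
  rw [← mul_smul, peb_S_sq, hX.neg_one]

theorem peb_U_smul (hX : GoodX X) (x : X) : Umat • Umat • Umat • x = x := by
  have h : ∀ g : SL(2, ℤ), g • g • g • x = (g * g * g) • x := fun g => by
    rw [mul_smul, mul_smul]
  rw [h Umat, peb_U_cube, hX.neg_one]

theorem peb_fbEig_eq [Fintype X] [DecidableEq X] (g : SL(2, ℤ)) (ε : ℂ) :
    fbEig (X := X) g ε = pebEig (fun x : X => g • x) ε := by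
  ext v
  rfl

variable [Fintype X]

/-- `2 dim Eig(S, 1) = μ + ν₂`. -/
theorem peb_S (hX : GoodX X) :
    2 * finrank ℂ (fbEig (X := X) Smat 1) = Fintype.card X + nu2 X := by
  classical
  have h := peb_two (fun x : X => Smat • x) (peb_S_smul hX) (ε := 1) (by norm_num)
  rw [← peb_fbEig_eq] at h
  have h' : ((2 * finrank ℂ (fbEig (X := X) Smat 1) : ℕ) : ℂ) =
      ((Fintype.card X + nu2 X : ℕ) : ℂ) := by
    rw [nu2, Nat.card_eq_fintype_card]
    push_cast
    rw [h]
    ring
  exact_mod_cast h'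

/-- `2 dim Eig(S, -1) + ν₂ = μ`. -/
theorem peb_S_neg (hX : GoodX X) :
    2 * finrank ℂ (fbEig (X := X) Smat (-1)) + nu2 X = Fintype.card X := by
  classical
  have h := peb_two (fun x : X => Smat • x) (peb_S_smul hX) (ε := -1) (by norm_num)
  rw [← peb_fbEig_eq] at h
  have h' : ((2 * finrank ℂ (fbEig (X := X) Smat (-1)) + nu2 X : ℕ) : ℂ) =
      ((Fintype.card X : ℕ) : ℂ) := by
    rw [nu2, Nat.card_eq_fintype_card]
    push_cast
    rw [h]
    ring
  exact_mod_cast h'

/-- `3 dim Eig(U, 1) = μ + 2 ν₃`. -/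
theorem peb_U_one (hX : GoodX X) :
    3 * finrank ℂ (fbEig (X := X) Umat 1) = Fintype.card X + 2 * nu3 X := by
  classical
  have h := peb_three (fun x : X => Umat • x) (peb_U_smul hX) (ε := 1) (by norm_num)
  rw [← peb_fbEig_eq] at h
  have h' : ((3 * finrank ℂ (fbEig (X := X) Umat 1) : ℕ) : ℂ) =
      ((Fintype.card X + 2 * nu3 X : ℕ) : ℂ) := by
    rw [nu3, Nat.card_eq_fintype_card]
    push_cast
    rw [h]
    ring
  exact_mod_cast h'

/-- `3 dim Eig(U, ε) + ν₃ = μ` for a primitive cube root of unity `ε`. -/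
theorem peb_U_eps (hX : GoodX X) {ε : ℂ} (h3 : ε ^ 3 = 1) (h1 : ε ≠ 1) :
    3 * finrank ℂ (fbEig (X := X) Umat ε) + nu3 X = Fintype.card X := by
  classical
  have h := peb_three (fun x : X => Umat • x) (peb_U_smul hX) (ε := ε) h3
  rw [← peb_fbEig_eq] at h
  have hε : ε ^ 2 + ε = -1 := by
    have h0 : (ε - 1) * (ε ^ 2 + ε + 1) = 0 := by linear_combination h3
    rcases mul_eq_zero.mp h0 with h0 | h0
    · exact absurd (sub_eq_zero.mp h0) h1
    · linear_combination h0
  have h' : ((3 * finrank ℂ (fbEig (X := X) Umat ε) + nu3 X : ℕ) : ℂ) =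
      ((Fintype.card X : ℕ) : ℂ) := by
    rw [nu3, Nat.card_eq_fintype_card]
    push_cast
    rw [h, hε]
    ring
  exact_mod_cast h'

/-- the square of a primitive cube root of unity is again one -/
theorem peb_sq_ne_one {ε : ℂ} (h3 : ε ^ 3 = 1) (h1 : ε ≠ 1) : (ε ^ 2) ^ 3 = 1 ∧ ε ^ 2 ≠ 1 := by
  refine ⟨by rw [← pow_mul, mul_comm, pow_mul, h3, one_pow], fun h2 => h1 ?_⟩
  have : ε ^ 3 = ε := by rw [pow_succ, h2, one_mul]
  rw [← this, h3]

end Special

end Fermat.Agent.S20x
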