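/-
S20 module M06b (final wiring), helper80.

`exists_isFinBasis`, `count_mod4`, `count_mod6` in the exact shape of `S20x/Spec.lean`
(`spec_exists_isFinBasis`, `spec_count_mod4`, `spec_count_mod6`), obtained from the cores in
`S20x/FinBasis.lean` by feeding in
* `exists_isFreeBasis` (M05b, `FreeBasis.lean`),
* `vv_eq_zero_of_odd` (M05a, `Regular.lean`),
* `ev_I_eig`, `ev_rho_eig` (M06 part 1, `LocalIndepCore.lean`),
* `indep_at_I`, `indep_at_rho` (M06 part 2, `LocalIndep.lean`),
* `peb_S`, `peb_U_one`, `peb_U_eps` (M07, `PermEigB.lean`).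
-/
import Fermat.Agent.S20x.FinBasis
import Fermat.Agent.S20x.FreeBasis
import Fermat.Agent.S20x.Regular
import Fermat.Agent.S20x.LocalIndep
import Fermat.Agent.S20x.PermEigB

set_option autoImplicit false

namespace Fermat.Agent.S20x

open UpperHalfPlane Module Complex
open scoped MatrixGroups

variable {X : Type} [MulAction SL(2, ℤ) X]

/-- `e^{2πi/3}` is a cube root of unity. -/
theorem fbf_zeta_cube : (cexp (2 * Real.pi * Complex.I / 3)) ^ 3 = 1 := by
  rw [← Complex.exp_nat_mul]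
  have h : ((3 : ℕ) : ℂ) * (2 * Real.pi * Complex.I / 3) = 2 * Real.pi * Complex.I := by
    push_cast; ring
  rw [h, Complex.exp_two_pi_mul_I]

/-- `e^{2πi/3} ≠ 1`. -/
theorem fbf_zeta_ne_one : cexp (2 * Real.pi * Complex.I / 3) ≠ 1 := by
  intro h
  rw [Complex.exp_eq_one_iff] at h
  obtain ⟨n, hn⟩ := h
  have hpi : (2 * Real.pi * Complex.I : ℂ) ≠ 0 := by simp [Real.pi_ne_zero]
  have h1 : (1 / 3 : ℂ) = n := by
    have h0 : 2 * Real.pi * Complex.I * (1 / 3 : ℂ) = 2 * Real.pi * Complex.I * n := by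
      linear_combination hn
    exact mul_left_cancel₀ hpi h0
  have h2 : (1 : ℂ) = ((3 * n : ℤ) : ℂ) := by
    push_cast
    rw [← h1]
    norm_num
  have h3 : (1 : ℤ) = 3 * n := by exact_mod_cast h2
  omega

/-- All the inputs of the counting cores hold for a free basis over a good `X`. -/
theorem fbf_inputs_of_free [Fintype X] (hX : GoodX X) {J : Type} {wt : J → ℤ}
    {B : J → ℍ → X → ℂ} (hB : IsFreeBasis X J wt B) :
    FBInputs X J wt B (cexp (2 * Real.pi * Complex.I / 3)) where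
  hodd := fun j hj => vv_eq_zero_of_odd hX hj (hB.mem j)
  evI := fun j hj x => ev_I_eig hj (hB.mem j) x
  indI := fun r s hs => indep_at_I hB r s hs
  evR := fun j hj x => ev_rho_eig hj (hB.mem j) x
  indR := fun r s hs => indep_at_rho hB r s hs

/-- **M06b** (exact `spec_exists_isFinBasis`). -/
theorem exists_isFinBasis [Fintype X] (hX : GoodX X) :
    ∃ (J : Type) (_ : Fintype J) (wt : J → ℤ) (B : J → ℍ → X → ℂ),
      IsFinBasis X J wt B ∧ Fintype.card J = Fintype.card X := by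
  obtain ⟨J, wt, B, hB⟩ := exists_isFreeBasis hX
  obtain ⟨inst, h1, h2⟩ := exists_isFinBasis_core hX hB (fbf_inputs_of_free hX hB)
  exact ⟨J, inst, wt, B, h1, h2⟩

/-- **M06b** (exact `spec_count_mod4`). -/
theorem count_mod4 [Fintype X] (hX : GoodX X) {J : Type} [Fintype J] {wt : J → ℤ}
    {B : J → ℍ → X → ℂ} (hB : IsFinBasis X J wt B) (hcard : Fintype.card J = Fintype.card X) :
    2 * Nat.card {j : J // (4 : ℤ) ∣ wt j} = Fintype.card X + nu2 X :=
  count_mod4_core (fbf_inputs_of_free hX hB.toFree) hcard (peb_S hX)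

/-- **M06b** (exact `spec_count_mod6`). -/
theorem count_mod6 [Fintype X] (hX : GoodX X) {J : Type} [Fintype J] {wt : J → ℤ}
    {B : J → ℍ → X → ℂ} (hB : IsFinBasis X J wt B) (hcard : Fintype.card J = Fintype.card X) :
    3 * Nat.card {j : J // (6 : ℤ) ∣ wt j} = Fintype.card X + 2 * nu3 X ∧
    3 * Nat.card {j : J // (6 : ℤ) ∣ wt j - 2} + nu3 X = Fintype.card X :=
  count_mod6_core (fbf_inputs_of_free hX hB.toFree) fbf_zeta_cube hcard (peb_U_one hX)
    (peb_U_eps hX fbf_zeta_cube fbf_zeta_ne_one)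
    (peb_U_eps hX (peb_sq_ne_one fbf_zeta_cube fbf_zeta_ne_one).1
      (peb_sq_ne_one fbf_zeta_cube fbf_zeta_ne_one).2)

end Fermat.Agent.S20x
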