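import Fermat.Agent.S20x.CountBasic
import Fermat.Agent.S20x.Duality
import Fermat.Agent.S20x.Det
import Fermat.Agent.S20x.FinBasisFinal

set_option autoImplicit false

namespace Fermat.Agent.S20x

open UpperHalfPlane ModularForm EisensteinSeries Filter Complex
open scoped MatrixGroups ModularForm Manifold Topology

variable {X : Type} [MulAction SL(2, ℤ) X]

/-- the admissible weights. -/
def cfS : Finset ℤ := {0, 2, 4, 6, 8, 10}

theorem cf_mem_S {k : ℤ} (h0 : 0 ≤ k) (he : Even k) (h10 : k ≤ 10) : k ∈ cfS := by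
  obtain ⟨m, rfl⟩ := he
  have h1 : 0 ≤ m := by omega
  have h2 : m ≤ 5 := by omega
  simp only [cfS, Finset.mem_insert, Finset.mem_singleton]
  interval_cases m <;> simp

/-- fibrewise counting: `∑ⱼ f (wt j) = ∑_{k ∈ S} n_k * f k`. -/
theorem cf_sum_fiber {J : Type} [Fintype J] [DecidableEq J] (wt : J → ℤ)
    (hS : ∀ j, wt j ∈ cfS) (f : ℤ → ℚ) :
    ∑ j, f (wt j) = ∑ k ∈ cfS, (Nat.card {j : J // wt j = k} : ℚ) * f k := by
  rw [← Finset.sum_fiberwise_of_maps_to (s := Finset.univ) (t := cfS) (g := wt)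
    (fun j _ => hS j)]
  refine Finset.sum_congr rfl (fun k _ => ?_)
  rw [Finset.sum_congr rfl (g := fun _ => f k) (fun j hj => by rw [(Finset.mem_filter.mp hj).2]),
    Finset.sum_const, nsmul_eq_mul]
  congr 2
  rw [Nat.card_eq_fintype_card, Fintype.card_subtype]

theorem cf_card_pred {J : Type} [Fintype J] [DecidableEq J] (wt : J → ℤ)
    (hS : ∀ j, wt j ∈ cfS) (p : ℤ → Prop) [DecidablePred p] :
    (Nat.card {j : J // p (wt j)} : ℚ) =
      ∑ k ∈ cfS, (Nat.card {j : J // wt j = k} : ℚ) * (if p k then 1 else 0) := by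
  rw [← cf_sum_fiber wt hS (fun k => if p k then 1 else 0)]
  rw [Nat.card_eq_fintype_card, Fintype.card_subtype, Finset.card_filter]
  push_cast
  rfl

theorem cf_finrank_Sk_two (hX : GoodX X) : (Module.finrank ℂ (Sk X 2) : ℚ) = genusX X := by
  classical
  haveI := hX.nonempty
  haveI := hX.finite
  letI : Fintype X := Fintype.ofFinite X
  obtain ⟨J, hJ, wt, B, hB, hcard⟩ := exists_isFinBasis hX
  have hS : ∀ j, wt j ∈ cfS := fun j =>
    cf_mem_S (wt_nonneg_even hX hB j).1 (wt_nonneg_even hX hB j).2 (wt_le_ten hX hB hcard j)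
  set n : ℤ → ℚ := fun k => (Nat.card {j : J // wt j = k} : ℚ) with hn
  have e_sum := cf_sum_fiber wt hS (fun _ => (1 : ℚ))
  have e_wt := cf_sum_fiber wt hS (fun k => (k : ℚ))
  have e_4 := cf_card_pred wt hS (fun k => (4 : ℤ) ∣ k)
  have e_6 := cf_card_pred wt hS (fun k => (6 : ℤ) ∣ k)
  have e_62 := cf_card_pred wt hS (fun k => (6 : ℤ) ∣ k - 2)
  have h0 : n 0 = 1 := by
    simp only [hn]; exact_mod_cast card_wt_zero hX hB
  have hc4 := count_mod4 hX hB hcard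
  have hc6 := count_mod6 hX hB hcard
  have hsw := sum_wt hX hB hcard
  have hfin := finrank_Sk_two_eq hX hB hcard
  simp only [cfS] at e_sum e_wt e_4 e_6 e_62
  rw [Finset.sum_insert (by decide), Finset.sum_insert (by decide), Finset.sum_insert (by decide),
    Finset.sum_insert (by decide), Finset.sum_insert (by decide), Finset.sum_singleton] at e_sum e_wt e_4 e_6 e_62
  have hμ : (Fintype.card J : ℚ) = (Nat.card X : ℚ) := by
    rw [hcard, Nat.card_eq_fintype_card]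
  have hsum : n 0 + n 2 + n 4 + n 6 + n 8 + n 10 = (Nat.card X : ℚ) := by
    rw [← hμ]
    have : (Fintype.card J : ℚ) = ∑ j : J, (1 : ℚ) := by simp
    rw [this, e_sum]; ring
  have hwt' : 2 * n 2 + 4 * n 4 + 6 * n 6 + 8 * n 8 + 10 * n 10
      = 6 * ((Nat.card X : ℚ) - cuspsX X) := by
    have h1 : ((∑ j, wt j : ℤ) : ℚ) = 6 * ((Nat.card X : ℚ) - cuspsX X) := by
      rw [hsw, Nat.card_eq_fintype_card]; push_cast; ring
    rw [← h1]
    push_cast
    rw [e_wt]; push_cast; ring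
  have h4' : 2 * (n 0 + n 4 + n 8) = (Nat.card X : ℚ) + nu2 X := by
    have h1 : (2 * (Nat.card {j : J // (4 : ℤ) ∣ wt j} : ℚ)) = (Nat.card X : ℚ) + nu2 X := by
      rw [Nat.card_eq_fintype_card (α := X)]; exact_mod_cast hc4
    have a0 : ((4 : ℤ) ∣ 0) := by decide
    have a2 : ¬ ((4 : ℤ) ∣ 2) := by decide
    have a4 : ((4 : ℤ) ∣ 4) := by decide
    have a6 : ¬ ((4 : ℤ) ∣ 6) := by decide
    have a8 : ((4 : ℤ) ∣ 8) := by decide
    have a10 : ¬ ((4 : ℤ) ∣ 10) := by decide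
    have e4' : (Nat.card {j : J // (4 : ℤ) ∣ wt j} : ℚ) = n 0 + n 4 + n 8 := by
      rw [e_4, if_pos a0, if_neg a2, if_pos a4, if_neg a6, if_pos a8, if_neg a10]
      simp only [hn]
      ring
    rw [← h1, e4']
  have h6' : 3 * (n 0 + n 6) = (Nat.card X : ℚ) + 2 * nu3 X := by
    have h1 : (3 * (Nat.card {j : J // (6 : ℤ) ∣ wt j} : ℚ)) = (Nat.card X : ℚ) + 2 * nu3 X := by
      rw [Nat.card_eq_fintype_card (α := X)]; exact_mod_cast hc6.1
    have a0 : ((6 : ℤ) ∣ 0) := by decide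
    have a2 : ¬ ((6 : ℤ) ∣ 2) := by decide
    have a4 : ¬ ((6 : ℤ) ∣ 4) := by decide
    have a6 : ((6 : ℤ) ∣ 6) := by decide
    have a8 : ¬ ((6 : ℤ) ∣ 8) := by decide
    have a10 : ¬ ((6 : ℤ) ∣ 10) := by decide
    have e6' : (Nat.card {j : J // (6 : ℤ) ∣ wt j} : ℚ) = n 0 + n 6 := by
      rw [e_6, if_pos a0, if_neg a2, if_neg a4, if_pos a6, if_neg a8, if_neg a10]
      simp only [hn]
      ring
    rw [← h1, e6']
  have h62' : 3 * (n 2 + n 8) + nu3 X = (Nat.card X : ℚ) := by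
    have h1 : (3 * (Nat.card {j : J // (6 : ℤ) ∣ wt j - 2} : ℚ)) + nu3 X = (Nat.card X : ℚ) := by
      rw [Nat.card_eq_fintype_card (α := X)]; exact_mod_cast hc6.2
    have a0 : ¬ ((6 : ℤ) ∣ 0 - 2) := by decide
    have a2 : ((6 : ℤ) ∣ 2 - 2) := by decide
    have a4 : ¬ ((6 : ℤ) ∣ 4 - 2) := by decide
    have a6 : ¬ ((6 : ℤ) ∣ 6 - 2) := by decide
    have a8 : ((6 : ℤ) ∣ 8 - 2) := by decide
    have a10 : ¬ ((6 : ℤ) ∣ 10 - 2) := by decide
    have e62' : (Nat.card {j : J // (6 : ℤ) ∣ wt j - 2} : ℚ) = n 2 + n 8 := by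
      rw [e_62, if_neg a0, if_pos a2, if_neg a4, if_neg a6, if_pos a8, if_neg a10]
      simp only [hn]
      ring
    rw [← h1, e62']
  have := solve_counts (Nat.card X) (nu2 X) (nu3 X) (cuspsX X) (n 0) (n 2) (n 4) (n 6) (n 8) (n 10)
    h0 hsum hwt' h4' h6' h62'
  rw [hfin]
  unfold genusX
  exact this

end Fermat.Agent.S20x
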