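import Fermat.Agent.S20x.Defs
import Fermat.Agent.S24x.CombFixed

/-! S20 M15: `ν₂` of `SL(2,ℤ) ⧸ Γ₀(N)` (wired from the shared counting module `S24x/Comb*`). -/

set_option autoImplicit false

open CongruenceSubgroup
open scoped MatrixGroups

namespace Fermat.Agent.S20x

theorem nu2_Gamma0 (N : ℕ) [NeZero N] :
    nu2 (SL(2, ℤ) ⧸ Gamma0 N) = ModularCurve.nuTwo N :=
  Fermat.Agent.S24x.card_fixedBy_S N

end Fermat.Agent.S20x
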