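import Fermat.Agent.S20x.Defs
import Fermat.Agent.S24x.CombIndex

/-! S20 M14: `|SL(2,ℤ) ⧸ Γ₀(N)| = ψ(N)` (wired from the shared counting module `S24x/Comb*`). -/

set_option autoImplicit false

open CongruenceSubgroup
open scoped MatrixGroups

namespace Fermat.Agent.S20x

theorem card_X_Gamma0 (N : ℕ) [NeZero N] :
    Nat.card (SL(2, ℤ) ⧸ Gamma0 N) = ModularCurve.dedekindPsi N :=
  Fermat.Agent.S24x.card_Q N

end Fermat.Agent.S20x
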