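/-
S20 project, module M12, part 1 `CountBasic.lean` (helper3): weights of a finite free basis are
even and nonnegative, exactly one basis element has weight `0`, and the arithmetic of Step 7.
-/
import Fermat.Agent.S20x.L1Ring
import Fermat.Agent.S20x.Regular

set_option autoImplicit false

namespace Fermat.Agent.S20x

open UpperHalfPlane ModularForm EisensteinSeries Filter Complex
open scoped MatrixGroups ModularForm Manifold Topology

variable {X : Type} [MulAction SL(2, ℤ) X]

/-- pure arithmetic (Step 7). -/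
theorem solve_counts (μ ν₂ ν₃ c n0 n2 n4 n6 n8 n10 : ℚ) (h0 : n0 = 1)
    (hsum : n0 + n2 + n4 + n6 + n8 + n10 = μ)
    (hwt : 2 * n2 + 4 * n4 + 6 * n6 + 8 * n8 + 10 * n10 = 6 * (μ - c))
    (h4 : 2 * (n0 + n4 + n8) = μ + ν₂) (h6 : 3 * (n0 + n6) = μ + 2 * ν₃)
    (h6' : 3 * (n2 + n8) + ν₃ = μ) :
    n10 = 1 + μ / 12 - ν₂ / 4 - ν₃ / 3 - c / 2 := by
  linarith

/-- A member of a finite free basis is nonzero. -/
theorem cnt_basis_ne_zero [Fintype X] {J : Type} [Fintype J] {wt : J → ℤ}
    {B : J → ℍ → X → ℂ} (hB : IsFinBasis X J wt B) (j : J) : B j ≠ 0 := by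
  classical
  intro h0
  have key := hB.indep (wt j) (fun i => if i = j then (fun _ => (1 : ℂ)) else 0) ?_ ?_ j
  · simp only [if_true] at key
    have := congrFun key UpperHalfPlane.I
    simp at this
  · intro i
    by_cases hij : i = j
    · subst hij
      simp only [if_true, sub_self]
      exact l1_const 1
    · simp only [if_neg hij]
      exact l1_zero _
  · intro z x
    rw [Finset.sum_eq_single j]
    · simp [h0]
    · intro i _ hij
      simp [if_neg hij]
    · intro h; exact absurd (Finset.mem_univ j) h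

theorem wt_nonneg_even [Fintype X] (hX : GoodX X) {J : Type} [Fintype J] {wt : J → ℤ}
    {B : J → ℍ → X → ℂ} (hB : IsFinBasis X J wt B) (j : J) : 0 ≤ wt j ∧ Even (wt j) := by
  have hne := cnt_basis_ne_zero hB j
  constructor
  · by_contra hneg
    exact hne (vv_eq_zero_of_neg hX (not_le.mp hneg) (hB.mem j))
  · by_contra hodd
    exact hne (vv_eq_zero_of_odd hX (Int.not_even_iff_odd.mp hodd) (hB.mem j))

/-- the constant function `1` is a vector-valued form of weight `0`. -/
theorem cnt_isVV_one : IsVV X 0 (fun _ _ => (1 : ℂ)) := by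
  refine ⟨fun x => mdifferentiable_const, fun γ z x => by simp, fun x => ?_⟩
  exact (boundedAtImInftySubalgebra ℂ).one_mem

theorem card_wt_zero [Fintype X] [Nonempty X] (hX : GoodX X) {J : Type} [Fintype J] {wt : J → ℤ}
    {B : J → ℍ → X → ℂ} (hB : IsFinBasis X J wt B) : Nat.card {j : J // wt j = 0} = 1 := by
  classical
  rw [Nat.card_eq_one_iff_unique]
  constructor
  · -- uniqueness
    refine ⟨fun a b => ?_⟩
    obtain ⟨j₁, h₁⟩ := a
    obtain ⟨j₂, h₂⟩ := b
    by_contra hne
    have hne' : j₁ ≠ j₂ := fun h => hne (Subtype.ext h)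
    have m₁ := hB.mem j₁
    have m₂ := hB.mem j₂
    rw [h₁] at m₁
    rw [h₂] at m₂
    obtain ⟨c₁, hc₁⟩ := vv_const_of_zero hX m₁
    obtain ⟨c₂, hc₂⟩ := vv_const_of_zero hX m₂
    have key := hB.indep 0
      (fun i => if i = j₁ then (fun _ => c₂) else if i = j₂ then (fun _ => -c₁) else 0) ?_ ?_ j₁
    · simp only [if_true] at key
      have hc₂0 : c₂ = 0 := congrFun key UpperHalfPlane.I
      apply cnt_basis_ne_zero hB j₂
      rw [hc₂, hc₂0]
      rfl
    · intro i
      by_cases hi₁ : i = j₁
      · subst hi₁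
        simp only [if_true, h₁, sub_zero]
        exact l1_const c₂
      · by_cases hi₂ : i = j₂
        · subst hi₂
          simp only [if_neg hi₁, if_true, h₂, sub_zero]
          exact l1_const (-c₁)
        · simp only [if_neg hi₁, if_neg hi₂]
          exact l1_zero _
    · intro z x
      rw [Finset.sum_eq_add_of_mem j₁ j₂ (Finset.mem_univ _) (Finset.mem_univ _) hne']
      · simp only [if_true, if_neg (Ne.symm hne'), hc₁, hc₂]
        ring
      · intro i _ hi
        simp [if_neg hi.1, if_neg hi.2]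
  · -- existence
    obtain ⟨A, hA, hsum⟩ := hB.gen 0 (fun _ _ => (1 : ℂ)) cnt_isVV_one
    by_contra hempty
    rw [not_nonempty_iff] at hempty
    have hA0 : ∀ j, A j = 0 := by
      intro j
      have hj : wt j ≠ 0 := fun h => hempty.false ⟨j, h⟩
      have hpos : 0 < wt j := lt_of_le_of_ne (wt_nonneg_even hX hB j).1 (Ne.symm hj)
      exact l1_eq_zero_of_neg (by omega) (hA j)
    obtain ⟨x₀⟩ := ‹Nonempty X›
    have := hsum UpperHalfPlane.I x₀
    simp [hA0] at this

end Fermat.Agent.S20x
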