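/-
S20 project, module M12, part 2 `Count.lean` (helper3): the abstract dimension formula
`dim S₂(X) = genusX X` from the structural results on a finite free basis.
-/
import Fermat.Agent.S20x.CountBasic
import Fermat.Agent.S20x.FinBasisFinal
import Fermat.Agent.S20x.Det
import Fermat.Agent.S20x.Duality

set_option autoImplicit false

namespace Fermat.Agent.S20x

open UpperHalfPlane ModularForm EisensteinSeries Filter Complex
open scoped MatrixGroups ModularForm Manifold Topology

variable {X : Type} [MulAction SL(2, ℤ) X]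

section Counting

variable {J : Type} [Fintype J]

/-- counting the indices whose weight satisfies `P`, fibrewise. -/
theorem cnt_card_filter (wt : J → ℤ) (K : Finset ℤ) (hK : ∀ j, wt j ∈ K) (P : ℤ → Prop)
    [DecidablePred P] :
    ((Finset.univ.filter (fun j => P (wt j))).card : ℚ)
      = ∑ k ∈ K.filter P, ((Finset.univ.filter (fun j => wt j = k)).card : ℚ) := by
  classical
  rw [Finset.card_eq_sum_card_fiberwise (f := wt) (t := K.filter P)]
  · push_cast
    refine Finset.sum_congr rfl fun k hk => ?_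
    congr 2
    ext j
    simp only [Finset.mem_filter, Finset.mem_univ, true_and]
    constructor
    · exact fun h => h.2
    · intro h
      refine ⟨?_, h⟩
      rw [h]
      exact (Finset.mem_filter.mp hk).2
  · intro j hj
    simp only [Finset.coe_filter, Finset.mem_univ, true_and, Set.mem_ofPred_eq] at hj
    exact Finset.mem_coe.mpr (Finset.mem_filter.mpr ⟨hK j, hj⟩)

/-- the sum of the weights, fibrewise. -/
theorem cnt_sum_wt (wt : J → ℤ) (K : Finset ℤ) (hK : ∀ j, wt j ∈ K) :
    ((∑ j, wt j : ℤ) : ℚ)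
      = ∑ k ∈ K, (k : ℚ) * ((Finset.univ.filter (fun j => wt j = k)).card : ℚ) := by
  classical
  push_cast
  rw [← Finset.sum_fiberwise_of_maps_to (s := Finset.univ) (t := K) (g := wt)
    (f := fun j => (wt j : ℚ)) (fun j _ => hK j)]
  refine Finset.sum_congr rfl fun k _ => ?_
  rw [Finset.sum_congr rfl (g := fun _ => (k : ℚ))]
  · rw [Finset.sum_const, nsmul_eq_mul, mul_comm]
  · intro j hj
    rw [(Finset.mem_filter.mp hj).2]

end Counting

/-- the possible weights of basis elements. -/
def cntK : Finset ℤ := {0, 2, 4, 6, 8, 10}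

theorem cntK_sum (n : ℤ → ℚ) : ∑ k ∈ cntK, n k = n 0 + n 2 + n 4 + n 6 + n 8 + n 10 := by
  simp only [cntK]
  rw [Finset.sum_insert (by decide), Finset.sum_insert (by decide), Finset.sum_insert (by decide),
    Finset.sum_insert (by decide), Finset.sum_insert (by decide), Finset.sum_singleton]
  ring

theorem cntK_filter_zero : cntK.filter (fun k => k = 0) = {0} := by decide
theorem cntK_filter_ten : cntK.filter (fun k => k = 10) = {10} := by decide
theorem cntK_filter_four : cntK.filter (fun k => (4 : ℤ) ∣ k) = {0, 4, 8} := by decide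
theorem cntK_filter_six : cntK.filter (fun k => (6 : ℤ) ∣ k) = {0, 6} := by decide
theorem cntK_filter_six' : cntK.filter (fun k => (6 : ℤ) ∣ k - 2) = {2, 8} := by decide

theorem cnt_sum3 (n : ℤ → ℚ) : ∑ k ∈ ({0, 4, 8} : Finset ℤ), n k = n 0 + n 4 + n 8 := by
  rw [Finset.sum_insert (by decide), Finset.sum_insert (by decide), Finset.sum_singleton]
  ring

theorem cnt_sum2 (n : ℤ → ℚ) (a b : ℤ) (hab : a ≠ b) :
    ∑ k ∈ ({a, b} : Finset ℤ), n k = n a + n b := by
  rw [Finset.sum_insert (by simpa using hab), Finset.sum_singleton]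

/-- **The abstract dimension formula**: `dim S₂(X) = genusX X`. -/
theorem finrank_Sk_two [Nonempty X] (hX : GoodX X) :
    (Module.finrank ℂ (Sk X 2) : ℚ) = genusX X := by
  classical
  have : Finite X := hX.finite
  letI : Fintype X := Fintype.ofFinite X
  obtain ⟨J, hJ, wt, B, hB, hcard⟩ := exists_isFinBasis hX
  have hK : ∀ j, wt j ∈ cntK := by
    intro j
    obtain ⟨h0, hev⟩ := wt_nonneg_even hX hB j
    have h10 := wt_le_ten hX hB hcard j
    obtain ⟨m, hm⟩ := hev
    simp only [cntK, Finset.mem_insert, Finset.mem_singleton]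
    omega
  obtain ⟨n, hn⟩ : ∃ n : ℤ → ℚ, n = fun k => ((Finset.univ.filter (fun j => wt j = k)).card : ℚ) :=
    ⟨_, rfl⟩
  have hcardP : ∀ (P : ℤ → Prop) [DecidablePred P],
      (Nat.card {j : J // P (wt j)} : ℚ) = ∑ k ∈ cntK.filter P, n k := by
    intro P _
    rw [Nat.card_eq_fintype_card, Fintype.card_subtype, hn]
    exact cnt_card_filter wt cntK hK P
  -- the six equations
  have e0 : n 0 = 1 := by
    have h := hcardP (fun k => k = 0)
    rw [card_wt_zero hX hB, cntK_filter_zero, Finset.sum_singleton] at h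
    exact_mod_cast h.symm
  have esum : n 0 + n 2 + n 4 + n 6 + n 8 + n 10 = (Fintype.card X : ℚ) := by
    have h := hcardP (fun _ => True)
    rw [Finset.filter_true_of_mem (fun _ _ => trivial), cntK_sum] at h
    rw [← h, Nat.card_eq_fintype_card, Fintype.card_subtype]
    simp [hcard]
  have ewt : 2 * n 2 + 4 * n 4 + 6 * n 6 + 8 * n 8 + 10 * n 10
      = 6 * ((Fintype.card X : ℚ) - (cuspsX X : ℚ)) := by
    have h := cnt_sum_wt wt cntK hK
    rw [sum_wt hX hB hcard] at h
    have h' := cntK_sum (fun k => (k : ℚ) * n k)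
    rw [hn] at h'
    rw [h'] at h
    push_cast at h
    rw [hn]
    linarith
  have e4 : 2 * (n 0 + n 4 + n 8) = (Fintype.card X : ℚ) + (nu2 X : ℚ) := by
    have h := hcardP (fun k => (4 : ℤ) ∣ k)
    rw [cntK_filter_four, cnt_sum3] at h
    have h2 := count_mod4 hX hB hcard
    have h2' : (2 : ℚ) * (Nat.card {j : J // (4 : ℤ) ∣ wt j} : ℚ)
        = (Fintype.card X : ℚ) + (nu2 X : ℚ) := by exact_mod_cast h2
    rw [← h2', h]
  obtain ⟨h6a, h6b⟩ := count_mod6 hX hB hcard
  have e6 : 3 * (n 0 + n 6) = (Fintype.card X : ℚ) + 2 * (nu3 X : ℚ) := by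
    have h := hcardP (fun k => (6 : ℤ) ∣ k)
    rw [cntK_filter_six, cnt_sum2 n 0 6 (by norm_num)] at h
    have h2' : (3 : ℚ) * (Nat.card {j : J // (6 : ℤ) ∣ wt j} : ℚ)
        = (Fintype.card X : ℚ) + 2 * (nu3 X : ℚ) := by exact_mod_cast h6a
    rw [← h2', h]
  have e6' : 3 * (n 2 + n 8) + (nu3 X : ℚ) = (Fintype.card X : ℚ) := by
    have h := hcardP (fun k => (6 : ℤ) ∣ k - 2)
    rw [cntK_filter_six', cnt_sum2 n 2 8 (by norm_num)] at h
    have h2' : (3 : ℚ) * (Nat.card {j : J // (6 : ℤ) ∣ wt j - 2} : ℚ) + (nu3 X : ℚ)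
        = (Fintype.card X : ℚ) := by exact_mod_cast h6b
    rw [← h2', h]
  have e10 : (Module.finrank ℂ (Sk X 2) : ℚ) = n 10 := by
    rw [finrank_Sk_two_eq hX hB hcard]
    have h := hcardP (fun k => k = 10)
    rw [cntK_filter_ten, Finset.sum_singleton] at h
    exact h
  rw [e10, genusX, Nat.card_eq_fintype_card]
  exact solve_counts _ _ _ _ _ _ _ _ _ _ e0 esum ewt e4 e6 e6'

end Fermat.Agent.S20x
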