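/-
S20 project, module M13 part (b) (backup by helper46): `SL(2, ℤ) ⧸ Γ₀(N)` satisfies `GoodX`.
The separating form is the vector valued form attached to `Δ(N z)` (weight 12), using the landed
`S23y` files: `isMF_DeltaN` (DeltaN.lean) and `slash_DeltaN_eq_imp` (Conjugates.lean).
-/
import Fermat.Agent.S20x.BridgeIso
import Fermat.Agent.S23y.DeltaN
import Fermat.Agent.S23y.Conjugates

set_option autoImplicit false

namespace Fermat.Agent.S20x

open UpperHalfPlane ModularForm Matrix.SpecialLinearGroup CongruenceSubgroup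
open scoped MatrixGroups ModularForm Manifold

theorem gxb_neg_one_mem_Gamma0 (N : ℕ) : (-1 : SL(2, ℤ)) ∈ Gamma0 N := by
  rw [Gamma0_mem]
  simp

theorem gxb_neg_one_smul (N : ℕ) (x : SL(2, ℤ) ⧸ Gamma0 N) : (-1 : SL(2, ℤ)) • x = x := by
  induction x using QuotientGroup.induction_on with
  | H g =>
    rw [smul_mk_quot]
    symm
    rw [QuotientGroup.eq]
    have : g⁻¹ * (-1 * g) = -1 := by
      rw [neg_mul, one_mul, mul_neg, inv_mul_cancel]
    rw [this]
    exact gxb_neg_one_mem_Gamma0 N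

theorem gxb_goodX_Gamma0 (N : ℕ) [NeZero N] : GoodX (SL(2, ℤ) ⧸ Gamma0 N) := by
  have hfi : (Gamma0 N).FiniteIndex := inferInstance
  obtain ⟨f, hf⟩ := S23y.isMF_DeltaN (N := N)
  have hinv : ∀ γ ∈ Gamma0 N, (⇑f) ∣[(12 : ℤ)] γ = ⇑f :=
    slash_mem_map_iff.mp (fun γ hγ => f.slash_action_eq' γ hγ)
  refine ⟨⟨((1 : SL(2, ℤ)) : SL(2, ℤ) ⧸ Gamma0 N)⟩, Subgroup.finite_quotient_of_finiteIndex,
    inferInstance, gxb_neg_one_smul N, ⟨12, vvOf (Gamma0 N) 12 ⇑f, isVV_vvOf_modularForm f, ?_⟩⟩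
  intro x y hxy heq
  apply hxy
  induction x using QuotientGroup.induction_on with
  | H g =>
    induction y using QuotientGroup.induction_on with
    | H g' =>
      have h1 : (⇑f) ∣[(12 : ℤ)] g⁻¹ = (⇑f) ∣[(12 : ℤ)] g'⁻¹ := by
        funext z
        have := congrFun heq z
        rw [vvOf_mk hinv, vvOf_mk hinv] at this
        exact this
      rw [hf] at h1
      have h2 := S23y.slash_DeltaN_eq_imp N g⁻¹ g'⁻¹ h1
      rw [inv_inv] at h2
      exact QuotientGroup.eq.mpr ((Gamma0 N).inv_mem_iff.mp (by simpa using h2))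

end Fermat.Agent.S20x
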