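/-
S20 / M08 analytic core (helper96): a holomorphic function on the upper half plane which is
bounded at `i∞` and satisfies `g (z + 1) = e^{2πi lam} g z` with `0 ≤ lam < 1` has a "lead
coefficient": `e^{-2πi lam z} g z` tends to a limit `L` at `i∞`, and if `L = 0` then `g / Δ` is
bounded at `i∞`.  Mathlib only.
-/
import Mathlib

set_option autoImplicit false

namespace Fermat.Agent.S20x

open UpperHalfPlane hiding I
open Complex Filter Function Asymptotics
open scoped Topology Real Manifold

local notation "Δ" => ModularForm.discriminant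
local notation "𝕢" => Periodic.qParam

/-- the twisted function `e^{2πi(1-lam)z} g z` (it is `1`-periodic and tends to `0`). -/
noncomputable def lcTw (lam : ℝ) (g : ℍ → ℂ) : ℍ → ℂ :=
  fun z => cexp (2 * π * I * (1 - lam) * z) * g z

theorem lc_periodic (g : ℍ → ℂ) (lam : ℝ)
    (hper : ∀ z : ℍ, g ((1 : ℝ) +ᵥ z) = cexp (2 * π * I * lam) * g z) :
    Periodic (lcTw lam g ∘ ofComplex) (1 : ℝ) := by
  intro w
  rw [Complex.ofReal_one]
  by_cases hw : 0 < im w
  · have hw1 : 0 < im (w + 1) := by simpa using hw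
    have e : (⟨w + 1, hw1⟩ : ℍ) = (1 : ℝ) +ᵥ (⟨w, hw⟩ : ℍ) := by
      ext; simp [add_comm]
    simp only [comp_apply, ofComplex_apply_of_im_pos hw1, ofComplex_apply_of_im_pos hw, lcTw]
    rw [e, hper]
    have h2 : cexp (2 * π * I * (1 - lam) * (w + 1)) * cexp (2 * π * I * lam)
        = cexp (2 * π * I * (1 - lam) * w) := by
      rw [← Complex.exp_add]
      have h3 : 2 * π * I * (1 - lam) * (w + 1) + 2 * π * I * lam
          = 2 * π * I * (1 - lam) * w + 2 * π * I := by ring
      rw [h3, Complex.exp_add, Complex.exp_two_pi_mul_I, mul_one]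
    rw [← h2]
    ring
  · have hw' : im w ≤ 0 := not_lt.mp hw
    have hw1 : im (w + 1) ≤ 0 := by simpa using hw'
    simp only [comp_apply, ofComplex_apply_of_im_nonpos hw1, ofComplex_apply_of_im_nonpos hw']

theorem lc_mdiff_exp (c : ℂ) : MDiff (fun z : ℍ => cexp (c * (z : ℂ))) := by
  intro τ
  have h1 : DifferentiableAt ℂ (fun w : ℂ => cexp (c * w)) (τ : ℂ) := by fun_prop
  exact MDifferentiableAt.comp (g := fun w : ℂ => cexp (c * w)) τ
    (DifferentiableAt.mdifferentiableAt h1) τ.mdifferentiable_coe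

theorem lc_mdiff (g : ℍ → ℂ) (hg : MDiff g) (lam : ℝ) : MDiff (lcTw lam g) :=
  (lc_mdiff_exp (2 * π * I * (1 - lam))).mul hg

theorem lc_exp_tendsto (lam : ℝ) (h1 : lam < 1) :
    Tendsto (fun z : ℍ => cexp (2 * π * I * (1 - lam) * z)) atImInfty (𝓝 0) := by
  have hpos : (0 : ℝ) < 1 / (1 - lam) := by
    have : 0 < 1 - lam := by linarith
    positivity
  have := qParam_tendsto_atImInfty hpos
  refine this.congr fun z => ?_
  simp only [Periodic.qParam]
  congr 1
  have : (1 - (lam : ℂ)) ≠ 0 := by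
    have : (1 : ℝ) - lam ≠ 0 := by linarith
    exact_mod_cast this
  push_cast
  field_simp

theorem lc_zero (g : ℍ → ℂ) (lam : ℝ) (h1 : lam < 1) (hbdd : IsBoundedAtImInfty g) :
    IsZeroAtImInfty (lcTw lam g) := by
  have hb : IsBoundedUnder (· ≤ ·) atImInfty (norm ∘ g) := by
    have h := hbdd
    unfold IsBoundedAtImInfty BoundedAtFilter at h
    rw [Pi.one_def] at h
    exact h.isBoundedUnder_le
  exact (lc_exp_tendsto lam h1).zero_mul_isBoundedUnder_le hb

/-- **Lead coefficient at `i∞`** for a holomorphic function with `g (z + 1) = e^{2πi lam} g z`. -/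
theorem lead_core (g : ℍ → ℂ) (hg : MDiff g) (lam : ℝ) (h0 : 0 ≤ lam) (h1 : lam < 1)
    (hper : ∀ z : ℍ, g ((1 : ℝ) +ᵥ z) = cexp (2 * π * I * lam) * g z)
    (hbdd : IsBoundedAtImInfty g) :
    ∃ L : ℂ, Tendsto (fun z : ℍ => cexp (-2 * π * I * lam * z) * g z) atImInfty (𝓝 L) ∧
      (L = 0 → IsBoundedAtImInfty (fun z => g z / Δ z)) := by
  have hperh := lc_periodic g lam hper
  have hmd := lc_mdiff g hg lam
  have hz := lc_zero g lam h1 hbdd
  have hb : IsBoundedAtImInfty (lcTw lam g) := hz.boundedAtFilter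
  set H := cuspFunction 1 (lcTw lam g) with hH
  have hdiffOn : DifferentiableOn ℂ H (Metric.ball 0 1) :=
    differentiableOn_cuspFunction_ball one_pos hperh hmd hb
  have hH0 : H 0 = 0 := hz.cuspFunction_apply_zero one_pos
  have hHq : ∀ z : ℍ, H (𝕢 1 z) = lcTw lam g z := fun z => eq_cuspFunction z one_ne_zero hperh
  have hball : Metric.ball (0 : ℂ) 1 ∈ 𝓝 0 := Metric.ball_mem_nhds 0 one_pos
  have hdiff0 : DifferentiableAt ℂ H 0 := hdiffOn.differentiableAt hball
  refine ⟨deriv H 0, ?_, ?_⟩
  · have hslope : Tendsto (slope H 0) (𝓝[≠] 0) (𝓝 (deriv H 0)) :=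
      hasDerivAt_iff_tendsto_slope.mp hdiff0.hasDerivAt
    have hq : Tendsto (fun z : ℍ => 𝕢 1 (z : ℂ)) atImInfty (𝓝[≠] 0) :=
      (Periodic.qParam_tendsto one_pos).comp tendsto_coe_atImInfty
    refine (hslope.comp hq).congr fun z => ?_
    simp only [comp_apply, slope, vsub_eq_sub, sub_zero, hH0, smul_eq_mul, hHq]
    simp only [lcTw, Periodic.qParam]
    rw [← mul_assoc, ← Complex.exp_neg, ← Complex.exp_add]
    congr 2
    push_cast
    ring
  · intro hL
    have hd1 : DifferentiableOn ℂ (dslope H 0) (Metric.ball 0 1) :=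
      (Complex.differentiableOn_dslope hball).mpr hdiffOn
    have hd1at : DifferentiableAt ℂ (dslope H 0) 0 := hd1.differentiableAt hball
    have h10 : dslope H 0 0 = 0 := by rw [dslope_same, hL]
    have hO1 : (fun q => dslope H 0 q) =O[𝓝 0] (fun q : ℂ => q) := by
      have := hd1at.isBigO_sub
      simpa [h10, hL] using this
    have hHeq : ∀ q, H q = q * dslope H 0 q := by
      intro q
      have := sub_smul_dslope H 0 q
      simpa [hH0] using this.symm
    have hO2 : H =O[𝓝 0] (fun q : ℂ => q * q) := by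
      have : (fun q => q * dslope H 0 q) =O[𝓝 0] (fun q : ℂ => q * q) :=
        (isBigO_refl _ _).mul hO1
      exact this.congr_left (fun q => (hHeq q).symm)
    have hq0 : Tendsto (fun z : ℍ => 𝕢 1 (z : ℂ)) atImInfty (𝓝 0) :=
      qParam_tendsto_atImInfty one_pos
    have hO3 : lcTw lam g =O[atImInfty] (fun z : ℍ => 𝕢 1 (z : ℂ) * 𝕢 1 (z : ℂ)) := by
      have := hO2.comp_tendsto hq0
      refine this.congr_left fun z => ?_
      simp [hHq]
    have hO4 : g =O[atImInfty] (fun z : ℍ => Real.exp (-2 * π * z.im)) := by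
      obtain ⟨C, hCpos, hC⟩ := hO3.exists_pos
      refine IsBigO.of_bound C ?_
      filter_upwards [hC.bound] with z hz
      have hg_eq : g z = cexp (-(2 * π * I * (1 - lam) * z)) * lcTw lam g z := by
        simp only [lcTw]
        rw [← mul_assoc, ← Complex.exp_add, neg_add_cancel, Complex.exp_zero, one_mul]
      have hn1 : ‖cexp (-(2 * π * I * (1 - lam) * z))‖ = Real.exp (2 * π * (1 - lam) * z.im) := by
        rw [Complex.norm_exp]
        congr 1
        have : -(2 * π * I * (1 - lam) * (z : ℂ)) = ((2 * π * (1 - lam) : ℝ) : ℂ) * (-(I * z)) := by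
          push_cast; ring
        rw [this, Complex.re_ofReal_mul]
        simp
      have hn2 : ‖𝕢 1 (z : ℂ) * 𝕢 1 (z : ℂ)‖ = Real.exp (-4 * π * z.im) := by
        rw [norm_mul, Periodic.norm_qParam, ← Real.exp_add]
        congr 1
        simp
        ring
      rw [hg_eq, norm_mul, hn1, Real.norm_of_nonneg (Real.exp_pos _).le]
      have hzim : 0 < z.im := z.im_pos
      calc Real.exp (2 * π * (1 - lam) * z.im) * ‖lcTw lam g z‖
          ≤ Real.exp (2 * π * (1 - lam) * z.im) * (C * Real.exp (-4 * π * z.im)) := by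
            gcongr
            rw [← hn2]
            exact hz
        _ = C * Real.exp (2 * π * (1 - lam) * z.im + -4 * π * z.im) := by
            rw [Real.exp_add]; ring
        _ ≤ C * Real.exp (-2 * π * z.im) := by
            gcongr
            have : 0 ≤ 2 * π * lam * z.im := by positivity
            nlinarith [Real.pi_pos]
    have hO5 : g =O[atImInfty] Δ := hO4.trans ModularForm.exp_isBigO_discriminant
    exact (div_isBoundedUnder_of_isBigO hO5).isBigO_one ℝ

end Fermat.Agent.S20x
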