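/-
S20 project, module M07 `PermEig.lean` (helper2): dimensions of the eigenspaces of permutation
operators of order `2` and `3` on `X → ℂ`, via traces of the spectral projections.

Outputs (exact inputs of `FinBasis.count_mod4_core` / `count_mod6_core`):
`pe_S_one`, `pe_U_one`, `pe_U_zeta`, `pe_U_zeta_sq`.
-/
import Fermat.Agent.S20x.FinBasis

set_option autoImplicit false
set_option linter.unusedSectionVars false

namespace Fermat.Agent.S20x

open Module
open scoped MatrixGroups

/-! ### Abstract permutations -/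

section Abstract

variable {X : Type} [Fintype X]

/-- the eigenspace `{v | v ∘ σ = ε v}` of the permutation operator of `σ`. -/
def peEig (σ : Equiv.Perm X) (ε : ℂ) : Submodule ℂ (X → ℂ) where
  carrier := {v | ∀ x, v (σ x) = ε * v x}
  zero_mem' := by intro x; simp
  add_mem' := by
    intro v w hv hw x
    simp only [Pi.add_apply, hv x, hw x, mul_add]
  smul_mem' := by
    intro c v hv x
    simp only [Pi.smul_apply, smul_eq_mul, hv x]
    ring

theorem mem_peEig {σ : Equiv.Perm X} {ε : ℂ} {v : X → ℂ} :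
    v ∈ peEig σ ε ↔ ∀ x, v (σ x) = ε * v x := Iff.rfl

/-- the permutation operator `v ↦ v ∘ σ`. -/
def peOp (σ : Equiv.Perm X) : (X → ℂ) →ₗ[ℂ] (X → ℂ) := LinearMap.funLeft ℂ ℂ σ

@[simp] theorem peOp_apply (σ : Equiv.Perm X) (v : X → ℂ) (x : X) : peOp σ v x = v (σ x) := rfl

theorem pe_trace_peOp (σ : Equiv.Perm X) :
    LinearMap.trace ℂ (X → ℂ) (peOp σ) = (Nat.card {x : X // σ x = x} : ℂ) := by
  classical
  rw [LinearMap.trace_eq_matrix_trace ℂ (Pi.basisFun ℂ X), Matrix.trace]
  simp only [Matrix.diag_apply, LinearMap.toMatrix_apply, Pi.basisFun_apply, Pi.basisFun_repr,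
    peOp_apply, Pi.single_apply]
  rw [Nat.card_eq_fintype_card, Fintype.card_subtype, Finset.card_filter]
  push_cast
  rfl

/-- order two: `2 dim Eig(1) = |X| + #Fix`. -/
theorem pe_two_one (σ : Equiv.Perm X) (h2 : ∀ x, σ (σ x) = x) :
    2 * finrank ℂ (peEig σ 1) = Fintype.card X + Nat.card {x : X // σ x = x} := by
  classical
  set P : (X → ℂ) →ₗ[ℂ] (X → ℂ) := (2⁻¹ : ℂ) • (LinearMap.id + peOp σ) with hP
  have hproj : LinearMap.IsProj (peEig σ 1) P := by
    refine ⟨fun v => ?_, fun v hv => ?_⟩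
    · intro x
      simp only [hP, LinearMap.smul_apply, LinearMap.add_apply, LinearMap.id_coe, id_eq,
        Pi.smul_apply, Pi.add_apply, peOp_apply, smul_eq_mul, h2 x]
      ring
    · funext x
      have := hv x
      simp only [hP, LinearMap.smul_apply, LinearMap.add_apply, LinearMap.id_coe, id_eq,
        Pi.smul_apply, Pi.add_apply, peOp_apply, smul_eq_mul, this]
      ring
  have htr := hproj.trace
  rw [hP, map_smul, map_add, LinearMap.trace_id, pe_trace_peOp, Module.finrank_pi,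
    smul_eq_mul] at htr
  have : (2 : ℂ) * (finrank ℂ (peEig σ 1) : ℂ)
      = (Fintype.card X : ℂ) + (Nat.card {x : X // σ x = x} : ℂ) := by
    rw [← htr]; ring
  exact_mod_cast this

/-- order three: the three eigenspaces. -/
theorem pe_three (σ : Equiv.Perm X) (h3 : ∀ x, σ (σ (σ x)) = x) {ε : ℂ} (hε : ε ^ 3 = 1) :
    (3 : ℂ) * finrank ℂ (peEig σ ε)
      = Fintype.card X + (ε ^ 2 + ε) * Nat.card {x : X // σ x = x} := by
  classical
  set P : (X → ℂ) →ₗ[ℂ] (X → ℂ) :=
    (3⁻¹ : ℂ) • (LinearMap.id + ε ^ 2 • peOp σ + ε • peOp (σ * σ)) with hP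
  have hproj : LinearMap.IsProj (peEig σ ε) P := by
    refine ⟨fun v => ?_, fun v hv => ?_⟩
    · intro x
      simp only [hP, LinearMap.smul_apply, LinearMap.add_apply, LinearMap.id_coe, id_eq,
        Pi.smul_apply, Pi.add_apply, peOp_apply, smul_eq_mul, Equiv.Perm.coe_mul,
        Function.comp_apply, h3 x]
      linear_combination (-(3⁻¹ : ℂ) * v (σ x)) * hε
    · funext x
      have h1 := hv x
      have h2 : v (σ (σ x)) = ε ^ 2 * v x := by rw [hv (σ x), h1]; ring
      simp only [hP, LinearMap.smul_apply, LinearMap.add_apply, LinearMap.id_coe, id_eq,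
        Pi.smul_apply, Pi.add_apply, peOp_apply, smul_eq_mul, Equiv.Perm.coe_mul,
        Function.comp_apply, h1, h2]
      linear_combination (2 * (3⁻¹ : ℂ) * v x) * hε
  have hfix : Nat.card {x : X // (σ * σ) x = x} = Nat.card {x : X // σ x = x} := by
    apply Nat.card_congr
    refine Equiv.subtypeEquivRight (fun x => ?_)
    simp only [Equiv.Perm.coe_mul, Function.comp_apply]
    constructor
    · intro h
      have := h3 x
      rw [h] at this
      exact this
    · intro h
      rw [h, h]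
  have htr := hproj.trace
  rw [hP, map_smul, map_add, map_add, map_smul, map_smul, LinearMap.trace_id, pe_trace_peOp,
    pe_trace_peOp, Module.finrank_pi, hfix, smul_eq_mul, smul_eq_mul, smul_eq_mul] at htr
  rw [← htr]; ring

theorem pe_three_one (σ : Equiv.Perm X) (h3 : ∀ x, σ (σ (σ x)) = x) :
    3 * finrank ℂ (peEig σ 1) = Fintype.card X + 2 * Nat.card {x : X // σ x = x} := by
  have := pe_three σ h3 (ε := 1) (by norm_num)
  have h' : (3 : ℂ) * finrank ℂ (peEig σ 1)
      = Fintype.card X + 2 * Nat.card {x : X // σ x = x} := by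
    rw [this]; ring
  exact_mod_cast h'

theorem pe_three_prim (σ : Equiv.Perm X) (h3 : ∀ x, σ (σ (σ x)) = x) {ε : ℂ} (hε : ε ^ 3 = 1)
    (hε1 : ε ≠ 1) :
    3 * finrank ℂ (peEig σ ε) + Nat.card {x : X // σ x = x} = Fintype.card X := by
  have := pe_three σ h3 hε
  have hsum : ε ^ 2 + ε = -1 := by
    have h0 : (ε - 1) * (ε ^ 2 + ε + 1) = 0 := by ring_nf; rw [hε]; ring
    rcases mul_eq_zero.mp h0 with h | h
    · exact absurd (sub_eq_zero.mp h) hε1
    · linear_combination h
  have h' : (3 : ℂ) * finrank ℂ (peEig σ ε) + Nat.card {x : X // σ x = x}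
      = Fintype.card X := by
    rw [this, hsum]; ring
  exact_mod_cast h'

end Abstract

/-! ### The group elements `S` and `U = S T` -/

section SL2

variable {X : Type} [MulAction SL(2, ℤ) X]

theorem pe_S_sq : Smat * Smat = (-1 : SL(2, ℤ)) := by
  apply Subtype.ext
  rw [Matrix.SpecialLinearGroup.coe_mul, ModularGroup.S_mul_S_eq]
  simp

theorem pe_U_cube : Umat * (Umat * Umat) = (-1 : SL(2, ℤ)) := by
  apply Subtype.ext
  simp only [Matrix.SpecialLinearGroup.coe_mul, ModularGroup.coe_S, ModularGroup.coe_T,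
    Matrix.SpecialLinearGroup.coe_neg, Matrix.SpecialLinearGroup.coe_one]
  ext i j
  fin_cases i <;> fin_cases j <;> simp [Matrix.mul_apply, Fin.sum_univ_two]

theorem pe_fbEig_eq (g : SL(2, ℤ)) (ε : ℂ) :
    fbEig (X := X) g ε = peEig (MulAction.toPerm g) ε := by
  ext v
  rfl

variable [Fintype X]

theorem pe_S_one (hX : GoodX X) :
    2 * finrank ℂ (fbEig (X := X) Smat 1) = Fintype.card X + nu2 X := by
  classical
  rw [pe_fbEig_eq, pe_two_one (MulAction.toPerm Smat) (fun x => by
    simp only [MulAction.toPerm_apply, smul_smul, pe_S_sq, hX.neg_one x])]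
  rfl

theorem pe_U_one (hX : GoodX X) :
    3 * finrank ℂ (fbEig (X := X) Umat 1) = Fintype.card X + 2 * nu3 X := by
  classical
  rw [pe_fbEig_eq, pe_three_one (MulAction.toPerm Umat) (fun x => by
    simp only [MulAction.toPerm_apply, smul_smul, pe_U_cube, hX.neg_one x])]
  rfl

theorem pe_U_prim (hX : GoodX X) {ζ : ℂ} (hζ : ζ ^ 3 = 1) (hζ1 : ζ ≠ 1) :
    3 * finrank ℂ (fbEig (X := X) Umat ζ) + nu3 X = Fintype.card X := by
  classical
  rw [pe_fbEig_eq]
  exact pe_three_prim (MulAction.toPerm Umat) (fun x => by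
    simp only [MulAction.toPerm_apply, smul_smul, pe_U_cube, hX.neg_one x]) hζ hζ1

theorem pe_U_zeta (hX : GoodX X) {ζ : ℂ} (hζ : ζ ^ 3 = 1) (hζ1 : ζ ≠ 1) :
    3 * finrank ℂ (fbEig (X := X) Umat ζ) + nu3 X = Fintype.card X :=
  pe_U_prim hX hζ hζ1

theorem pe_U_zeta_sq (hX : GoodX X) {ζ : ℂ} (hζ : ζ ^ 3 = 1) (hζ1 : ζ ≠ 1) :
    3 * finrank ℂ (fbEig (X := X) Umat (ζ ^ 2)) + nu3 X = Fintype.card X := by
  refine pe_U_prim hX ?_ ?_
  · rw [← pow_mul, mul_comm, pow_mul, hζ, one_pow]
  · intro h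
    apply hζ1
    have : ζ ^ 3 = ζ := by rw [pow_succ, h, one_mul]
    rw [← this, hζ]

end SL2

end Fermat.Agent.S20x
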