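import Mathlib
import Fermat.Agent.S20x.Defs

/-!
# Eigenspaces of permutation operators, second version (S20 project, module M07)

Independent of `S20x/PermEig.lean` (helper2); all names carry the prefix `pm`.

For a map `σ : X → X` on a finite type, `pmEig σ ε` is the space of `v : X → ℂ` with
`v (σ x) = ε * v x` for all `x`, i.e. the `ε`-eigenspace of the operator `v ↦ v ∘ σ`.

* involutions: `2 * dim Eig(1) = |X| + #Fix`, `2 * dim Eig(-1) + #Fix = |X|`;
* maps with `σ³ = id`: `3 * dim Eig(1) = |X| + 2 * #Fix`, `3 * dim Eig(ω) + #Fix = |X|` for a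
  primitive cube root of unity `ω`;
* group elements: `dim Eig(1)` is the number of orbits of the cyclic group;
* independence across different eigenvalues.
-/

set_option autoImplicit false

namespace Fermat.Agent.S20x

open Module

section Basic

variable {X : Type*}

/-- The permutation operator `v ↦ v ∘ σ`. -/
noncomputable def pmOp (σ : X → X) : (X → ℂ) →ₗ[ℂ] (X → ℂ) := LinearMap.funLeft ℂ ℂ σ

@[simp] theorem pmOp_apply (σ : X → X) (v : X → ℂ) (x : X) : pmOp σ v x = v (σ x) := rfl

/-- The `ε`-eigenspace of the permutation operator of `σ`. -/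
def pmEig (σ : X → X) (ε : ℂ) : Submodule ℂ (X → ℂ) where
  carrier := {v | ∀ x, v (σ x) = ε * v x}
  zero_mem' := by intro x; simp
  add_mem' := by
    intro a b ha hb x
    simp only [Pi.add_apply, ha x, hb x, mul_add]
  smul_mem' := by
    intro c a ha x
    simp only [Pi.smul_apply, smul_eq_mul, ha x]
    ring

theorem mem_pmEig {σ : X → X} {ε : ℂ} {v : X → ℂ} :
    v ∈ pmEig σ ε ↔ ∀ x, v (σ x) = ε * v x := Iff.rfl

theorem pmEig_eq_eigenspace (σ : X → X) (ε : ℂ) :
    pmEig σ ε = Module.End.eigenspace (pmOp σ) ε := by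
  ext v
  rw [Module.End.mem_eigenspace_iff, mem_pmEig]
  constructor
  · intro h
    funext x
    simp [h x]
  · intro h x
    have := congrFun h x
    simpa using this

end Basic

section Trace

variable {X : Type*} [Fintype X] [DecidableEq X]

/-- The trace of a permutation operator is the number of fixed points. -/
theorem pm_trace_pmOp (σ : X → X) :
    LinearMap.trace ℂ (X → ℂ) (pmOp σ) = ((Finset.univ.filter (fun x => σ x = x)).card : ℂ) := by
  rw [LinearMap.trace_eq_matrix_trace ℂ (Pi.basisFun ℂ X)]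
  simp only [Matrix.trace, Matrix.diag_apply, LinearMap.toMatrix_apply, Pi.basisFun_apply,
    Pi.basisFun_repr, pmOp_apply, Pi.single_apply]
  rw [Finset.sum_boole]

theorem pm_card_fix (σ : X → X) :
    Nat.card {x : X // σ x = x} = (Finset.univ.filter (fun x => σ x = x)).card := by
  rw [Nat.card_eq_fintype_card, Fintype.card_subtype]

omit [DecidableEq X] in
theorem pm_trace_id : LinearMap.trace ℂ (X → ℂ) LinearMap.id = (Fintype.card X : ℂ) := by
  rw [LinearMap.trace_id, Module.finrank_fintype_fun_eq_card]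

end Trace

section Involution

variable {X : Type*} [Fintype X]

/-- The projector onto `Eig(ε)` for an involution, `ε = ± 1`. -/
noncomputable def pmProjTwo (σ : X → X) (ε : ℂ) : (X → ℂ) →ₗ[ℂ] (X → ℂ) :=
  (1 / 2 : ℂ) • (LinearMap.id + ε • pmOp σ)

omit [Fintype X] in
theorem pmProjTwo_apply (σ : X → X) (ε : ℂ) (v : X → ℂ) (x : X) :
    pmProjTwo σ ε v x = (1 / 2 : ℂ) * (v x + ε * v (σ x)) := by
  simp only [pmProjTwo, LinearMap.smul_apply, LinearMap.add_apply, LinearMap.id_coe, id_eq,
    Pi.smul_apply, Pi.add_apply, pmOp_apply, smul_eq_mul]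

omit [Fintype X] in
theorem pm_isProj_two (σ : X → X) (hσ : ∀ x, σ (σ x) = x) (ε : ℂ) (hε : ε * ε = 1) :
    LinearMap.IsProj (pmEig σ ε) (pmProjTwo σ ε) := by
  constructor
  · intro v x
    rw [pmProjTwo_apply, pmProjTwo_apply, hσ]
    linear_combination (-(1 / 2 : ℂ) * v (σ x)) * hε
  · intro v hv
    funext x
    rw [pmProjTwo_apply, mem_pmEig.mp hv x]
    linear_combination (1 / 2 : ℂ) * v x * hε

/-- `2 * dim Eig(ε) = |X| + ε * #Fix(σ)` for an involution `σ` and `ε = ± 1`. -/
theorem pm_two_mul_finrank (σ : X → X) (hσ : ∀ x, σ (σ x) = x) (ε : ℂ) (hε : ε * ε = 1) :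
    (2 : ℂ) * (finrank ℂ (pmEig σ ε) : ℂ)
      = (Fintype.card X : ℂ) + ε * (Nat.card {x : X // σ x = x} : ℂ) := by
  classical
  have h := (pm_isProj_two σ hσ ε hε).trace
  rw [pmProjTwo, map_smul, map_add, map_smul, pm_trace_id, pm_trace_pmOp, ← pm_card_fix σ] at h
  rw [← h]
  simp only [smul_eq_mul]
  ring

/-- `2 * dim Eig(1) = |X| + #Fix(σ)` for an involution `σ`. -/
theorem pm_invol_finrank_one (σ : X → X) (hσ : ∀ x, σ (σ x) = x) :
    2 * finrank ℂ (pmEig σ 1) = Fintype.card X + Nat.card {x : X // σ x = x} := by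
  have h := pm_two_mul_finrank σ hσ 1 (by norm_num)
  rw [one_mul] at h
  exact_mod_cast h

/-- `2 * dim Eig(-1) + #Fix(σ) = |X|` for an involution `σ`. -/
theorem pm_invol_finrank_neg_one (σ : X → X) (hσ : ∀ x, σ (σ x) = x) :
    2 * finrank ℂ (pmEig σ (-1)) + Nat.card {x : X // σ x = x} = Fintype.card X := by
  have h := pm_two_mul_finrank σ hσ (-1) (by norm_num)
  have h2 : ((2 * finrank ℂ (pmEig σ (-1)) + Nat.card {x : X // σ x = x} : ℕ) : ℂ)
      = (Fintype.card X : ℂ) := by
    push_cast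
    linear_combination h
  exact_mod_cast h2

/-- For an involution, the two eigenspace dimensions add up to `|X|`. -/
theorem pm_invol_finrank_add (σ : X → X) (hσ : ∀ x, σ (σ x) = x) :
    finrank ℂ (pmEig σ 1) + finrank ℂ (pmEig σ (-1)) = Fintype.card X := by
  have h1 := pm_invol_finrank_one σ hσ
  have h2 := pm_invol_finrank_neg_one σ hσ
  omega

end Involution

section OrderThree

variable {X : Type*} [Fintype X]

/-- The projector onto `Eig(ε)` for a map of order three, `ε³ = 1`. -/
noncomputable def pmProjThree (σ : X → X) (ε : ℂ) : (X → ℂ) →ₗ[ℂ] (X → ℂ) :=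
  (1 / 3 : ℂ) • (LinearMap.id + (ε * ε) • pmOp σ + ε • pmOp (σ ∘ σ))

omit [Fintype X] in
theorem pmProjThree_apply (σ : X → X) (ε : ℂ) (v : X → ℂ) (x : X) :
    pmProjThree σ ε v x = (1 / 3 : ℂ) * (v x + ε * ε * v (σ x) + ε * v (σ (σ x))) := by
  simp only [pmProjThree, LinearMap.smul_apply, LinearMap.add_apply, LinearMap.id_coe, id_eq,
    Pi.smul_apply, Pi.add_apply, pmOp_apply, smul_eq_mul, Function.comp_apply]

omit [Fintype X] in
theorem pm_isProj_three (σ : X → X) (hσ : ∀ x, σ (σ (σ x)) = x) (ε : ℂ)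
    (hε : ε * ε * ε = 1) : LinearMap.IsProj (pmEig σ ε) (pmProjThree σ ε) := by
  constructor
  · intro v x
    rw [pmProjThree_apply, pmProjThree_apply, hσ]
    linear_combination (-(1 / 3 : ℂ) * v (σ x)) * hε
  · intro v hv
    funext x
    rw [pmProjThree_apply, mem_pmEig.mp hv (σ x), mem_pmEig.mp hv x]
    linear_combination (2 / 3 : ℂ) * v x * hε

omit [Fintype X] in
theorem pm_fix_comp_self (σ : X → X) (hσ : ∀ x, σ (σ (σ x)) = x) (x : X) :
    (σ ∘ σ) x = x ↔ σ x = x := by
  constructor
  · intro h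
    have h1 : σ (σ x) = x := h
    have h2 := hσ x
    rw [h1] at h2
    exact h2
  · intro h
    change σ (σ x) = x
    rw [h, h]

/-- `3 * dim Eig(ε) = |X| + (ε² + ε) * #Fix(σ)` when `σ³ = id` and `ε³ = 1`. -/
theorem pm_three_mul_finrank (σ : X → X) (hσ : ∀ x, σ (σ (σ x)) = x) (ε : ℂ)
    (hε : ε * ε * ε = 1) :
    (3 : ℂ) * (finrank ℂ (pmEig σ ε) : ℂ)
      = (Fintype.card X : ℂ) + (ε * ε + ε) * (Nat.card {x : X // σ x = x} : ℂ) := by
  classical
  have h := (pm_isProj_three σ hσ ε hε).trace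
  have hfix : (Finset.univ.filter (fun x => (σ ∘ σ) x = x)).card
      = (Finset.univ.filter (fun x => σ x = x)).card := by
    congr 1
    ext x
    simp only [Finset.mem_filter, Finset.mem_univ, true_and]
    exact pm_fix_comp_self σ hσ x
  rw [pmProjThree, map_smul, map_add, map_add, map_smul, map_smul, pm_trace_id, pm_trace_pmOp,
    pm_trace_pmOp, hfix, ← pm_card_fix σ] at h
  rw [← h]
  simp only [smul_eq_mul]
  ring

/-- `3 * dim Eig(1) = |X| + 2 * #Fix(σ)` when `σ³ = id`. -/
theorem pm_three_finrank_one (σ : X → X) (hσ : ∀ x, σ (σ (σ x)) = x) :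
    3 * finrank ℂ (pmEig σ 1) = Fintype.card X + 2 * Nat.card {x : X // σ x = x} := by
  have h := pm_three_mul_finrank σ hσ 1 (by norm_num)
  have h2 : ((3 * finrank ℂ (pmEig σ 1) : ℕ) : ℂ)
      = ((Fintype.card X + 2 * Nat.card {x : X // σ x = x} : ℕ) : ℂ) := by
    push_cast
    linear_combination h
  exact_mod_cast h2

/-- `3 * dim Eig(ω) + #Fix(σ) = |X|` when `σ³ = id` and `ω` is a primitive cube root of unity. -/
theorem pm_three_finrank_prim (σ : X → X) (hσ : ∀ x, σ (σ (σ x)) = x) (ω : ℂ) (hω : ω ^ 3 = 1)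
    (hω1 : ω ≠ 1) :
    3 * finrank ℂ (pmEig σ ω) + Nat.card {x : X // σ x = x} = Fintype.card X := by
  have hε : ω * ω * ω = 1 := by rw [← hω]; ring
  have h := pm_three_mul_finrank σ hσ ω hε
  have hsum : ω * ω + ω = -1 := by
    have h0 : (ω - 1) * (ω * ω + ω + 1) = 0 := by linear_combination hε
    rcases mul_eq_zero.mp h0 with h1 | h1
    · exact absurd (sub_eq_zero.mp h1) hω1
    · linear_combination h1
  rw [hsum] at h
  have h2 : ((3 * finrank ℂ (pmEig σ ω) + Nat.card {x : X // σ x = x} : ℕ) : ℂ)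
      = (Fintype.card X : ℂ) := by
    push_cast
    linear_combination h
  exact_mod_cast h2

/-- The three eigenspace dimensions add up to `|X|`. -/
theorem pm_three_finrank_add (σ : X → X) (hσ : ∀ x, σ (σ (σ x)) = x) (ω : ℂ) (hω : ω ^ 3 = 1)
    (hω1 : ω ≠ 1) :
    finrank ℂ (pmEig σ 1) + finrank ℂ (pmEig σ ω) + finrank ℂ (pmEig σ (ω ^ 2))
      = Fintype.card X := by
  have h1 := pm_three_finrank_one σ hσ
  have h2 := pm_three_finrank_prim σ hσ ω hω hω1
  have hω2 : (ω ^ 2) ^ 3 = 1 := by rw [← pow_mul]; rw [show 2 * 3 = 3 * 2 by norm_num, pow_mul, hω, one_pow]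
  have hω21 : ω ^ 2 ≠ 1 := by
    intro h
    apply hω1
    have : ω ^ 3 = ω := by rw [pow_succ, h, one_mul]
    rw [hω] at this
    exact this.symm
  have h3 := pm_three_finrank_prim σ hσ (ω ^ 2) hω2 hω21
  omega

end OrderThree

section Omega

open Complex

/-- `e^{2πi/3}` is a cube root of unity. -/
theorem pm_omega_pow_three : (cexp (2 * Real.pi * Complex.I / 3)) ^ 3 = 1 := by
  rw [← Complex.exp_nat_mul]
  have : ((3 : ℕ) : ℂ) * (2 * Real.pi * Complex.I / 3) = 2 * Real.pi * Complex.I := by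
    push_cast; ring
  rw [this, Complex.exp_two_pi_mul_I]

theorem pm_omega_ne_one : cexp (2 * Real.pi * Complex.I / 3) ≠ 1 := by
  intro h
  rw [Complex.exp_eq_one_iff] at h
  obtain ⟨n, hn⟩ := h
  have hpi : (2 * Real.pi * Complex.I : ℂ) ≠ 0 := by simp [Real.pi_ne_zero]
  have h1 : (1 / 3 : ℂ) = n := by
    have : 2 * Real.pi * Complex.I * (1 / 3 : ℂ) = 2 * Real.pi * Complex.I * n := by
      linear_combination hn
    exact mul_left_cancel₀ hpi this
  have h2 : (1 : ℂ) = ((3 * n : ℤ) : ℂ) := by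
    push_cast
    rw [← h1]
    norm_num
  have h3 : (1 : ℤ) = 3 * n := by exact_mod_cast h2
  omega

theorem pm_omega_sq_ne_one : (cexp (2 * Real.pi * Complex.I / 3)) ^ 2 ≠ 1 := by
  intro h
  apply pm_omega_ne_one
  have h3 := pm_omega_pow_three
  rw [pow_succ, h, one_mul] at h3
  exact h3

end Omega

section Independence

variable {X : Type*} {J : Type*}

theorem pm_iSupIndep (σ : X → X) : iSupIndep (fun e : ℂ => pmEig σ e) := by
  have h := Module.End.eigenspaces_iSupIndep (pmOp σ)
  have h2 : (fun e : ℂ => pmEig σ e) = Module.End.eigenspace (pmOp σ) := by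
    funext e
    exact pmEig_eq_eigenspace σ e
  rw [h2]
  exact h

/-- Vectors in eigenspaces of `v ↦ v ∘ σ` are linearly independent as soon as, for each
eigenvalue, the vectors belonging to that eigenvalue are. -/
theorem pm_linearIndependent_of_eig (σ : X → X) (ε : J → ℂ) (v : J → X → ℂ)
    (hv : ∀ j, v j ∈ pmEig σ (ε j))
    (hind : ∀ e : ℂ, LinearIndependent ℂ (fun j : {j // ε j = e} => v j)) :
    LinearIndependent ℂ v := by
  classical
  rw [linearIndependent_iff']
  intro s g hsum j hj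
  have hgroup : ∑ e ∈ s.image ε, (∑ i ∈ s.filter (fun i => ε i = e), g i • v i) = 0 := by
    rw [← hsum]
    exact Finset.sum_fiberwise_of_maps_to (fun x hx => Finset.mem_image_of_mem ε hx) _
  have hmem : ∀ e ∈ s.image ε,
      (∑ i ∈ s.filter (fun i => ε i = e), g i • v i) ∈ (fun e : ℂ => pmEig σ e) e := by
    intro e _
    refine Submodule.sum_mem _ (fun i hi => ?_)
    have hie : ε i = e := (Finset.mem_filter.mp hi).2
    exact Submodule.smul_mem _ _ (hie ▸ hv i)
  have hzero := (iSupIndep_iff_finsetSum_eq_zero_imp_eq_zero _).mp (pm_iSupIndep σ) (s.image ε) _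
    hmem hgroup (ε j) (Finset.mem_image_of_mem ε hj)
  have hj' := hind (ε j)
  rw [linearIndependent_iff'] at hj'
  have := hj' (s.subtype (fun i => ε i = ε j)) (fun i => g i)
    (by
      rw [← hzero]
      exact Finset.sum_subtype_eq_sum_filter (s := s) (p := fun i => ε i = ε j)
        (f := fun i => g i • v i))
    ⟨j, rfl⟩ (Finset.mem_subtype.mpr hj)
  exact this

/-- An independent family inside one eigenspace has at most `dim Eig(ε)` elements. -/
theorem pm_card_le_finrank [Finite X] {ι : Type*} [Fintype ι] (σ : X → X) (ε : ℂ)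
    (v : ι → X → ℂ) (hv : ∀ i, v i ∈ pmEig σ ε) (hli : LinearIndependent ℂ v) :
    Fintype.card ι ≤ finrank ℂ (pmEig σ ε) := by
  have : Fintype X := Fintype.ofFinite X
  have h : LinearIndependent ℂ (fun i => (⟨v i, hv i⟩ : pmEig σ ε)) := by
    apply LinearIndependent.of_comp (pmEig σ ε).subtype
    exact hli
  exact h.fintype_card_le_finrank

end Independence

section Orbits

variable {G : Type*} [Group G] {X : Type*} [MulAction G X]

theorem pm_invariant_zpow (g : G) {v : X → ℂ} (hv : ∀ x, v (g • x) = v x) (n : ℤ) (x : X) :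
    v (g ^ n • x) = v x := by
  have hinv : ∀ x, v (g⁻¹ • x) = v x := by
    intro x
    rw [← hv (g⁻¹ • x), smul_inv_smul]
  induction n using Int.induction_on generalizing x with
  | zero => simp
  | succ n ih =>
    rw [zpow_add_one, mul_smul, ih, hv]
  | pred n ih =>
    rw [zpow_sub_one, mul_smul, ih, hinv]

/-- The invariants of `v ↦ v ∘ (g • ·)` have dimension the number of orbits of `⟨g⟩`. -/
theorem pm_finrank_invariants [Finite X] (g : G) :
    finrank ℂ (pmEig (fun x : X => g • x) 1)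
      = Nat.card (MulAction.orbitRel.Quotient (Subgroup.zpowers g) X) := by
  classical
  set Q := MulAction.orbitRel.Quotient (Subgroup.zpowers g) X with hQ
  let π : X → Q := Quotient.mk''
  have hπ : Function.Surjective π := Quotient.mk''_surjective
  let f : (Q → ℂ) →ₗ[ℂ] (X → ℂ) := LinearMap.funLeft ℂ ℂ π
  have hf : Function.Injective f := LinearMap.funLeft_injective_of_surjective ℂ ℂ π hπ
  have hπg : ∀ x : X, π (g • x) = π x := by
    intro x
    apply Quotient.sound'
    change g • x ∈ MulAction.orbit (Subgroup.zpowers g) x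
    exact ⟨⟨g, Subgroup.mem_zpowers g⟩, rfl⟩
  have hrange : LinearMap.range f = pmEig (fun x : X => g • x) 1 := by
    ext v
    rw [LinearMap.mem_range, mem_pmEig]
    constructor
    · rintro ⟨w, rfl⟩ x
      change w (π (g • x)) = 1 * w (π x)
      rw [hπg, one_mul]
    · intro hv
      have hv' : ∀ x, v (g • x) = v x := fun x => by rw [hv x, one_mul]
      refine ⟨fun q => Quotient.liftOn' q v ?_, ?_⟩
      · intro a b hab
        change a ∈ MulAction.orbit (Subgroup.zpowers g) b at hab
        obtain ⟨⟨h, hh⟩, rfl⟩ := hab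
        obtain ⟨n, rfl⟩ := Subgroup.mem_zpowers_iff.mp hh
        exact pm_invariant_zpow g hv' n b
      · funext x
        rfl
  have : Finite Q := Quotient.finite _
  let _ : Fintype Q := Fintype.ofFinite Q
  rw [← hrange, LinearMap.finrank_range_of_inj hf, Module.finrank_fintype_fun_eq_card,
    Nat.card_eq_fintype_card]

end Orbits

/-! ### The operators `S`, `U = S T`, `T` on a good `SL(2, ℤ)`-set -/

section SL2Z

open scoped MatrixGroups

theorem pm_Smat_mul_self : Smat * Smat = -1 := by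
  ext i j
  fin_cases i <;> fin_cases j <;>
    simp [Smat, ModularGroup.S, Matrix.mul_apply, Fin.sum_univ_two]

theorem pm_Umat_cube : Umat * Umat * Umat = -1 := by
  ext i j
  fin_cases i <;> fin_cases j <;>
    simp [Umat, ModularGroup.S, ModularGroup.T, Matrix.mul_apply, Fin.sum_univ_two]

variable {X : Type} [MulAction SL(2, ℤ) X]

theorem pm_Smat_invol (hX : GoodX X) (x : X) : Smat • Smat • x = x := by
  rw [← mul_smul, pm_Smat_mul_self, hX.neg_one]

theorem pm_Umat_order (hX : GoodX X) (x : X) : Umat • Umat • Umat • x = x := by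
  have h : Umat • Umat • Umat • x = (Umat * Umat * Umat) • x := by
    simp only [mul_smul]
  rw [h, pm_Umat_cube, hX.neg_one]

variable [Fintype X]

/-- `2 * dim Eig(S, 1) = μ + ν₂`. -/
theorem pm_nu2_one (hX : GoodX X) :
    2 * finrank ℂ (pmEig (fun x : X => Smat • x) 1) = Fintype.card X + nu2 X :=
  pm_invol_finrank_one (fun x : X => Smat • x) (pm_Smat_invol hX)

/-- `2 * dim Eig(S, -1) + ν₂ = μ`. -/
theorem pm_nu2_neg_one (hX : GoodX X) :
    2 * finrank ℂ (pmEig (fun x : X => Smat • x) (-1)) + nu2 X = Fintype.card X :=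
  pm_invol_finrank_neg_one (fun x : X => Smat • x) (pm_Smat_invol hX)

/-- `3 * dim Eig(U, 1) = μ + 2 ν₃`. -/
theorem pm_nu3_one (hX : GoodX X) :
    3 * finrank ℂ (pmEig (fun x : X => Umat • x) 1) = Fintype.card X + 2 * nu3 X :=
  pm_three_finrank_one (fun x : X => Umat • x) (pm_Umat_order hX)

/-- `3 * dim Eig(U, ω) + ν₃ = μ` for a primitive cube root of unity `ω`. -/
theorem pm_nu3_prim (hX : GoodX X) (ω : ℂ) (hω : ω ^ 3 = 1) (hω1 : ω ≠ 1) :
    3 * finrank ℂ (pmEig (fun x : X => Umat • x) ω) + nu3 X = Fintype.card X :=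
  pm_three_finrank_prim (fun x : X => Umat • x) (pm_Umat_order hX) ω hω hω1

/-- `dim Eig(T, 1) = c`, the number of `T`-orbits. -/
theorem pm_cuspsX : finrank ℂ (pmEig (fun x : X => Tmat • x) 1) = cuspsX X :=
  pm_finrank_invariants Tmat

end SL2Z

end Fermat.Agent.S20x
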