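/-
S20 project: SPEC file = exact Lean statements of every module (all proofs are placeholders).
NEVER import this file from a file that is meant to be graded.  Module owners: copy your statement
verbatim (drop the `spec_` prefix) into your own file `Fermat/Agent/S20x/<Module>.lean`, namespace
`Fermat.Agent.S20x`, import `Fermat.Agent.S20x.Defs` (+ landed modules you need), prove it.
Blueprint: docs `S20_blueprint_helper83`.  Table: `s20_plan`.
-/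
import Fermat.Agent.S20x.Defs

set_option autoImplicit false

namespace Fermat.Agent.S20x

open UpperHalfPlane ModularForm EisensteinSeries Filter Complex Derivative
open scoped MatrixGroups ModularForm Manifold Topology

local notation "Δ" => ModularForm.discriminant

variable {X : Type} [MulAction SL(2, ℤ) X]

/-! ## M02 `L1Ring.lean` : the ring `R = ⨁ M_k(SL(2,ℤ)) = ℂ[E₄,E₆]` as plain functions -/

theorem spec_l1_E4 : IsL1 4 (⇑E₄) := ⟨E₄, rfl⟩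
theorem spec_l1_E6 : IsL1 6 (⇑E₆) := ⟨E₆, rfl⟩
theorem spec_l1_mul {k l : ℤ} {A B : ℍ → ℂ} (hA : IsL1 k A) (hB : IsL1 l B) :
    IsL1 (k + l) (fun z => A z * B z) := by sorry
theorem spec_l1_add {k : ℤ} {A B : ℍ → ℂ} (hA : IsL1 k A) (hB : IsL1 k B) :
    IsL1 k (fun z => A z + B z) := by sorry
theorem spec_l1_smul {k : ℤ} {A : ℍ → ℂ} (c : ℂ) (hA : IsL1 k A) : IsL1 k (fun z => c * A z) := by sorry
theorem spec_l1_zero (k : ℤ) : IsL1 k (0 : ℍ → ℂ) := by sorry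
theorem spec_l1_const (c : ℂ) : IsL1 0 (fun _ => c) := by sorry
theorem spec_l1_eq_zero_of_neg {k : ℤ} (hk : k < 0) {A : ℍ → ℂ} (hA : IsL1 k A) : A = 0 := by sorry
theorem spec_l1_eq_zero_of_odd {k : ℤ} (hk : Odd k) {A : ℍ → ℂ} (hA : IsL1 k A) : A = 0 := by sorry
theorem spec_l1_eq_zero_of_two {A : ℍ → ℂ} (hA : IsL1 2 A) : A = 0 := by sorry
theorem spec_l1_const_of_zero {A : ℍ → ℂ} (hA : IsL1 0 A) : ∃ c : ℂ, A = fun _ => c := by sorry
/-- a level one cusp form is `Δ` times a level one form (Mathlib `CuspForm.discriminantEquiv`). -/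
theorem spec_l1_cusp_eq_delta_mul {k : ℤ} {A : ℍ → ℂ} (hA : IsL1 k A) (h0 : IsZeroAtImInfty A) :
    ∃ B, IsL1 (k - 12) B ∧ ∀ z, A z = Δ z * B z := by sorry
/-- `R_{>0} = E₄ R + E₆ R`. -/
theorem spec_l1_decomp {m : ℤ} (hm : m ≠ 0) {A : ℍ → ℂ} (hA : IsL1 m A) :
    ∃ B C, IsL1 (m - 4) B ∧ IsL1 (m - 6) C ∧ ∀ z, A z = E₄ z * B z + E₆ z * C z := by sorry
/-- every level one form is an isobaric polynomial in `E₄, E₆`. -/
theorem spec_l1_monomial_span {m : ℤ} {A : ℍ → ℂ} (hA : IsL1 m A) :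
    ∃ c : ℕ × ℕ →₀ ℂ, (∀ p ∈ c.support, 4 * (p.1 : ℤ) + 6 * (p.2 : ℤ) = m) ∧
      ∀ z, A z = c.sum (fun p a => a * E₄ z ^ p.1 * E₆ z ^ p.2) := by sorry
/-- values at `i∞`. -/
theorem spec_E4_tendsto : Tendsto (⇑E₄) atImInfty (𝓝 1) := by sorry
theorem spec_E6_tendsto : Tendsto (⇑E₆) atImInfty (𝓝 1) := by sorry
theorem spec_l1_tendsto {k : ℤ} {A : ℍ → ℂ} (hA : IsL1 k A) : ∃ c : ℂ, Tendsto A atImInfty (𝓝 c) := by sorry

/-! ## M02b `Ramanujan.lean` : Serre derivatives of `E₄`, `E₆`; special values -/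

theorem spec_Umat_smul_rhoPt : Umat • rhoPt = rhoPt := by sorry
theorem spec_Smat_smul_I : Smat • UpperHalfPlane.I = UpperHalfPlane.I := by sorry
theorem spec_ramanujan_E4 : serreDerivative 4 (⇑E₄) = fun z => -(1 / 3 : ℂ) * E₆ z := by sorry
theorem spec_ramanujan_E6 : serreDerivative 6 (⇑E₆) = fun z => -(1 / 2 : ℂ) * E₄ z ^ 2 := by sorry
theorem spec_E6_I : E₆ UpperHalfPlane.I = 0 := by sorry
theorem spec_E4_rho : E₄ rhoPt = 0 := by sorry
theorem spec_E4_E6_not_both_zero (z : ℍ) : E₄ z ≠ 0 ∨ E₆ z ≠ 0 := by sorry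

/-! ## M02c `PrimeAt.lean` : the homogeneous prime of a point is principal, with a simple zero -/

theorem spec_isPrimeAt_I : IsPrimeAt 6 (⇑E₆) UpperHalfPlane.I := by sorry
theorem spec_isPrimeAt_rho : IsPrimeAt 4 (⇑E₄) rhoPt := by sorry
theorem spec_isPrimeAt_generic (z₀ : ℍ) (h4 : E₄ z₀ ≠ 0) (h6 : E₆ z₀ ≠ 0) :
    IsPrimeAt 12 (fun z => E₆ z₀ ^ 2 * E₄ z ^ 3 - E₄ z₀ ^ 3 * E₆ z ^ 2) z₀ := by sorry
/-- elements of `R` with value `1` at a point, in every admissible weight. -/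
theorem spec_l1_exists_one_generic (z₀ : ℍ) (h4 : E₄ z₀ ≠ 0) (h6 : E₆ z₀ ≠ 0) {m : ℤ} (hm : Even m)
    (hm' : m = 0 ∨ 4 ≤ m) : ∃ A, IsL1 m A ∧ A z₀ = 1 := by sorry
theorem spec_l1_exists_one_I {m : ℤ} (hm : 0 ≤ m) (h4 : (4 : ℤ) ∣ m) :
    ∃ A, IsL1 m A ∧ A UpperHalfPlane.I = 1 := by sorry
theorem spec_l1_exists_one_rho {m : ℤ} (hm : 0 ≤ m) (h6 : (6 : ℤ) ∣ m) :
    ∃ A, IsL1 m A ∧ A rhoPt = 1 := by sorry
theorem spec_l1_exists_one_infty {m : ℤ} (hm : Even m) (hm' : m = 0 ∨ 4 ≤ m) :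
    ∃ A, IsL1 m A ∧ Tendsto A atImInfty (𝓝 1) := by sorry
/-- a level one form vanishing at `I` in weight `≡ 2 mod 4` is automatic; weights `≢ 0 mod 4` vanish at `I`. -/
theorem spec_l1_I_eq_zero {m : ℤ} (h4 : ¬ (4 : ℤ) ∣ m) {A : ℍ → ℂ} (hA : IsL1 m A) :
    A UpperHalfPlane.I = 0 := by sorry
theorem spec_l1_rho_eq_zero {m : ℤ} (h6 : ¬ (6 : ℤ) ∣ m) {A : ℍ → ℂ} (hA : IsL1 m A) :
    A rhoPt = 0 := by sorry

/-! ## M03 `MonicHolo.lean` (pure analysis) -/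

theorem spec_mh_exists_div {n : ℕ} (f P : ℍ → ℂ) (c : Fin n → ℍ → ℂ) (hf : MDiff f) (hP : MDiff P)
    (hc : ∀ i, MDiff (c i)) (hP0 : ∃ z, P z ≠ 0)
    (heq : ∀ z, f z ^ n + ∑ i : Fin n, c i z * f z ^ (i : ℕ) * P z ^ (n - (i : ℕ)) = 0) :
    ∃ h : ℍ → ℂ, MDiff h ∧ ∀ z, f z = P z * h z := by sorry

/-! ## M04 `VVDiv.lean` : division lemma for vector valued forms -/

theorem spec_vv_div [Fintype X] {w : ℤ} {P : ℍ → ℂ} {z₀ : ℍ} (hP : IsPrimeAt w P z₀) {k : ℤ}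
    {F : ℍ → X → ℂ} (hF : IsVV X k F) (h0 : ∀ x, F z₀ x = 0) :
    ∃ F', IsVV X (k - w) F' ∧ ∀ z x, F z x = P z * F' z x := by sorry
theorem spec_vv_div_delta {k : ℤ} {F : ℍ → X → ℂ} (hF : IsVV X k F)
    (h0 : ∀ x, IsBoundedAtImInfty (fun z => F z x / Δ z)) :
    ∃ F', IsVV X (k - 12) F' ∧ ∀ z x, F z x = Δ z * F' z x := by sorry

/-! ## M05 `Regular.lean` + `FreeBasis.lean` -/

theorem spec_vv_regular {k : ℤ} {G H : ℍ → X → ℂ} (hG : IsVV X k G) (hH : IsVV X (k + 2) H)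
    (h : ∀ z x, E₆ z * G z x = E₄ z * H z x) :
    ∃ Y, IsVV X (k - 4) Y ∧ (∀ z x, G z x = E₄ z * Y z x) ∧ (∀ z x, H z x = E₆ z * Y z x) := by sorry
theorem spec_vv_eq_zero_of_neg (hX : GoodX X) {k : ℤ} (hk : k < 0) {F : ℍ → X → ℂ}
    (hF : IsVV X k F) : F = 0 := by sorry
theorem spec_vv_eq_zero_of_odd (hX : GoodX X) {k : ℤ} (hk : Odd k) {F : ℍ → X → ℂ}
    (hF : IsVV X k F) : F = 0 := by sorry
theorem spec_vv_const_of_zero (hX : GoodX X) {F : ℍ → X → ℂ} (hF : IsVV X 0 F) :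
    ∃ c : ℂ, F = fun _ _ => c := by sorry
theorem spec_vvcusp_eq_zero_of_nonpos (hX : GoodX X) {k : ℤ} (hk : k ≤ 0) {F : ℍ → X → ℂ}
    (hF : IsVVCusp X k F) : F = 0 := by sorry

theorem spec_exists_isFreeBasis (hX : GoodX X) :
    ∃ (J : Type) (wt : J → ℤ) (B : J → ℍ → X → ℂ), IsFreeBasis X J wt B := by sorry

/-! ## M06 `LocalIndep.lean` : evaluating a free basis at `I`, `ρ`, generic points -/

theorem spec_ev_I_eig {k : ℤ} (hk : Even k) {F : ℍ → X → ℂ} (hF : IsVV X k F) (x : X) :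
    F UpperHalfPlane.I (Smat • x) = (-1 : ℂ) ^ (k / 2) * F UpperHalfPlane.I x := by sorry
/-- `ω = e^{2πi/3}`; the sign convention of the exponent is up to the prover (only the dimension
count matters); any statement of this shape is fine. -/
theorem spec_ev_rho_eig {k : ℤ} (hk : Even k) {F : ℍ → X → ℂ} (hF : IsVV X k F) (x : X) :
    F rhoPt (Umat • x) = (cexp (2 * Real.pi * Complex.I / 3)) ^ (k / 2) * F rhoPt x := by sorry
theorem spec_indep_at_I [Fintype X] {J : Type} {wt : J → ℤ} {B : J → ℍ → X → ℂ}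
    (hB : IsFreeBasis X J wt B) (r : ℤ) (s : Finset J) (hs : ∀ j ∈ s, (4 : ℤ) ∣ wt j - r) :
    LinearIndependent ℂ (fun j : s => B j UpperHalfPlane.I) := by sorry
theorem spec_indep_at_rho [Fintype X] {J : Type} {wt : J → ℤ} {B : J → ℍ → X → ℂ}
    (hB : IsFreeBasis X J wt B) (r : ℤ) (s : Finset J) (hs : ∀ j ∈ s, (6 : ℤ) ∣ wt j - r) :
    LinearIndependent ℂ (fun j : s => B j rhoPt) := by sorry
theorem spec_indep_at_generic [Fintype X] (hX : GoodX X) {J : Type} {wt : J → ℤ}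
    {B : J → ℍ → X → ℂ} (hB : IsFreeBasis X J wt B) (z₀ : ℍ) (h4 : E₄ z₀ ≠ 0) (h6 : E₆ z₀ ≠ 0)
    (s : Finset J) : LinearIndependent ℂ (fun j : s => B j z₀) := by sorry

/-! ## M07 `PermEig.lean` (helper90) : see message; pure linear algebra -/

/-! ## M11 `RankLower.lean` : any generating family has at least `μ` elements (Vandermonde) -/
theorem spec_card_le_of_gen [Fintype X] (hX : GoodX X) {J : Type} [Fintype J] {wt : J → ℤ}
    {B : J → ℍ → X → ℂ}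
    (gen : ∀ (k : ℤ) (F : ℍ → X → ℂ), IsVV X k F → ∃ A : J → ℍ → ℂ,
      ∀ z x, F z x = ∑ j, A j z * B j z x) : Fintype.card X ≤ Fintype.card J := by sorry

/-! ## M06b `FinBasis.lean` : finiteness, `|J| = μ`, and the congruence counts -/
theorem spec_exists_isFinBasis [Fintype X] (hX : GoodX X) :
    ∃ (J : Type) (_ : Fintype J) (wt : J → ℤ) (B : J → ℍ → X → ℂ),
      IsFinBasis X J wt B ∧ Fintype.card J = Fintype.card X := by sorry
theorem spec_count_mod4 [Fintype X] (hX : GoodX X) {J : Type} [Fintype J] {wt : J → ℤ}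
    {B : J → ℍ → X → ℂ} (hB : IsFinBasis X J wt B) (hcard : Fintype.card J = Fintype.card X) :
    2 * Nat.card {j : J // (4 : ℤ) ∣ wt j} = Fintype.card X + nu2 X := by sorry
theorem spec_count_mod6 [Fintype X] (hX : GoodX X) {J : Type} [Fintype J] {wt : J → ℤ}
    {B : J → ℍ → X → ℂ} (hB : IsFinBasis X J wt B) (hcard : Fintype.card J = Fintype.card X) :
    3 * Nat.card {j : J // (6 : ℤ) ∣ wt j} = Fintype.card X + 2 * nu3 X ∧
    3 * Nat.card {j : J // (6 : ℤ) ∣ wt j - 2} + nu3 X = Fintype.card X := by sorry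

/-! ## M08 `LeadInfty.lean` : discrete Fourier transform along `T`-orbits, lead coefficients -/

theorem spec_exists_leadData [Fintype X] [DecidableEq X] (hX : GoodX X) :
    ∃ (U : Matrix X X ℂ) (lam : X → ℝ), U.det ≠ 0 ∧ (∀ x, 0 ≤ lam x ∧ lam x < 1) ∧
      (2 * ∑ x, lam x = (Fintype.card X : ℝ) - cuspsX X) ∧
      ∀ (k : ℤ) (F : ℍ → X → ℂ), IsVV X k F →
        ∃ L : X → ℂ, (∀ x, Tendsto (fun z => twist U lam F z x) atImInfty (𝓝 (L x))) ∧
          ((∀ x, L x = 0) → ∀ x, IsBoundedAtImInfty (fun z => F z x / Δ z)) := by sorry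

/-! ## M09 `Det.lean` : `Φ(z)` is invertible for every `z`, and `Σ k_j = 6 (μ - c)` -/
theorem spec_basis_indep_everywhere [Fintype X] (hX : GoodX X) {J : Type} [Fintype J]
    {wt : J → ℤ} {B : J → ℍ → X → ℂ} (hB : IsFinBasis X J wt B)
    (hcard : Fintype.card J = Fintype.card X) (z : ℍ) :
    LinearIndependent ℂ (fun j : J => B j z) := by sorry
theorem spec_sum_wt [Fintype X] (hX : GoodX X) {J : Type} [Fintype J] {wt : J → ℤ}
    {B : J → ℍ → X → ℂ} (hB : IsFinBasis X J wt B) (hcard : Fintype.card J = Fintype.card X) :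
    ∑ j, wt j = 6 * ((Fintype.card X : ℤ) - cuspsX X) := by sorry

/-! ## M10 `Duality.lean` : cusp forms are free on `Δ · (Φᵀ)⁻¹`, weights `12 - k_j` -/
theorem spec_wt_le_ten [Fintype X] (hX : GoodX X) {J : Type} [Fintype J] {wt : J → ℤ}
    {B : J → ℍ → X → ℂ} (hB : IsFinBasis X J wt B) (hcard : Fintype.card J = Fintype.card X)
    (j : J) : wt j ≤ 10 := by sorry
theorem spec_finrank_Sk_two_eq [Fintype X] (hX : GoodX X) {J : Type} [Fintype J] {wt : J → ℤ}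
    {B : J → ℍ → X → ℂ} (hB : IsFinBasis X J wt B) (hcard : Fintype.card J = Fintype.card X) :
    Module.finrank ℂ (Sk X 2) = Nat.card {j : J // wt j = 10} := by sorry

/-! ## M12 `Count.lean` : the abstract dimension formula -/
theorem spec_wt_nonneg_even [Fintype X] (hX : GoodX X) {J : Type} [Fintype J] {wt : J → ℤ}
    {B : J → ℍ → X → ℂ} (hB : IsFinBasis X J wt B) (j : J) : 0 ≤ wt j ∧ Even (wt j) := by sorry
theorem spec_card_wt_zero [Fintype X] (hX : GoodX X) {J : Type} [Fintype J] {wt : J → ℤ}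
    {B : J → ℍ → X → ℂ} (hB : IsFinBasis X J wt B) : Nat.card {j : J // wt j = 0} = 1 := by sorry
/-- pure arithmetic (Step 7). -/
theorem spec_solve_counts (μ ν₂ ν₃ c n0 n2 n4 n6 n8 n10 : ℚ) (h0 : n0 = 1)
    (hsum : n0 + n2 + n4 + n6 + n8 + n10 = μ)
    (hwt : 2 * n2 + 4 * n4 + 6 * n6 + 8 * n8 + 10 * n10 = 6 * (μ - c))
    (h4 : 2 * (n0 + n4 + n8) = μ + ν₂) (h6 : 3 * (n0 + n6) = μ + 2 * ν₃)
    (h6' : 3 * (n2 + n8) + ν₃ = μ) :
    n10 = 1 + μ / 12 - ν₂ / 4 - ν₃ / 3 - c / 2 := by sorry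
theorem spec_finrank_Sk_two (hX : GoodX X) : (Module.finrank ℂ (Sk X 2) : ℚ) = genusX X := by sorry

/-! ## M13 `Bridge.lean` : `X = SL(2,ℤ) ⧸ Γ₀(N)` -/
open CongruenceSubgroup in
theorem spec_goodX_Gamma0 (N : ℕ) [NeZero N] : GoodX (SL(2, ℤ) ⧸ Gamma0 N) := by sorry
open CongruenceSubgroup in
theorem spec_bridge (N : ℕ) [NeZero N] (k : ℤ) :
    Nonempty (CuspForm (Gamma0 N) k ≃ₗ[ℂ] Sk (SL(2, ℤ) ⧸ Gamma0 N) k) := by sorry

/-! ## M14-M17 counting on `SL(2,ℤ) ⧸ Γ₀(N) ≃ ℙ¹(ℤ/N)` -/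
open CongruenceSubgroup in
theorem spec_card_X_Gamma0 (N : ℕ) [NeZero N] :
    Nat.card (SL(2, ℤ) ⧸ Gamma0 N) = ModularCurve.dedekindPsi N := by sorry
open CongruenceSubgroup in
theorem spec_nu2_Gamma0 (N : ℕ) [NeZero N] :
    nu2 (SL(2, ℤ) ⧸ Gamma0 N) = ModularCurve.nuTwo N := by sorry
open CongruenceSubgroup in
theorem spec_nu3_Gamma0 (N : ℕ) [NeZero N] :
    nu3 (SL(2, ℤ) ⧸ Gamma0 N) = ModularCurve.nuThree N := by sorry
open CongruenceSubgroup in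
theorem spec_cuspsX_Gamma0 (N : ℕ) [NeZero N] :
    cuspsX (SL(2, ℤ) ⧸ Gamma0 N) = ModularCurve.cuspCount N := by sorry

end Fermat.Agent.S20x
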